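import Fermat.Agent.Lower.Lift.Defs
import Fermat.Agent.Lower.Galois
import Fermat.Agent.Density.Main
import Fermat.Agent.GalCommon.Carayol
import Fermat.Agent.ResidualSetup.Residual
import Fermat.Agent.MazurP.Residual
import Fermat.Agent.Reps.Eigenform
import Fermat.Agent.Reps.Existence

/-!
# Eigensystems and the mod `p` representation of a semistable curve

Traces at almost all Frobenius elements determine an absolutely irreducible representation
(`charpoly_eq_of_frobenius`, `isEquiv_of_charpoly_eq`), hence congruences outside a finite set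
give residual modularity (`isResiduallyModularOfLevel_of_congr`). The file proves the passage
`hasSystem_of_isResiduallyModularOfLevel`, `isResiduallyModularOfLevel_of_hasSystem` between
residual modularity and `HasSystem`, and that the residually ramified primes divide the level
(`minPrimes_subset_primeFactors`).
-/

set_option autoImplicit false
set_option linter.style.haveILetI false
set_option linter.unusedSectionVars false

noncomputable section

namespace FLTAgent.Lower.Lift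

open FLTAgent.MazurP (TorsSpace modRep modTr modDet)
open FLTAgent.ResidualSetup (IsModRep)
open FLTAgent.Lower

local notation "ℚ̄" => AlgebraicClosure ℚ
local notation "Γℚ" => (AlgebraicClosure ℚ ≃ₐ[ℚ] AlgebraicClosure ℚ)

section Residual

variable {k : Type} [Field k]

/-- Equal characteristic polynomials at almost all Frobenius elements are equal everywhere. -/
theorem charpoly_eq_of_frobenius (ρ₁ ρ₂ : ResidualGaloisRep k) (S : Finset ℕ)
    (h : ∀ ℓ : ℕ, ℓ.Prime → ℓ ∉ S → ∀ A : ValuationSubring ℚ̄, A.LiesOverPrime ℓ →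
      ∀ φ : Γℚ, A.IsFrobeniusAt φ ℓ →
        LinearMap.charpoly (ρ₁.ρ φ) = LinearMap.charpoly (ρ₂.ρ φ)) (g : Γℚ) :
    LinearMap.charpoly (ρ₁.ρ g) = LinearMap.charpoly (ρ₂.ρ g) := by
  obtain ⟨L₁, hL₁, h₁⟩ := ρ₁.factorsThroughFiniteLevel
  obtain ⟨L₂, hL₂, h₂⟩ := ρ₂.factorsThroughFiniteLevel
  refine Density.forall_of_forall_isFrobeniusAt
    (P := fun g => LinearMap.charpoly (ρ₁.ρ g) = LinearMap.charpoly (ρ₂.ρ g))
    (L₁.fixingSubgroup ⊓ L₂.fixingSubgroup)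
    (L₁.fixingSubgroup_isOpen.inter L₂.fixingSubgroup_isOpen) S ?_ ?_ h g
  · intro g u hu hg
    rw [map_mul, map_mul, h₁ u ((IntermediateField.mem_fixingSubgroup_iff L₁ u).1 hu.1),
      h₂ u ((IntermediateField.mem_fixingSubgroup_iff L₂ u).1 hu.2), mul_one, mul_one]
    exact hg
  · intro g n hg
    rw [Reps.charpoly_of_finrank_eq_two ρ₂.finrank_eq (ρ₂.ρ g)] at hg
    obtain ⟨ht, hd⟩ := Reps.trace_det_of_charpoly_eq ρ₁.finrank_eq hg
    rw [Reps.charpoly_of_finrank_eq_two ρ₁.finrank_eq, Reps.charpoly_of_finrank_eq_two ρ₂.finrank_eq,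
      map_pow ρ₁.ρ, map_pow ρ₂.ρ, Reps.trace_pow_eq_luc ρ₁.finrank_eq,
      Reps.trace_pow_eq_luc ρ₂.finrank_eq]
    simp only [map_pow, ht, hd]

/-- An absolutely irreducible representation is determined by its characteristic polynomials. -/
theorem isEquiv_of_charpoly_eq (ρ₁ ρ₂ : ResidualGaloisRep k) (h₁ : ρ₁.IsAbsolutelyIrreducible)
    (h : ∀ g, LinearMap.charpoly (ρ₁.ρ g) = LinearMap.charpoly (ρ₂.ρ g)) : ρ₁.IsEquiv ρ₂ := by
  have htr : ∀ g, LinearMap.trace k ρ₁.V (ρ₁.ρ g) = LinearMap.trace k ρ₂.V (ρ₂.ρ g) := fun g =>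
    (Reps.trace_det_of_charpoly_eq ρ₁.finrank_eq
      ((h g).trans (Reps.charpoly_of_finrank_eq_two ρ₂.finrank_eq (ρ₂.ρ g)))).1
  have hs₁ := GalCommon.span_range_eq_top_residual ρ₁ h₁
  obtain ⟨f, hf, hfspan, hli⟩ :=
    Submodule.exists_fun_fin_finrank_span_eq k (Set.range ρ₁.ρ)
  choose γ hγ using hf
  have hli₂ : LinearIndependent k fun i => ρ₂.ρ (γ i) := by
    rw [Fintype.linearIndependent_iff] at hli ⊢
    intro c hc
    refine hli c (GalCommon.eq_zero_of_forall_trace_mul_of_span hs₁ fun g => ?_)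
    have h0 : LinearMap.trace k ρ₂.V (ρ₂.ρ g * ∑ i, c i • ρ₂.ρ (γ i)) = 0 := by
      rw [hc, mul_zero, map_zero]
    simp only [← hγ, Finset.mul_sum, mul_smul_comm, map_sum, map_smul, ← map_mul, htr] at h0 ⊢
    exact h0
  have hs₂ : Submodule.span k (Set.range ρ₂.ρ) = ⊤ := by
    refine eq_top_iff.2 ((?_ : ⊤ ≤ Submodule.span k (Set.range fun i => ρ₂.ρ (γ i))).trans
      (Submodule.span_mono (by rintro _ ⟨i, rfl⟩; exact ⟨_, rfl⟩)))
    refine (Submodule.eq_top_of_finrank_eq ?_).ge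
    rw [finrank_span_eq_card hli₂, Fintype.card_fin, hs₁, finrank_top, Module.finrank_linearMap,
      Module.finrank_linearMap, ρ₁.finrank_eq, ρ₂.finrank_eq]
  haveI : Nontrivial ρ₁.V := Module.nontrivial_of_finrank_eq_succ ρ₁.finrank_eq
  obtain ⟨Θ, -, hΘ⟩ := GalCommon.exists_algHom_of_trace_eq hs₁ hs₂ htr
  obtain ⟨e, he⟩ :=
    GalCommon.exists_linearEquiv_of_algHom (ρ₁.finrank_eq.trans ρ₂.finrank_eq.symm) Θ
  exact ⟨⟨e, fun σ x => by rw [he, hΘ]⟩⟩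

end Residual

variable {W : WeierstrassCurve ℤ} {p : ℕ} [Fact p.Prime] {k : Type} [Field k]

/-- A prime outside `insert p (bad primes)` is good and different from `p`. -/
theorem good_of_notMem (hΔ : W.Δ ≠ 0) {ℓ : ℕ} (hℓ : ℓ.Prime) {S : Finset ℕ}
    (hS : ℓ ∉ S ∪ insert p W.Δ.natAbs.primeFactors) :
    ℓ ∉ S ∧ ℓ ≠ p ∧ W.IsGoodPrimeFor ℓ := by
  simp only [Finset.mem_union, Finset.mem_insert, Nat.mem_primeFactors, not_or] at hS
  exact ⟨hS.1, hS.2.1, fun h =>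
    hS.2.2 ⟨hℓ, Int.natCast_dvd.1 h, Int.natAbs_ne_zero.2 hΔ⟩⟩

/-- A representation with the traces of the curve at almost all Frobenius elements is the mod `p`
representation of the curve. -/
theorem isModRep_of_frobenius (hΔ : W.Δ ≠ 0) (hp2 : p ≠ 2) (hirr : W.ModRepIsIrreducible p)
    (i : ZMod p →+* k) {ρbar : ResidualGaloisRep k}
    (hdet : (GaloisRepAdic.ofResidualGaloisRep ρbar).DetIsCyclotomic p) (S : Finset ℕ)
    (htr : ∀ l : ℕ, l.Prime → l ∉ S → W.IsGoodPrimeFor l → l ≠ p →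
      ∀ (A : ValuationSubring ℚ̄) (φ : Γℚ), A.LiesOverPrime l → A.IsFrobeniusAt φ l →
        LinearMap.trace k ρbar.V (ρbar.ρ φ) = (W.apOfModel l : k)) :
    IsModRep W p i ρbar := by
  obtain ⟨ρ', h'⟩ := ResidualSetup.exists_isModRep hΔ i
  refine h'.of_equiv (isEquiv_of_charpoly_eq ρ' ρbar
    (h'.isAbsolutelyIrreducible hΔ hp2 hirr) fun g => ?_)
  refine charpoly_eq_of_frobenius ρ' ρbar (S ∪ insert p W.Δ.natAbs.primeFactors)
    (fun ℓ hℓ hℓS A hA φ hφ => ?_) g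
  obtain ⟨hS, hℓp, hgood⟩ := good_of_notMem hΔ hℓ hℓS
  rw [h'.charpoly hΔ, Reps.charpoly_of_finrank_eq_two ρbar.finrank_eq,
    MazurP.modTr_frobenius hΔ hp2 hℓ hgood hℓp hA hφ, MazurP.modDet_frobenius hΔ hℓ hℓp hA hφ,
    htr ℓ hℓ hS hgood hℓp A φ hA hφ, map_intCast, map_natCast,
    show LinearMap.det (ρbar.ρ φ) = (ℓ : k) from
      det_frobenius (ρ := GaloisRepAdic.ofResidualGaloisRep ρbar) Fact.out hℓ hℓp hA hdet hφ]

/-- The trace of the mod `p` representation. -/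
theorem trace_eq_modTr (hΔ : W.Δ ≠ 0) {i : ZMod p →+* k} {ρbar : ResidualGaloisRep k}
    (hmr : IsModRep W p i ρbar) (g : Γℚ) :
    LinearMap.trace k ρbar.V (ρbar.ρ g) = i (modTr W p g) :=
  (Reps.trace_det_of_charpoly_eq ρbar.finrank_eq (hmr.charpoly hΔ g)).1

variable {N : ℕ} [NeZero N]

/-- The representation of an eigenform with the traces of the curve outside a finite set. -/
theorem exists_rep_of_congr (hΔ : W.Δ ≠ 0) (hp2 : p ≠ 2) (hirr : W.ModRepIsIrreducible p)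
    {g : CuspForm (CongruenceSubgroup.Gamma0 N) 2} (hg : g.IsNormalizedEigenform)
    {𝔪 : Ideal (integralClosure ℤ ℂ)} (h𝔪 : 𝔪.IsMaximal)
    (hp𝔪 : (p : integralClosure ℤ ℂ) ∈ 𝔪) (S : Finset ℕ)
    (hcong : ∀ l : ℕ, l.Prime → l ∉ S → W.IsGoodPrimeFor l → ¬ l ∣ N → l ≠ p →
      ∃ a : integralClosure ℤ ℂ, (a : ℂ) = ModularFormClass.qCoeff g l ∧
        a - ((W.apOfModel l : ℤ) : integralClosure ℤ ℂ) ∈ 𝔪) :
    ∃ (k₀ : Type) (_ : Field k₀) (φ : integralClosure ℤ ℂ →+* k₀) (i₀ : ZMod p →+* k₀)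
      (ρ : ResidualGaloisRep k₀), (∀ x, φ x = 0 ↔ x ∈ 𝔪) ∧ IsModRep W p i₀ ρ ∧
        ρ.IsAttachedTo g φ ∧ ∀ l : ℕ, l.Prime → ¬ l ∣ N * p → ρ.IsUnramifiedAt l := by
  letI := Ideal.Quotient.field 𝔪
  let k₀ := integralClosure ℤ ℂ ⧸ 𝔪
  haveI : CharP k₀ p := (CharP.charP_iff_prime_eq_zero Fact.out).2 (by
    rw [← map_natCast (Ideal.Quotient.mk 𝔪), Ideal.Quotient.eq_zero_iff_mem]
    exact hp𝔪)
  obtain ⟨G⟩ := Reps.nonempty_galModel N p
  obtain ⟨ρ, hatt, hunr⟩ := Reps.exists_residual_of_eigenform G hg (Ideal.Quotient.mk 𝔪)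
  obtain ⟨ρ', h'⟩ := ResidualSetup.exists_isModRep hΔ (ZMod.castHom (dvd_refl p) k₀)
  refine ⟨k₀, inferInstance, Ideal.Quotient.mk 𝔪, _, ρ, fun x => Ideal.Quotient.eq_zero_iff_mem,
    h'.of_equiv (isEquiv_of_charpoly_eq ρ' ρ (h'.isAbsolutelyIrreducible hΔ hp2 hirr) fun γ => ?_),
    hatt, hunr⟩
  refine charpoly_eq_of_frobenius ρ' ρ (S ∪ N.primeFactors ∪ insert p W.Δ.natAbs.primeFactors)
    (fun ℓ hℓ hℓS A hA φ hφ => ?_) γ
  obtain ⟨hS, hℓp, hgood⟩ := good_of_notMem hΔ hℓ hℓS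
  simp only [Finset.mem_union, not_or] at hS
  have hℓN : ¬ ℓ ∣ N := fun h => hS.2 (Nat.mem_primeFactors.2 ⟨hℓ, h, NeZero.ne N⟩)
  obtain ⟨a, ha, hρ⟩ := hatt ℓ hℓ hℓN
    (fun h0 => hℓp ((Nat.prime_dvd_prime_iff_eq Fact.out hℓ).1
      ((CharP.cast_eq_zero_iff k₀ p ℓ).1 h0)).symm) A hA φ hφ
  obtain ⟨a', ha', hmem⟩ := hcong ℓ hℓ hS.1 hgood hℓN hℓp
  obtain rfl : a = a' := Subtype.ext (ha.trans ha'.symm)
  rw [h'.charpoly hΔ, hρ, MazurP.modTr_frobenius hΔ hp2 hℓ hgood hℓp hA hφ,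
    MazurP.modDet_frobenius hΔ hℓ hℓp hA hφ, map_intCast, map_natCast,
    ← map_intCast (Ideal.Quotient.mk 𝔪), (Ideal.Quotient.mk_eq_mk_iff_sub_mem _ _).2 hmem]

/-- Congruences outside a finite set give residual modularity. -/
theorem isResiduallyModularOfLevel_of_congr (hΔ : W.Δ ≠ 0) (hp2 : p ≠ 2)
    (hirr : W.ModRepIsIrreducible p)
    {g : CuspForm (CongruenceSubgroup.Gamma0 N) 2} (hg : g.IsNormalizedEigenform)
    {𝔪 : Ideal (integralClosure ℤ ℂ)} (h𝔪 : 𝔪.IsMaximal)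
    (hp𝔪 : (p : integralClosure ℤ ℂ) ∈ 𝔪) (S : Finset ℕ)
    (hcong : ∀ l : ℕ, l.Prime → l ∉ S → W.IsGoodPrimeFor l → ¬ l ∣ N → l ≠ p →
      ∃ a : integralClosure ℤ ℂ, (a : ℂ) = ModularFormClass.qCoeff g l ∧
        a - ((W.apOfModel l : ℤ) : integralClosure ℤ ℂ) ∈ 𝔪) :
    W.IsResiduallyModularOfLevel p N := by
  obtain ⟨k₀, _, φ, i₀, ρ, hφ, hmr, hatt, -⟩ :=
    exists_rep_of_congr hΔ hp2 hirr hg h𝔪 hp𝔪 S hcong
  refine ⟨g, 𝔪, hg, h𝔪, hp𝔪, fun ℓ hℓ hgood hℓN hℓp => ?_⟩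
  haveI : CharP k₀ p := charP_of_injective_ringHom (RingHom.injective i₀) p
  obtain ⟨A, hA, τ, hτ⟩ := GalCommon.exists_place_frobenius hℓ
  obtain ⟨a, ha, hρ⟩ := hatt ℓ hℓ hℓN
    (fun h0 => hℓp ((Nat.prime_dvd_prime_iff_eq Fact.out hℓ).1
      ((CharP.cast_eq_zero_iff k₀ p ℓ).1 h0)).symm) A hA τ hτ
  refine ⟨a, ha, (hφ _).1 ?_⟩
  rw [map_sub, map_intCast, sub_eq_zero, ← (Reps.trace_det_of_charpoly_eq ρ.finrank_eq hρ).1,
    trace_eq_modTr hΔ hmr, MazurP.modTr_frobenius hΔ hp2 hℓ hgood hℓp hA hτ, map_intCast]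

/-- The residually ramified primes divide the level. -/
theorem minPrimes_subset_primeFactors (hΔ : W.Δ ≠ 0) (hp2 : p ≠ 2)
    (hirr : W.ModRepIsIrreducible p) {i : ZMod p →+* k} {ρbar : ResidualGaloisRep k}
    (hmr : IsModRep W p i ρbar) (hres : Residual p (minPrimes W p) ρbar)
    (hmod : W.IsResiduallyModularOfLevel p N) : minPrimes W p ⊆ N.primeFactors := by
  intro l hl
  obtain ⟨hlp', hlp⟩ := hres.min_prime l hl
  refine Nat.mem_primeFactors.2 ⟨hlp', ?_, NeZero.ne N⟩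
  by_contra hlN
  obtain ⟨g, 𝔪, hg, h𝔪, hp𝔪, hcong⟩ := hmod
  obtain ⟨k₀, _, φ, i₀, ρ, -, hmr₀, -, hunr⟩ := exists_rep_of_congr hΔ hp2 hirr hg h𝔪 hp𝔪 ∅
    fun l hl _ => hcong l hl
  refine hres.ramified l hl fun A hA σ hσ => (hmr.eq_one_iff hΔ σ).2 ?_
  refine (hmr₀.eq_one_iff hΔ σ).1 (hunr l hlp' (fun h => ?_) A hA σ hσ)
  rcases (Nat.Prime.dvd_mul hlp').1 h with h | h
  · exact hlN h
  · exact hlp ((Nat.prime_dvd_prime_iff_eq hlp' Fact.out).1 h)

/-- Residual modularity gives a system. -/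
theorem hasSystem_of_isResiduallyModularOfLevel (hΔ : W.Δ ≠ 0) (hp2 : p ≠ 2)
    (hirr : W.ModRepIsIrreducible p) {i : ZMod p →+* k} {ρbar : ResidualGaloisRep k}
    (hmr : IsModRep W p i ρbar) (hmod : W.IsResiduallyModularOfLevel p N) :
    HasSystem p N ρbar := by
  obtain ⟨g, 𝔪, hg, h𝔪, hp𝔪, hcong⟩ := hmod
  obtain ⟨k₀, _, φ, i₀, ρ, -, hmr₀, hatt, -⟩ := exists_rep_of_congr hΔ hp2 hirr hg h𝔪 hp𝔪 ∅
    fun l hl _ => hcong l hl
  haveI : CharP k₀ p := charP_of_injective_ringHom (RingHom.injective i₀) p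
  let H := CuspForm.heckeAlgebra N 2 (↑(levelPrimes p N) : Set ℕ)
  let incl : H →+* Reps.TZ N :=
    (Subalgebra.inclusion (CuspForm.heckeAlgebra_mono (Set.empty_subset _))).toRingHom
  haveI : Module.Finite ℤ (Reps.TZ N) := IntStr.moduleFinite_heckeAlgebra_two N
  let lam : H →+* integralClosure ℤ ℂ :=
    ((Reps.eigenHom hg).comp incl).codRestrict (integralClosure ℤ ℂ) fun t =>
      (Algebra.IsIntegral.isIntegral (R := ℤ) (incl t)).map (Reps.eigenHom hg).toIntAlgHom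
  let θ₀ : H →+* k₀ := φ.comp lam
  have hval : ∀ (l : ℕ) (hl : l.Prime) (hlN : ¬ l ∣ N)
      (hlS : l ∉ (↑(levelPrimes p N) : Set ℕ)) (A : ValuationSubring ℚ̄) (τ : Γℚ),
      A.LiesOverPrime l → A.IsFrobeniusAt τ l →
      θ₀ (CuspForm.heckeAlgebra.T hl hlN hlS) = i₀ (modTr W p τ) := by
    intro l hl hlN hlS A τ hA hτ
    have hlp : l ≠ p := fun h => hlS (Finset.mem_coe.2 (by simp [levelPrimes, h]))
    obtain ⟨a, ha, hρ⟩ := hatt l hl hlN
      (fun h0 => hlp ((Nat.prime_dvd_prime_iff_eq Fact.out hl).1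
        ((CharP.cast_eq_zero_iff k₀ p l).1 h0)).symm) A hA τ hτ
    rw [← trace_eq_modTr hΔ hmr₀, (Reps.trace_det_of_charpoly_eq ρ.finrank_eq hρ).1]
    refine congrArg φ (Subtype.ext ?_)
    rw [ha]
    exact Reps.eigenHom_T hg hl hlN
  have hrange : ∀ t : H, θ₀ t ∈ i₀.range := by
    rintro ⟨t, ht⟩
    induction ht using Algebra.adjoin_induction with
    | mem x hx =>
      rcases hx with ⟨l, hl, hlN, hlS, rfl⟩ | ⟨q, hqN, hq, hqS, rfl⟩
      · obtain ⟨A, hA, τ, hτ⟩ := GalCommon.exists_place_frobenius hl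
        exact ⟨_, (hval l hl hlN hlS A τ hA hτ).symm⟩
      · exact absurd (Finset.mem_coe.2 (Finset.mem_insert_of_mem
          (Nat.mem_primeFactors.2 ⟨hq, hqN, NeZero.ne N⟩))) hqS
    | algebraMap r =>
      rw [show (⟨_, Subalgebra.algebraMap_mem _ r⟩ : H) = ((r : ℤ) : H) from
        Subtype.ext (by simp [eq_intCast]), map_intCast]
      exact intCast_mem _ r
    | add x y hx hy ihx ihy =>
      rw [show (⟨x + y, add_mem hx hy⟩ : H) = ⟨x, hx⟩ + ⟨y, hy⟩ from rfl, map_add]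
      exact add_mem ihx ihy
    | mul x y hx hy ihx ihy =>
      rw [show (⟨x * y, mul_mem hx hy⟩ : H) = ⟨x, hx⟩ * ⟨y, hy⟩ from rfl, map_mul]
      exact mul_mem ihx ihy
  let e : ZMod p ≃+* i₀.range :=
    RingEquiv.ofBijective i₀.rangeRestrict
      ⟨RingHom.injective _, i₀.rangeRestrict_surjective⟩
  refine ⟨i.comp (e.symm.toRingHom.comp (θ₀.codRestrict _ hrange)), fun l hl hlN hlS A τ hA hτ => ?_⟩
  rw [trace_eq_modTr hΔ hmr]
  refine congrArg i (e.symm_apply_eq.2 (Subtype.ext ?_))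
  exact hval l hl hlN hlS A τ hA hτ

/-- A system at level `N` with the traces of the representation gives residual modularity. -/
theorem isResiduallyModularOfLevel_of_system (hΔ : W.Δ ≠ 0) (hp2 : p ≠ 2)
    (hirr : W.ModRepIsIrreducible p) {i : ZMod p →+* k} {ρbar : ResidualGaloisRep k}
    (hmr : IsModRep W p i ρbar) (S : Finset ℕ) {k' : Type} [Field k'] (j : k →+* k')
    (θ : CuspForm.heckeAlgebra N 2 (↑S : Set ℕ) →+* k')
    (hθ : ∀ (l : ℕ) (hl : l.Prime) (hlN : ¬ l ∣ N) (hlS : l ∉ (↑S : Set ℕ))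
      (A : ValuationSubring ℚ̄) (φ : Γℚ), A.LiesOverPrime l → A.IsFrobeniusAt φ l →
      θ (CuspForm.heckeAlgebra.T hl hlN hlS) = j (LinearMap.trace k ρbar.V (ρbar.ρ φ))) :
    W.IsResiduallyModularOfLevel p N := by
  haveI : CharP k' p := charP_of_injective_ringHom (RingHom.injective (j.comp i)) p
  let incl : CuspForm.heckeAlgebra N 2 (↑S : Set ℕ) →+* Reps.TZ N :=
    (Subalgebra.inclusion (CuspForm.heckeAlgebra_mono (Set.empty_subset _))).toRingHom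
  have hinj : Function.Injective incl.rangeRestrict := fun a b h =>
    Subalgebra.inclusion_injective _ (congrArg Subtype.val h)
  let e := RingEquiv.ofBijective incl.rangeRestrict ⟨hinj, incl.rangeRestrict_surjective⟩
  obtain ⟨g, lam, 𝔪, hg, h𝔪, hp𝔪, hker, hT⟩ :=
    MazurP.exists_eigenform_of_subring incl.range (θ.comp e.symm.toRingHom)
  refine isResiduallyModularOfLevel_of_congr hΔ hp2 hirr hg h𝔪 hp𝔪 S
    fun l hl hlS hgood hlN hlp => ?_
  have hlS' : l ∉ (↑S : Set ℕ) := fun h => hlS (Finset.mem_coe.1 h)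
  have hmem : Reps.heckeTOf hl hlN ∈ incl.range := ⟨CuspForm.heckeAlgebra.T hl hlN hlS', rfl⟩
  refine ⟨lam ⟨_, hmem⟩, hT l hl hlN hmem, ?_⟩
  rw [← map_intCast lam, ← map_sub]
  refine hker _ ?_
  obtain ⟨A, hA, τ, hτ⟩ := GalCommon.exists_place_frobenius hl
  have he : e.symm ⟨_, hmem⟩ = CuspForm.heckeAlgebra.T hl hlN hlS' :=
    e.symm_apply_eq.2 (Subtype.ext rfl)
  rw [map_sub, map_intCast, RingHom.comp_apply, RingEquiv.toRingHom_eq_coe, RingEquiv.coe_toRingHom,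
    he, hθ l hl hlN hlS' A τ hA hτ, trace_eq_modTr hΔ hmr,
    MazurP.modTr_frobenius hΔ hp2 hl hgood hlp hA hτ, map_intCast, map_intCast, sub_self]

/-- A system gives residual modularity. -/
theorem isResiduallyModularOfLevel_of_hasSystem (hΔ : W.Δ ≠ 0) (hp2 : p ≠ 2)
    (hirr : W.ModRepIsIrreducible p) {i : ZMod p →+* k} {ρbar : ResidualGaloisRep k}
    (hmr : IsModRep W p i ρbar) (hsys : HasSystem p N ρbar) :
    W.IsResiduallyModularOfLevel p N := by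
  obtain ⟨θ, hθ⟩ := hsys
  exact isResiduallyModularOfLevel_of_system hΔ hp2 hirr hmr (levelPrimes p N) (RingHom.id k) θ hθ

end FLTAgent.Lower.Lift
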