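import Fermat.Agent.Lower.Lift.Defs
import Fermat.Agent.FlatHopf.Rat
import Fermat.Agent.MazurChain.Chi
import Fermat.Agent.Reps.Cyclo

/-!
# Local conditions at `p` descend along jointly injective maps

For maps `R → A`, `R → B` of finite `O`-algebras which are jointly injective, a representation
over `R` is flat (`isFlatAt_of_jointly_injective`), respectively strictly ordinary when `p` is odd
and the determinant is cyclotomic (`isStrictOrdinaryAt_of_jointly_injective`), as soon as both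
base changes are. Flat models pass to a finite module embedded in a product and to its quotients
(`hasFlatModel_of_pair`); the ordinary line is the image of the idempotent made from `ρ τ - 1`,
`τ` in inertia with cyclotomic value `≢ 1 mod p` (`strictOrdinary_side`).
-/

set_option autoImplicit false
set_option linter.style.haveILetI false

noncomputable section

namespace FLTAgent.Lower.Lift

open scoped TensorProduct
open IsLocalRing (ResidueField maximalIdeal)
open FLTAgent.Lower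

local notation "Γℚ" => (AlgebraicClosure ℚ ≃ₐ[ℚ] AlgebraicClosure ℚ)

section BaseChange

variable {R A : Type} [CommRing R] [IsLocalRing R] [CommRing A] [IsLocalRing A]
  (φ : R →+* A) (hφ : IsLocalHom φ) (ρ : GaloisRepAdic R)

/-- `v ↦ 1 ⊗ v`. -/
def tensorIncl : ρ.V →+ (ρ.baseChangeAlong φ hφ).V :=
  letI : Algebra R A := φ.toAlgebra
  (TensorProduct.mk R A ρ.V 1).toAddMonoidHom

theorem tensorIncl_apply_map (σ : Γℚ) (v : ρ.V) :
    tensorIncl φ hφ ρ (ρ.ρ σ v) = (ρ.baseChangeAlong φ hφ).ρ σ (tensorIncl φ hφ ρ v) :=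
  rfl

theorem tensorIncl_smul (r : R) (v : ρ.V) :
    tensorIncl φ hφ ρ (r • v) = φ r • tensorIncl φ hφ ρ v := by
  letI : Algebra R A := φ.toAlgebra
  show (1 : A) ⊗ₜ[R] (r • v) = φ r • ((1 : A) ⊗ₜ[R] v)
  rw [TensorProduct.smul_tmul', ← TensorProduct.smul_tmul]
  rfl

/-- The basis of the base change given by a basis. -/
def basisAlong {ι : Type} (b : Module.Basis ι R ρ.V) :
    Module.Basis ι A (ρ.baseChangeAlong φ hφ).V :=
  letI : Algebra R A := φ.toAlgebra
  b.baseChange A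

theorem basisAlong_repr {ι : Type} (b : Module.Basis ι R ρ.V) (v : ρ.V) (i : ι) :
    (basisAlong φ hφ ρ b).repr (tensorIncl φ hφ ρ v) i = φ (b.repr v i) := by
  letI : Algebra R A := φ.toAlgebra
  show (b.baseChange A).repr ((1 : A) ⊗ₜ[R] v) i = _
  rw [Module.Basis.baseChange_repr_tmul, Algebra.smul_def, mul_one]
  rfl

theorem tensorIncl_mem_smul_top {I : Ideal R} {I' : Ideal A} (hI : I ≤ I'.comap φ) {v : ρ.V}
    (hv : v ∈ I • (⊤ : Submodule R ρ.V)) :
    tensorIncl φ hφ ρ v ∈ I' • (⊤ : Submodule A (ρ.baseChangeAlong φ hφ).V) := by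
  refine Submodule.smul_induction_on hv (fun r hr w _ => ?_) fun x y hx hy => ?_
  · rw [tensorIncl_smul]
    exact Submodule.smul_mem_smul (hI hr) Submodule.mem_top
  · rw [map_add]; exact add_mem hx hy

theorem repr_mem_of_tensorIncl_mem {ι : Type} (b : Module.Basis ι R ρ.V) {I' : Ideal A} {v : ρ.V}
    (hv : tensorIncl φ hφ ρ v ∈ I' • (⊤ : Submodule A (ρ.baseChangeAlong φ hφ).V)) (i : ι) :
    φ (b.repr v i) ∈ I' := by
  rw [← basisAlong_repr φ hφ ρ b]
  refine Submodule.smul_induction_on hv (fun c hc w _ => ?_) fun x y hx hy => ?_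
  · rw [map_smul, Finsupp.smul_apply, smul_eq_mul]
    exact I'.mul_mem_right _ hc
  · rw [map_add, Finsupp.add_apply]; exact add_mem hx hy

/-- Base change of endomorphisms. -/
def endAlong : Module.End R ρ.V →+* Module.End A (ρ.baseChangeAlong φ hφ).V :=
  letI : Algebra R A := φ.toAlgebra
  { toFun := fun f => f.baseChange A
    map_one' := LinearMap.baseChange_one _ _
    map_mul' := fun f g => LinearMap.baseChange_mul f g
    map_zero' := LinearMap.baseChange_zero
    map_add' := fun f g => LinearMap.baseChange_add f g }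

theorem endAlong_rho (σ : Γℚ) :
    endAlong φ hφ ρ (ρ.ρ σ) = (ρ.baseChangeAlong φ hφ).ρ σ :=
  rfl

theorem endAlong_tensorIncl (f : Module.End R ρ.V) (v : ρ.V) :
    endAlong φ hφ ρ f (tensorIncl φ hφ ρ v) = tensorIncl φ hφ ρ (f v) :=
  rfl

theorem endAlong_smul (r : R) (f : Module.End R ρ.V) :
    endAlong φ hφ ρ (r • f) = φ r • endAlong φ hφ ρ f := by
  letI : Algebra R A := φ.toAlgebra
  show (r • f).baseChange A = φ r • f.baseChange A
  rw [LinearMap.baseChange_smul]
  exact (algebraMap_smul A r (f.baseChange A)).symm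

theorem trace_endAlong (f : Module.End R ρ.V) :
    LinearMap.trace A _ (endAlong φ hφ ρ f) = φ (LinearMap.trace R ρ.V f) := by
  letI : Algebra R A := φ.toAlgebra
  exact LinearMap.trace_baseChange f A

theorem det_endAlong (f : Module.End R ρ.V) :
    LinearMap.det (endAlong φ hφ ρ f) = φ (LinearMap.det f) := by
  letI : Algebra R A := φ.toAlgebra
  exact LinearMap.det_baseChange f

end BaseChange

section Line

variable {A M : Type} [CommRing A] [IsLocalRing A] [AddCommGroup M] [Module A M]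
  (b : Module.Basis (Fin 2) A M)

omit [IsLocalRing A] in
theorem repr_one_eq_zero_of_mem {w : M} (hw : w ∈ A ∙ b 0) : b.repr w 1 = 0 := by
  obtain ⟨c, rfl⟩ := Submodule.mem_span_singleton.1 hw
  simp

omit [IsLocalRing A] in
theorem trace_det_of_line {f : Module.End A M} {x z : A} (hx : ∀ w ∈ A ∙ b 0, f w = x • w)
    (hz : ∀ v, f v - z • v ∈ A ∙ b 0) :
    LinearMap.trace A M f = x + z ∧ LinearMap.det f = x * z := by
  have h00 : LinearMap.toMatrix b b f 0 0 = x := by
    rw [LinearMap.toMatrix_apply, hx _ (Submodule.mem_span_singleton_self _)]; simp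
  have h10 : LinearMap.toMatrix b b f 1 0 = 0 := by
    rw [LinearMap.toMatrix_apply, hx _ (Submodule.mem_span_singleton_self _)]; simp
  have h11 : LinearMap.toMatrix b b f 1 1 = z := by
    rw [LinearMap.toMatrix_apply]
    have h := repr_one_eq_zero_of_mem b (hz (b 1))
    rw [map_sub, map_smul] at h
    simpa [sub_eq_zero] using h
  refine ⟨?_, ?_⟩
  · rw [LinearMap.trace_eq_matrix_trace A b, Matrix.trace_fin_two, h00, h11]
  · rw [← LinearMap.det_toMatrix b, Matrix.det_fin_two, h00, h10, h11, mul_zero, sub_zero]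

omit [IsLocalRing A] in
theorem eq_one_of_line {f : Module.End A M} {z : A} (hz : ∀ v, f v - z • v ∈ A ∙ b 0)
    (h1 : ∀ v, f v - v ∈ A ∙ b 0) : z = 1 := by
  have h := repr_one_eq_zero_of_mem b (sub_mem (h1 (b 1)) (hz (b 1)))
  rw [sub_sub_sub_cancel_left, map_sub, map_smul] at h
  simpa [sub_eq_zero] using h

omit [IsLocalRing A] in
private theorem det_line_ne (E00 E10 : A) (h : IsUnit E00) :
    IsUnit (!![E00, 0; E10, 1] : Matrix (Fin 2) (Fin 2) A).det := by
  simpa [Matrix.det_fin_two] using h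

include b in
/-- An idempotent of trace one projects to a line. -/
theorem exists_basis_of_idempotent (e : Module.End A M) (hee : e * e = e)
    (htr : LinearMap.trace A M e = 1) :
    ∃ b' : Module.Basis (Fin 2) A M,
      (∀ v, e v ∈ A ∙ b' 0) ∧ ∀ w ∈ A ∙ b' 0, e w = w := by
  have main : ∀ b : Module.Basis (Fin 2) A M, IsUnit (LinearMap.toMatrix b b e 0 0) →
      ∃ b' : Module.Basis (Fin 2) A M,
        (∀ v, e v ∈ A ∙ b' 0) ∧ ∀ w ∈ A ∙ b' 0, e w = w := by
    intro b hu
    set E := LinearMap.toMatrix b b e with hE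
    let g := Matrix.toLin b b !![E 0 0, 0; E 1 0, 1]
    have hg : IsUnit (LinearMap.toMatrix b b g).det := by
      rw [LinearMap.toMatrix_toLin]; exact det_line_ne _ _ hu
    let b' := b.map (LinearEquiv.ofIsUnitDet hg)
    have hcol : ∀ j, e (b j) = E 0 j • b 0 + E 1 j • b 1 := fun j => by
      rw [hE, LinearMap.toMatrix_apply, LinearMap.toMatrix_apply, ← Fin.sum_univ_two
        (fun i => b.repr (e (b j)) i • b i), b.sum_repr]
    have h0 : b' 0 = e (b 0) := by
      rw [Module.Basis.map_apply, LinearEquiv.ofIsUnitDet_apply, hcol]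
      show Matrix.toLin b b _ (b 0) = _
      rw [Matrix.toLin_self, Fin.sum_univ_two]
      simp
    have hsum : E 0 0 + E 1 1 = 1 := by
      rw [← Matrix.trace_fin_two, hE, ← LinearMap.trace_eq_matrix_trace A b, htr]
    have h00 : E 0 0 * E 0 0 + E 0 1 * E 1 0 = E 0 0 := by
      have h : E * E = E := by rw [hE, ← LinearMap.toMatrix_mul, hee]
      simpa [Matrix.mul_apply, Fin.sum_univ_two] using congrFun (congrFun h 0) 0
    obtain ⟨w, hw⟩ := hu.exists_left_inv
    have h1 : e (b 1) = (w * E 0 1) • e (b 0) := by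
      rw [hcol, hcol, smul_add, smul_smul, smul_smul]
      congr 2
      · linear_combination (-(E 0 1)) * hw
      · linear_combination (-w) * h00 + hsum + (E 0 0 - 1) * hw
    refine ⟨b', fun v => ?_, fun x hx => ?_⟩
    · rw [h0, ← b.sum_repr v, map_sum]
      refine Submodule.sum_mem _ fun i _ => ?_
      rw [map_smul]
      refine Submodule.smul_mem _ _ ?_
      fin_cases i
      · exact Submodule.mem_span_singleton_self _
      · exact Submodule.mem_span_singleton.2 ⟨_, h1.symm⟩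
    · rw [h0] at hx
      obtain ⟨c, rfl⟩ := Submodule.mem_span_singleton.1 hx
      rw [map_smul, ← Module.End.mul_apply, hee]
  have hsum : LinearMap.toMatrix b b e 0 0 + LinearMap.toMatrix b b e 1 1 = 1 := by
    rw [← Matrix.trace_fin_two, ← LinearMap.trace_eq_matrix_trace A b, htr]
  rcases IsLocalRing.isUnit_or_isUnit_of_add_one hsum with h | h
  · exact main b h
  · refine main (b.reindex (Equiv.swap 0 1)) ?_
    simpa [LinearMap.toMatrix_apply] using h

end Line

theorem isUnit_natCast_sub_one {A : Type} [CommRing A] [IsLocalRing A] {p : ℕ} [Fact p.Prime]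
    (hp : (p : A) ∈ maximalIdeal A) {a : ℕ} (ha : ¬ (p : ℤ) ∣ (a : ℤ) - 1) :
    IsUnit ((a : A) - 1) := by
  obtain ⟨u, v, huv⟩ :=
    ((Nat.prime_iff_prime_int.1 (Fact.out : p.Prime)).irreducible.coprime_iff_not_dvd).2 ha
  have h : (u : A) * (p : A) + (v : A) * ((a : A) - 1) = 1 := by
    simpa using congrArg (Int.cast : ℤ → A) huv
  rcases IsLocalRing.isUnit_or_isUnit_of_add_one h with h1 | h1
  · exact absurd (isUnit_of_mul_isUnit_right h1) hp
  · exact isUnit_of_mul_isUnit_right h1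

/-- For odd `p` some inertia element has cyclotomic value `≢ 1 mod p`. -/
theorem exists_inertia_exponent {p : ℕ} [Fact p.Prime] (hp2 : p ≠ 2)
    {P : ValuationSubring (AlgebraicClosure ℚ)} (hP : P.LiesOverPrime p) :
    ∃ τ ∈ P.inertiaSubgroupIn ℚ, ∃ a : ℕ,
      (∀ μ : AlgebraicClosure ℚ, μ ^ p ^ 1 = 1 → τ μ = μ ^ a) ∧ ¬ (p : ℤ) ∣ (a : ℤ) - 1 := by
  obtain ⟨τ, hτ, hne⟩ := MazurChain.exists_inertia_cyc_ne_one p hp2 hP
  refine ⟨τ, hτ, _, fun μ hμ => Reps.cycMod_spec p 1 τ hμ, fun hdvd => hne ?_⟩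
  refine MazurChain.cyc_eq_one_of_fix p τ fun t ht => ?_
  have ht1 : t ^ p ^ 1 = 1 := by rwa [pow_one]
  rw [Reps.cycMod_spec p 1 τ ht1]
  obtain ⟨c, hc⟩ := hdvd
  have ht0 : t ≠ 0 := fun h => by simp [h, (Fact.out : p.Prime).ne_zero] at ht
  rw [← zpow_natCast, show ((Reps.cycMod p 1 τ).val : ℤ) = (p : ℤ) * c + 1 by omega,
    zpow_add₀ ht0, zpow_mul, zpow_natCast, ht, one_zpow, one_mul, zpow_one]

/-- What strict ordinarity says about the idempotent of a suitable element of inertia. -/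
theorem strictOrdinary_side {A : Type} [CommRing A] [IsLocalRing A] [IsNoetherianRing A] {p : ℕ}
    [Fact p.Prime] (ρ : GaloisRepAdic A) (hdet : ρ.DetIsCyclotomic p)
    (h : ρ.IsStrictOrdinaryAt p) {P : ValuationSubring (AlgebraicClosure ℚ)}
    (hP : P.LiesOverPrime p) {τ : Γℚ} (hτ : τ ∈ P.inertiaSubgroupIn ℚ) {a₀ : ℕ}
    (ha₀ : ∀ μ : AlgebraicClosure ℚ, μ ^ p ^ 1 = 1 → τ μ = μ ^ a₀)
    (hna : ¬ (p : ℤ) ∣ (a₀ : ℤ) - 1) :
    IsUnit (LinearMap.trace A ρ.V (ρ.ρ τ - 1)) ∧
    (ρ.ρ τ - 1) * (ρ.ρ τ - 1) = LinearMap.trace A ρ.V (ρ.ρ τ - 1) • (ρ.ρ τ - 1) ∧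
    ∀ u : A, u * LinearMap.trace A ρ.V (ρ.ρ τ - 1) = 1 →
      (∀ σ ∈ P.inertiaSubgroupIn ℚ, (1 - u • (ρ.ρ τ - 1)) * (ρ.ρ σ - 1) = 0) ∧
      ∀ σ ∈ P.decompositionSubgroup ℚ, ∀ X : A,
        X = LinearMap.trace A ρ.V (ρ.ρ σ * (u • (ρ.ρ τ - 1))) →
        ρ.ρ σ * (u • (ρ.ρ τ - 1)) = X • (u • (ρ.ρ τ - 1)) ∧
        (1 - u • (ρ.ρ τ - 1)) * (ρ.ρ σ - (ρ.trace σ - X) • 1) = 0 ∧
        (ρ.trace σ - X) ^ 2 = 1 ∧ X * (ρ.trace σ - X) = LinearMap.det (ρ.ρ σ) := by
  obtain ⟨L, ⟨b, rfl⟩, -, hI, hxz⟩ := h.2 P hP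
  obtain ⟨x, z, hx, hz, hxz'⟩ := hxz τ (GalCommon.inertiaSubgroupIn_le_decomposition hτ)
  have hz1 : z = 1 := eq_one_of_line b hz (hI τ hτ)
  subst hz1
  set D := ρ.ρ τ - 1 with hD
  have htrD : LinearMap.trace A ρ.V D = x - 1 := by
    rw [hD, map_sub, (trace_det_of_line b hx hz).1, (trace_det_of_line b (f := 1) (x := 1) (z := 1)
      (fun w _ => (one_smul A w).symm) fun v => by simp).1]
    ring
  have hDmem : ∀ v, D v ∈ A ∙ b 0 := fun v => by simpa [hD] using hI τ hτ v
  have hDline : ∀ w ∈ A ∙ b 0, D w = (x - 1) • w := fun w hw => by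
    rw [hD, LinearMap.sub_apply, hx w hw, Module.End.one_apply, sub_smul, one_smul]
  have hunit : IsUnit (x - 1) := by
    have h1 : x - (a₀ : A) ∈ maximalIdeal A := by
      have h2 := hxz' 1 a₀ ha₀
      rw [mul_one, pow_one] at h2
      exact (Ideal.span_singleton_le_iff_mem _).2 h.1 h2
    rcases IsLocalRing.isUnit_or_isUnit_of_isUnit_add (a := x - 1) (b := -(x - (a₀ : A)))
      (by rw [show x - 1 + -(x - (a₀ : A)) = (a₀ : A) - 1 by ring]
          exact isUnit_natCast_sub_one h.1 hna) with h2 | h2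
    · exact h2
    · exact absurd (by simpa using h2.neg) h1
  refine ⟨htrD ▸ hunit, LinearMap.ext fun v => ?_, fun u hu => ?_⟩
  · rw [Module.End.mul_apply, hDline _ (hDmem v), htrD, LinearMap.smul_apply]
  set e := u • D with he
  rw [htrD] at hu
  have hemem : ∀ v, e v ∈ A ∙ b 0 := fun v => Submodule.smul_mem _ _ (hDmem v)
  have heline : ∀ w ∈ A ∙ b 0, e w = w := fun w hw => by
    rw [he, LinearMap.smul_apply, hDline w hw, smul_smul, hu, one_smul]
  have hsub : ∀ f : Module.End A ρ.V, (∀ v, f v ∈ A ∙ b 0) → (1 - e) * f = 0 := fun f hf =>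
    LinearMap.ext fun v => by
      rw [Module.End.mul_apply, LinearMap.sub_apply, Module.End.one_apply, heline _ (hf v),
        sub_self, LinearMap.zero_apply]
  refine ⟨fun σ hσ => hsub _ fun v => by simpa using hI σ hσ v, fun σ hσ X hX => ?_⟩
  obtain ⟨s, t, hs, ht, hst⟩ := hxz σ hσ
  have hmul : ρ.ρ σ * e = s • e :=
    LinearMap.ext fun v => hs _ (hemem v)
  have htre : LinearMap.trace A ρ.V e = 1 := by rw [he, map_smul, htrD, smul_eq_mul, hu]
  have hXs : X = s := by rw [hX, hmul, map_smul, htre, smul_eq_mul, mul_one]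
  have hZt : ρ.trace σ - X = t := by
    rw [hXs, GaloisRepAdic.trace, (trace_det_of_line b hs ht).1, add_sub_cancel_left]
  rw [hZt, hXs]
  have hd := (trace_det_of_line b hs ht).2
  refine ⟨hmul, hsub _ fun v => by simpa using ht v, ?_, hd.symm⟩
  have hunitd : IsUnit (LinearMap.det (ρ.ρ σ)) :=
    (Group.isUnit σ).map (LinearMap.det.comp ρ.ρ)
  have hmem : ∀ n : ℕ, t ^ 2 - 1 ∈ maximalIdeal A ^ n := by
    intro n
    rcases Nat.eq_zero_or_pos n with rfl | hn
    · simp
    have hle : Ideal.span {((p ^ n : ℕ) : A)} ≤ maximalIdeal A ^ n := by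
      rw [Ideal.span_singleton_le_iff_mem, Nat.cast_pow]
      exact Ideal.pow_mem_pow h.1 n
    obtain ⟨a, ha⟩ : ∃ a : ℕ, ∀ μ : AlgebraicClosure ℚ, μ ^ p ^ n = 1 → σ μ = μ ^ a :=
      ⟨_, fun μ hμ => Reps.cycMod_spec p n σ hμ⟩
    have h1 := hle (hdet.2 n σ a ha)
    have h2 := hle (hst n a ha)
    have hau : IsUnit (a : A) := by
      rcases IsLocalRing.isUnit_or_isUnit_of_isUnit_add
        (a := (a : A)) (b := LinearMap.det (ρ.ρ σ) - a) (by rwa [add_sub_cancel]) with h3 | h3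
      · exact h3
      · exact absurd h3 (Ideal.pow_le_self hn.ne' h1)
    have h4 : (a : A) * (t ^ 2 - 1) ∈ maximalIdeal A ^ n := by
      have := sub_mem h1 (Ideal.mul_mem_left _ t h2)
      rw [hd] at this
      convert this using 1
      ring
    obtain ⟨v, hv⟩ := hau.exists_left_inv
    simpa [← mul_assoc, hv] using Ideal.mul_mem_left _ v h4
  have hbot : (⨅ n : ℕ, maximalIdeal A ^ n) = ⊥ :=
    Ideal.iInf_pow_eq_bot_of_isLocalRing _ (IsLocalRing.maximalIdeal.isMaximal A).ne_top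
  exact sub_eq_zero.1 (Ideal.mem_bot.1 (hbot ▸ Submodule.mem_iInf _ |>.2 hmem))

/-- Cyclotomic determinant passes to base changes. -/
theorem detIsCyclotomic_along {R A : Type} [CommRing R] [IsLocalRing R] [CommRing A]
    [IsLocalRing A] {p : ℕ} (φ : R →+* A) (hφ : IsLocalHom φ) (ρ : GaloisRepAdic R)
    (h : ρ.DetIsCyclotomic p) : (ρ.baseChangeAlong φ hφ).DetIsCyclotomic p := by
  refine ⟨by simpa using map_nonunit φ (p : R) h.1, fun n σ a ha => ?_⟩
  rw [← endAlong_rho, det_endAlong, ← map_natCast φ a, ← map_sub, ← map_natCast φ (p ^ n),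
    ← Set.image_singleton, ← Ideal.map_span]
  exact Ideal.mem_map_of_mem φ (h.2 n σ a ha)

section Flat

variable {R : Type} [CommRing R] [IsLocalRing R]

/-- The Galois action on `V / I V`. -/
def levelHom (ρ : GaloisRepAdic R) (I : Ideal R) :
    Γℚ →* AddMonoid.End (ρ.V ⧸ I • (⊤ : Submodule R ρ.V)) where
  toFun σ := (ρ.levelAction I σ).toAddMonoidHom
  map_one' := by
    ext1 x
    obtain ⟨v, rfl⟩ := Submodule.Quotient.mk_surjective _ x
    show Submodule.Quotient.mk (ρ.ρ 1 v) = Submodule.Quotient.mk v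
    rw [map_one]; rfl
  map_mul' σ τ := by
    ext1 x
    obtain ⟨v, rfl⟩ := Submodule.Quotient.mk_surjective _ x
    show Submodule.Quotient.mk (ρ.ρ (σ * τ) v) = Submodule.Quotient.mk (ρ.ρ σ (ρ.ρ τ v))
    rw [map_mul]; rfl

/-- Flatness gives a flat model of each finite quotient `V / I V`. -/
theorem hasFlatModel_levelHom {ρ : GaloisRepAdic R} {p : ℕ} (h : ρ.IsFlatAt p) (I : Ideal R)
    (hI : Finite (R ⧸ I)) : FlatHopf.HasFlatModel p (levelHom ρ I) :=
  h.2 I hI

theorem finite_levelQuotient (ρ : GaloisRepAdic R) (I : Ideal R) [Finite (R ⧸ I)] :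
    Finite (ρ.V ⧸ I • (⊤ : Submodule R ρ.V)) := by
  haveI : Module.Finite (R ⧸ I) (ρ.V ⧸ I • (⊤ : Submodule R ρ.V)) := inferInstance
  exact Module.finite_of_finite (R ⧸ I)

variable {A B : Type} [CommRing A] [IsLocalRing A] [CommRing B] [IsLocalRing B]

/-- Flat models of two base changes give one of `V / I V` if `I` contains `φ⁻¹ I₁ ⊓ ψ⁻¹ I₂`. -/
theorem hasFlatModel_of_pair {p : ℕ} (φ : R →+* A) (hφ : IsLocalHom φ) (ψ : R →+* B)
    (hψ : IsLocalHom ψ) (ρ : GaloisRepAdic R) (I₁ : Ideal A) (I₂ : Ideal B) [Finite (A ⧸ I₁)]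
    [Finite (B ⧸ I₂)] (h₁ : FlatHopf.HasFlatModel p (levelHom (ρ.baseChangeAlong φ hφ) I₁))
    (h₂ : FlatHopf.HasFlatModel p (levelHom (ρ.baseChangeAlong ψ hψ) I₂)) (I : Ideal R)
    [Finite (R ⧸ I)] (hle : I₁.comap φ ⊓ I₂.comap ψ ≤ I) :
    FlatHopf.HasFlatModel p (levelHom ρ I) := by
  set K := I₁.comap φ ⊓ I₂.comap ψ with hK
  haveI := finite_levelQuotient (ρ.baseChangeAlong φ hφ) I₁
  haveI := finite_levelQuotient (ρ.baseChangeAlong ψ hψ) I₂
  let m₁ := (Submodule.mkQ (I₁ • (⊤ : Submodule A (ρ.baseChangeAlong φ hφ).V))).toAddMonoidHom.comp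
    (tensorIncl φ hφ ρ)
  let m₂ := (Submodule.mkQ (I₂ • (⊤ : Submodule B (ρ.baseChangeAlong ψ hψ).V))).toAddMonoidHom.comp
    (tensorIncl ψ hψ ρ)
  have hker : ∀ v, v ∈ K • (⊤ : Submodule R ρ.V) ↔ m₁.prod m₂ v = 0 := by
    intro v
    simp only [AddMonoidHom.prod_apply, Prod.mk_eq_zero, m₁, m₂, AddMonoidHom.comp_apply,
      LinearMap.toAddMonoidHom_coe, Submodule.mkQ_apply, Submodule.Quotient.mk_eq_zero]
    refine ⟨fun hv => ⟨tensorIncl_mem_smul_top φ hφ ρ inf_le_left hv,
      tensorIncl_mem_smul_top ψ hψ ρ inf_le_right hv⟩, fun hv => ?_⟩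
    let b := Module.Free.chooseBasis R ρ.V
    rw [← b.sum_repr v]
    exact Submodule.sum_mem _ fun i _ => Submodule.smul_mem_smul
      ⟨repr_mem_of_tensorIncl_mem φ hφ ρ b hv.1 i, repr_mem_of_tensorIncl_mem ψ hψ ρ b hv.2 i⟩
      Submodule.mem_top
  let i := QuotientAddGroup.lift (K • (⊤ : Submodule R ρ.V)).toAddSubgroup (m₁.prod m₂)
    fun v hv => (hker v).1 hv
  have hi : Function.Injective i := by
    refine (injective_iff_map_eq_zero i).2 fun x => ?_
    refine QuotientAddGroup.induction_on x fun v hv => ?_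
    exact (QuotientAddGroup.eq_zero_iff v).2 ((hker v).2 hv)
  haveI : Finite (ρ.V ⧸ K • (⊤ : Submodule R ρ.V)) := Finite.of_injective i hi
  have hKm : FlatHopf.HasFlatModel p (levelHom ρ K) := by
    refine (h₁.prod h₂).of_injective i hi fun σ x => ?_
    obtain ⟨v, rfl⟩ := Submodule.Quotient.mk_surjective _ x
    rfl
  haveI := finite_levelQuotient ρ I
  refine hKm.of_surjective
    (Submodule.factor (Submodule.smul_mono_left (N := (⊤ : Submodule R ρ.V)) hle)).toAddMonoidHom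
    (Submodule.factor_surjective (Submodule.smul_mono_left (N := (⊤ : Submodule R ρ.V)) hle))
    fun σ x => ?_
  obtain ⟨v, rfl⟩ := Submodule.Quotient.mk_surjective _ x
  rfl

end Flat

variable {O : Type} [CommRing O] [IsDomain O] [IsDiscreteValuationRing O]
  [IsAdicComplete (maximalIdeal O) O] [Finite (ResidueField O)] [CharZero O]
  {R A B : Type} [CommRing R] [IsLocalRing R] [Algebra O R] [Module.Finite O R]
  [CommRing A] [IsLocalRing A] [Algebra O A] [Module.Finite O A]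
  [CommRing B] [IsLocalRing B] [Algebra O B] [Module.Finite O B]
  [IsLocalHom (algebraMap O R)] {p : ℕ} [Fact p.Prime]

/-- Flatness at `p` descends. -/
theorem isFlatAt_of_jointly_injective (hp : (p : O) ∈ maximalIdeal O) (fA : R →ₐ[O] A)
    (fB : R →ₐ[O] B) (hA : IsLocalHom (fA : R →+* A)) (hB : IsLocalHom (fB : R →+* B))
    (hinj : Function.Injective fun x => (fA x, fB x)) (ρ : GaloisRepAdic R)
    (h₁ : (ρ.baseChangeAlong (fA : R →+* A) hA).IsFlatAt p)
    (h₂ : (ρ.baseChangeAlong (fB : R →+* B) hB).IsFlatAt p) : ρ.IsFlatAt p := by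
  haveI : Finite (ResidueField R) := Module.finite_of_finite (ResidueField O)
  refine ⟨inferInstance, fun I hI => ?_⟩
  haveI := hI
  obtain ⟨ϖ, hϖ⟩ := IsDiscreteValuationRing.exists_irreducible O
  have hmax := hϖ.maximalIdeal_eq
  -- a power of the uniformiser lies in `I`
  obtain ⟨m, hm⟩ : ∃ m, ((maximalIdeal O) ^ m).map (algebraMap O R) ≤ I := by
    have hg : algebraMap O R ϖ ∈ maximalIdeal R :=
      map_nonunit (algebraMap O R) ϖ (hmax ▸ Ideal.mem_span_singleton_self ϖ)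
    set g := algebraMap O R ϖ with hgdef
    obtain ⟨i, j, hne, hij⟩ :=
      Finite.exists_ne_map_eq_of_infinite fun i : ℕ => Ideal.Quotient.mk I (g ^ i)
    wlog hlt : i < j generalizing i j
    · exact this j i hne.symm hij.symm (by omega)
    refine ⟨i, ?_⟩
    rw [hmax, Ideal.span_singleton_pow, Ideal.map_span, Set.image_singleton, map_pow,
      Ideal.span_singleton_le_iff_mem, ← hgdef]
    have hmem : g ^ i - g ^ j ∈ I := Ideal.Quotient.eq.1 hij
    have hu : IsUnit (1 - g ^ (j - i)) := by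
      have hin : g ^ (j - i) ∈ maximalIdeal R := Ideal.pow_mem_of_mem _ hg _ (by omega)
      rcases IsLocalRing.isUnit_or_isUnit_one_sub_self (g ^ (j - i)) with h | h
      · exact absurd h hin
      · exact h
    obtain ⟨u, hu⟩ := hu.exists_left_inv
    have h1 := I.mul_mem_left u hmem
    rwa [show g ^ i - g ^ j = (1 - g ^ (j - i)) * g ^ i by
      rw [sub_mul, one_mul, ← pow_add, Nat.sub_add_cancel hlt.le], ← mul_assoc, hu, one_mul] at h1
  let f : R →ₗ[O] A × B := fA.toLinearMap.prod fB.toLinearMap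
  have hf : Function.Injective f := hinj
  obtain ⟨k, hk⟩ := Ideal.exists_pow_inf_eq_pow_smul (maximalIdeal O) (LinearMap.range f)
  set J := maximalIdeal O ^ (m + k) with hJ
  have hfin : ∀ (T : Type) [CommRing T] [Algebra O T] [Module.Finite O T],
      Finite (T ⧸ J.map (algebraMap O T)) := by
    intro T _ _ _
    haveI : Finite (O ⧸ J) := by
      haveI : Finite (O ⧸ maximalIdeal O) := ‹Finite (ResidueField O)›
      exact Ideal.finite_quotient_pow (IsNoetherian.noetherian _) _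
    haveI : Finite (T ⧸ J • (⊤ : Submodule O T)) := Module.finite_of_finite (O ⧸ J)
    let q := Submodule.liftQ (J • (⊤ : Submodule O T))
      (Ideal.Quotient.mkₐ O (J.map (algebraMap O T))).toLinearMap (fun x hx => by
        rw [Ideal.smul_top_eq_map] at hx
        exact Ideal.Quotient.eq_zero_iff_mem.2 hx)
    exact Finite.of_surjective q fun y => by
      obtain ⟨t, rfl⟩ := Ideal.Quotient.mk_surjective y
      exact ⟨Submodule.Quotient.mk t, rfl⟩
  haveI := hfin A
  haveI := hfin B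
  refine hasFlatModel_of_pair (fA : R →+* A) hA (fB : R →+* B) hB ρ _ _
    (hasFlatModel_levelHom h₁ _ (hfin A)) (hasFlatModel_levelHom h₂ _ (hfin B)) I ?_
  rintro x ⟨hxA, hxB⟩
  have h1 : f x ∈ J • (⊤ : Submodule O (A × B)) ⊓ LinearMap.range f := by
    refine ⟨?_, LinearMap.mem_range_self f x⟩
    have hl : Submodule.map (LinearMap.inl O A B) (J • ⊤) ≤ J • (⊤ : Submodule O (A × B)) := by
      rw [Submodule.map_smul'']; exact Submodule.smul_mono le_rfl le_top
    have hr : Submodule.map (LinearMap.inr O A B) (J • ⊤) ≤ J • (⊤ : Submodule O (A × B)) := by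
      rw [Submodule.map_smul'']; exact Submodule.smul_mono le_rfl le_top
    have ha : fA x ∈ J • (⊤ : Submodule O A) := by rw [Ideal.smul_top_eq_map]; exact hxA
    have hb : fB x ∈ J • (⊤ : Submodule O B) := by rw [Ideal.smul_top_eq_map]; exact hxB
    have := add_mem (hl (Submodule.mem_map_of_mem ha)) (hr (Submodule.mem_map_of_mem hb))
    simpa [f] using this
  rw [hJ, hk _ (Nat.le_add_left k m), Nat.add_sub_cancel] at h1
  have h2 : f x ∈ Submodule.map f (maximalIdeal O ^ m • ⊤) := by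
    rw [Submodule.map_smul'', Submodule.map_top]
    exact Submodule.smul_mono le_rfl inf_le_right h1
  obtain ⟨y, hy, hyx⟩ := h2
  have hy' : x ∈ maximalIdeal O ^ m • (⊤ : Submodule O R) := hf hyx ▸ hy
  rw [Ideal.smul_top_eq_map] at hy'
  exact hm hy'

/-- Strict ordinarity at `p` descends when `p` is odd and the determinant is cyclotomic. -/
theorem isStrictOrdinaryAt_of_jointly_injective (hp2 : p ≠ 2) (hp : (p : O) ∈ maximalIdeal O)
    (fA : R →ₐ[O] A) (fB : R →ₐ[O] B) (hA : IsLocalHom (fA : R →+* A))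
    (hB : IsLocalHom (fB : R →+* B)) (hinj : Function.Injective fun x => (fA x, fB x))
    (ρ : GaloisRepAdic R) (hdet : ρ.DetIsCyclotomic p)
    (h₁ : (ρ.baseChangeAlong (fA : R →+* A) hA).IsStrictOrdinaryAt p)
    (h₂ : (ρ.baseChangeAlong (fB : R →+* B) hB).IsStrictOrdinaryAt p) :
    ρ.IsStrictOrdinaryAt p := by
  haveI : IsNoetherianRing A := IsNoetherianRing.of_finite O A
  haveI : IsNoetherianRing B := IsNoetherianRing.of_finite O B
  refine ⟨by simpa using map_nonunit (algebraMap O R) (p : O) hp, fun P hP => ?_⟩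
  obtain ⟨τ, hτ, a₀, ha₀, hna⟩ := exists_inertia_exponent hp2 hP
  set ρA := ρ.baseChangeAlong (fA : R →+* A) hA with hρA
  set ρB := ρ.baseChangeAlong (fB : R →+* B) hB with hρB
  have hdetA : ρA.DetIsCyclotomic p := detIsCyclotomic_along _ hA ρ hdet
  have hdetB : ρB.DetIsCyclotomic p := detIsCyclotomic_along _ hB ρ hdet
  obtain ⟨hUA, hDA, hA'⟩ := strictOrdinary_side ρA hdetA h₁ hP hτ ha₀ hna
  obtain ⟨-, hDB, hB'⟩ := strictOrdinary_side ρB hdetB h₂ hP hτ ha₀ hna
  set EA := endAlong (fA : R →+* A) hA ρ with hEA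
  set EB := endAlong (fB : R →+* B) hB ρ with hEB
  have hscal : ∀ x y : R, (fA : R →+* A) x = (fA : R →+* A) y →
      (fB : R →+* B) x = (fB : R →+* B) y → x = y :=
    fun x y h h' => hinj (Prod.ext h h')
  have hend : ∀ f g : Module.End R ρ.V, EA f = EA g → EB f = EB g → f = g := by
    intro f g h h'
    let b := Module.Free.chooseBasis R ρ.V
    refine LinearMap.ext fun v => b.repr.injective (Finsupp.ext fun i => hscal _ _ ?_ ?_)
    · rw [← basisAlong_repr _ hA ρ b, ← basisAlong_repr _ hA ρ b, ← endAlong_tensorIncl,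
        ← endAlong_tensorIncl, ← hEA, h]
    · rw [← basisAlong_repr _ hB ρ b, ← basisAlong_repr _ hB ρ b, ← endAlong_tensorIncl,
        ← endAlong_tensorIncl, ← hEB, h']
  set D := ρ.ρ τ - 1 with hD
  set d := LinearMap.trace R ρ.V D with hd
  have hDA' : EA D = ρA.ρ τ - 1 := by rw [hD, map_sub, map_one]; rfl
  have hDB' : EB D = ρB.ρ τ - 1 := by rw [hD, map_sub, map_one]; rfl
  have hdA : LinearMap.trace A ρA.V (ρA.ρ τ - 1) = (fA : R →+* A) d := by
    rw [← hDA', hEA, trace_endAlong]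
  have hdB : LinearMap.trace B ρB.V (ρB.ρ τ - 1) = (fB : R →+* B) d := by
    rw [← hDB', hEB, trace_endAlong]
  rw [hdA] at hUA hDA hA'
  rw [hdB] at hDB hB'
  have hdu : IsUnit d := haveI := hA; isUnit_of_map_unit (fA : R →+* A) d hUA
  obtain ⟨u, hu⟩ := hdu.exists_left_inv
  obtain ⟨hIA, hSA⟩ := hA' ((fA : R →+* A) u) (by rw [← map_mul, hu, map_one])
  obtain ⟨hIB, hSB⟩ := hB' ((fB : R →+* B) u) (by rw [← map_mul, hu, map_one])
  set e := u • D with he
  clear_value e
  have heA : EA e = (fA : R →+* A) u • (ρA.ρ τ - 1) := by rw [he, hEA, endAlong_smul, ← hEA, hDA']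
  have heB : EB e = (fB : R →+* B) u • (ρB.ρ τ - 1) := by rw [he, hEB, endAlong_smul, ← hEB, hDB']
  rw [← heA] at hIA hSA
  rw [← heB] at hIB hSB
  have hDD : D * D = d • D := by
    refine hend _ _ ?_ ?_
    · rw [map_mul, hEA, endAlong_smul, ← hEA, hDA', hDA]
    · rw [map_mul, hEB, endAlong_smul, ← hEB, hDB', hDB]
  have hee : e * e = e := by
    rw [he, smul_mul_smul_comm, hDD, smul_smul, mul_assoc, hu, mul_one]
  have htre : LinearMap.trace R ρ.V e = 1 := by rw [he, map_smul, smul_eq_mul, ← hd, hu]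
  obtain ⟨b, hemem, heline⟩ := exists_basis_of_idempotent
    (Module.finBasisOfFinrankEq R ρ.V ρ.finrank_eq) e hee htre
  have hzero : ∀ f : Module.End R ρ.V, (1 - e) * f = 0 → ∀ v, f v ∈ R ∙ b 0 := by
    intro f h v
    have h' := LinearMap.congr_fun h v
    rw [Module.End.mul_apply, LinearMap.sub_apply, Module.End.one_apply, LinearMap.zero_apply,
      sub_eq_zero] at h'
    exact h' ▸ hemem _
  have hkey : ∀ σ ∈ P.decompositionSubgroup ℚ, ∀ X : R,
      X = LinearMap.trace R ρ.V (ρ.ρ σ * e) →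
      ρ.ρ σ * e = X • e ∧ (1 - e) * (ρ.ρ σ - (ρ.trace σ - X) • 1) = 0 ∧
      (ρ.trace σ - X) ^ 2 = 1 ∧ X * (ρ.trace σ - X) = LinearMap.det (ρ.ρ σ) := by
    intro σ hσ X hX
    obtain ⟨a1, a2, a3, a4⟩ := hSA σ hσ ((fA : R →+* A) X)
      (by rw [hX, ← trace_endAlong _ hA ρ, map_mul]; rfl)
    obtain ⟨b1, b2, b3, b4⟩ := hSB σ hσ ((fB : R →+* B) X)
      (by rw [hX, ← trace_endAlong _ hB ρ, map_mul]; rfl)
    have hZA : ρA.trace σ - (fA : R →+* A) X = (fA : R →+* A) (ρ.trace σ - X) := by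
      rw [map_sub, GaloisRepAdic.trace, GaloisRepAdic.trace, ← trace_endAlong _ hA ρ]; rfl
    have hZB : ρB.trace σ - (fB : R →+* B) X = (fB : R →+* B) (ρ.trace σ - X) := by
      rw [map_sub, GaloisRepAdic.trace, GaloisRepAdic.trace, ← trace_endAlong _ hB ρ]; rfl
    rw [hZA] at a2 a3 a4
    rw [hZB] at b2 b3 b4
    refine ⟨hend _ _ ?_ ?_, hend _ _ ?_ ?_, hscal _ _ ?_ ?_, hscal _ _ ?_ ?_⟩
    · rw [map_mul, hEA, endAlong_smul _ hA ρ X e, endAlong_rho]; exact a1
    · rw [map_mul, hEB, endAlong_smul _ hB ρ X e, endAlong_rho]; exact b1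
    · rw [map_zero, map_mul, map_sub, map_sub, map_one, hEA, endAlong_smul _ hA ρ (ρ.trace σ - X) 1,
        endAlong_rho, map_one]; exact a2
    · rw [map_zero, map_mul, map_sub, map_sub, map_one, hEB, endAlong_smul _ hB ρ (ρ.trace σ - X) 1,
        endAlong_rho, map_one]; exact b2
    · rw [map_pow, map_one]; exact a3
    · rw [map_pow, map_one]; exact b3
    · rw [map_mul, ← det_endAlong _ hA ρ]; exact a4
    · rw [map_mul, ← det_endAlong _ hB ρ]; exact b4
  refine ⟨R ∙ b 0, ⟨b, rfl⟩, fun σ hσ w hw => ?_, fun σ hσ v => ?_, fun σ hσ => ?_⟩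
  · have h := LinearMap.congr_fun (hkey σ hσ _ rfl).1 w
    rw [Module.End.mul_apply, LinearMap.smul_apply, heline w hw] at h
    exact h ▸ Submodule.smul_mem _ _ hw
  · refine hzero (ρ.ρ σ - 1) (hend _ _ ?_ ?_) v
    · rw [map_zero, map_mul, map_sub, map_sub, map_one]; exact hIA σ hσ
    · rw [map_zero, map_mul, map_sub, map_sub, map_one]; exact hIB σ hσ
  · obtain ⟨k1, k2, k3, k4⟩ := hkey σ hσ _ rfl
    set X := LinearMap.trace R ρ.V (ρ.ρ σ * e)
    set Z := ρ.trace σ - X
    refine ⟨X, Z, fun w hw => ?_, fun v => ?_, fun n a ha => ?_⟩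
    · have h := LinearMap.congr_fun k1 w
      rwa [Module.End.mul_apply, LinearMap.smul_apply, heline w hw] at h
    · simpa using hzero _ k2 v
    · rw [show X - (a : R) * Z = Z * (LinearMap.det (ρ.ρ σ) - a) by
        linear_combination (-X) * k3 + Z * k4]
      exact Ideal.mul_mem_left _ _ (hdet.2 n σ a ha)

end FLTAgent.Lower.Lift
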