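import Mathlib
import Fermat.Agent.Reps.Coeff

/-!
# Coefficient rings

`exists_coeffRing`: for a prime `p` and a finite set `L` there is a complete discrete valuation
ring with finite residue field of characteristic `p`, of characteristic zero, containing the
primitive `p ^ v_p(l - 1)`-th roots of unity for `l ∈ L`, in whose residue field every monic
quadratic over `𝔽_p` splits. It is built by adjoining, one at a time, roots of finitely many
monic polynomials to `ℤ_p` (`exists_extension_roots`).
-/

set_option autoImplicit false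
set_option linter.style.haveILetI false

noncomputable section

namespace FLTAgent.Lower.Lift

open IsLocalRing (ResidueField maximalIdeal)
open Polynomial

/-- A finite extension with roots of finitely many monic polynomials. -/
theorem exists_extension_roots (O : Type) [CommRing O] [IsDomain O] [IsDiscreteValuationRing O]
    [IsAdicComplete (maximalIdeal O) O] [Finite (ResidueField O)] [CharZero O]
    (fs : List (Polynomial O)) (hfs : ∀ f ∈ fs, f.Monic ∧ 0 < f.natDegree) :
    ∃ (O' : Type) (_ : CommRing O') (_ : IsDomain O') (_ : IsDiscreteValuationRing O')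
      (_ : IsAdicComplete (maximalIdeal O') O') (_ : Finite (ResidueField O')) (_ : CharZero O')
      (φ : O →+* O'), IsLocalHom φ ∧ ∀ f ∈ fs, ∃ x, (f.map φ).IsRoot x := by
  induction fs with
  | nil =>
    exact ⟨O, inferInstance, inferInstance, inferInstance, inferInstance, inferInstance,
      inferInstance, RingHom.id O, inferInstance, by simp⟩
  | cons f fs ih =>
    obtain ⟨O₁, _, _, _, _, _, _, φ, hφ, hroots⟩ := ih fun g hg => hfs g (List.mem_cons_of_mem f hg)
    obtain ⟨hmon, hdeg⟩ := hfs f List.mem_cons_self
    have hmon₁ : (f.map φ).Monic := hmon.map φ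
    have hdeg₁ : 0 < (f.map φ).natDegree := by rwa [hmon.natDegree_map φ]
    have hne : (f.map φ).degree ≠ 0 := fun h =>
      hdeg₁.ne' (natDegree_eq_of_degree_eq_some h)
    haveI : Module.Finite O₁ (AdjoinRoot (f.map φ)) := hmon₁.finite_adjoinRoot
    obtain ⟨O₂, _, _, _, _, _, _, _, _, hloc, -, χ, hχ⟩ :=
      Reps.exists_dvr_extension (algebraMap O₁ (AdjoinRoot (f.map φ)))
        (AdjoinRoot.of.injective_of_degree_ne_zero hne)
        (RingHom.finite_algebraMap.mpr inferInstance) (RingHom.id O₁)
    refine ⟨O₂, inferInstance, inferInstance, inferInstance, inferInstance, inferInstance,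
      inferInstance, (algebraMap O₁ O₂).comp φ, RingHom.isLocalHom_comp _ _, fun g hg => ?_⟩
    rcases List.mem_cons.1 hg with rfl | hg
    · refine ⟨χ (AdjoinRoot.root _), ?_⟩
      rw [RingHom.comp_id] at hχ
      rw [Polynomial.IsRoot.def, ← Polynomial.map_map, Polynomial.eval_map, ← hχ,
        ← Polynomial.hom_eval₂]
      exact (congrArg χ (AdjoinRoot.eval₂_root (g.map φ))).trans (map_zero χ)
    · obtain ⟨x, hx⟩ := hroots g hg
      refine ⟨algebraMap O₁ O₂ x, ?_⟩
      rw [← Polynomial.map_map]
      exact hx.map

/-- Coefficients with the roots of unity needed at the primes of `L` and split residue field. -/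
theorem exists_coeffRing (p : ℕ) [Fact p.Prime] (L : Finset ℕ) :
    ∃ (O : Type) (_ : CommRing O) (_ : IsDomain O) (_ : IsDiscreteValuationRing O)
      (_ : IsAdicComplete (maximalIdeal O) O) (_ : Finite (ResidueField O)) (_ : CharZero O),
      (p : O) ∈ maximalIdeal O ∧
      (∀ l ∈ L, ∃ c : O, IsPrimitiveRoot c (p ^ padicValNat p (l - 1))) ∧
      ∀ a b : ZMod p, ∀ i : ZMod p →+* ResidueField O,
        ∃ α β : ResidueField O, α + β = i a ∧ α * β = i b := by
  classical
  have hp : p.Prime := Fact.out
  let quad : ZMod p × ZMod p → Polynomial ℤ_[p] := fun ab =>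
    X ^ 2 - C (ab.1.val : ℤ_[p]) * X + C (ab.2.val : ℤ_[p])
  let cyc : ℕ → Polynomial ℤ_[p] := fun l => cyclotomic (p ^ padicValNat p (l - 1)) ℤ_[p]
  have hquad : ∀ ab, (quad ab).Monic ∧ 0 < (quad ab).natDegree := fun ab => by
    have hd : (quad ab).natDegree = 2 := by
      simp only [quad]
      compute_degree!
    refine ⟨?_, by omega⟩
    rw [Monic, leadingCoeff, hd]
    simp [quad]
  obtain ⟨O, _, _, _, _, _, _, φ, hφ, hroots⟩ := exists_extension_roots ℤ_[p]
    ((Finset.univ.toList.map quad) ++ L.toList.map cyc) (by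
      intro f hf
      rcases List.mem_append.1 hf with hf | hf <;> obtain ⟨a, -, rfl⟩ := List.mem_map.1 hf
      · exact hquad a
      · exact ⟨cyclotomic.monic _ _, by
          rw [natDegree_cyclotomic]
          exact Nat.totient_pos.2 (pow_pos hp.pos _)⟩)
  have hpO : (p : O) ∈ maximalIdeal O := by
    rw [← map_natCast φ]
    refine map_nonunit φ _ ?_
    rw [PadicInt.maximalIdeal_eq_span_p]
    exact Ideal.mem_span_singleton_self _
  refine ⟨O, inferInstance, inferInstance, inferInstance, inferInstance, inferInstance,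
    inferInstance, hpO, fun l hl => ?_, fun a b i => ?_⟩
  · obtain ⟨x, hx⟩ := hroots (cyc l)
      (List.mem_append_right _ (List.mem_map.2 ⟨l, Finset.mem_toList.2 hl, rfl⟩))
    rw [Polynomial.map_cyclotomic] at hx
    haveI : NeZero ((p ^ padicValNat p (l - 1) : ℕ) : O) :=
      ⟨Nat.cast_ne_zero.2 (pow_ne_zero _ hp.ne_zero)⟩
    exact ⟨x, Polynomial.isRoot_cyclotomic_iff.1 hx⟩
  · obtain ⟨x, hx⟩ := hroots (quad (a, b))
      (List.mem_append_left _ (List.mem_map.2 ⟨(a, b), Finset.mem_toList.2 (Finset.mem_univ _), rfl⟩))
    have hi : ∀ z : ZMod p, i z = IsLocalRing.residue O (φ (z.val : ℤ_[p])) := fun z => by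
      conv_lhs => rw [← ZMod.natCast_zmod_val z]
      rw [map_natCast, map_natCast, map_natCast]
    refine ⟨IsLocalRing.residue O x, i a - IsLocalRing.residue O x, add_sub_cancel _ _, ?_⟩
    simp only [quad, Polynomial.IsRoot.def, Polynomial.map_add, Polynomial.map_sub,
      Polynomial.map_mul, Polynomial.map_pow, Polynomial.map_X, Polynomial.map_C, eval_add,
      eval_sub, eval_mul, eval_pow, eval_X, eval_C] at hx
    have h := congrArg (IsLocalRing.residue O) hx
    simp only [map_add, map_sub, map_mul, map_pow, map_zero] at h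
    rw [hi a, hi b]
    linear_combination -h

end FLTAgent.Lower.Lift
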