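import Fermat.Agent.Lower.Lift.Defs
import Fermat.Agent.ResidualSetup.Residual

/-!
# The residual hypotheses for a semistable model

`residual_of_isModRep`: the mod `p` representation of a semistable model with `p` odd and
irreducible `E[p]`, over a field splitting the needed quadratics, satisfies `Residual` with the
ramified set `minPrimes W p`; outside it `p ∣ v(Δ)` (`dvd_padicValInt_of_notMem`).
-/

set_option autoImplicit false
set_option linter.style.haveILetI false

noncomputable section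

namespace FLTAgent.Lower.Lift

open FLTAgent.ResidualSetup (IsModRep)

/-- A prime outside `insert p (minPrimes W p)` has `p ∣ v(Δ)`. -/
theorem dvd_padicValInt_of_notMem {W : WeierstrassCurve ℤ} (hΔ : W.Δ ≠ 0) {p l : ℕ} (hl : l.Prime)
    (hlp : l ≠ p) (h : l ∉ minPrimes W p) : p ∣ padicValInt l W.Δ := by
  by_cases hbad : (l : ℤ) ∣ W.Δ
  · by_contra hv
    refine h (Finset.mem_filter.2 ⟨Finset.mem_erase.2 ⟨hlp, ?_⟩, hv⟩)
    exact Nat.mem_primeFactors.2 ⟨hl, Int.natCast_dvd.1 hbad, Int.natAbs_ne_zero.2 hΔ⟩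
  · rw [padicValInt.eq_zero_of_not_dvd hbad]
    exact dvd_zero p

/-- The residual hypotheses hold for `E[p]`. -/
theorem residual_of_isModRep {W : WeierstrassCurve ℤ} (hΔ : W.Δ ≠ 0) (hW : W.IsSemistableModel)
    {p : ℕ} [Fact p.Prime] (hp2 : p ≠ 2) (hirr : W.ModRepIsIrreducible p) {k : Type} [Field k]
    {i : ZMod p →+* k} {ρbar : ResidualGaloisRep k}
    (hsplit : ∀ a b : ZMod p, ∃ α β : k, α + β = i a ∧ α * β = i b)
    (h : IsModRep W p i ρbar) : Residual p (minPrimes W p) ρbar :=
  have hmem : ∀ l ∈ minPrimes W p, l.Prime ∧ l ≠ p := fun _ hl =>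
    have h1 := Finset.mem_erase.1 (Finset.mem_filter.1 hl).1
    ⟨Nat.prime_of_mem_primeFactors h1.2, h1.1⟩
  { absIrr := h.isAbsolutelyIrreducible hΔ hp2 hirr
    det := h.detIsCyclotomic hΔ
    split := h.split hΔ hsplit
    big := h.big hΔ hW hp2 hirr
    min_prime := hmem
    ramified := fun l hl => h.not_isUnramifiedAt hΔ hW hp2 (hmem l hl).1 (hmem l hl).2
      (Finset.mem_filter.1 hl).2
    unipotent := fun l hl => h.isUnipotentOnInertiaAt hΔ hW hp2 (hmem l hl).1 (hmem l hl).2
    unramified := fun _ hl hl' hlp =>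
      h.isUnramifiedAt hΔ hW hp2 hl hlp (dvd_padicValInt_of_notMem hΔ hl hlp hl') }

end FLTAgent.Lower.Lift
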