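import Mathlib
import Fermat.Prelude.Def_GaloisRep_StrictOrdinary
import Fermat.Agent.Lower.FlatType

/-!
# Local types at `p`

`ordType` (strictly ordinary), `flatOrdType` (flat and strictly ordinary) and `anyType` (no
condition), with the stability of strict ordinarity under base change
(`isStrictOrdinaryAt_baseChangeAlong`). `flatType` is in `Lower.FlatType`.
-/

set_option autoImplicit false
set_option linter.style.haveILetI false

noncomputable section

namespace FLTAgent.Lower.Lift

open scoped TensorProduct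
open FLTAgent.Lower

/-- Strict ordinarity is stable under base change. -/
theorem isStrictOrdinaryAt_baseChangeAlong {A B : Type} [CommRing A] [IsLocalRing A] [CommRing B]
    [IsLocalRing B] (p : ℕ) (φ : A →+* B) (hφ : IsLocalHom φ) (ρ : GaloisRepAdic A)
    (h : ρ.IsStrictOrdinaryAt p) : (ρ.baseChangeAlong φ hφ).IsStrictOrdinaryAt p := by
  refine ⟨by simpa using map_nonunit φ (p : A) h.1, fun P hP => ?_⟩
  obtain ⟨L, ⟨b, hL⟩, hD, hI, hxz⟩ := h.2 P hP
  letI : Algebra A B := φ.toAlgebra
  subst hL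
  let b' : Module.Basis (Fin 2) B (B ⊗[A] ρ.V) := b.baseChange B
  have hb' : b' 0 = (1 : B) ⊗ₜ[A] b 0 := Module.Basis.baseChange_apply B b 0
  -- an element of the line
  have hline : ∀ v ∈ (A ∙ b 0), (1 : B) ⊗ₜ[A] v ∈ (B ∙ b' 0) := by
    intro v hv
    obtain ⟨a, rfl⟩ := Submodule.mem_span_singleton.1 hv
    refine Submodule.mem_span_singleton.2 ⟨φ a, ?_⟩
    rw [hb', TensorProduct.smul_tmul', ← TensorProduct.smul_tmul]
    rfl
  have hall : ∀ (f : Module.End A ρ.V), (∀ v, f v ∈ (A ∙ b 0)) →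
      ∀ w, f.baseChange B w ∈ (B ∙ b' 0) := by
    intro f hf w
    induction w using TensorProduct.induction_on with
    | zero => simp
    | tmul c v =>
      rw [LinearMap.baseChange_tmul, show c ⊗ₜ[A] f v = c • ((1 : B) ⊗ₜ[A] f v) by
        rw [TensorProduct.smul_tmul', smul_eq_mul, mul_one]]
      exact Submodule.smul_mem _ _ (hline _ (hf v))
    | add u v hu hv => rw [map_add]; exact add_mem hu hv
  refine ⟨B ∙ b' 0, ⟨b', rfl⟩, fun σ hσ w hw => ?_, fun σ hσ w => ?_, fun σ hσ => ?_⟩
  · obtain ⟨c, rfl⟩ := Submodule.mem_span_singleton.1 hw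
    change (ρ.ρ σ).baseChange B (c • b' 0) ∈ _
    rw [map_smul, hb', LinearMap.baseChange_tmul]
    exact hb' ▸ Submodule.smul_mem _ _ (hline _ (hD σ hσ _ (Submodule.mem_span_singleton_self _)))
  · have h1 := hall (ρ.ρ σ - 1) (fun v => by simpa using hI σ hσ v) w
    rw [LinearMap.baseChange_sub, LinearMap.baseChange_one] at h1
    exact h1
  · obtain ⟨x, z, hx, hz, hxz'⟩ := hxz σ hσ
    refine ⟨φ x, φ z, fun w hw => ?_, fun (w : B ⊗[A] ρ.V) => ?_, fun n a ha => ?_⟩
    · obtain ⟨c, rfl⟩ := Submodule.mem_span_singleton.1 hw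
      change (ρ.ρ σ).baseChange B (c • b' 0) = _
      rw [map_smul, hb', LinearMap.baseChange_tmul, hx _ (Submodule.mem_span_singleton_self _)]
      have e : (1 : B) ⊗ₜ[A] (x • b 0) = φ x • ((1 : B) ⊗ₜ[A] b 0) := by
        rw [TensorProduct.smul_tmul', ← TensorProduct.smul_tmul]
        rfl
      exact (congrArg (c • ·) e).trans (smul_comm c (φ x) _)
    · have h1 := hall (ρ.ρ σ - z • 1) (fun v => by simpa using hz v) w
      rw [LinearMap.baseChange_sub, LinearMap.baseChange_smul, LinearMap.baseChange_one] at h1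
      change (ρ.ρ σ).baseChange B w - φ z • w ∈ _
      change (ρ.ρ σ).baseChange B w - z • w ∈ _ at h1
      rwa [show φ z • w = z • w from algebraMap_smul B z w]
    · obtain ⟨d, hd⟩ := Ideal.mem_span_singleton'.1 (hxz' n a ha)
      refine Ideal.mem_span_singleton'.2 ⟨φ d, ?_⟩
      rw [← map_natCast φ, ← map_mul, hd, map_sub, map_mul, map_natCast]

/-- Strictly ordinary at `p`. -/
def ordType (p : ℕ) : LocalType where
  cond ρ := ρ.IsStrictOrdinaryAt p
  baseChange φ hφ ρ _ h := isStrictOrdinaryAt_baseChangeAlong p φ hφ ρ h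

/-- Flat and strictly ordinary at `p`. -/
def flatOrdType (p : ℕ) : LocalType where
  cond ρ := ρ.IsFlatAt p ∧ ρ.IsStrictOrdinaryAt p
  baseChange φ hφ ρ hs h := ⟨isFlatAt_baseChangeAlong p φ hφ ρ hs h.1,
    isStrictOrdinaryAt_baseChangeAlong p φ hφ ρ h.2⟩

/-- No condition at `p`. -/
def anyType : LocalType where
  cond _ := True
  baseChange _ _ _ _ _ := trivial

end FLTAgent.Lower.Lift
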