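import Mathlib
import Fermat.Agent.Lower.Lift.Types
import Fermat.Agent.Lower.Galois

/-!
# The lifting theorem at an odd prime: shared definitions

* `Residual`: the hypotheses on `ρbar`; `HasSystem`, `NoSystemPrimeTo`, `LevelCase`: its
  occurrence in weight two and the two cases at `p` (flat, or strictly ordinary at level `∋ p`).
* `HeckeMod`: a Hecke ring with its representation, acting faithfully on `O ^ d`; `IsModular`,
  `Contains`; `HeckeLevel`: the same at auxiliary primes of depth `n`.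
* `Hop`, `HopLevel`: the data of raising one prime `q` from level `N` to `N q`: old, full and new
  modules, the degeneracy maps `ι`, `π` and the exact sequence `0 → new → full → old ^ m → 0`.
* `CurveRep`: the residual and `p`-adic representations of a semistable curve, with `badPrimes`
  and the residually ramified `minPrimes`.
-/

set_option autoImplicit false

noncomputable section

namespace FLTAgent.Lower.Lift

open scoped WeierstrassCurve.Affine
open IsLocalRing (ResidueField maximalIdeal)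
open Polynomial (X C)
open FLTAgent.Lower

local notation "ℚ̄" => AlgebraicClosure ℚ
local notation "Γℚ" => (AlgebraicClosure ℚ ≃ₐ[ℚ] AlgebraicClosure ℚ)

/-- The residual hypotheses: `Smin` is the set of ramified primes other than `p`. -/
structure Residual {k : Type} [Field k] (p : ℕ) (Smin : Finset ℕ) (ρbar : ResidualGaloisRep k) :
    Prop where
  absIrr : ρbar.IsAbsolutelyIrreducible
  det : (GaloisRepAdic.ofResidualGaloisRep ρbar).DetIsCyclotomic p
  split : ∀ σ : Γℚ, ∃ α β : k, LinearMap.charpoly (ρbar.ρ σ) = (X - C α) * (X - C β)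
  big : ∀ (K : Type) [Field K] [Algebra k K] (G : Subgroup Γℚ), G.index = 2 →
    ∀ V : Submodule K (ρbar.baseChange K).V,
      (∀ σ ∈ G, ∀ x ∈ V, (ρbar.baseChange K).ρ σ x ∈ V) → V = ⊥ ∨ V = ⊤
  min_prime : ∀ l ∈ Smin, l.Prime ∧ l ≠ p
  ramified : ∀ l ∈ Smin, ¬ ρbar.IsUnramifiedAt l
  unipotent : ∀ l ∈ Smin, (GaloisRepAdic.ofResidualGaloisRep ρbar).IsUnipotentOnInertiaAt l
  unramified : ∀ l : ℕ, l.Prime → l ∉ Smin → l ≠ p → ρbar.IsUnramifiedAt l

/-- `ρbar` is scalar on the decomposition group of `A`. -/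
def IsScalarAt {k : Type} [Field k] (ρbar : ResidualGaloisRep k) (A : ValuationSubring ℚ̄) : Prop :=
  ∀ τ ∈ A.decompositionSubgroup ℚ, ∃ c : k, ρbar.ρ τ = c • 1

open scoped Classical in
/-- `dim H⁰(D_A, ad⁰)` for an unramified place. -/
def placeWeight {k : Type} [Field k] (ρbar : ResidualGaloisRep k) (A : ValuationSubring ℚ̄) : ℕ :=
  if IsScalarAt ρbar A then 3 else 1

/-- On the decomposition group of `A` the deformation is isomorphic to a constant one. -/
def ConstantAt {k : Type} [Field k] (ρ : GaloisRepAdic (DualNumber k))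
    (A : ValuationSubring ℚ̄) : Prop :=
  ∃ b : Module.Basis (Fin 2) (DualNumber k) ρ.V, ∀ τ ∈ A.decompositionSubgroup ℚ, ∀ i j,
    TrivSqZeroExt.snd (matHom ρ b τ i j) = 0

/-- The primes of the level, and `p`. -/
def levelPrimes (p N : ℕ) : Finset ℕ := insert p N.primeFactors

/-- The primes of the level other than `p`. -/
def unipPrimes (p N : ℕ) : Finset ℕ := N.primeFactors.erase p

/-- `ρbar` occurs in weight two and level `N`. -/
def HasSystem {k : Type} [Field k] (p N : ℕ) [NeZero N] (ρbar : ResidualGaloisRep k) : Prop :=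
  ∃ θ : CuspForm.heckeAlgebra N 2 (↑(levelPrimes p N) : Set ℕ) →+* k,
    ∀ (l : ℕ) (hl : l.Prime) (hlN : ¬ l ∣ N) (hlS : l ∉ (↑(levelPrimes p N) : Set ℕ))
      (A : ValuationSubring ℚ̄) (φ : Γℚ), A.LiesOverPrime l → A.IsFrobeniusAt φ l →
      θ (CuspForm.heckeAlgebra.T hl hlN hlS) = LinearMap.trace k ρbar.V (ρbar.ρ φ)

/-- `ρbar` does not occur at a squarefree level prime to `p`. -/
def NoSystemPrimeTo {k : Type} [Field k] (p : ℕ) (ρbar : ResidualGaloisRep k) : Prop :=
  ∀ (M : ℕ) [NeZero M], Squarefree M → ¬ p ∣ M → ¬ HasSystem p M ρbar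

/-- The two cases at `p`: level prime to `p` with flat type, or level divisible by `p`, no system
prime to `p`, with strictly ordinary type. -/
inductive LevelCase {k : Type} [Field k] (p N : ℕ) (ρbar : ResidualGaloisRep k) :
    LocalType → Prop
  | flat : ¬ p ∣ N → LevelCase p N ρbar (flatType p)
  | ord : p ∣ N → NoSystemPrimeTo p ρbar → LevelCase p N ρbar (ordType p)

variable {O : Type} [CommRing O] [IsDomain O] [IsDiscreteValuationRing O]
  [IsAdicComplete (maximalIdeal O) O]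

/-- A Hecke ring with its representation, acting faithfully on `O ^ d`. -/
structure HeckeMod (loc : LocalType) (p : ℕ) (S U : Finset ℕ)
    (ρbar : ResidualGaloisRep (ResidueField O)) : Type 1 where
  T : Type
  [instCommRing : CommRing T]
  [instIsLocalRing : IsLocalRing T]
  [instAlgebra : Algebra O T]
  [instIsLocalHom : IsLocalHom (algebraMap O T)]
  [instFinite : Module.Finite O T]
  residue_surjective : Function.Surjective (IsLocalRing.residue T ∘ algebraMap O T)
  ρ : GaloisRepAdic T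
  residual_isEquiv : ρ.residual.IsEquiv
    (ρbar.baseChangeAlong (ResidueField.map (algebraMap O T)))
  cond : Cond loc p U S ρ
  adjoin_trace : Algebra.adjoin O (Set.range ρ.trace) = ⊤
  d : ℕ
  Φ : T →ₐ[O] Matrix (Fin d) (Fin d) O
  Φ_injective : Function.Injective Φ

attribute [instance] HeckeMod.instCommRing HeckeMod.instIsLocalRing HeckeMod.instAlgebra
  HeckeMod.instIsLocalHom HeckeMod.instFinite

variable {ρbar : ResidualGaloisRep (ResidueField O)} {p : ℕ}

/-- The points are weight two systems of level `N`, and a point unramified at a prime `l` of the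
level has `a_l ^ 2 ≠ (l + 1) ^ 2`. -/
structure IsModular {loc : LocalType} {S U : Finset ℕ} (N : ℕ) [NeZero N]
    (B : HeckeMod loc p S U ρbar) : Prop where
  system_of_point : ∀ (K : Type) [Field K] [CharZero K] (f : B.T →+* K),
    ∃ χ : CuspForm.heckeAlgebra N 2 (↑(levelPrimes p N) : Set ℕ) →+* K,
      ∀ (l : ℕ) (hl : l.Prime) (hlN : ¬ l ∣ N) (hlS : l ∉ (↑(levelPrimes p N) : Set ℕ))
        (A : ValuationSubring ℚ̄) (φ : Γℚ), A.LiesOverPrime l → A.IsFrobeniusAt φ l →
        χ (CuspForm.heckeAlgebra.T hl hlN hlS) = f (B.ρ.trace φ)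
  not_special : ∀ (K : Type) [Field K] [CharZero K] (f : B.T →+* K) (l : ℕ),
    l.Prime → l ∣ N → l ≠ p →
      (∀ A : ValuationSubring ℚ̄, A.LiesOverPrime l → ∀ τ ∈ A.inertiaSubgroupIn ℚ,
        ∀ b : Module.Basis (Fin 2) B.T B.ρ.V, (matHom B.ρ b τ).map f = 1) →
      ∀ (A : ValuationSubring ℚ̄) (φ : Γℚ), A.LiesOverPrime l → A.IsFrobeniusAt φ l →
        f (B.ρ.trace φ) ^ 2 ≠ ((l : K) + 1) ^ 2

/-- Every point of `B'` gives a point of `B` with the same traces. -/
def Contains {loc loc' : LocalType} {S U S' U' : Finset ℕ} (B : HeckeMod loc p S U ρbar)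
    (B' : HeckeMod loc' p S' U' ρbar) : Prop :=
  ∀ (D : Type) [CommRing D] [IsDomain D] [CharZero D] [Algebra O D] (f' : B'.T →ₐ[O] D),
    ∃ f : B.T →ₐ[O] D, ∀ σ : Γℚ, f (B.ρ.trace σ) = f' (B'.ρ.trace σ)

/-- The Hecke ring at auxiliary primes of depth `n`, acting on the free module over
`O[[X]]/((1+X)^(p^n) - 1)`, reducing to `B`. -/
structure HeckeLevel {loc : LocalType} {S U : Finset ℕ} (B : HeckeMod loc p S U ρbar) (n : ℕ)
    {r : ℕ} (Qv : Fin r → ℕ) : Type 1 where
  T : Type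
  [instCommRing : CommRing T]
  [instIsLocalRing : IsLocalRing T]
  [instAlgebra : Algebra O T]
  [instIsLocalHom : IsLocalHom (algebraMap O T)]
  [instFinite : Module.Finite O T]
  residue_surjective : Function.Surjective (IsLocalRing.residue T ∘ algebraMap O T)
  ρ : GaloisRepAdic T
  residual_isEquiv : ρ.residual.IsEquiv
    (ρbar.baseChangeAlong (ResidueField.map (algebraMap O T)))
  cond : Cond loc p U (S ∪ Finset.univ.image Qv) ρ
  adjoin_trace : Algebra.adjoin O (Set.range ρ.trace) = ⊤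
  π : T →ₐ[O] B.T
  π_isLocalHom : IsLocalHom (π : T →+* B.T)
  π_isEquiv : (ρ.baseChangeAlong (π : T →+* B.T) π_isLocalHom).IsEquiv B.ρ
  Ψ : T →ₐ[O] Matrix (Fin B.d) (Fin B.d) (MvPowerSeries (Fin r) O ⧸ levelIdeal p n r O)
  base_eq : ∀ t i j (f : MvPowerSeries (Fin r) O), Ideal.Quotient.mk _ f = Ψ t i j →
    MvPowerSeries.constantCoeff f = B.Φ (π t) i j
  /-- An inertia element at `Qv i` with trace `(1 + X i) + (1 + X i)⁻¹` in the action. -/
  tw_rel : ∀ i : Fin r, ∃ σ : Γℚ,
    (∃ A : ValuationSubring ℚ̄, A.LiesOverPrime (Qv i) ∧ σ ∈ A.inertiaSubgroupIn ℚ) ∧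
    Ψ (ρ.trace σ - 2) * Matrix.scalar (Fin B.d) (Ideal.Quotient.mk (levelIdeal p n r O)
        (1 + MvPowerSeries.X i)) =
      Matrix.scalar (Fin B.d) (Ideal.Quotient.mk (levelIdeal p n r O)
        (MvPowerSeries.X i ^ 2))

attribute [instance] HeckeLevel.instCommRing HeckeLevel.instIsLocalRing HeckeLevel.instAlgebra
  HeckeLevel.instIsLocalHom HeckeLevel.instFinite

/-- Frobenius at `q` has trace `±(q + 1)`. -/
def IsSpecial {A : Type} [CommRing A] [IsLocalRing A] (q : ℕ) (ρ : GaloisRepAdic A) : Prop :=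
  ∀ (P : ValuationSubring ℚ̄) (φ : Γℚ), P.LiesOverPrime q → P.IsFrobeniusAt φ q →
    ρ.trace φ ^ 2 = ((q : A) + 1) ^ 2

/-- `x` is divisible by `a_q ^ 2 - (q + 1) ^ 2`. -/
def DivBySpecial {A : Type} [CommRing A] [IsLocalRing A] (q : ℕ) (ρ : GaloisRepAdic A) (x : A) :
    Prop :=
  ∀ (P : ValuationSubring ℚ̄) (φ : Γℚ), P.LiesOverPrime q → P.IsFrobeniusAt φ q →
    ρ.trace φ ^ 2 - ((q : A) + 1) ^ 2 ∣ x

/-- Raising `q` from level `N`. -/
structure Hop (locOld locNew : LocalType) (p N q : ℕ)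
    (ρbar : ResidualGaloisRep (ResidueField O)) : Type 1 where
  old : HeckeMod locOld p (levelPrimes p N) (unipPrimes p N) ρbar
  all : HeckeMod anyType p (levelPrimes p (N * q)) (unipPrimes p (N * q)) ρbar
  new : HeckeMod locNew p (levelPrimes p (N * q)) (unipPrimes p (N * q)) ρbar
  resOld : all.T →ₐ[O] old.T
  resOld_isLocalHom : IsLocalHom (resOld : all.T →+* old.T)
  resOld_isEquiv : (all.ρ.baseChangeAlong (resOld : all.T →+* old.T) resOld_isLocalHom).IsEquiv
    old.ρ
  resNew : all.T →ₐ[O] new.T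
  resNew_isLocalHom : IsLocalHom (resNew : all.T →+* new.T)
  resNew_isEquiv : (all.ρ.baseChangeAlong (resNew : all.T →+* new.T) resNew_isLocalHom).IsEquiv
    new.ρ
  /-- The number of copies of the old module. -/
  m : ℕ
  ι : Matrix (Fin all.d) (Fin old.d × Fin m) O
  π : Matrix (Fin old.d × Fin m) (Fin all.d) O
  j : Matrix (Fin all.d) (Fin new.d) O
  m_pos : 0 < m
  π_surjective : ∃ s : Matrix (Fin all.d) (Fin old.d × Fin m) O, π * s = 1
  ι_split : ∃ s : Matrix (Fin old.d × Fin m) (Fin all.d) O, s * ι = 1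
  j_split : ∃ s : Matrix (Fin new.d) (Fin all.d) O, s * j = 1
  π_j : π * j = 0
  exact : ∀ x : Fin all.d → O, Matrix.mulVec π x = 0 → ∃ y, Matrix.mulVec j y = x
  ι_comm : ∀ t, all.Φ t * ι = ι * (Matrix.blockDiagonal fun _ => old.Φ (resOld t) :
    Matrix (Fin old.d × Fin m) (Fin old.d × Fin m) O)
  π_comm : ∀ t, (Matrix.blockDiagonal fun _ => old.Φ (resOld t) :
    Matrix (Fin old.d × Fin m) (Fin old.d × Fin m) O) * π = π * all.Φ t
  j_comm : ∀ t, all.Φ t * j = j * new.Φ (resNew t)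
  e : Matrix (Fin m) (Fin m) old.T
  π_ι : π * ι = Matrix.of fun a b => old.Φ (e a.2 b.2) a.1 b.1
  det_e_mem : e.det ∈ maximalIdeal old.T
  /-- the composite is injective -/
  π_ι_ne_zero : (π * ι).det ≠ 0
  det_e : q ≠ p → DivBySpecial q old.ρ e.det
  special : q ≠ p → IsSpecial q new.ρ

/-- The data of a hop at auxiliary primes of depth `n`. -/
structure HopLevel {locOld locNew : LocalType} {N q : ℕ} (H : Hop locOld locNew p N q ρbar)
    (n : ℕ) {r : ℕ} (Qv : Fin r → ℕ) : Type 1 where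
  old : HeckeLevel H.old n Qv
  all : HeckeLevel H.all n Qv
  new : HeckeLevel H.new n Qv
  resOld : all.T →ₐ[O] old.T
  resOld_isLocalHom : IsLocalHom (resOld : all.T →+* old.T)
  resOld_isEquiv : (all.ρ.baseChangeAlong (resOld : all.T →+* old.T) resOld_isLocalHom).IsEquiv
    old.ρ
  resNew : all.T →ₐ[O] new.T
  resNew_isLocalHom : IsLocalHom (resNew : all.T →+* new.T)
  resNew_isEquiv : (all.ρ.baseChangeAlong (resNew : all.T →+* new.T) resNew_isLocalHom).IsEquiv
    new.ρ
  ι : Matrix (Fin H.all.d) (Fin H.old.d × Fin H.m) (MvPowerSeries (Fin r) O ⧸ levelIdeal p n r O)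
  π : Matrix (Fin H.old.d × Fin H.m) (Fin H.all.d) (MvPowerSeries (Fin r) O ⧸ levelIdeal p n r O)
  j : Matrix (Fin H.all.d) (Fin H.new.d) (MvPowerSeries (Fin r) O ⧸ levelIdeal p n r O)
  ι_eq : ∀ a b (f : MvPowerSeries (Fin r) O), Ideal.Quotient.mk _ f = ι a b →
    MvPowerSeries.constantCoeff f = H.ι a b
  π_eq : ∀ a b (f : MvPowerSeries (Fin r) O), Ideal.Quotient.mk _ f = π a b →
    MvPowerSeries.constantCoeff f = H.π a b
  j_eq : ∀ a b (f : MvPowerSeries (Fin r) O), Ideal.Quotient.mk _ f = j a b →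
    MvPowerSeries.constantCoeff f = H.j a b
  π_j : π * j = 0
  ι_comm : ∀ t, all.Ψ t * ι = ι * (Matrix.blockDiagonal fun _ => old.Ψ (resOld t) :
    Matrix (Fin H.old.d × Fin H.m) (Fin H.old.d × Fin H.m)
      (MvPowerSeries (Fin r) O ⧸ levelIdeal p n r O))
  π_comm : ∀ t, (Matrix.blockDiagonal fun _ => old.Ψ (resOld t) :
    Matrix (Fin H.old.d × Fin H.m) (Fin H.old.d × Fin H.m)
      (MvPowerSeries (Fin r) O ⧸ levelIdeal p n r O)) * π = π * all.Ψ t
  j_comm : ∀ t, all.Ψ t * j = j * new.Ψ (resNew t)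
  e : Matrix (Fin H.m) (Fin H.m) old.T
  π_ι : π * ι = Matrix.of fun a b => old.Ψ (e a.2 b.2) a.1 b.1
  det_e : q ≠ p → DivBySpecial q old.ρ e.det
  special : q ≠ p → IsSpecial q new.ρ

/-- Admissible auxiliary primes. -/
def IsAuxSet (p N n : ℕ) (ρbar : ResidualGaloisRep (ResidueField O)) {r : ℕ} (Qv : Fin r → ℕ) :
    Prop :=
  Function.Injective Qv ∧ ∀ i, IsTWPrime p n ρbar (Qv i) ∧ Qv i ∉ levelPrimes p N

/-- The primes `l ≠ p` of bad reduction. -/
def badPrimes (W : WeierstrassCurve ℤ) (p : ℕ) : Finset ℕ := W.Δ.natAbs.primeFactors.erase p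

/-- The primes `l ≠ p` where the mod `p` representation is ramified. -/
def minPrimes (W : WeierstrassCurve ℤ) (p : ℕ) : Finset ℕ :=
  (badPrimes W p).filter fun l => ¬ p ∣ padicValInt l W.Δ

/-- The mod `p` and `p`-adic representations of a semistable curve, with coefficients in `O`. -/
structure CurveRep (W : WeierstrassCurve ℤ) (p : ℕ) (ρbar : ResidualGaloisRep (ResidueField O))
    (ρ : GaloisRepAdic O) : Prop where
  residual : Residual p (minPrimes W p) ρbar
  residual_isEquiv : ρ.residual.IsEquiv ρbar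
  det : ρ.DetIsCyclotomic p
  unramified : ∀ l : ℕ, l.Prime → l ∉ insert p (badPrimes W p) → ρ.IsUnramifiedAt l
  unipotent : ∀ l ∈ badPrimes W p, ρ.IsUnipotentOnInertiaAt l
  ramified : ∀ l ∈ badPrimes W p, ¬ ρ.IsUnramifiedAt l
  flat : W.IsGoodPrimeFor p → ρ.IsFlatAt p
  ord : (p : ℤ) ∣ W.Δ → ρ.IsStrictOrdinaryAt p
  trace_frob : ∀ l : ℕ, l.Prime → W.IsGoodPrimeFor l → l ≠ p →
    ∀ (A : ValuationSubring ℚ̄) (φ : Γℚ), A.LiesOverPrime l → A.IsFrobeniusAt φ l →
      ρ.trace φ = (W.apOfModel l : O)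

end FLTAgent.Lower.Lift
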