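import Fermat.Agent.Lower.Levels.ConstructFrame
import Fermat.Agent.Lower.Lift.Defs

/-!
# Hecke modules and levels from lattices with representations

`heckeModOf` turns a Hecke lattice over `O` with its Galois representation and deformation
condition into a `HeckeMod`. `heckeLevelOf` turns a second lattice, over a finite `O`-algebra `R`
at auxiliary primes `Qv`, whose operators reduce to those of the first (`LatticeLift`), into a
`HeckeLevel` of depth `n`: the map to the base ring is `HeckeLattice.map`, and the relation of the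
inertia trace at each auxiliary prime is transported along `R → O[[X]]/levelIdeal`.
-/

set_option autoImplicit false
set_option linter.unusedSectionVars false

noncomputable section

open scoped Matrix

namespace FLTAgent.Lower.Lift

open IsLocalRing (maximalIdeal ResidueField residue)
open FLTAgent.Lower FLTAgent.Lower.Levels

variable {p : ℕ} [Fact p.Prime] {O : Type} [CommRing O] [IsDomain O] [IsDiscreteValuationRing O]
  [IsAdicComplete (maximalIdeal O) O] [Finite (ResidueField O)] [CharZero O]
  {ρbar : ResidualGaloisRep (ResidueField O)} {N : ℕ} [NeZero N] {S U : Finset ℕ}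
  {loc : LocalType} {d : ℕ} [NeZero d]

/-- The Hecke module of a lattice over `O`. -/
def heckeModOf (X : HeckeLattice p N S ρbar O d) {f : ℤ_[p] →+* O} (ρ : GaloisRepAdic X.T)
    (h : X.IsRep f ρ) (hc : Cond loc p U S ρ) : HeckeMod loc p S U ρbar where
  T := X.T
  residue_surjective := X.residue_surjective
  ρ := ρ
  residual_isEquiv := h.residual
  cond := hc
  adjoin_trace := h.adjoin_trace
  d := d
  Φ := imgAct X.act
  Φ_injective := imgAct_injective X.act

variable {L : ℕ} [NeZero L] {R : Type} [CommRing R] [Algebra O R] [Nontrivial R]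
  [Module.Finite O R] {n r : ℕ} {Qv : Fin r → ℕ}

/-- The operators of `Y` reduce to those of `X`. -/
def LatticeLift (X : HeckeLattice p N S ρbar O d)
    (Y : HeckeLattice p L (S ∪ Finset.univ.image Qv) ρbar R d) (aug : R →+* O) : Prop :=
  ∀ s, (Y.act s).map aug = X.act (MvPolynomial.rename
    (HeckeLattice.awayMap (Finset.subset_union_left (s₂ := Finset.univ.image Qv))) s)

/-- A lift sends relations to relations. -/
theorem LatticeLift.ker {X : HeckeLattice p N S ρbar O d}
    {Y : HeckeLattice p L (S ∪ Finset.univ.image Qv) ρbar R d} {aug : R →+* O}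
    (h : LatticeLift X Y aug) (s : MvPolynomial (AwayIdx (S ∪ Finset.univ.image Qv)) O)
    (hs : Y.act s = 0) :
    X.act (MvPolynomial.rename
      (HeckeLattice.awayMap (Finset.subset_union_left (s₂ := Finset.univ.image Qv))) s) = 0 := by
  rw [← h s, hs, Matrix.map_zero _ (map_zero aug)]

/-- The level of depth `n` of a lattice reducing to the base. -/
def heckeLevelOf (X : HeckeLattice p N S ρbar O d) {f : ℤ_[p] →+* O} (ρ : GaloisRepAdic X.T)
    (h : X.IsRep f ρ) (hc : Cond loc p U S ρ) (habs : ρbar.IsAbsolutelyIrreducible)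
    (Y : HeckeLattice p L (S ∪ Finset.univ.image Qv) ρbar R d) (ρY : GaloisRepAdic Y.T)
    (hY : Y.IsRep f ρY) (hcY : Cond loc p U (S ∪ Finset.univ.image Qv) ρY)
    (aug : R →+* O) (φ : R →ₐ[O] MvPowerSeries (Fin r) O ⧸ levelIdeal p n r O)
    (hφ : ∀ (z : R) (g : MvPowerSeries (Fin r) O), Ideal.Quotient.mk _ g = φ z →
      MvPowerSeries.constantCoeff g = aug z)
    (hlift : LatticeLift X Y aug)
    (htw : ∀ i : Fin r, ∃ σ : AlgebraicClosure ℚ ≃ₐ[ℚ] AlgebraicClosure ℚ,
      (∃ A : ValuationSubring (AlgebraicClosure ℚ), A.LiesOverPrime (Qv i) ∧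
        σ ∈ A.inertiaSubgroupIn ℚ) ∧
      ∃ u : R, φ u = Ideal.Quotient.mk (levelIdeal p n r O) (1 + MvPowerSeries.X i) ∧
        imgAct Y.act (ρY.trace σ - 2) * Matrix.scalar (Fin d) u =
          Matrix.scalar (Fin d) ((u - 1) ^ 2)) :
    HeckeLevel (heckeModOf X ρ h hc) n Qv where
  T := Y.T
  residue_surjective := Y.residue_surjective
  ρ := ρY
  residual_isEquiv := hY.residual
  cond := hcY
  adjoin_trace := hY.adjoin_trace
  π := HeckeLattice.map Finset.subset_union_left hlift.ker
  π_isLocalHom := HeckeLattice.isLocalHom_map _ _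
  π_isEquiv := HeckeLattice.isEquiv_map _ _ habs hY h
  Ψ := (φ.mapMatrix).comp (imgAct Y.act)
  base_eq := fun t i j g hg => by
    obtain ⟨s, rfl⟩ := Ideal.Quotient.mk_surjective t
    refine Eq.trans (hφ (Y.act s i j) g ?_) ?_
    · refine hg.trans ?_
      show φ (imgAct Y.act (Ideal.Quotient.mk _ s) i j) = _
      rw [imgAct_mk]
    · show _ = imgAct X.act (HeckeLattice.map _ _ (Ideal.Quotient.mk _ s)) i j
      rw [HeckeLattice.map_mk, imgAct_mk, ← hlift s]
      rfl
  tw_rel := fun i => by
    obtain ⟨σ, hσ, u, hu, hrel⟩ := htw i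
    refine ⟨σ, hσ, ?_⟩
    have h1 := congrArg φ.mapMatrix hrel
    rw [map_mul] at h1
    have hs : ∀ z : R, φ.mapMatrix (Matrix.scalar (Fin d) z) = Matrix.scalar (Fin d) (φ z) :=
      fun z => by
        simp [Matrix.scalar_apply, AlgHom.mapMatrix_apply, Matrix.diagonal_map]
    have hu2 : φ ((u - 1) ^ 2) =
        Ideal.Quotient.mk (levelIdeal p n r O) (MvPowerSeries.X i ^ 2) := by
      rw [map_pow, map_sub, map_one, hu, ← map_one (Ideal.Quotient.mk (levelIdeal p n r O)),
        ← map_sub, add_sub_cancel_left, ← map_pow]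
    rw [hs, hs, hu, hu2] at h1
    exact h1

end FLTAgent.Lower.Lift
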