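import Fermat.Agent.ResidualSetup.Big
import Fermat.Agent.MazurP.ResidualCurve
import Fermat.Agent.EllTorsion.Galois

/-!
# An auxiliary prime `r ≡ 11 mod 12` where Frobenius has no eigenvalue `±1` mod `p`

`exists_auxPrime`: for a semistable model with irreducible mod `p` representation, `p` odd, and
any finite set `B`, there is a good prime `r ∉ B`, `r ≠ p`, with `r ≡ 11 mod 12` and
`a_r ^ 2 ≢ (r + 1) ^ 2 mod p`. By Frobenius density (`Density.forall_of_forall_isFrobeniusAt`) it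
is enough to find an element acting as `-1` on `μ₁₂` with `tr ^ 2 ≠ (1 + det) ^ 2`
(`exists_modTr_sq_ne`). Otherwise all elements would commute or anticommute with one non-scalar
matrix, so a subgroup of index at most two would fix a line, which `auxChoice_false` excludes
(irreducibility, also on subgroups of index two).
-/

set_option autoImplicit false
set_option linter.style.haveILetI false
set_option linter.unusedSectionVars false

noncomputable section

open WeierstrassCurve WeierstrassCurve.Affine.Point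
open scoped WeierstrassCurve.Affine Matrix

namespace FLTAgent.Lower.Lift

open FLTAgent.MazurP FLTAgent.ResidualSetup

local notation "Qb" => AlgebraicClosure ℚ
local notation "Γℚ" => (AlgebraicClosure ℚ ≃ₐ[ℚ] AlgebraicClosure ℚ)

variable {W : WeierstrassCurve ℤ} {p : ℕ} [Fact p.Prime]

/-- The representation in a basis, as matrices. -/
def auxChoiceMat (b : Module.Basis (Fin 2) (ZMod p) (TorsSpace W p)) :
    Γℚ →* Matrix (Fin 2) (Fin 2) (ZMod p) where
  toFun σ := LinearMap.toMatrix b b (modRep W p σ)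
  map_one' := by rw [map_one, LinearMap.toMatrix_one]
  map_mul' σ τ := by rw [map_mul, LinearMap.toMatrix_mul]

theorem auxChoiceMat_apply (b : Module.Basis (Fin 2) (ZMod p) (TorsSpace W p)) (σ : Γℚ) :
    auxChoiceMat b σ = LinearMap.toMatrix b b (modRep W p σ) := rfl

/-- No matrix with an eigenline stable under its commutant is normalised up to sign. -/
theorem auxChoice_false (hΔ : W.Δ ≠ 0) (hss : W.IsSemistableModel) (hp2 : p ≠ 2)
    {K : Type} [Field K] (j : ZMod p →+* K)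
    {b : Module.Basis (Fin 2) (ZMod p) (TorsSpace W p)} (hb : IsOddBasis b)
    (N : Matrix (Fin 2) (Fin 2) (ZMod p))
    (hN : ∀ σ, auxChoiceMat b σ * N = N * auxChoiceMat b σ ∨
      auxChoiceMat b σ * N = -(N * auxChoiceMat b σ))
    (v : Fin 2 → K) (hv : v ≠ 0)
    (hNv : ∀ X : Matrix (Fin 2) (Fin 2) (ZMod p), X * N = N * X →
      X.map j *ᵥ v ∈ Submodule.span K {v}) : False := by
  let R : Γℚ →* Module.End K (Fin 2 → K) :=
    (Matrix.toLinAlgEquiv' (R := K) (n := Fin 2)).toAlgHom.toMonoidHom.comp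
      ((j.mapMatrix : Matrix (Fin 2) (Fin 2) (ZMod p) →+* _).toMonoidHom.comp (auxChoiceMat b))
  have hR : ∀ σ, LinearMap.toMatrix (Pi.basisFun K (Fin 2)) (Pi.basisFun K (Fin 2)) (R σ) =
      (LinearMap.toMatrix b b (modRep W p σ)).map j := fun σ => by
    rw [LinearMap.toMatrix_eq_toMatrix']
    exact LinearMap.toMatrix'_toLin' _
  let G : Subgroup Γℚ :=
    { carrier := {σ | auxChoiceMat b σ * N = N * auxChoiceMat b σ}
      one_mem' := by simp
      mul_mem' := fun {σ τ} hσ hτ => by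
        simp only [Set.mem_ofPred_eq] at hσ hτ ⊢
        rw [map_mul, mul_assoc, hτ, ← mul_assoc, hσ, mul_assoc]
      inv_mem' := fun {σ} hσ => by
        simp only [Set.mem_ofPred_eq] at hσ ⊢
        calc auxChoiceMat b σ⁻¹ * N
            = auxChoiceMat b σ⁻¹ * (N * auxChoiceMat b σ) * auxChoiceMat b σ⁻¹ := by
              rw [mul_assoc, mul_assoc, ← map_mul, mul_inv_cancel, map_one, mul_one]
          _ = N * auxChoiceMat b σ⁻¹ := by
              rw [← hσ, ← mul_assoc (auxChoiceMat b σ⁻¹), ← map_mul, inv_mul_cancel, map_one,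
                one_mul] }
  set V := Submodule.span K {v}
  have hV : ∀ σ ∈ G, ∀ x ∈ V, R σ x ∈ V := by
    intro σ hσ x hx
    obtain ⟨s, rfl⟩ := Submodule.mem_span_singleton.mp hx
    rw [map_smul]
    exact V.smul_mem s (hNv _ hσ)
  have hV0 : V ≠ ⊥ := by simpa [V] using hv
  have hV1 : V ≠ ⊤ := by
    intro h
    have h1 : Module.finrank K V = 1 := finrank_span_singleton hv
    rw [h, finrank_top, Module.finrank_fin_fun] at h1
    omega
  by_cases htop : ∀ σ, σ ∈ G
  · exact (irreducible hR hp2 hb V fun σ => hV σ (htop σ)).elim hV0 hV1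
  push Not at htop
  obtain ⟨a, ha⟩ := htop
  have hidx : G.index = 2 := by
    rw [Subgroup.index_eq_two_iff]
    refine ⟨a, fun σ => ?_⟩
    by_cases hσ : σ ∈ G
    · exact Or.inr ⟨hσ, fun h => ha ((G.mul_mem_cancel_left hσ).mp h)⟩
    · refine Or.inl ⟨?_, hσ⟩
      have h1 := (hN σ).resolve_left hσ
      have h2 := (hN a).resolve_left ha
      show auxChoiceMat b (σ * a) * N = N * auxChoiceMat b (σ * a)
      rw [map_mul, mul_assoc, h2, mul_neg, ← mul_assoc, h1, neg_mul, neg_neg, mul_assoc]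
  exact (eq_bot_or_eq_top_of_index_two hΔ hss hp2 hb hR hidx hV).elim hV0 hV1

/-- Some element acting as `-1` on `μ₁₂` has no eigenvalue `±1`. -/
theorem exists_modTr_sq_ne (hΔ : W.Δ ≠ 0) (hss : W.IsSemistableModel) (hp2 : p ≠ 2)
    (hirr : W.ModRepIsIrreducible p) (χ : Γℚ →* (ZMod 12)ˣ)
    (hχ : ∀ c : Γℚ, (∀ t : Qb, t ^ 12 = 1 → c t = t ^ 11) → χ c = -1) :
    ∃ σ, χ σ = -1 ∧ modTr W p σ ^ 2 ≠ (1 + modDet W p σ) ^ 2 := by
  by_contra hcon
  push Not at hcon
  obtain ⟨c, hc2, hc⟩ := MazurP.exists_conj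
  obtain ⟨b, hbc, σ₁, h01, h10⟩ := exists_offDiag hΔ hp2 hirr hc2 hc
  have hb : IsOddBasis b := ⟨⟨c, hbc⟩, σ₁, h01, h10⟩
  haveI := moduleFinite_torsSpace (p := p) hΔ
  set m := auxChoiceMat b
  have hmc : m c = !![1, 0; 0, -1] := hbc
  have hχc : χ c = -1 := hχ c fun t ht => hc 12 (by norm_num) t ht
  have h2 : (2 : ZMod p) ≠ 0 := two_ne_zero_zmod hp2
  have htr : ∀ σ, modTr W p σ = m σ 0 0 + m σ 1 1 := fun σ => by
    rw [modTr, LinearMap.trace_eq_matrix_trace (ZMod p) b, Matrix.trace_fin_two]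
    rfl
  have hdet : ∀ σ, modDet W p σ = m σ 0 0 * m σ 1 1 - m σ 0 1 * m σ 1 0 := fun σ => by
    rw [modDet, MonoidHom.comp_apply, ← LinearMap.det_toMatrix b, Matrix.det_fin_two]
    rfl
  -- the kernel of `χ` and of the determinant
  have hdiag : ∀ u, χ u = 1 → modDet W p u = 1 → m u 0 0 = m u 1 1 := by
    intro u hu hud
    have h := hcon (c * u) (by rw [map_mul, hu, mul_one, hχc])
    rw [map_mul, hud, mul_one, modDet_conj hΔ (hc), add_neg_cancel, zero_pow two_ne_zero,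
      sq_eq_zero_iff, htr, map_mul, hmc] at h
    simp [Matrix.mul_apply, Fin.sum_univ_two] at h
    linear_combination h
  by_cases hA : ∀ u, χ u = 1 → modDet W p u = 1 → m u 0 1 = 0 ∧ m u 1 0 = 0
  · -- every element commutes or anticommutes with conjugation
    refine auxChoice_false hΔ hss hp2 (RingHom.id (ZMod p)) hb !![1, 0; 0, -1] (fun τ => ?_)
      ![1, 0] (fun h => one_ne_zero (congrFun h 0)) (fun X hX => ?_)
    · set u := c * τ * c⁻¹ * τ⁻¹ with hudef
      have hu : χ u = 1 := by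
        simp only [hudef, map_mul, map_inv]
        rw [mul_comm (χ c) (χ τ), mul_inv_cancel_right, mul_inv_cancel]
      have hud : modDet W p u = 1 := by
        have e1 : modDet W p c * modDet W p c⁻¹ = 1 := by rw [← map_mul, mul_inv_cancel, map_one]
        have e2 : modDet W p τ * modDet W p τ⁻¹ = 1 := by rw [← map_mul, mul_inv_cancel, map_one]
        simp only [hudef, map_mul]
        linear_combination modDet W p τ * modDet W p τ⁻¹ * e1 + e2
      obtain ⟨hu1, hu2⟩ := hA u hu hud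
      have hu0 := hdiag u hu hud
      have hm : m u = m u 0 0 • (1 : Matrix (Fin 2) (Fin 2) (ZMod p)) := by
        ext i k
        fin_cases i <;> fin_cases k <;> simp [hu1, hu2, ← hu0]
      have hsq : m u 0 0 ^ 2 = 1 := by
        have h := hdet u
        rw [hud, hu1, ← hu0] at h
        linear_combination -h
      have he : m c * m τ = m u 0 0 • (m τ * m c) := by
        rw [← one_mul (m τ * m c), ← smul_mul_assoc, ← hm, ← map_mul, ← map_mul, ← map_mul]
        congr 1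
        simp only [hudef]
        group
      rw [hmc] at he
      rcases sq_eq_one_iff.mp hsq with h | h
      · left
        rw [h, one_smul] at he
        exact he.symm
      · right
        rw [h, neg_one_smul] at he
        rw [he, neg_neg]
    · refine Submodule.mem_span_singleton.mpr ⟨X 0 0, ?_⟩
      have h := congrFun (congrFun hX 1) 0
      simp [Matrix.mul_apply, Fin.sum_univ_two] at h
      have h' : X 1 0 = 0 :=
        (mul_eq_zero.mp (show (2 : ZMod p) * X 1 0 = 0 by linear_combination h)).resolve_left h2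
      funext i
      fin_cases i <;> simp [Matrix.mulVec, dotProduct, Fin.sum_univ_two, h']
  obtain ⟨h₀, hh, hhd, hne⟩ : ∃ u, χ u = 1 ∧ modDet W p u = 1 ∧ (m u 0 1 = 0 → m u 1 0 ≠ 0) := by
    push Not at hA
    exact hA
  have ha : m h₀ 0 0 = m h₀ 1 1 := hdiag h₀ hh hhd
  -- conjugates of `h₀`
  have hkey : ∀ σ, ∃ b₁ e₁, m σ * m h₀ = !![m h₀ 0 0, b₁; e₁, m h₀ 0 0] * m σ ∧
      b₁ * m h₀ 1 0 = e₁ * m h₀ 0 1 ∧ b₁ * e₁ = m h₀ 0 1 * m h₀ 1 0 := by
    intro σ
    set h₁ := σ * h₀ * σ⁻¹ with h₁def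
    have hh₁ : χ h₁ = 1 := by simp [h₁def, hh]
    have hh₁d : modDet W p h₁ = 1 := by
      rw [h₁def, map_mul, map_mul, hhd, mul_one, ← map_mul, mul_inv_cancel, map_one]
    have ha₁ := hdiag h₁ hh₁ hh₁d
    have htreq : modTr W p h₁ = modTr W p h₀ := by
      rw [modTr, modTr, h₁def, map_mul (modRep W p), map_mul (modRep W p), LinearMap.trace_mul_comm, ← mul_assoc, ← map_mul,
        inv_mul_cancel, map_one, one_mul]
    have hx : m h₁ 0 0 = m h₀ 0 0 := by
      rw [htr, htr, ← ha, ← ha₁, ← two_mul, ← two_mul] at htreq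
      exact mul_left_cancel₀ h2 htreq
    refine ⟨m h₁ 0 1, m h₁ 1 0, ?_, ?_, ?_⟩
    · have hm1 : !![m h₀ 0 0, m h₁ 0 1; m h₁ 1 0, m h₀ 0 0] = m h₁ := by
        ext i k
        fin_cases i <;> fin_cases k <;> simp [← ha₁, hx]
      rw [hm1, ← map_mul, ← map_mul, h₁def, inv_mul_cancel_right]
    · have hp1 := hdiag (h₁ * h₀) (by rw [map_mul, hh₁, hh, mul_one])
        (by rw [map_mul, hh₁d, hhd, mul_one])
      simp only [map_mul, Matrix.mul_apply, Fin.sum_univ_two, ← ha, ← ha₁] at hp1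
      linear_combination hp1
    · have e1 := hdet h₁
      have e0 := hdet h₀
      rw [hh₁d, ← ha₁, hx] at e1
      rw [hhd, ← ha] at e0
      linear_combination e1 - e0
  by_cases hbe : m h₀ 0 1 * m h₀ 1 0 = 0
  · -- an invariant line
    obtain ⟨b₁, e₁, he, hp1, hp2'⟩ := hkey σ₁
    rw [hbe] at hp2'
    rcases mul_eq_zero.mp hbe with h | h
    · have he0 := hne h
      rw [h, mul_zero] at hp1
      have hb1 : b₁ = 0 := (mul_eq_zero.mp hp1).resolve_right he0
      have h00 := congrFun (congrFun he 0) 0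
      simp [Matrix.mul_apply, Fin.sum_univ_two, hb1] at h00
      have h' : m σ₁ 0 1 * m h₀ 1 0 = 0 := by linear_combination h00
      exact he0 ((mul_eq_zero.mp h').resolve_left h01)
    · have hb0 : m h₀ 0 1 ≠ 0 := fun h0 => hne h0 h
      rw [h, mul_zero] at hp1
      have he1 : e₁ = 0 := (mul_eq_zero.mp hp1.symm).resolve_right hb0
      have h11 := congrFun (congrFun he 1) 1
      simp [Matrix.mul_apply, Fin.sum_univ_two, he1, ← ha] at h11
      have h' : m σ₁ 1 0 * m h₀ 0 1 = 0 := by linear_combination h11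
      exact hb0 ((mul_eq_zero.mp h').resolve_left h10)
  obtain ⟨hb0, he0⟩ := mul_ne_zero_iff.mp hbe
  let j := algebraMap (ZMod p) (AlgebraicClosure (ZMod p))
  obtain ⟨t, ht⟩ := IsAlgClosed.exists_pow_nat_eq (j (m h₀ 0 1) / j (m h₀ 1 0)) two_pos
  have ht' : t ^ 2 * j (m h₀ 1 0) = j (m h₀ 0 1) := by
    rw [ht, div_mul_cancel₀ _ ((map_ne_zero j).mpr he0)]
  refine auxChoice_false hΔ hss hp2 j hb !![0, m h₀ 0 1; m h₀ 1 0, 0] (fun σ => ?_)
    ![t, 1] (fun h => one_ne_zero (congrFun h 1)) (fun X hX => ?_)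
  · obtain ⟨b₁, e₁, he, hp1, hp2'⟩ := hkey σ
    have hs : b₁ = m h₀ 0 1 ∧ e₁ = m h₀ 1 0 ∨ b₁ = -m h₀ 0 1 ∧ e₁ = -m h₀ 1 0 := by
      have hsq : b₁ ^ 2 = m h₀ 0 1 ^ 2 := mul_right_cancel₀ he0 (by
        linear_combination b₁ * hp1 + m h₀ 0 1 * hp2')
      rcases sq_eq_sq_iff_eq_or_eq_neg.mp hsq with h | h
      · exact Or.inl ⟨h, mul_left_cancel₀ hb0 (by rw [h] at hp1; linear_combination -hp1)⟩
      · exact Or.inr ⟨h, mul_left_cancel₀ hb0 (by rw [h] at hp1; linear_combination -hp1)⟩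
    have hsplit : ∀ x y : ZMod p, (!![m h₀ 0 0, x; y, m h₀ 0 0] : Matrix (Fin 2) (Fin 2) (ZMod p)) =
        m h₀ 0 0 • 1 + !![0, x; y, 0] := fun x y => by
      ext i k
      fin_cases i <;> fin_cases k <;> simp
    have hm0 : m h₀ = !![m h₀ 0 0, m h₀ 0 1; m h₀ 1 0, m h₀ 0 0] := by
      ext i k
      fin_cases i <;> fin_cases k <;> simp [← ha]
    have he' : m σ * !![0, m h₀ 0 1; m h₀ 1 0, 0] = !![0, b₁; e₁, 0] * m σ := by
      have he2 : m σ * (m h₀ 0 0 • 1 + !![0, m h₀ 0 1; m h₀ 1 0, 0]) =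
          (m h₀ 0 0 • 1 + !![0, b₁; e₁, 0]) * m σ := by
        rw [← hsplit, ← hsplit, ← hm0]
        exact he
      rw [mul_add, add_mul, mul_smul_comm, smul_mul_assoc, mul_one, one_mul] at he2
      exact add_left_cancel he2
    rcases hs with ⟨rfl, rfl⟩ | ⟨rfl, rfl⟩
    · exact Or.inl he'
    · refine Or.inr (he'.trans ?_)
      rw [show (!![0, -m h₀ 0 1; -m h₀ 1 0, 0] : Matrix (Fin 2) (Fin 2) (ZMod p)) =
        -!![0, m h₀ 0 1; m h₀ 1 0, 0] from by ext i k; fin_cases i <;> fin_cases k <;> simp,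
        neg_mul]
  · refine Submodule.mem_span_singleton.mpr ⟨j (X 0 0) + j (X 1 0) * t, ?_⟩
    have e00 := congrFun (congrFun hX 0) 0
    have e10 := congrFun (congrFun hX 1) 0
    simp [Matrix.mul_apply, Fin.sum_univ_two] at e00 e10
    have hxw : X 1 1 = X 0 0 := mul_right_cancel₀ he0 (by linear_combination e10)
    have e00' : j (X 0 1) * j (m h₀ 1 0) = j (m h₀ 0 1) * j (X 1 0) := by
      rw [← map_mul, ← map_mul, e00]
    funext i
    fin_cases i <;> simp [Matrix.mulVec, dotProduct, Fin.sum_univ_two]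
    · refine mul_right_cancel₀ ((map_ne_zero j).mpr he0) ?_
      linear_combination j (X 1 0) * ht' - e00'
    · rw [hxw]
      ring

/-- An auxiliary prime `r ≡ 11 mod 12` with `a_r² ≢ (r + 1)² mod p`. -/
theorem exists_auxPrime {W : WeierstrassCurve ℤ} {p : ℕ} [Fact p.Prime] (hΔ : W.Δ ≠ 0)
    (hW : W.IsSemistableModel) (hp2 : p ≠ 2) (hirr : W.ModRepIsIrreducible p) (B : Finset ℕ) :
    ∃ r : ℕ, r.Prime ∧ r ∉ B ∧ r ≠ p ∧ W.IsGoodPrimeFor r ∧ r % 12 = 11 ∧
      ¬ (p : ℤ) ∣ W.apOfModel r ^ 2 - ((r : ℤ) + 1) ^ 2 := by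
  by_contra hcon
  push Not at hcon
  have hp : p.Prime := Fact.out
  haveI := EllTorsion.isElliptic_map_rat hΔ
  obtain ⟨ζ, hζ⟩ := HasEnoughRootsOfUnity.exists_primitiveRoot Qb 12
  set χ : Γℚ →* (ZMod 12)ˣ := hζ.autToPow ℚ with hχdef
  obtain ⟨σ₀, hσ₀, hne⟩ := exists_modTr_sq_ne hΔ hW hp2 hirr χ fun c hc => by
    have h := (hζ.autToPow_spec ℚ c).trans (hc ζ hζ.pow_eq_one)
    refine Units.ext (ZMod.val_injective 12 ?_)
    rw [hζ.pow_inj (ZMod.val_lt _) (by norm_num) h]
    rfl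
  refine hne (Density.forall_of_forall_isFrobeniusAt
    (P := fun σ => χ σ = -1 → modTr W p σ ^ 2 = (1 + modDet W p σ) ^ 2)
    ((modRep W p).ker ⊓ (IntermediateField.adjoin ℚ ({ζ} : Set Qb)).fixingSubgroup) ?_
    (insert p ({2, 3} ∪ B ∪ W.Δ.natAbs.primeFactors)) ?_ ?_ ?_ σ₀ hσ₀)
  · haveI : FiniteDimensional ℚ (IntermediateField.adjoin ℚ ({ζ} : Set Qb)) :=
      IntermediateField.adjoin.finiteDimensional (Algebra.IsIntegral.isIntegral ζ)
    exact (EllTorsion.isOpen_ker_galoisRepModuleEnd (W.map (Int.castRingHom ℚ)) p hp.ne_zero).inter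
      (IntermediateField.fixingSubgroup_isOpen _)
  · intro g u hu h hg
    obtain ⟨hu1, hu2⟩ := Subgroup.mem_inf.mp hu
    have hχu : χ u = 1 := by
      refine Units.ext (ZMod.val_injective 12 (hζ.pow_inj (ZMod.val_lt _) (ZMod.val_lt _) ?_))
      rw [hζ.autToPow_spec ℚ u,
        (IntermediateField.mem_fixingSubgroup_iff _ _).mp hu2 ζ
          (IntermediateField.mem_adjoin_simple_self ℚ ζ), Units.val_one, show (1 : ZMod 12).val = 1 from rfl, pow_one]
    have h1 : modRep W p (g * u) = modRep W p g := by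
      rw [map_mul, MonoidHom.mem_ker.mp hu1, mul_one]
    rw [map_mul, hχu, mul_one] at hg
    rw [modTr_congr h1, modDet_congr h1]
    exact h hg
  · intro g k h hgk
    haveI := moduleFinite_torsSpace (p := p) hΔ
    have hsq : ∀ u : (ZMod 12)ˣ, u * u = 1 := by decide
    have hneg : (-1 : (ZMod 12)ˣ) ≠ 1 := by decide
    have hg : χ g = -1 := by
      rw [map_pow] at hgk
      obtain ⟨j, rfl | rfl⟩ := Nat.even_or_odd' k
      · rw [pow_mul, sq, hsq, one_pow] at hgk
        exact absurd hgk.symm hneg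
      · rwa [pow_add, pow_mul, sq, hsq, one_pow, one_mul, pow_one] at hgk
    obtain ⟨ε, hε, htr⟩ : ∃ ε : ZMod p, ε * ε = 1 ∧ modTr W p g = ε * (1 + modDet W p g) := by
      rcases sq_eq_sq_iff_eq_or_eq_neg.mp (h hg) with h' | h'
      · exact ⟨1, one_mul 1, by rw [h', one_mul]⟩
      · exact ⟨-1, by ring, by rw [h']; ring⟩
    have h1 : modTr W p (g ^ k) = ε ^ k * (1 + modDet W p g ^ k) := by
      rw [modTr, map_pow, Reps.trace_pow_eq_luc (finrank_torsSpace hΔ), mul_add, mul_one, ← mul_pow]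
      refine (Reps.pow_add_pow_eq_luc (RingHom.id (ZMod p)) (Commute.all _ _) ?_ ?_ k).symm
      · show ε + ε * modDet W p g = modTr W p g
        rw [htr]; ring
      · show ε * (ε * modDet W p g) = modDet W p g
        rw [← mul_assoc, hε, one_mul]
    rw [h1, map_pow, mul_pow, ← pow_mul, mul_comm k 2, pow_mul, sq ε, hε, one_pow, one_mul]
  · intro ℓ hℓ hℓS A hA τ hτ hχτ
    simp only [Finset.mem_insert, Finset.mem_union, Finset.mem_singleton, Nat.mem_primeFactors,
      not_or] at hℓS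
    obtain ⟨hℓp, ⟨⟨hℓ2, hℓ3⟩, hℓB⟩, hℓΔ⟩ := hℓS
    have hgood : W.IsGoodPrimeFor ℓ := fun h =>
      hℓΔ ⟨hℓ, Int.natCast_dvd.mp h, Int.natAbs_ne_zero.mpr hΔ⟩
    have hℓ12 : ¬ ℓ ∣ 12 := fun h => by
      rcases hℓ.dvd_mul.mp (show ℓ ∣ 2 ^ 2 * 3 from h) with h | h
      · exact hℓ2 ((Nat.prime_dvd_prime_iff_eq hℓ Nat.prime_two).mp (hℓ.dvd_of_dvd_pow h))
      · exact hℓ3 ((Nat.prime_dvd_prime_iff_eq hℓ Nat.prime_three).mp h)
    have h12 : ℓ % 12 = 11 := by
      have e := (hζ.autToPow_spec ℚ τ).trans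
        (GalCommon.frobenius_apply_of_pow_eq_one hℓ hA hℓ12 hτ hζ.pow_eq_one)
      rw [← hχdef, hχτ, pow_eq_pow_mod ℓ hζ.pow_eq_one] at e
      exact (hζ.pow_inj (by decide) (Nat.mod_lt _ (by norm_num)) e).symm
    rw [modTr_frobenius hΔ hp2 hℓ hgood hℓp hA hτ, modDet_frobenius hΔ hℓ hℓp hA hτ]
    have h := (ZMod.intCast_zmod_eq_zero_iff_dvd _ p).mpr (hcon ℓ hℓ hℓB hℓp hgood h12)
    push_cast at h
    linear_combination h

end FLTAgent.Lower.Lift
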