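import Fermat.Agent.Lower.Lift.AuxPrime
import Fermat.Agent.LowerQ.Main
import Fermat.Prelude.Def_ModularCurve_GenusNumerics

/-!
# Mazur's principle at `q ≠ p` through an auxiliary prime

`isResiduallyModularOfLevel_of_aux` removes `q` from level `M q` in three steps: go up to level
`M r q` for an auxiliary good prime `r`, apply Mazur's principle at `q`
(`LowerQ.isResiduallyModularOfLevel_of_not_scalar_of_dvd`), and remove `r` again by
`isResiduallyModularOfLevel_of_mul_aux`. For `r ≡ 11 mod 12` the level `M r` has no elliptic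
points (`nuTwo_eq_zero_of_aux`, `nuThree_eq_zero_of_aux`), as needed by the callers to supply the
divisibility hypothesis of Mazur's principle.
-/

set_option autoImplicit false
set_option linter.style.haveILetI false
set_option linter.unusedSectionVars false

noncomputable section

open ModularCurve AlgebraicCurve
open scoped WeierstrassCurve.Affine

namespace FLTAgent.Lower.Lift

local notation "ℚ̄" => AlgebraicClosure ℚ

theorem not_isSquare_neg_one_of_mod {r : ℕ} [Fact r.Prime] (hr12 : r % 12 = 11) :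
    ¬ IsSquare (-1 : ZMod r) := fun h => (ZMod.exists_sq_eq_neg_one_iff.1 h) (by omega)

/-- No elliptic points of order two. -/
theorem nuTwo_eq_zero_of_aux {M r : ℕ} (hr : r.Prime) (hr12 : r % 12 = 11) (h : r ∣ M) :
    nuTwo M = 0 := by
  haveI := Fact.mk hr
  rw [nuTwo, Nat.card_eq_zero]
  left
  refine ⟨fun ⟨y, hy⟩ => not_isSquare_neg_one_of_mod hr12 ⟨ZMod.castHom h (ZMod r) y, ?_⟩⟩
  have h1 := congrArg (ZMod.castHom h (ZMod r)) hy
  simp only [map_add, map_pow, map_one, map_zero] at h1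
  linear_combination -h1

/-- No elliptic points of order three. -/
theorem nuThree_eq_zero_of_aux {M r : ℕ} (hr : r.Prime) (hr12 : r % 12 = 11) (h : r ∣ M) :
    nuThree M = 0 := by
  haveI := Fact.mk hr
  rw [nuThree, Nat.card_eq_zero]
  left
  refine ⟨fun ⟨y, hy⟩ => ?_⟩
  have h1 := congrArg (ZMod.castHom h (ZMod r)) hy
  simp only [map_add, map_pow, map_one, map_zero] at h1
  set z := ZMod.castHom h (ZMod r) y with hz
  have hz3 : z ^ 3 = 1 := by linear_combination (z - 1) * h1
  have hz0 : z ≠ 0 := fun h0 => by rw [h0] at h1; simp at h1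
  have hz1 : z ≠ 1 := fun h0 => by
    rw [h0] at h1
    have h3 : ((3 : ℕ) : ZMod r) = 0 := by push_cast; linear_combination h1
    have := (Nat.prime_dvd_prime_iff_eq hr Nat.prime_three).1 ((ZMod.natCast_eq_zero_iff _ _).1 h3)
    omega
  have hord : orderOf z = 3 := by
    haveI := Fact.mk Nat.prime_three
    exact orderOf_eq_prime hz3 hz1
  have := hord ▸ ZMod.orderOf_dvd_card_sub_one hz0
  omega

variable {p : ℕ} [Fact p.Prime] {W : WeierstrassCurve ℤ} {M q r : ℕ} [NeZero M] [NeZero q]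

/-- `q` is removed from level `Mq` through level `Mrq`. -/
theorem isResiduallyModularOfLevel_of_aux (hΔ : W.Δ ≠ 0) (hp2 : p ≠ 2)
    (hirr : W.ModRepIsIrreducible p) (hq : q.Prime) (hqM : ¬ q ∣ M) (hqp : q ≠ p)
    (hr : r.Prime) (hrM : ¬ r ∣ M) (hrq : r ≠ q) (hrp : r ≠ p) (hgood : W.IsGoodPrimeFor r)
    (hne : ¬ (p : ℤ) ∣ W.apOfModel r ^ 2 - ((r : ℤ) + 1) ^ 2)
    (hdvd : ∀ (_ : NeZero (M * r)) (hqMr : ¬ q ∣ M * r) (A : ValuationSubring ℚ̄)
      (hA : A.LiesOverPrime q) (f : modularFunctionFieldBar (M * r * q)),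
      LowerQ.Normal hq hqMr (A := A) p f →
      ∀ v : Place (IsLocalRing.ResidueField A)
        (modularFunctionFieldFullC (IsLocalRing.ResidueField A) (M * r)),
        (p : ℤ) ∣ v.ord (⟨BadQ.redI A (M * r) q f, BadQ.redI_mem A (M * r) q hq hqMr hA f⟩ :
          modularFunctionFieldFullC (IsLocalRing.ResidueField A) (M * r)))
    (hfix : ∀ A : ValuationSubring ℚ̄, A.LiesOverPrime q →
      ∀ σ ∈ A.inertiaSubgroupIn ℚ, MazurP.FixesTorsion W p σ)
    (hns : ¬ (p ∣ q - 1 ∧ ∀ A : ValuationSubring ℚ̄, A.LiesOverPrime q →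
      ∀ σ ∈ A.decompositionSubgroup ℚ, ∃ c : ℤ,
        ∀ x : Submodule.torsionBy ℤ ((W.map (Int.castRingHom ℚ))⁄ℚ̄).Point p, σ • x = c • x))
    (hres : W.IsResiduallyModularOfLevel p (M * q)) : W.IsResiduallyModularOfLevel p M := by
  haveI hMr : NeZero (M * r) := ⟨mul_ne_zero (NeZero.ne M) hr.ne_zero⟩
  haveI : NeZero (M * q) := ⟨mul_ne_zero (NeZero.ne M) hq.ne_zero⟩
  haveI : NeZero (M * r * q) := ⟨mul_ne_zero hMr.out hq.ne_zero⟩
  have hqMr : ¬ q ∣ M * r := fun h => (hq.dvd_mul.1 h).elim hqM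
    fun h => hrq ((Nat.prime_dvd_prime_iff_eq hq hr).1 h).symm
  have hup := isResiduallyModularOfLevel_of_dvd hΔ hp2 hirr
    (mul_dvd_mul_right (dvd_mul_right M r) q) hres
  exact isResiduallyModularOfLevel_of_mul_aux hΔ hp2 hirr hr hrM hrp hgood hne
    (LowerQ.isResiduallyModularOfLevel_of_not_scalar_of_dvd hq hqMr W hΔ hp2 hqp
      (hdvd hMr hqMr) hirr hup hfix hns)

end FLTAgent.Lower.Lift
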