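import Fermat.Agent.Lower.Lift.Systems
import Fermat.Agent.Local.Newform
import Fermat.Agent.Degen.Forms

/-!
# Residual modularity going up in the level and coming down at an auxiliary prime

`isResiduallyModularOfLevel_of_dvd`: residual modularity of level `N₀` gives it at every multiple
`N` (`exists_eigenform_raise`: an old form has the same good eigenvalues).
`isResiduallyModularOfLevel_of_mul_aux`: a good prime `r ∤ N` with `a_r ^ 2 ≢ (r + 1) ^ 2 mod p`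
leaves level `N r`. The newform behind the congruence cannot have `r` exactly dividing its level,
because there Frobenius has trace `± (r + 1)` (`Local.trace_frobenius_newform`), which would give
`a_r ^ 2 ≡ (r + 1) ^ 2` (`dvd_sq_sub_of_newform`).
-/

set_option autoImplicit false
set_option linter.style.haveILetI false
set_option linter.unusedSectionVars false

noncomputable section

namespace FLTAgent.Lower.Lift

open IsLocalRing (ResidueField maximalIdeal)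
open ModularFormClass (qCoeff)
open CongruenceSubgroup (Gamma0)
open FLTAgent.MazurP (modTr)

local notation "ℚ̄" => AlgebraicClosure ℚ
local notation "Γℚ" => (AlgebraicClosure ℚ ≃ₐ[ℚ] AlgebraicClosure ℚ)

/-- The good eigenvalues of an eigenform occur at every multiple of its level. -/
theorem exists_eigenform_raise {N₀ N : ℕ} [NeZero N₀] [NeZero N] (h : N₀ ∣ N)
    {g : CuspForm (Gamma0 N₀) 2} (hg : g.IsNormalizedEigenform) :
    ∃ g' : CuspForm (Gamma0 N) 2, g'.IsNormalizedEigenform ∧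
      ∀ ℓ : ℕ, ℓ.Prime → ¬ ℓ ∣ N → qCoeff g' ℓ = qCoeff g ℓ := by
  let up : CuspForm (Gamma0 N) 2 := Degen.degForm 1 (by rwa [mul_one]) g
  have hc : ∀ n, qCoeff up n = qCoeff g n := fun n => by
    rw [qCoeff, qCoeff, Degen.degForm_one]
  have h1 : Small2.coeffL 1 up = 1 := (hc 1).trans hg.qCoeff_one
  have hT : ∀ (ℓ : ℕ) (hℓ : ℓ.Prime) (hℓN : ¬ ℓ ∣ N),
      CuspForm.heckeTLin 2 hℓ hℓN up = qCoeff g ℓ • up := by
    intro ℓ hℓ hℓN
    refine Small2.ext_coeff fun n => ?_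
    have hℓ₀ : ¬ ℓ ∣ N₀ := fun h' => hℓN (h'.trans h)
    have := congrArg (Small2.coeffL n) (Reps.heckeT_eigen hg hℓ hℓ₀)
    rw [Small2.coeffL_T, map_smul, smul_eq_mul] at this
    rw [Small2.coeffL_T, map_smul, smul_eq_mul]
    show qCoeff up _ + (if ℓ ∣ n then (ℓ : ℂ) * qCoeff up (n / ℓ) else 0) = _ * qCoeff up n
    simp only [hc]
    exact this
  let S : Set ℕ := ↑N.primeFactors
  have hS : ∀ q : ℕ, q.Prime → q ∣ N → q ∈ S := fun q hq hd =>
    Finset.mem_coe.2 (Nat.mem_primeFactors.2 ⟨hq, hd, NeZero.ne N⟩)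
  have hex : ∀ t : CuspForm.heckeAlgebra N 2 S, ∃ c : ℂ, t.1 up = c • up :=
    Local.hecke_induction hS (P := fun t => ∃ c : ℂ, t.1 up = c • up)
      (fun ℓ hℓ hℓN _ => ⟨_, hT ℓ hℓ hℓN⟩)
      (fun r => ⟨(r : ℂ), by
        rw [SubringClass.coe_intCast, Module.End.intCast_apply, Int.cast_smul_eq_zsmul]⟩)
      (fun s t ⟨x, hx⟩ ⟨y, hy⟩ => ⟨x + y, by
        rw [AddMemClass.coe_add, LinearMap.add_apply, hx, hy, add_smul]⟩)
      (fun s t ⟨x, hx⟩ ⟨y, hy⟩ => ⟨y * x, by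
        rw [MulMemClass.coe_mul, Module.End.mul_apply, hy, map_smul, hx, smul_smul]⟩)
  have key : ∀ (t : CuspForm.heckeAlgebra N 2 S) (c : ℂ), t.1 up = c • up →
      Small2.coeffL 1 (t.1 up) = c := fun t c h => by
    rw [h, map_smul, h1, smul_eq_mul, mul_one]
  let ψ : CuspForm.heckeAlgebra N 2 S →+* ℂ :=
    { toFun := fun t => Small2.coeffL 1 (t.1 up)
      map_one' := key 1 1 (by simp)
      map_mul' := fun s t => by
        obtain ⟨a, ha⟩ := hex s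
        obtain ⟨b, hb⟩ := hex t
        rw [key s a ha, key t b hb, key (s * t) (a * b)
          (by rw [MulMemClass.coe_mul, Module.End.mul_apply, hb, map_smul, ha, smul_smul, mul_comm])]
      map_zero' := by simp
      map_add' := fun s t => by simp }
  obtain ⟨g', hg', hg'c⟩ := Local.exists_eigenform_of_hom_away (L := ℂ) (C := (⊤ : Subring ℂ)) hS
    (⊤ : Subring ℂ).subtype Subtype.val_injective (fun ℓ => ⟨qCoeff g ℓ, trivial⟩) ψ
    (fun ℓ hℓ hℓN _ => key _ _ (hT ℓ hℓ hℓN))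
  exact ⟨g', hg', fun ℓ hℓ hℓN =>
    hg'c ℓ hℓ fun h' => hℓN (Nat.dvd_of_mem_primeFactors (Finset.mem_coe.1 h'))⟩

variable {p : ℕ} [Fact p.Prime] {W : WeierstrassCurve ℤ}

/-- Residual modularity goes up to multiples of the level. -/
theorem isResiduallyModularOfLevel_of_dvd (hΔ : W.Δ ≠ 0) (hp2 : p ≠ 2)
    (hirr : W.ModRepIsIrreducible p) {N₀ N : ℕ} [NeZero N₀] [NeZero N] (h : N₀ ∣ N)
    (hres : W.IsResiduallyModularOfLevel p N₀) : W.IsResiduallyModularOfLevel p N := by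
  obtain ⟨g, 𝔪, hg, h𝔪, hp𝔪, hcong⟩ := hres
  obtain ⟨g', hg', hc⟩ := exists_eigenform_raise h hg
  refine isResiduallyModularOfLevel_of_congr hΔ hp2 hirr hg' h𝔪 hp𝔪 ∅
    fun l hl _ hgood hlN hlp => ?_
  obtain ⟨a, ha, hmem⟩ := hcong l hl hgood (fun h' => hlN (h'.trans h)) hlp
  exact ⟨a, ha.trans (hc l hl hlN).symm, hmem⟩

open Polynomial in
/-- A representation with the reduced characteristic polynomials of the curve at almost all
Frobenius elements has the reduced trace of the curve at every good prime different from `p`. -/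
theorem reduced_trace_frobenius (hΔ : W.Δ ≠ 0) (hp2 : p ≠ 2)
    {O : Type} [CommRing O] [IsLocalRing O] (ρ : GaloisRepAdic O) {F : Type} [Field F] [CharP F p]
    (ι : ResidueField O →+* F) (B : Finset ℕ)
    (h : ∀ ℓ : ℕ, ℓ.Prime → ℓ ∉ B → W.IsGoodPrimeFor ℓ → ℓ ≠ p →
      ∀ A : ValuationSubring ℚ̄, A.LiesOverPrime ℓ → ∀ τ : Γℚ, A.IsFrobeniusAt τ ℓ →
        (LinearMap.charpoly (ρ.ρ τ)).map (ι.comp (IsLocalRing.residue O)) =
          X ^ 2 - C ((W.apOfModel ℓ : ℤ) : F) * X + C (ℓ : F))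
    {r : ℕ} (hr : r.Prime) (hgood : W.IsGoodPrimeFor r) (hrp : r ≠ p)
    {A₁ : ValuationSubring ℚ̄} (hA₁ : A₁.LiesOverPrime r) {φ : Γℚ} (hφ : A₁.IsFrobeniusAt φ r) :
    ι (IsLocalRing.residue O (ρ.trace φ)) = ((W.apOfModel r : ℤ) : F) := by
  letI : Algebra (ResidueField O) F := ι.toAlgebra
  let ρk : ResidualGaloisRep F := ρ.residual.baseChangeAlong ι
  have hchar : ∀ σ, LinearMap.charpoly (ρk.ρ σ) =
      (LinearMap.charpoly (ρ.ρ σ)).map (ι.comp (IsLocalRing.residue O)) := fun σ => by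
    show LinearMap.charpoly (((ρ.ρ σ).baseChange (ResidueField O)).baseChange F) = _
    rw [LinearMap.charpoly_baseChange, LinearMap.charpoly_baseChange, Polynomial.map_map,
      RingHom.algebraMap_toAlgebra, IsLocalRing.ResidueField.algebraMap_eq]
  obtain ⟨ρ', h'⟩ := ResidualSetup.exists_isModRep hΔ (ZMod.castHom (dvd_refl p) F)
  have heq : ∀ g, LinearMap.charpoly (ρ'.ρ g) = LinearMap.charpoly (ρk.ρ g) :=
    charpoly_eq_of_frobenius ρ' ρk
      (B ∪ insert p W.Δ.natAbs.primeFactors) (fun ℓ hℓ hℓS A₂ hA₂ τ hτ => by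
        obtain ⟨hS', hℓp, hgood'⟩ := good_of_notMem hΔ hℓ hℓS
        rw [h'.charpoly hΔ, hchar, h ℓ hℓ hS' hgood' hℓp A₂ hA₂ τ hτ,
          MazurP.modTr_frobenius hΔ hp2 hℓ hgood' hℓp hA₂ hτ,
          MazurP.modDet_frobenius hΔ hℓ hℓp hA₂ hτ, map_intCast, map_natCast])
  have e := (heq φ).symm.trans (h'.charpoly hΔ φ)
  rw [hchar, Reps.charpoly_of_finrank_eq_two ρ.finrank_eq] at e
  simp only [Polynomial.map_add, Polynomial.map_sub, Polynomial.map_mul, Polynomial.map_pow,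
    Polynomial.map_X, Polynomial.map_C] at e
  have e' := congrArg (fun P : Polynomial F => P.coeff 1) e
  simp [Polynomial.coeff_X_pow, Polynomial.coeff_C] at e'
  rw [MazurP.modTr_frobenius hΔ hp2 hr hgood hrp hA₁ hφ] at e'
  simpa [GaloisRepAdic.trace] using e'

/-- The ring of eigenvalues. -/
abbrev eigRing {M : ℕ} [NeZero M] {g : CuspForm (Gamma0 M) 2} (hg : g.IsNormalizedEigenform) :
    Subring ℂ :=
  (Reps.eigenHom hg).range

/-- Coefficients of the eigenvalues with the given reduction. -/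
theorem exists_coeff_eigRing {M : ℕ} [NeZero M] {g : CuspForm (Gamma0 M) 2}
    (hg : g.IsNormalizedEigenform) {F : Type} [Field F] [IsAlgClosed F] [CharP F p]
    (π : integralClosure ℤ ℂ →+* F) :
    ∃ (O : Type) (_ : CommRing O) (_ : IsDomain O) (_ : IsDiscreteValuationRing O)
      (_ : IsAdicComplete (maximalIdeal O) O) (_ : Finite (ResidueField O)) (_ : CharZero O)
      (_ : (p : O) ∈ maximalIdeal O),
      ∃ (χ : eigRing hg →+* O) (ι : ResidueField O →+* F),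
        ∀ (t : Reps.TZ M) (a : integralClosure ℤ ℂ), (a : ℂ) = Reps.eigenHom hg t →
          ι (IsLocalRing.residue O (χ ((Reps.eigenHom hg).rangeRestrict t))) = π a := by
  haveI : Module.Finite ℤ (Reps.TZ M) := IntStr.moduleFinite_heckeAlgebra_two M
  haveI : Module.Finite ℤ (eigRing hg) :=
    Module.Finite.of_surjective ((Reps.eigenHom hg).rangeRestrict.toIntAlgHom.toLinearMap)
      (Reps.eigenHom hg).rangeRestrict_surjective
  let incl : eigRing hg →+* integralClosure ℤ ℂ :=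
    (eigRing hg).subtype.codRestrict (integralClosure ℤ ℂ) fun a => by
      obtain ⟨_, t, rfl⟩ := a
      exact map_isIntegral_int (Reps.eigenHom hg) (Algebra.IsIntegral.isIntegral t)
  obtain ⟨O, _, _, _, _, _, _, hpO, χ, ι, hι⟩ :=
    Reps.exists_coeff_of_residual (p := p) (eigRing hg) (π.comp incl)
  exact ⟨O, inferInstance, inferInstance, inferInstance, inferInstance, inferInstance,
    inferInstance, hpO, χ, ι, fun t a ha =>
      (hι _).trans (congrArg π (Subtype.ext ha.symm))⟩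

/-- The characteristic polynomial of Frobenius on a newform representation at a prime exactly
dividing the level. -/
theorem trace_rep_newform {M : ℕ} [NeZero M] {g : CuspForm (Gamma0 M) 2} (hg : g.IsNewform)
    (G : Reps.GalModel M p) {O : Type} [CommRing O] [IsDomain O] [IsDiscreteValuationRing O]
    [IsAdicComplete (maximalIdeal O) O] [Finite (ResidueField O)] [CharZero O]
    (hpO : (p : O) ∈ maximalIdeal O) (χ : eigRing hg.1 →+* O) {r : ℕ} (hr : r.Prime)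
    (hrp : r ≠ p) (hrM : r ∣ M) (hr2 : ¬ r ^ 2 ∣ M) {A₁ : ValuationSubring ℚ̄}
    (hA₁ : A₁.LiesOverPrime r) {φ : Γℚ} (hφ : A₁.IsFrobeniusAt φ r) :
    (G.rep hpO (χ.comp (Reps.eigenHom hg.1).rangeRestrict)).trace φ ^ 2 = ((r : O) + 1) ^ 2 := by
  classical
  let ρ := G.rep hpO (χ.comp (Reps.eigenHom hg.1).rangeRestrict)
  let S : Finset ℕ := insert p M.primeFactors
  have hMS : ∀ q : ℕ, q.Prime → q ∣ M → q ∈ S := fun q hq hd =>
    Finset.mem_insert_of_mem (Nat.mem_primeFactors.2 ⟨hq, hd, NeZero.ne M⟩)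
  let chig : ↥(CuspForm.heckeAlgebra M 2 (↑S : Set ℕ)) →+* ℂ :=
    (Reps.eigenHom hg.1).comp (Local.inclS _)
  have hle : chig.range ≤ eigRing hg.1 := by
    rintro _ ⟨t, rfl⟩
    exact ⟨_, rfl⟩
  let e₀ : chig.range →+* O := χ.comp (Subring.inclusion hle)
  have hatt : Local.IsAttached (e₀.comp chig.rangeRestrict) ρ p :=
    ⟨Finset.mem_insert_self _ _, hMS, hpO, fun ℓ hℓ hℓM hℓS B hB σ hσ => by
      have h1 : Local.inclS (↑S : Set ℕ) (CuspForm.heckeAlgebra.T hℓ hℓM hℓS) =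
          Reps.heckeTOf hℓ hℓM := Subtype.ext rfl
      have h2 : Subring.inclusion hle (chig.rangeRestrict (CuspForm.heckeAlgebra.T hℓ hℓM hℓS)) =
          (Reps.eigenHom hg.1).rangeRestrict (Reps.heckeTOf hℓ hℓM) :=
        Subtype.ext (congrArg (Reps.eigenHom hg.1) h1)
      have h3 := G.rep_charpoly hpO (χ.comp (Reps.eigenHom hg.1).rangeRestrict) hℓ hℓM
        (fun e => hℓS (Finset.mem_coe.2 (e ▸ Finset.mem_insert_self _ _))) hB hσ
      rw [RingHom.comp_apply, RingHom.comp_apply, h2]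
      exact h3⟩
  have hchig : ∀ (ℓ : ℕ) (hℓ : ℓ.Prime) (hℓM : ¬ ℓ ∣ M) (hℓS : ℓ ∉ (↑S : Set ℕ)),
      chig (CuspForm.heckeAlgebra.T hℓ hℓM hℓS) = qCoeff g ℓ := by
    intro ℓ hℓ hℓM hℓS
    have h1 : Local.inclS (↑S : Set ℕ) (CuspForm.heckeAlgebra.T hℓ hℓM hℓS) =
        Reps.heckeTOf hℓ hℓM := Subtype.ext rfl
    show Reps.eigenHom hg.1 (Local.inclS _ (CuspForm.heckeAlgebra.T hℓ hℓM hℓS)) = _
    rw [h1]
    exact Reps.eigenHom_T hg.1 hℓ hℓM
  have h := Local.trace_frobenius_newform hg hchig e₀ hatt hr hrp hrM hr2 hA₁ hφ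
  have hρ : (G.rep hpO (χ.comp (Reps.eigenHom hg.1).rangeRestrict)).trace φ =
      LinearMap.trace O ρ.V (ρ.ρ φ) := rfl
  rcases h with e | e
  · rw [hρ, e]
  · rw [hρ, e, neg_sq]

/-- A newform congruent to the curve has `a_r ^ 2 ≡ (r + 1) ^ 2` at a good prime `r` exactly
dividing its level. -/
theorem dvd_sq_sub_of_newform (hΔ : W.Δ ≠ 0) (hp2 : p ≠ 2)
    {M : ℕ} [NeZero M] {g : CuspForm (Gamma0 M) 2} (hg : g.IsNewform)
    {𝔪 : Ideal (integralClosure ℤ ℂ)} (h𝔪 : 𝔪.IsMaximal)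
    (hp𝔪 : (p : integralClosure ℤ ℂ) ∈ 𝔪) (B : Finset ℕ)
    (hcong : ∀ l : ℕ, l.Prime → l ∉ B → W.IsGoodPrimeFor l → ¬ l ∣ M → l ≠ p →
      ∃ a : integralClosure ℤ ℂ, (a : ℂ) = qCoeff g l ∧
        a - ((W.apOfModel l : ℤ) : integralClosure ℤ ℂ) ∈ 𝔪)
    {r : ℕ} (hr : r.Prime) (hrp : r ≠ p) (hrM : r ∣ M) (hr2 : ¬ r ^ 2 ∣ M)
    (hgood : W.IsGoodPrimeFor r) :
    (p : ℤ) ∣ W.apOfModel r ^ 2 - ((r : ℤ) + 1) ^ 2 := by
  letI := Ideal.Quotient.field 𝔪
  haveI : IsAlgClosed (integralClosure ℤ ℂ ⧸ 𝔪) := Reps.isAlgClosed_quot 𝔪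
  haveI : CharP (integralClosure ℤ ℂ ⧸ 𝔪) p := (CharP.charP_iff_prime_eq_zero Fact.out).2 (by
    rw [← map_natCast (Ideal.Quotient.mk 𝔪), Ideal.Quotient.eq_zero_iff_mem]
    exact hp𝔪)
  obtain ⟨G⟩ := Reps.nonempty_galModel M p
  obtain ⟨O, _, _, _, _, _, _, hpO, χ, ι, hι⟩ :=
    exists_coeff_eigRing (p := p) hg.1 (Ideal.Quotient.mk 𝔪)
  obtain ⟨A₁, hA₁, φ, hφ⟩ := GalCommon.exists_place_frobenius hr
  have htr := trace_rep_newform hg G hpO χ hr hrp hrM hr2 hA₁ hφ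
  have h1 := reduced_trace_frobenius hΔ hp2
    (G.rep hpO (χ.comp (Reps.eigenHom hg.1).rangeRestrict)) ι (B ∪ M.primeFactors)
    (fun ℓ hℓ hℓS hgood' hℓp A₂ hA₂ τ hτ => by
      simp only [Finset.mem_union, not_or] at hℓS
      have hℓM : ¬ ℓ ∣ M := fun h => hℓS.2 (Nat.mem_primeFactors.2 ⟨hℓ, h, NeZero.ne M⟩)
      obtain ⟨a, ha, hmem⟩ := hcong ℓ hℓ hℓS.1 hgood' hℓM hℓp
      rw [G.rep_charpoly hpO _ hℓ hℓM hℓp hA₂ hτ]
      simp only [Polynomial.map_add, Polynomial.map_sub, Polynomial.map_mul, Polynomial.map_pow,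
        Polynomial.map_X, Polynomial.map_C, Polynomial.map_natCast, map_natCast, RingHom.comp_apply]
      rw [hι _ a (ha.trans (Reps.eigenHom_T hg.1 hℓ hℓM).symm),
        ← map_intCast (Ideal.Quotient.mk 𝔪), (Ideal.Quotient.mk_eq_mk_iff_sub_mem _ _).2 hmem])
    hr hgood hrp hA₁ hφ
  have h2 := congrArg (fun x => ι (IsLocalRing.residue O x)) htr
  simp only [map_pow, map_add, map_one, map_natCast, h1] at h2
  rw [← CharP.intCast_eq_zero_iff (integralClosure ℤ ℂ ⧸ 𝔪) p]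
  push_cast
  rw [h2, sub_self]

/-- A good prime `r` exactly dividing the level with `a_r ^ 2 ≢ (r + 1) ^ 2` can be removed. -/
theorem isResiduallyModularOfLevel_of_mul_aux (hΔ : W.Δ ≠ 0) (hp2 : p ≠ 2)
    (hirr : W.ModRepIsIrreducible p) {N r : ℕ} [NeZero N] [NeZero (N * r)] (hr : r.Prime)
    (hrN : ¬ r ∣ N) (hrp : r ≠ p) (hgood : W.IsGoodPrimeFor r)
    (hne : ¬ (p : ℤ) ∣ W.apOfModel r ^ 2 - ((r : ℤ) + 1) ^ 2)
    (hres : W.IsResiduallyModularOfLevel p (N * r)) : W.IsResiduallyModularOfLevel p N := by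
  classical
  obtain ⟨g, 𝔪, hg, h𝔪, hp𝔪, hcong⟩ := hres
  let P : ℕ → Prop := fun M => M ∣ N * r ∧ ∃ g₀ : CuspForm (Gamma0 M) 2, g₀.IsNormalizedEigenform ∧
    ∀ ℓ : ℕ, ℓ.Prime → ¬ ℓ ∣ N * r → qCoeff g₀ ℓ = qCoeff g ℓ
  have hP : ∃ M, P M := ⟨N * r, dvd_rfl, g, hg, fun _ _ _ => rfl⟩
  obtain ⟨M, hMdef⟩ : ∃ M, M = Nat.find hP := ⟨_, rfl⟩
  obtain ⟨hM, g₀, hg₀, hc⟩ : P M := hMdef ▸ Nat.find_spec hP
  haveI : NeZero M := ⟨fun h => NeZero.ne (N * r) (Nat.eq_zero_of_zero_dvd (h ▸ hM))⟩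
  have hnew : g₀.IsNewform := by
    refine ⟨hg₀, fun M' hM' hne ⟨g', hg', hgc'⟩ => ?_⟩
    refine Nat.find_min hP (hMdef ▸ lt_of_le_of_ne (Nat.le_of_dvd (NeZero.pos M) hM') hne)
      ⟨hM'.trans hM, g', hg', fun ℓ hℓ hℓN => ?_⟩
    rw [hgc' ℓ hℓ fun h => hℓN (h.trans hM)]
    exact hc ℓ hℓ hℓN
  have hcong₀ : ∀ l : ℕ, l.Prime → l ∉ (N * r).primeFactors → W.IsGoodPrimeFor l → l ≠ p →
      ∃ a : integralClosure ℤ ℂ, (a : ℂ) = qCoeff g₀ l ∧
        a - ((W.apOfModel l : ℤ) : integralClosure ℤ ℂ) ∈ 𝔪 := by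
    intro l hl hlS hlgood hlp
    have hlN : ¬ l ∣ N * r := fun h => hlS (Nat.mem_primeFactors.2 ⟨hl, h, NeZero.ne _⟩)
    obtain ⟨a, ha, hmem⟩ := hcong l hl hlgood hlN hlp
    exact ⟨a, ha.trans (hc l hl hlN).symm, hmem⟩
  by_cases hrM : r ∣ M
  · refine absurd (dvd_sq_sub_of_newform hΔ hp2 hnew h𝔪 hp𝔪 (N * r).primeFactors
      (fun l hl hlS hlgood _ hlp => hcong₀ l hl hlS hlgood hlp) hr hrp hrM ?_ hgood) hne
    intro h2
    exact hrN (Nat.dvd_of_mul_dvd_mul_right hr.pos (sq r ▸ h2.trans hM))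
  · have hMN : M ∣ N := ((hr.coprime_iff_not_dvd.2 hrM).symm).dvd_of_dvd_mul_right hM
    obtain ⟨g', hg', hc'⟩ := exists_eigenform_raise hMN hg₀
    refine isResiduallyModularOfLevel_of_congr hΔ hp2 hirr hg' h𝔪 hp𝔪 (N * r).primeFactors
      fun l hl hlS hlgood hlN hlp => ?_
    obtain ⟨a, ha, hmem⟩ := hcong₀ l hl hlS hlgood hlp
    exact ⟨a, ha.trans (hc' l hl hlN).symm, hmem⟩

end FLTAgent.Lower.Lift
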