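import Mathlib
import Fermat.Agent.Lower.Mat2

/-!
# Coordinates at an unramified residual place `l ≠ p`

For a tame pair (inertia `1 + N`, Frobenius `F`) `coordsOf` records `N = (a, b; c, -a)`, the
trace-zero part `(A, B; C, -A)` of `F` and `w = tr F - ε (l + 1)`; `coordRels_of_pair` proves the
relations `CoordRels` between them. At a scalar place six entries are used, at a nonscalar place
`F` is in companion form and `w, a, b` suffice. `gens_eq_zero`: in a domain, on a component of
each kind (`Mode`: unramified, Steinberg, degenerate) the list `Coords.cut` of at most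
`weight sc` elements leaves only the zero point.
-/

set_option autoImplicit false
set_option linter.style.haveILetI false

noncomputable section

namespace FLTAgent.Lower.Lift

open Matrix
open FLTAgent.Lower

/-- The coordinates at a place. -/
structure Coords (R : Type*) where
  a : R
  b : R
  c : R
  A : R
  B : R
  C : R
  w : R

/-- The image of coordinates. -/
def Coords.map {R R' : Type*} (f : R → R') (x : Coords R) : Coords R' :=
  ⟨f x.a, f x.b, f x.c, f x.A, f x.B, f x.C, f x.w⟩

/-- The coordinates, as a function on `Fin 7`. -/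
def Coords.get {R : Type*} (x : Coords R) : Fin 7 → R := ![x.a, x.b, x.c, x.A, x.B, x.C, x.w]

variable {R : Type*} [CommRing R]

/-- The relations between the coordinates at a place with residue degree data `l`, `ε`,
`h = 1/2`; `sc` says whether the place is scalar. -/
structure CoordRels (sc : Bool) (l : ℕ) (ε h : R) (x : Coords R) : Prop where
  nil : x.a * x.a + x.b * x.c = 0
  special : ∀ v ∈ ({x.a, x.b, x.c} : Set R),
    v * ((l : R) * ((l : R) - 1) * (x.w * (x.w + 2 * ε * ((l : R) + 1)))) = 0
  minor : sc = true →
    (1 - (l : R)) * (h * (x.w + ε * ((l : R) + 1)) + x.A) * x.a + x.B * x.c -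
      (l : R) * (x.b * x.C) = 0
  quad : sc = true →
    x.A * x.A + x.B * x.C = (h * (x.w + ε * ((l : R) + 1))) ^ 2 - (l : R)
  skew : sc = false → x.c = -x.b
  lin : sc = false → ((l : R) + 1) * x.a = (x.w + ε * ((l : R) + 1)) * x.b

theorem CoordRels.map {R' : Type*} [CommRing R'] (f : R →+* R') {sc : Bool} {l : ℕ} {ε h : R}
    {x : Coords R} (H : CoordRels sc l ε h x) : CoordRels sc l (f ε) (f h) (x.map f) := by
  refine ⟨?_, fun v hv => ?_, fun hs => ?_, fun hs => ?_, fun hs => ?_, fun hs => ?_⟩
  · simpa [Coords.map] using congrArg f H.nil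
  · simp only [Coords.map, Set.mem_insert_iff, Set.mem_singleton_iff] at hv ⊢
    rcases hv with rfl | rfl | rfl
    · simpa [map_ofNat] using congrArg f (H.special x.a (by simp))
    · simpa [map_ofNat] using congrArg f (H.special x.b (by simp))
    · simpa [map_ofNat] using congrArg f (H.special x.c (by simp))
  · simpa [Coords.map] using congrArg f (H.minor hs)
  · simpa [Coords.map] using congrArg f (H.quad hs)
  · simpa [Coords.map] using congrArg f (H.skew hs)
  · simpa [Coords.map] using congrArg f (H.lin hs)

/-- A tame pair with unipotent inertia makes the inertia part annihilate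
`l (l - 1) (t² - (l + 1)²)`. -/
theorem special_rel {N F : Matrix (Fin 2) (Fin 2) R} {l : ℕ} (htr : N.trace = 0) (hN : N * N = 0)
    (hdet : F.det = (l : R)) (hFN : F * N = (l : R) • (N * F)) :
    ((l : R) * ((l : R) - 1) * (F.trace ^ 2 - ((l : R) + 1) ^ 2)) • N = 0 := by
  set t := F.trace
  set L := (l : R)
  set s := (N * F).trace
  have hF2 : F * F = t • F - L • 1 := by
    rw [← hdet]
    ext i j
    fin_cases i <;> fin_cases j <;>
      simp [t, Matrix.mul_apply, Fin.sum_univ_two, Matrix.trace_fin_two, Matrix.det_fin_two] <;>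
      ring
  have hid : F * N + N * F = t • N + s • (1 : Matrix (Fin 2) (Fin 2) R) := by
    rw [Matrix.trace_fin_two] at htr
    ext i j
    fin_cases i <;> fin_cases j <;>
      simp [t, s, Matrix.mul_apply, Fin.sum_univ_two, Matrix.trace_fin_two] <;>
      first
        | linear_combination (F 0 0) * htr
        | linear_combination (F 0 1) * htr
        | linear_combination (F 1 0) * htr
        | linear_combination (F 1 1) * htr
        | linear_combination -(F 0 0) * htr
        | linear_combination -(F 1 1) * htr
  have h1 : (L + 1) • (N * F) = t • N + s • (1 : Matrix (Fin 2) (Fin 2) R) := by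
    rw [← hid, hFN, add_smul, one_smul]
  have hs : (L - 1) * s = 0 := by
    have := congrArg Matrix.trace hFN
    rw [Matrix.trace_mul_comm F N, Matrix.trace_smul, smul_eq_mul] at this
    linear_combination -this
  have h3 : (L + 1) • (t • (N * F) - L • N) = t • (N * F) + s • F := by
    have := congrArg (· * F) h1
    simp only [smul_mul_assoc, Matrix.mul_assoc, hF2, Matrix.mul_sub, mul_smul_comm, mul_one,
      add_mul, one_mul] at this
    exact this
  calc ((L * (L - 1)) * (t ^ 2 - (L + 1) ^ 2)) • N
      = (L * (L - 1) * t) • (t • N + s • (1 : Matrix (Fin 2) (Fin 2) R))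
        - (L * (L - 1) * (L + 1) ^ 2) • N - (L * t * ((L - 1) * s)) • 1 := by module
    _ = (L * (L - 1) * t) • ((L + 1) • (N * F)) - (L * (L - 1) * (L + 1) ^ 2) • N := by
        rw [h1, hs, mul_zero, zero_smul, sub_zero]
    _ = ((L - 1) * (L + 1)) • ((L + 1) • (t • (N * F) - L • N) - (t • (N * F) + s • F))
        + ((L + 1) * ((L - 1) * s)) • F := by module
    _ = 0 := by rw [h3, sub_self, smul_zero, hs, mul_zero, zero_smul, zero_add]

theorem trace_sub_one_eq_zero {S : Matrix (Fin 2) (Fin 2) R} (htr : S.trace = 2) :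
    (S - 1).trace = 0 := by
  rw [Matrix.trace_sub, htr, Matrix.trace_one]
  norm_num

theorem sub_one_sq {S : Matrix (Fin 2) (Fin 2) R} (hdet : S.det = 1) (htr : S.trace = 2) :
    (S - 1) * (S - 1) = 0 := by
  rw [sub_mul, mul_sub, mul_one, one_mul, mul_self_eq_smul_sub_one hdet, htr]
  module

theorem tame_linear {S Φ : Matrix (Fin 2) (Fin 2) R} {l : ℕ} (hdet : S.det = 1)
    (htr : S.trace = 2) (htame : Φ * S = S ^ l * Φ) :
    Φ * (S - 1) = (l : R) • ((S - 1) * Φ) := by
  rw [mul_sub, mul_one, htame, pow_eq_of_trace_two hdet htr, sub_mul, smul_mul_assoc,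
    smul_mul_assoc, one_mul, sub_mul, one_mul]
  module

/-- The coordinates of a tame pair at a scalar place. -/
def coordsOf (h ε : R) (l : ℕ) (S Φ : Matrix (Fin 2) (Fin 2) R) : Coords R :=
  ⟨(S - 1) 0 0, (S - 1) 0 1, (S - 1) 1 0, h * (Φ 0 0 - Φ 1 1), Φ 0 1, Φ 1 0,
    Φ.trace - ε * ((l : R) + 1)⟩

theorem coordsOf_map {R' : Type*} [CommRing R'] (f : R →+* R') (h ε : R) (l : ℕ)
    (S Φ : Matrix (Fin 2) (Fin 2) R) :
    coordsOf (f h) (f ε) l (f.mapMatrix S) (f.mapMatrix Φ) = (coordsOf h ε l S Φ).map f := by
  simp [coordsOf, Coords.map, RingHom.mapMatrix_apply, Matrix.trace_fin_two]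

/-- The relations of a tame pair with unipotent inertia; at a nonscalar place Frobenius must be in
companion form. -/
theorem coordRels_of_pair (sc : Bool) {h ε : R} (hh : 2 * h = 1) (hε : ε * ε = 1) {l : ℕ}
    {S Φ : Matrix (Fin 2) (Fin 2) R} (hdetS : S.det = 1) (htrS : S.trace = 2)
    (hdetΦ : Φ.det = (l : R)) (htame : Φ * S = S ^ l * Φ) (hl : IsUnit (l : R))
    (hcomp : sc = false → Φ 0 0 = 0 ∧ Φ 1 0 = 1) :
    CoordRels sc l ε h (coordsOf h ε l S Φ) := by
  have hN := sub_one_sq hdetS htrS
  have htr := trace_sub_one_eq_zero htrS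
  have hlin := tame_linear hdetS htrS htame
  have hsp := special_rel htr hN hdetΦ hlin
  rw [Matrix.trace_fin_two] at htr
  have e00 := congrFun (congrFun hlin 0) 0
  have e01 := congrFun (congrFun hlin 0) 1
  have e10 := congrFun (congrFun hlin 1) 0
  simp only [Matrix.mul_apply, Fin.sum_univ_two, Matrix.smul_apply, smul_eq_mul] at e00 e01 e10
  have n00 := congrFun (congrFun hN 0) 0
  simp only [Matrix.mul_apply, Fin.sum_univ_two, Matrix.zero_apply] at n00
  rw [Matrix.det_fin_two] at hdetΦ
  set N := S - 1
  refine ⟨n00, fun v hv => ?_, fun _ => ?_, fun _ => ?_, fun hs => ?_, fun hs => ?_⟩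
  · have key : ∀ i j, N i j * ((l : R) * ((l : R) - 1) *
        ((Φ.trace - ε * ((l : R) + 1)) * (Φ.trace - ε * ((l : R) + 1) + 2 * ε * ((l : R) + 1)))) = 0 := by
      intro i j
      have := congrFun (congrFun hsp i) j
      simp only [Matrix.smul_apply, smul_eq_mul, Matrix.zero_apply] at this
      linear_combination this - N i j * (l : R) * ((l : R) - 1) * ((l : R) + 1) ^ 2 * hε
    simp only [coordsOf, Set.mem_insert_iff, Set.mem_singleton_iff] at hv
    rcases hv with rfl | rfl | rfl <;> exact key _ _
  · simp only [coordsOf]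
    rw [sub_add_cancel, Matrix.trace_fin_two]
    linear_combination e00 + ((1 - (l : R)) * N 0 0 * Φ 0 0) * hh
  · simp only [coordsOf]
    rw [sub_add_cancel, Matrix.trace_fin_two]
    linear_combination -hdetΦ - ((2 * h + 1) * Φ 0 0 * Φ 1 1) * hh
  · obtain ⟨h0, h1⟩ := hcomp hs
    simp only [coordsOf]
    rw [h0, h1] at hdetΦ
    rw [h0, h1] at e00
    have : (l : R) * (N 1 0 + N 0 1) = 0 := by linear_combination -e00 - N 1 0 * hdetΦ
    linear_combination hl.mul_right_eq_zero.1 this
  · obtain ⟨h0, h1⟩ := hcomp hs
    simp only [coordsOf]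
    rw [sub_add_cancel, Matrix.trace_fin_two, h0, zero_add]
    rw [h0, h1] at hdetΦ e10 e00
    have hc : N 1 0 = -N 0 1 := by
      have : (l : R) * (N 1 0 + N 0 1) = 0 := by linear_combination -e00 - N 1 0 * hdetΦ
      linear_combination hl.mul_right_eq_zero.1 this
    rw [hc] at e10
    linear_combination e10 + (l : R) * htr

/-- The kind of a component at a place. -/
inductive Mode
  | unr
  | st
  | deg
  deriving DecidableEq

/-- Elements cutting the place down to the closed point. -/
def Coords.cut (x : Coords R) : Bool → Mode → List R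
  | true, .unr => [x.A, x.B, x.C]
  | true, .st => [x.b, x.C, x.c - x.B]
  | true, .deg => [x.A, x.B - x.C]
  | false, .unr => [x.w]
  | false, .st => [x.b]
  | false, .deg => []

/-- The generators at a place. -/
def Coords.gens (x : Coords R) : Bool → List R
  | true => [x.a, x.b, x.c, x.A, x.B, x.C]
  | false => [x.w, x.a, x.b]

/-- The weight of a place. -/
def weight : Bool → ℕ
  | true => 3
  | false => 1

theorem length_cut (x : Coords R) (sc : Bool) :
    (x.cut sc .unr).length = weight sc ∧ (x.cut sc .st).length = weight sc ∧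
      (x.cut sc .deg).length + 1 = weight sc := by
  cases sc <;> simp [Coords.cut, weight]

/-- What the kind of component fixes. -/
def Coords.fixed (x : Coords R) : Mode → Prop
  | .unr => x.a = 0 ∧ x.b = 0 ∧ x.c = 0
  | .st => x.w = 0
  | .deg => x.a = 0 ∧ x.b = 0 ∧ x.c = 0 ∧ x.w = 0

/-- In characteristic `p` the cutting elements leave only zero. -/
theorem gens_eq_zero {D : Type*} [CommRing D] [IsDomain D] {sc : Bool} {l : ℕ} {ε h : D}
    {x : Coords D} (H : CoordRels sc l ε h x) (hh : 2 * h = 1) (hε : ε * ε = 1)
    (hl : sc = true → (l : D) = 1) {md : Mode} (hfix : x.fixed md)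
    (hcut : ∀ v ∈ x.cut sc md, v = 0) : ∀ v ∈ x.gens sc, v = 0 := by
  have hnil := H.nil
  cases sc
  · have hskew := H.skew rfl
    have hab : x.b = 0 → x.a = 0 := fun hb => by
      rw [hb, zero_mul, add_zero] at hnil
      exact mul_self_eq_zero.1 hnil
    intro v hv
    cases md <;> simp [Coords.cut, Coords.fixed] at hcut hfix <;>
      simp [Coords.gens] at hv <;> rcases hv with rfl | rfl | rfl
    all_goals first
      | exact hcut
      | exact hfix
      | exact hfix.1
      | exact hfix.2.1
      | exact hfix.2.2.2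
      | exact hab hcut
  · have hl1 := hl rfl
    have hm := H.minor rfl
    have hq := H.quad rfl
    rw [hl1] at hm hq
    have hw0 : x.w = 0 → x.A * x.A + x.B * x.C = 0 := fun hw => by
      rw [hw, zero_add] at hq
      linear_combination hq + (ε * ε * (2 * h + 1)) * hh + hε
    intro v hv
    cases md
    · simp [Coords.cut, Coords.fixed] at hcut hfix
      obtain ⟨h1, h2, h3⟩ := hfix
      obtain ⟨h4, h5, h6⟩ := hcut
      simp [Coords.gens] at hv
      rcases hv with rfl | rfl | rfl | rfl | rfl | rfl <;> assumption
    · simp [Coords.cut, Coords.fixed] at hcut hfix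
      obtain ⟨hb, hC, hcB⟩ := hcut
      have ha : x.a = 0 := by
        rw [hb, zero_mul, add_zero] at hnil
        exact mul_self_eq_zero.1 hnil
      have hA : x.A = 0 := by
        have := hw0 hfix
        rw [hC, mul_zero, add_zero] at this
        exact mul_self_eq_zero.1 this
      have hB : x.B = x.c := (sub_eq_zero.1 hcB).symm
      have hc : x.c = 0 := by
        rw [hB, hb, zero_mul, mul_zero, sub_zero] at hm
        simp at hm
        exact hm
      simp [Coords.gens] at hv
      rcases hv with rfl | rfl | rfl | rfl | rfl | rfl <;>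
        first | assumption | exact hB.trans hc
    · simp [Coords.cut, Coords.fixed] at hcut hfix
      obtain ⟨hA, hBC⟩ := hcut
      obtain ⟨h1, h2, h3, h4⟩ := hfix
      have hB : x.B = 0 := by
        have := hw0 h4
        rw [hA, zero_mul, zero_add, ← sub_eq_zero.1 hBC] at this
        exact mul_self_eq_zero.1 this
      have hC : x.C = 0 := (sub_eq_zero.1 hBC).symm.trans hB
      simp [Coords.gens] at hv
      rcases hv with rfl | rfl | rfl | rfl | rfl | rfl <;> assumption

end FLTAgent.Lower.Lift
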