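import Mathlib
import Fermat.Agent.Lower.Algebra
import Fermat.Agent.Lower.Params

/-!
# Dimension counting for the hop

A domain `D` containing `S` and integral over it, where `S` has a chain of primes of length `r + 1`
(`FullChain`, `exists_fullChain` for `O[[X₁, …, X_r]]`), has a prime over the maximal ideal of
height at least `r + 1` (`exists_prime_top`). Hence, if along each of the given bad ideals fewer
than `r` elements cut down to the parameters, some minimal prime over a single element `w` contains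
none of the bad ideals (`exists_minimalPrime_avoiding`).
-/

set_option autoImplicit false
set_option linter.style.haveILetI false
set_option linter.unusedSectionVars false

noncomputable section

namespace FLTAgent.Lower.Lift

open IsLocalRing (maximalIdeal)
open FLTAgent.Lower

/-- The parameter data of `S` with a chain from `⊥` to the maximal ideal. -/
structure FullChain (S : Type*) [CommRing S] [IsLocalRing S] (r : ℕ) where
  gens : Set S
  gen : maximalIdeal S ≤ Ideal.span gens
  p : Fin (r + 2) → Ideal S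
  p_prime : ∀ j, (p j).IsPrime
  p_mono : StrictMono p
  p_zero : p 0 = ⊥
  p_last : p (Fin.last (r + 1)) = maximalIdeal S

/-- The power series ring in `r` variables over `O` has a full chain. -/
theorem exists_fullChain {O : Type} [CommRing O] [IsDomain O] [IsDiscreteValuationRing O]
    {ϖ : O} (hϖ : Irreducible ϖ) (r : ℕ) :
    ∃ C : FullChain (MvPowerSeries (Fin r) O) r,
      C.gens = insert (MvPowerSeries.C ϖ) (Set.range MvPowerSeries.X) := by
  obtain ⟨PR, hπ, hy⟩ := exists_paramRing (O := O) hϖ r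
  haveI : IsDomain (MvPowerSeries (Fin r) O) := NoZeroDivisors.to_isDomain _
  refine ⟨⟨insert PR.π (Set.range PR.y), PR.gen, Fin.cons ⊥ PR.p, ?_, ?_, rfl, ?_⟩,
    (congrArg₂ (fun a b => insert a (Set.range b)) hπ hy)⟩
  · exact Fin.cases Ideal.isPrime_bot PR.p_prime
  · have h0 : (⊥ : Ideal (MvPowerSeries (Fin r) O)) < PR.p 0 := by
      rw [PR.p_zero, bot_lt_iff_ne_bot, Ne, Ideal.span_singleton_eq_bot]
      exact PR.π_prime.ne_zero
    intro i j hij
    induction j using Fin.cases with
    | zero => exact absurd hij (Fin.not_lt_zero i)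
    | succ j =>
      induction i using Fin.cases with
      | zero =>
        simpa using h0.trans_le (PR.p_mono.monotone (Fin.zero_le j))
      | succ i => simpa using PR.p_mono (Fin.succ_lt_succ_iff.1 hij)
  · simp [← Fin.succ_last, PR.p_last]

variable {S : Type*} [CommRing S] [IsLocalRing S] {r : ℕ}
  {D : Type*} [CommRing D] [IsDomain D] [IsNoetherianRing D] [Algebra S D]
  [Algebra.IsIntegral S D]

/-- A prime over the maximal ideal of height at least `r + 1`. -/
theorem exists_prime_top (C : FullChain S r) (hinj : Function.Injective (algebraMap S D)) :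
    ∃ Q : Ideal D, Q.IsPrime ∧ Q.comap (algebraMap S D) = maximalIdeal S ∧
      ((r + 1 : ℕ) : ℕ∞) ≤ Q.height := by
  obtain ⟨Q, hQ, hQp, hQh⟩ := exists_lift_chain (D := D) C.p C.p_prime C.p_mono
    (by rw [(RingHom.injective_iff_ker_eq_bot _).1 hinj, C.p_zero]) (Fin.last (r + 1))
  exact ⟨Q, hQ, by rw [hQp, C.p_last], by simpa using hQh⟩

/-- The quotient by a prime has dimension at most `k` when `k` elements of the maximal ideals cut
it down to the parameters. -/
theorem ringKrullDim_quotient_le_of_list (C : FullChain S r) (ξ : Ideal D) (L : Finset D)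
    (hL : ∀ Q : Ideal D, Q.IsPrime → Q.comap (algebraMap S D) = maximalIdeal S → ∀ v ∈ L, v ∈ Q)
    (hy : ∀ s ∈ C.gens, algebraMap S D s ∈ (Ideal.span (L : Set D) ⊔ ξ).radical) :
    ringKrullDim (D ⧸ ξ) ≤ (L.card : ℕ∞) := by
  classical
  rw [ringKrullDim_le_iff_isMaximal_height_le]
  intro m hm
  let Q := m.comap (Ideal.Quotient.mk ξ)
  haveI : Q.IsMaximal := Ideal.comap_isMaximal_of_surjective _ Ideal.Quotient.mk_surjective
  have hQm : Q.comap (algebraMap S D) = maximalIdeal S :=
    IsLocalRing.eq_maximalIdeal (Ideal.isMaximal_comap_of_isIntegral_of_isMaximal Q)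
  let L' : Finset (D ⧸ ξ) := L.image (Ideal.Quotient.mk ξ)
  have hLm : Ideal.span (L' : Set (D ⧸ ξ)) ≤ m := Ideal.span_le.2 fun v hv => by
    obtain ⟨u, hu, rfl⟩ := Finset.mem_image.1 hv
    exact hL Q inferInstance hQm u hu
  have hmem : m ∈ (Ideal.span (L' : Set (D ⧸ ξ))).minimalPrimes := by
    refine ⟨⟨hm.isPrime, hLm⟩, fun m' ⟨hm', hLm'⟩ hle => ?_⟩
    haveI : m'.IsPrime := hm'
    let Q' := m'.comap (Ideal.Quotient.mk ξ)
    haveI : Q'.IsPrime := Ideal.IsPrime.comap _
    have hsub : Ideal.span (L : Set D) ⊔ ξ ≤ Q' := by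
      refine sup_le (Ideal.span_le.2 fun v hv => hLm' (Ideal.subset_span
        (Finset.mem_coe.2 (Finset.mem_image_of_mem _ hv)))) fun x hx => ?_
      show Ideal.Quotient.mk ξ x ∈ m'
      rw [Ideal.Quotient.eq_zero_iff_mem.2 hx]
      exact zero_mem _
    have hQ'm : Q'.comap (algebraMap S D) = maximalIdeal S := by
      refine le_antisymm (IsLocalRing.le_maximalIdeal (Ideal.IsPrime.comap _).ne_top)
        (C.gen.trans (Ideal.span_le.2 fun s hs => ?_))
      exact (Ideal.IsPrime.radical_le_iff ‹Q'.IsPrime›).2 hsub (hy s hs)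
    haveI : (Q'.comap (algebraMap S D)).IsMaximal := hQ'm ▸ inferInstance
    haveI : Q'.IsMaximal :=
      Ideal.isMaximal_of_isIntegral_of_isMaximal_comap (R := S) Q' inferInstance
    have := ‹Q'.IsMaximal›.eq_of_le (inferInstance : Q.IsMaximal).ne_top (Ideal.comap_mono hle)
    exact (Ideal.comap_injective_of_surjective _ Ideal.Quotient.mk_surjective this).ge
  have h1 := Ideal.height_le_card_of_mem_minimalPrimes_span_finset hmem
  have h2 : L'.card ≤ L.card := Finset.card_image_le
  exact_mod_cast h1.trans (by exact_mod_cast h2)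

/-- Some minimal prime over `w` avoids all the bad ideals, when along each bad ideal fewer than
`r` elements cut down to the parameters. -/
theorem exists_minimalPrime_avoiding (C : FullChain S r)
    (hinj : Function.Injective (algebraMap S D)) (w : D)
    (hw : ∀ Q : Ideal D, Q.IsPrime → Q.comap (algebraMap S D) = maximalIdeal S → w ∈ Q)
    {ι : Type*} (bad : ι → Ideal D) (L : ι → Finset D) (hcard : ∀ i, (L i).card < r)
    (hL : ∀ i, ∀ Q : Ideal D, Q.IsPrime → Q.comap (algebraMap S D) = maximalIdeal S →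
      ∀ v ∈ L i, v ∈ Q)
    (hy : ∀ i, ∀ s ∈ C.gens,
      algebraMap S D s ∈ (Ideal.span (L i : Set D) ⊔ (Ideal.span {w} ⊔ bad i)).radical) :
    ∃ ξ ∈ (Ideal.span {w}).minimalPrimes, ∀ i, ¬ bad i ≤ ξ := by
  classical
  by_contra hcon
  simp only [not_exists, not_and, not_forall, not_not] at hcon
  obtain ⟨Q, hQ, hQm, hQh⟩ := exists_prime_top C hinj
  haveI := hQ
  have hdim : ringKrullDim (D ⧸ Ideal.span {w}) ≤ ((r - 1 : ℕ) : ℕ∞) := by
    rw [ringKrullDim_quotient, Order.krullDim]
    refine iSup_le fun l => ?_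
    haveI : l.head.1.asIdeal.IsPrime := l.head.1.2
    have hwl : Ideal.span {w} ≤ l.head.1.asIdeal := fun x hx => l.head.2 hx
    obtain ⟨ξ, hξ, hξl⟩ := Ideal.exists_minimalPrimes_le hwl
    haveI := hξ.1.1
    obtain ⟨i, hi⟩ := hcon ξ hξ
    have h1 : ringKrullDim (D ⧸ ξ) ≤ ((L i).card : ℕ∞) :=
      ringKrullDim_quotient_le_of_list C ξ (L i) (hL i) fun s hs =>
        Ideal.radical_mono (sup_le_sup_left (sup_le hξ.1.2 hi) _) (hy i s hs)
    have h2 : (l.length : WithBot ℕ∞) ≤ ringKrullDim (D ⧸ ξ) := by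
      rw [ringKrullDim_quotient, Order.krullDim]
      let l' : LTSeries (PrimeSpectrum.zeroLocus (R := D) ξ) :=
        { length := l.length
          toFun := fun j => ⟨(l j).1, fun x hx =>
            (show l.head.1.asIdeal ≤ (l j).1.asIdeal from l.monotone (Fin.zero_le j)) (hξl hx)⟩
          step := fun j => l.step j }
      exact le_iSup (fun l : LTSeries (PrimeSpectrum.zeroLocus (R := D) ξ) =>
        (l.length : WithBot ℕ∞)) l'
    refine h2.trans (h1.trans ?_)
    have := hcard i
    exact_mod_cast (show (L i).card ≤ r - 1 by omega)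
  have h3 := Ideal.height_le_ringKrullDim_quotient_add_one (p := Q) (hw Q hQ hQm)
  have hr : 1 ≤ r := by
    obtain ⟨ξ, hξ⟩ := (Ideal.span {w}).nonempty_minimalPrimes (fun h => hQ.ne_top
      (top_le_iff.1 (h ▸ (Ideal.span_singleton_le_iff_mem Q).2 (hw Q hQ hQm))))
    obtain ⟨i, -⟩ := hcon ξ hξ
    have := hcard i
    omega
  have h4 : ((r + 1 : ℕ) : WithBot ℕ∞) ≤ ((r : ℕ) : WithBot ℕ∞) := by
    calc ((r + 1 : ℕ) : WithBot ℕ∞) ≤ (Q.height : WithBot ℕ∞) := by exact_mod_cast hQh
      _ ≤ ringKrullDim (D ⧸ Ideal.span {w}) + 1 := h3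
      _ ≤ ((r - 1 : ℕ) : ℕ∞) + 1 := add_le_add hdim le_rfl
      _ = ((r : ℕ) : WithBot ℕ∞) := by
        conv_rhs => rw [← Nat.sub_add_cancel hr]
        push_cast
        rfl
  have h5 : r + 1 ≤ r := by exact_mod_cast h4
  omega

end FLTAgent.Lower.Lift
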