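import Mathlib
import Fermat.Agent.Lower.Lift.Defs
import Fermat.Agent.Lower.Lift.Coords
import Fermat.Agent.Lower.Places
import Fermat.Agent.Lower.LevelSystem

/-!
# Places over the primes of bad reduction

`Places p L` chooses over each prime of `L` a place with a tame pair (inertia `σ`, Frobenius `φ`);
`nonempty_places`. At a place where `ρbar` is unramified and not scalar, bases exist in which
Frobenius is in companion form (`exists_companion_residual`, `exists_companion`);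
`coordRels_place` gives the coordinate relations there, and `inertia_mem_of_mem` spreads a
congruence for the chosen inertia element to all of inertia over the prime.
-/

set_option autoImplicit false
set_option linter.style.haveILetI false
set_option linter.unusedSectionVars false

noncomputable section

namespace FLTAgent.Lower.Lift

open IsLocalRing (maximalIdeal ResidueField)
open FLTAgent.Lower
open scoped Pointwise

local notation "ℚ̄" => AlgebraicClosure ℚ
local notation "Γℚ" => (AlgebraicClosure ℚ ≃ₐ[ℚ] AlgebraicClosure ℚ)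

/-- One place with a tame pair over each prime of `L`. -/
structure Places (p : ℕ) (L : Finset ℕ) where
  A : ℕ → ValuationSubring ℚ̄
  σ : ℕ → Γℚ
  φ : ℕ → Γℚ
  liesOver : ∀ l ∈ L, (A l).LiesOverPrime l
  mem : ∀ l ∈ L, σ l ∈ (A l).inertiaSubgroupIn ℚ
  frob : ∀ l ∈ L, (A l).IsFrobeniusAt (φ l) l
  tame : ∀ l ∈ L, TameProp p l (A l) (σ l) (φ l)

/-- A tame pair exists at every prime other than `p`. -/
theorem exists_tameProp {p l : ℕ} (hp : p.Prime) (hl : l.Prime) (hlp : l ≠ p)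
    (A : ValuationSubring ℚ̄) (hA : A.LiesOverPrime l) :
    ∃ σ φ : Γℚ, σ ∈ A.inertiaSubgroupIn ℚ ∧ A.IsFrobeniusAt φ l ∧ TameProp p l A σ φ := by
  haveI : Fact p.Prime := ⟨hp⟩
  haveI : Fact l.Prime := ⟨hl⟩
  obtain ⟨σ, hσ, hgen⟩ := exists_inertia_generator_all hp hl hlp A hA
  obtain ⟨φ, hφ⟩ := GalCommon.exists_isFrobeniusAt hl hA
  refine ⟨σ, φ, hσ, hφ, fun G _ _ f ⟨L, hL, htriv⟩ hpg => ?_⟩
  haveI := hL
  let Q : PQuot p A := ⟨G, f, L, htriv, hpg⟩
  obtain ⟨i₀, -, -, hF⟩ :=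
    Mazur.Tame.exists_inertia_generator f L htriv hl A hA hp (Ne.symm hlp) hpg
  refine ⟨hF φ hφ σ hσ, hgen Q, fun τ hτ => ?_⟩
  obtain ⟨i, ι, hι, hag⟩ := LocP.exists_eq_frob_pow_mul hA hφ hτ L
  have h1 : f τ = f φ ^ i * f ι := by
    rw [← map_pow, ← map_mul, ← inv_mul_eq_one, ← map_inv, ← map_mul]
    refine htriv _ fun x hx => ?_
    rw [AlgEquiv.mul_apply, ← hag x hx, ← AlgEquiv.mul_apply, inv_mul_cancel, AlgEquiv.one_apply]
  rw [h1]
  exact mul_mem (pow_mem (Subgroup.subset_closure (by simp)) i)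
    (((Subgroup.zpowers_le (G := G)).mpr (Subgroup.subset_closure (Set.mem_insert (f σ) {f φ}))
      (hgen Q ι hι)))

/-- Places with tame pairs exist. -/
theorem nonempty_places {p : ℕ} (hp : p.Prime) {L : Finset ℕ}
    (hL : ∀ l ∈ L, l.Prime ∧ l ≠ p) : Nonempty (Places p L) := by
  classical
  have h : ∀ l, ∃ (A : ValuationSubring ℚ̄) (σ φ : Γℚ), l ∈ L →
      A.LiesOverPrime l ∧ σ ∈ A.inertiaSubgroupIn ℚ ∧ A.IsFrobeniusAt φ l ∧
        TameProp p l A σ φ := fun l => by
    by_cases hl : l ∈ L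
    · obtain ⟨A, hA⟩ := GalCommon.exists_liesOverPrime (hL l hl).1
      obtain ⟨σ, φ, h⟩ := exists_tameProp hp (hL l hl).1 (hL l hl).2 A hA
      exact ⟨A, σ, φ, fun _ => ⟨hA, h⟩⟩
    · exact ⟨⊤, 1, 1, fun h => absurd h hl⟩
  choose A σ φ h using h
  exact ⟨⟨A, σ, φ, fun l hl => (h l hl).1, fun l hl => (h l hl).2.1,
    fun l hl => (h l hl).2.2.1, fun l hl G _ _ => (h l hl).2.2.2 G⟩⟩

section Residual

variable {k : Type} [Field k] [Finite k] {p : ℕ} {L : Finset ℕ} (P : Places p L)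
  {ρbar : ResidualGaloisRep k}

/-- The matrices of a residual representation, as a homomorphism to units. -/
def resHomUnits (b : Module.Basis (Fin 2) k ρbar.V) : Γℚ →* (Matrix (Fin 2) (Fin 2) k)ˣ :=
  MonoidHom.toHomUnits
    ((LinearMap.toMatrixAlgEquiv b).toAlgHom.toRingHom.toMonoidHom.comp ρbar.ρ)

theorem coe_resHomUnits (b : Module.Basis (Fin 2) k ρbar.V) (τ : Γℚ) :
    (resHomUnits b τ : Matrix (Fin 2) (Fin 2) k) = resMat ρbar b τ := by
  ext i j
  simp [resHomUnits, resMat, LinearMap.toMatrixAlgEquiv_apply]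

/-- At an unramified place, scalar means that Frobenius is scalar. -/
theorem isScalarAt_iff {l : ℕ} (hl : l ∈ L) (hunr : ρbar.IsUnramifiedAt l) :
    IsScalarAt ρbar (P.A l) ↔ ∃ c : k, ρbar.ρ (P.φ l) = c • 1 := by
  refine ⟨fun h => h _ (P.frob l hl).mem_decompositionSubgroup, fun ⟨c, hc⟩ τ hτ => ?_⟩
  let b := Module.finBasisOfFinrankEq k ρbar.V ρbar.finrank_eq
  let f := resHomUnits b
  let Z : Subgroup (Matrix (Fin 2) (Fin 2) k)ˣ :=
    { carrier := {u | ∃ c : k, (u : Matrix (Fin 2) (Fin 2) k) = c • 1}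
      mul_mem' := by
        rintro u w ⟨c, hc⟩ ⟨e, he⟩
        exact ⟨c * e, by rw [Units.val_mul, hc, he, smul_mul_assoc, one_mul, smul_smul]⟩
      one_mem' := ⟨1, by simp⟩
      inv_mem' := by
        rintro u ⟨c, hc⟩
        refine ⟨c⁻¹, ?_⟩
        have hc0 : c ≠ 0 := fun hz => by
          rw [hz, zero_smul] at hc
          exact u.ne_zero hc
        rw [Units.inv_eq_of_mul_eq_one_right]
        rw [hc, smul_mul_assoc, one_mul, smul_smul, mul_inv_cancel₀ hc0, one_smul] }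
  obtain ⟨K, hK, hKfix⟩ := ρbar.factorsThroughFiniteLevel
  have hone : ∀ τ, ρbar.ρ τ = 1 → f τ = 1 := fun τ h => Units.ext (by
    rw [coe_resHomUnits, Units.val_one, resMat_of_scalar b (c := 1) (by rw [h, one_smul]), one_smul])
  obtain ⟨-, -, hgen⟩ := P.tame l hl _ f ⟨K, hK, fun τ hτ => hone τ (hKfix τ hτ)⟩
    (fun τ hτ => ⟨0, by rw [hone τ (hunr _ (P.liesOver l hl) τ hτ), one_pow]⟩)
  have hle : Subgroup.closure {f (P.σ l), f (P.φ l)} ≤ Z := (Subgroup.closure_le _).2 (by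
    rintro u (rfl | rfl)
    · exact ⟨1, by rw [hone _ (hunr _ (P.liesOver l hl) _ (P.mem l hl))]; simp⟩
    · exact ⟨c, by rw [coe_resHomUnits, resMat_of_scalar b hc]⟩)
  obtain ⟨e, he⟩ := hle (hgen τ hτ)
  rw [coe_resHomUnits] at he
  refine ⟨e, b.ext fun j => b.repr.injective (Finsupp.ext fun i => ?_)⟩
  have h1 := congrFun (congrFun he i) j
  rw [resMat, Matrix.of_apply] at h1
  rw [h1, LinearMap.smul_apply, Module.End.one_apply, map_smul]
  simp [Matrix.one_apply, Finsupp.single_apply, eq_comm]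

/-- A nonscalar operator is in companion form in some basis. -/
theorem exists_companion_residual {l : ℕ} (hl : l ∈ L) (hunr : ρbar.IsUnramifiedAt l)
    (hns : ¬ IsScalarAt ρbar (P.A l)) :
    ∃ b : Module.Basis (Fin 2) k ρbar.V,
      resMat ρbar b (P.φ l) 0 0 = 0 ∧ resMat ρbar b (P.φ l) 1 0 = 1 := by
  classical
  rw [isScalarAt_iff P hl hunr] at hns
  set f := ρbar.ρ (P.φ l)
  obtain ⟨v, hv⟩ : ∃ v, LinearIndependent k ![v, f v] := by
    by_contra hcon
    simp only [not_exists] at hcon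
    let b := Module.finBasisOfFinrankEq k ρbar.V ρbar.finrank_eq
    have h1 : ∀ v ≠ 0, ∃ c : k, f v = c • v := fun v hv => by
      have h2 := hcon v
      rw [LinearIndependent.pair_iff' hv] at h2
      simp only [not_forall, not_not] at h2
      obtain ⟨c, hc⟩ := h2
      exact ⟨c, hc.symm⟩
    obtain ⟨c₀, hc₀⟩ := h1 (b 0) (b.ne_zero 0)
    obtain ⟨c₁, hc₁⟩ := h1 (b 1) (b.ne_zero 1)
    have hne : b 0 + b 1 ≠ 0 := fun h => by
      have := congrArg (fun w => b.repr w 0) h
      simp at this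
    obtain ⟨c₂, hc₂⟩ := h1 _ hne
    rw [map_add, hc₀, hc₁, smul_add] at hc₂
    have e0 := congrArg (fun w => b.repr w 0) hc₂
    have e1 := congrArg (fun w => b.repr w 1) hc₂
    simp at e0 e1
    refine hns ⟨c₂, b.ext fun j => ?_⟩
    fin_cases j
    · simpa [e0] using hc₀
    · simpa [e1] using hc₁
  let b := basisOfLinearIndependentOfCardEqFinrank hv (by rw [ρbar.finrank_eq, Fintype.card_fin])
  have hb : ∀ j, b j = ![v, f v] j := fun j => by
    simp [b, coe_basisOfLinearIndependentOfCardEqFinrank]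
  refine ⟨b, ?_, ?_⟩
  all_goals
    rw [resMat, Matrix.of_apply, hb 0]
    simp only [Matrix.cons_val_zero]
    rw [show ρbar.ρ (P.φ l) v = b 1 by rw [hb 1]; rfl, b.repr_self]
    simp

end Residual

section Bases

variable {T B : Type} [CommRing T] [IsLocalRing T] [CommRing B] [IsLocalRing B]

/-- A basis of an equivalent representation with the transported matrices. -/
theorem exists_basis_of_isEquiv (f : T →+* B) (hf : IsLocalHom f) (ρ : GaloisRepAdic T)
    (ρ' : GaloisRepAdic B) (he : (ρ.baseChangeAlong f hf).IsEquiv ρ')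
    (b : Module.Basis (Fin 2) T ρ.V) :
    ∃ b' : Module.Basis (Fin 2) B ρ'.V, ∀ τ,
      matHom ρ' b' τ = f.mapMatrix (matHom ρ b τ) := by
  obtain ⟨e⟩ := he
  refine ⟨(basisBaseChange f hf ρ b).map e.toLinearEquiv, fun τ => ?_⟩
  rw [← matHom_baseChange f hf ρ b τ]
  ext i j
  rw [matHom_apply, matHom_apply, Module.Basis.map_apply, ← e.map_apply]
  simp

/-- A basis lifts along a surjective base change. -/
theorem exists_lift_basis_mat (f : T →+* B) (hf : IsLocalHom f) (hs : Function.Surjective f)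
    (ρ : GaloisRepAdic T) (ρ₀ : GaloisRepAdic B) (he : (ρ.baseChangeAlong f hf).IsEquiv ρ₀)
    (b₀ : Module.Basis (Fin 2) B ρ₀.V) :
    ∃ b : Module.Basis (Fin 2) T ρ.V, ∀ τ, f.mapMatrix (matHom ρ b τ) = matHom ρ₀ b₀ τ := by
  obtain ⟨e⟩ := he
  letI : Algebra T B := f.toAlgebra
  haveI : IsLocalHom (algebraMap T B) := hf
  let b₀' : Module.Basis (Fin 2) B (TensorProduct T B ρ.V) := b₀.map e.toLinearEquiv.symm
  obtain ⟨b, hb⟩ := exists_lift_basis (T := T) (B := B) hs ρ.finrank_eq b₀'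
  refine ⟨b, fun τ => ?_⟩
  rw [← matHom_baseChange f hf ρ b τ]
  ext i j
  have hE : basisBaseChange f hf ρ b = b₀.map e.toLinearEquiv.symm :=
    Module.Basis.eq_of_apply_eq fun s => by
      refine (Module.Basis.baseChange_apply B b s).trans ((hb s).trans ?_)
      rfl
  rw [matHom_apply, matHom_apply, hE]
  change b₀.repr (e.toLinearEquiv ((ρ.baseChangeAlong f hf).ρ τ
    (e.toLinearEquiv.symm (b₀ j)))) i = _
  rw [e.map_apply, LinearEquiv.apply_symm_apply]

/-- A basis in which `φ` is in companion form, when it is so after reduction. -/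
theorem exists_companion (f : T →+* B) (hf : IsLocalHom f) (ρ : GaloisRepAdic T)
    (b : Module.Basis (Fin 2) T ρ.V) (φ : Γℚ) (h0 : f (matHom ρ b φ 0 0) = 0)
    (h1 : f (matHom ρ b φ 1 0) = 1) :
    ∃ b' : Module.Basis (Fin 2) T ρ.V,
      (∀ τ, f.mapMatrix (matHom ρ b' τ) = f.mapMatrix (matHom ρ b τ)) ∧
        matHom ρ b' φ 0 0 = 0 ∧ matHom ρ b' φ 1 0 = 1 := by
  classical
  set M := matHom ρ b φ
  let U : Matrix (Fin 2) (Fin 2) T := !![1, M 0 0; 0, M 1 0]
  have hdet : IsUnit U.det := by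
    rw [Matrix.det_fin_two_of, one_mul, mul_zero, sub_zero]
    haveI := hf
    exact isUnit_of_map_unit f _ (h1 ▸ isUnit_one)
  let E : ρ.V ≃ₗ[T] ρ.V := Matrix.toLinearEquiv b U hdet
  let b' := b.map E
  have hbb : b.toMatrix b' = U := by
    ext i j
    rw [Module.Basis.toMatrix_apply, show b' j = Matrix.toLin b b U (b j) from rfl,
      ← LinearMap.toMatrix_apply, LinearMap.toMatrix_toLin]
  have key : ∀ τ, U * matHom ρ b' τ = matHom ρ b τ * U := fun τ => by
    have h2 : ∀ c : Module.Basis (Fin 2) T ρ.V, matHom ρ c τ =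
        LinearMap.toMatrix c c (ρ.ρ τ) := fun c => rfl
    rw [← hbb, h2, h2, basis_toMatrix_mul_linearMap_toMatrix,
      linearMap_toMatrix_mul_basis_toMatrix]
  refine ⟨b', fun τ => ?_, ?_⟩
  · have hU : f.mapMatrix U = 1 := by
      ext i j
      fin_cases i <;> fin_cases j <;> simp [U, M, h0, h1]
    have := congrArg f.mapMatrix (key τ)
    rwa [map_mul, map_mul, hU, one_mul, mul_one] at this
  · have e0 := congrFun (congrFun (key φ) 0) 0
    have e1 := congrFun (congrFun (key φ) 1) 0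
    simp [Matrix.mul_apply, Fin.sum_univ_two, U] at e0 e1
    have hu : IsUnit (M 1 0) := by
      simpa [Matrix.det_fin_two_of, U] using hdet
    have h3 : matHom ρ b' φ 1 0 = 1 := by
      refine hu.mul_left_cancel ?_
      rw [mul_one]
      exact e1
    refine ⟨?_, h3⟩
    rw [h3, mul_one] at e0
    linear_combination e0

end Bases

section Pair

variable {T : Type} [CommRing T] [IsLocalRing T] [IsNoetherianRing T] [Finite (ResidueField T)]
  {p l : ℕ} {L : Finset ℕ} (P : Places p L) {ρ : GaloisRepAdic T}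
  (b : Module.Basis (Fin 2) T ρ.V)

theorem isUnit_natCast_of_ne (hp : p.Prime) (hl : l.Prime) (hlp : l ≠ p)
    (hpT : (p : T) ∈ maximalIdeal T) : IsUnit (l : T) := by
  by_contra hu
  have hmem : (l : T) ∈ maximalIdeal T := hu
  obtain ⟨a, c, hac⟩ :=
    (Nat.Coprime.isCoprime ((Nat.coprime_primes hl hp).2 hlp) : IsCoprime (l : ℤ) (p : ℤ))
  have h := congrArg (Int.cast : ℤ → T) hac
  push_cast at h
  exact (maximalIdeal T).ne_top_iff_one.1 (IsLocalRing.maximalIdeal.isMaximal T).ne_top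
    (h ▸ add_mem (Ideal.mul_mem_left _ _ hmem) (Ideal.mul_mem_left _ _ hpT))

/-- Unipotent inertia has trace two. -/
theorem trace_inertia_eq_two (hunip : ρ.IsUnipotentOnInertiaAt l ∨ ρ.IsUnramifiedAt l)
    {A : ValuationSubring ℚ̄} (hA : A.LiesOverPrime l) {τ : Γℚ}
    (hτ : τ ∈ A.inertiaSubgroupIn ℚ) : ρ.trace τ = 2 := by
  rcases hunip with h | h
  · exact (FLTAgent.GalCommon.trace_det_of_charpoly_eq ρ.finrank_eq (f := ρ.ρ τ)
      (t := 2) (d := 1) (by rw [h A hA τ hτ, map_one, map_ofNat]; ring)).1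
  · rw [GaloisRepAdic.trace, h A hA τ hτ, LinearMap.trace_one, ρ.finrank_eq]
    norm_num

/-- The relations at a place. -/
theorem coordRels_place (hp : p.Prime) (hl : l ∈ L) (hlq : l.Prime ∧ l ≠ p)
    (hdet : ρ.DetIsCyclotomic p)
    (hres : ∀ τ ∈ (P.A l).inertiaSubgroupIn ℚ, ∀ i j, (matHom ρ b τ - 1) i j ∈ maximalIdeal T)
    (hunip : ρ.IsUnipotentOnInertiaAt l ∨ ρ.IsUnramifiedAt l)
    {h ε : T} (hh : 2 * h = 1) (hε : ε * ε = 1) (sc : Bool)
    (hcomp : sc = false → matHom ρ b (P.φ l) 0 0 = 0 ∧ matHom ρ b (P.φ l) 1 0 = 1) :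
    CoordRels sc l ε h (coordsOf h ε l (matHom ρ b (P.σ l)) (matHom ρ b (P.φ l))) :=
  coordRels_of_pair sc hh hε
    (by rw [det_matHom]
        exact det_inertia hp hlq.1 hlq.2 (P.liesOver l hl) hdet (P.mem l hl))
    (by rw [trace_matHom]; exact trace_inertia_eq_two hunip (P.liesOver l hl) (P.mem l hl))
    (by rw [det_matHom]
        exact det_frobenius hp hlq.1 hlq.2 (P.liesOver l hl) hdet (P.frob l hl))
    (tame_relation (P.tame l hl) hdet.1 hres)
    (isUnit_natCast_of_ne hp hlq.1 hlq.2 hdet.1) hcomp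

/-- If the chosen inertia element is trivial modulo `J`, so is inertia at every place over `l`, in
every basis. -/
theorem inertia_mem_of_mem (hl : l ∈ L) (hlp : l.Prime) (hpT : (p : T) ∈ maximalIdeal T)
    (hres : ∀ τ ∈ (P.A l).inertiaSubgroupIn ℚ, ∀ i j, (matHom ρ b τ - 1) i j ∈ maximalIdeal T)
    (J : Ideal T) (hJ : ∀ i j, (matHom ρ b (P.σ l) - 1) i j ∈ J)
    {A : ValuationSubring ℚ̄} (hA : A.LiesOverPrime l) {τ : Γℚ}
    (hτ : τ ∈ A.inertiaSubgroupIn ℚ) (b' : Module.Basis (Fin 2) T ρ.V) :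
    ∀ i j, (matHom ρ b' τ - 1) i j ∈ J := by
  classical
  let q := Ideal.Quotient.mk J
  have hmain : ∀ τ ∈ (P.A l).inertiaSubgroupIn ℚ, q.mapMatrix (matHom ρ b τ) = 1 := by
    intro τ hτ
    ext i j
    rw [← sub_eq_zero]
    by_cases hJt : J = ⊤
    · subst hJt
      exact Subsingleton.elim (α := T ⧸ (⊤ : Ideal T)) _ _
    haveI : Nontrivial (T ⧸ J) := Ideal.Quotient.nontrivial_iff.2 hJt
    haveI : IsLocalRing (T ⧸ J) :=
      IsLocalRing.of_surjective' q Ideal.Quotient.mk_surjective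
    rw [← Ideal.mem_bot, ← Ideal.iInf_pow_eq_bot_of_isLocalRing (maximalIdeal (T ⧸ J))
      (IsLocalRing.maximalIdeal.isMaximal _).ne_top, Ideal.mem_iInf]
    intro n
    have hmn : (maximalIdeal T ^ n).map q ≤ maximalIdeal (T ⧸ J) ^ n := by
      rw [Ideal.map_pow]
      exact Ideal.pow_right_mono (Ideal.map_le_iff_le_comap.2 fun a ha => Ideal.mem_comap.2
        (haveI : IsLocalHom q := IsLocalHom.of_surjective q Ideal.Quotient.mk_surjective
        map_nonunit q a ha)) n
    let g : T ⧸ maximalIdeal T ^ n →+* (T ⧸ J) ⧸ maximalIdeal (T ⧸ J) ^ n :=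
      Ideal.quotientMap _ q (Ideal.map_le_iff_le_comap.1 hmn)
    let gM : Matrix (Fin 2) (Fin 2) (T ⧸ maximalIdeal T ^ n) →*
        Matrix (Fin 2) (Fin 2) ((T ⧸ J) ⧸ maximalIdeal (T ⧸ J) ^ n) := g.mapMatrix.toMonoidHom
    let G : Γℚ →* (Matrix (Fin 2) (Fin 2) ((T ⧸ J) ⧸ maximalIdeal (T ⧸ J) ^ n))ˣ :=
      (Units.map gM).comp (unitHom ρ b n)
    have hGv : ∀ (x : Γℚ) (i j : Fin 2),
        (G x : Matrix (Fin 2) (Fin 2) ((T ⧸ J) ⧸ maximalIdeal (T ⧸ J) ^ n)) i j =
          Ideal.Quotient.mk (maximalIdeal (T ⧸ J) ^ n) (q (matHom ρ b x i j)) :=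
      fun x i j => rfl
    have hσ : G (P.σ l) = 1 := Units.ext (by
      ext i j
      have h1 : q (matHom ρ b (P.σ l) i j) = q ((1 : Matrix (Fin 2) (Fin 2) T) i j) :=
        Ideal.Quotient.eq.2 (by simpa using hJ i j)
      rw [hGv, h1, Units.val_one, Matrix.one_apply, Matrix.one_apply]
      split <;> simp)
    obtain ⟨z, hz⟩ := Subgroup.mem_zpowers_iff.1 ((tame_at_level (P.tame l hl) hpT hres n).2.1 τ hτ)
    have hτ1 : G τ = 1 := by
      simp only [G, MonoidHom.comp_apply] at hσ ⊢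
      rw [← hz, map_zpow, hσ, one_zpow]
    have := hGv τ i j
    rw [hτ1, Units.val_one] at this
    rw [← Ideal.Quotient.eq_zero_iff_mem, map_sub, RingHom.mapMatrix_apply, Matrix.map_apply]
    rw [← this, sub_eq_zero, Matrix.one_apply, Matrix.one_apply]
    split <;> simp
  -- conjugate places and change of basis
  have hA' : q.mapMatrix (matHom ρ b τ) = 1 := by
    obtain ⟨g, hg⟩ := GalCommon.exists_smul_eq_of_liesOverPrime hlp (P.liesOver l hl) hA
    subst hg
    have h1 := GalCommon.mem_inertia_conj hτ g⁻¹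
    rw [inv_smul_smul] at h1
    have h2 := hmain _ h1
    rw [map_mul, map_mul, map_mul, map_mul] at h2
    have h3 : q.mapMatrix (matHom ρ b g) * q.mapMatrix (matHom ρ b g⁻¹) = 1 := by
      rw [← map_mul, ← map_mul, mul_inv_cancel, map_one, map_one]
    have h4 := congrArg (fun M => q.mapMatrix (matHom ρ b g) * M *
      q.mapMatrix (matHom ρ b g⁻¹)) h2
    simp only [inv_inv, mul_one, ← Matrix.mul_assoc, h3, one_mul] at h4
    simp only [Matrix.mul_assoc, h3, mul_one] at h4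
    exact h4
  intro i j
  have hJb : ∀ i j, (matHom ρ b τ - 1) i j ∈ J := fun i j => by
    rw [← Ideal.Quotient.eq_zero_iff_mem]
    have := congrFun (congrFun hA' i) j
    rw [RingHom.mapMatrix_apply, Matrix.map_apply, Matrix.one_apply] at this
    rw [Matrix.sub_apply, map_sub, sub_eq_zero, Matrix.one_apply, this]
    split <;> simp
  have hlin : ∀ w : ρ.V, ∀ i, b.repr ((ρ.ρ τ - 1) w) i ∈ J := fun w i => by
    rw [show b.repr ((ρ.ρ τ - 1) w) i = ((matHom ρ b τ - 1).mulVec ⇑(b.repr w)) i by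
      rw [show matHom ρ b τ - 1 = LinearMap.toMatrix b b (ρ.ρ τ - 1) by
        rw [map_sub, LinearMap.toMatrix_one]; rfl, LinearMap.toMatrix_mulVec_repr]]
    simp only [Matrix.mulVec, dotProduct]
    exact Ideal.sum_mem _ fun s _ => Ideal.mul_mem_right _ _ (hJb i s)
  have h5 : (matHom ρ b' τ - 1) i j = b'.repr ((ρ.ρ τ - 1) (b' j)) i := by
    rw [Matrix.sub_apply, matHom_apply, LinearMap.sub_apply, map_sub, Finsupp.sub_apply,
      Module.End.one_apply, Module.Basis.repr_self]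
    simp [Matrix.one_apply, Finsupp.single_apply, eq_comm]
  rw [h5, ← b.sum_repr ((ρ.ρ τ - 1) (b' j)), map_sum, Finsupp.finsetSum_apply]
  refine Ideal.sum_mem _ fun s _ => ?_
  rw [map_smul, Finsupp.smul_apply, smul_eq_mul]
  exact Ideal.mul_mem_right _ _ (hlin _ s)

end Pair

end FLTAgent.Lower.Lift
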