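import Mathlib
import Fermat.Agent.Lower.Lift.Coords

/-!
# The relations at the places as polynomials

`relList` lists expressions vanishing exactly when `CoordRels` holds (`coordRels_iff`), compatibly
with ring maps. `polyHom` is the action of a polynomial ring given by commuting matrices; the free
algebra acts through it (`apply_eq_zero_of_lift`), and intertwiners of the variables intertwine
all polynomials (`intertwine`).
-/

set_option autoImplicit false
set_option linter.style.haveILetI false
set_option linter.unusedSectionVars false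

noncomputable section

namespace FLTAgent.Lower.Lift

section Rels

variable {R : Type*} [CommRing R]

/-- Expressions vanishing exactly when `CoordRels` holds. -/
def relList (sc : Bool) (l : ℕ) (ε h : R) (x : Coords R) : List R :=
  let K := (l : R) * ((l : R) - 1) * (x.w * (x.w + 2 * ε * ((l : R) + 1)))
  [x.a * x.a + x.b * x.c, x.a * K, x.b * K, x.c * K] ++
    if sc then
      [(1 - (l : R)) * (h * (x.w + ε * ((l : R) + 1)) + x.A) * x.a + x.B * x.c -
        (l : R) * (x.b * x.C),
      x.A * x.A + x.B * x.C - ((h * (x.w + ε * ((l : R) + 1))) ^ 2 - (l : R))]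
    else [x.c + x.b, ((l : R) + 1) * x.a - (x.w + ε * ((l : R) + 1)) * x.b]

/-- `CoordRels` holds exactly when the expressions of `relList` vanish. -/
theorem coordRels_iff {sc : Bool} {l : ℕ} {ε h : R} {x : Coords R} :
    CoordRels sc l ε h x ↔ ∀ z ∈ relList sc l ε h x, z = 0 := by
  constructor
  · intro H z hz
    cases sc <;> simp [relList] at hz <;> rcases hz with rfl | rfl | rfl | rfl | rfl | rfl
    all_goals first
      | exact H.nil
      | exact H.special x.a (by simp)
      | exact H.special x.b (by simp)
      | exact H.special x.c (by simp)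
      | exact sub_eq_zero.2 (H.lin rfl)
      | (rw [H.skew rfl]; exact neg_add_cancel _)
      | exact H.minor rfl
      | exact sub_eq_zero.2 (H.quad rfl)
  · intro H
    refine ⟨H _ (by simp [relList]), fun v hv => ?_, fun hs => ?_, fun hs => ?_, fun hs => ?_,
      fun hs => ?_⟩
    · simp only [Set.mem_insert_iff, Set.mem_singleton_iff] at hv
      rcases hv with rfl | rfl | rfl <;> exact H _ (by simp [relList])
    · subst hs; exact H _ (by simp [relList])
    · subst hs; exact sub_eq_zero.1 (H _ (by simp [relList]))
    · subst hs; exact eq_neg_of_add_eq_zero_left (H _ (by simp [relList]))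
    · subst hs; exact sub_eq_zero.1 (H _ (by simp [relList]))

theorem relList_map {R' : Type*} [CommRing R'] (f : R →+* R') (sc : Bool) (l : ℕ) (ε h : R)
    (x : Coords R) : relList sc l (f ε) (f h) (x.map f) = (relList sc l ε h x).map f := by
  cases sc <;> simp [relList, Coords.map, map_ofNat]

/-- Coordinates from a function on `Fin 7`. -/
def Coords.ofFun (g : Fin 7 → R) : Coords R := ⟨g 0, g 1, g 2, g 3, g 4, g 5, g 6⟩

theorem Coords.ofFun_get (x : Coords R) : Coords.ofFun x.get = x := rfl

theorem Coords.map_ofFun {R' : Type*} [CommRing R'] (f : R → R') (g : Fin 7 → R) :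
    (Coords.ofFun g).map f = Coords.ofFun (f ∘ g) := rfl

theorem Coords.get_ofFun (g : Fin 7 → R) (i : Fin 7) : (Coords.ofFun g).get i = g i := by
  fin_cases i <;> rfl

/-- The indices of the generators at a place. -/
def genIdx : Bool → Fin 6 → Fin 7
  | true => ![0, 1, 2, 3, 4, 5]
  | false => ![6, 0, 1, 6, 0, 1]

theorem mem_gens_iff (sc : Bool) (x : Coords R) (v : R) :
    v ∈ x.gens sc ↔ ∃ i, x.get (genIdx sc i) = v := by
  rw [Fin.exists_fin_succ, Fin.exists_fin_succ, Fin.exists_fin_succ, Fin.exists_fin_succ,
    Fin.exists_fin_succ, Fin.exists_fin_one]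
  cases sc <;> simp [Coords.gens, genIdx, Coords.get] <;> tauto

theorem setOf_gens_eq (sc : Bool) (x : Coords R) :
    {v | v ∈ x.gens sc} = Set.range fun i => x.get (genIdx sc i) :=
  Set.ext fun v => mem_gens_iff sc x v

end Rels

section Poly

variable {S : Type} [CommRing S] {V : Type} {R : Type} [CommRing R] [Algebra S R]
  {n : Type} [Fintype n] [DecidableEq n]

/-- The action of the polynomial ring given by commuting matrices. -/
def polyHom (X : V → Matrix n n R) (h : ∀ u v, X u * X v = X v * X u) :
    MvPolynomial V S →ₐ[S] Matrix n n R :=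
  letI : CommRing (Algebra.adjoin S (Set.range X)) :=
    Algebra.adjoinCommRingOfComm S (by rintro _ ⟨u, rfl⟩ _ ⟨v, rfl⟩; exact h u v)
  (Algebra.adjoin S (Set.range X)).val.comp
    (MvPolynomial.aeval fun v => (⟨X v, Algebra.subset_adjoin ⟨v, rfl⟩⟩ :
      Algebra.adjoin S (Set.range X)))

theorem polyHom_X (X : V → Matrix n n R) (h : ∀ u v, X u * X v = X v * X u) (v : V) :
    polyHom (S := S) X h (MvPolynomial.X v) = X v := by
  simp [polyHom]

theorem polyHom_unique (X : V → Matrix n n R) (h : ∀ u v, X u * X v = X v * X u)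
    (φ : MvPolynomial V S →ₐ[S] Matrix n n R) (hφ : ∀ v, φ (MvPolynomial.X v) = X v) :
    polyHom X h = φ :=
  MvPolynomial.algHom_ext fun v => by rw [polyHom_X, hφ]

variable (S V) in
/-- The abelianisation of the free algebra. -/
def abHom : FreeAlgebra S V →ₐ[S] MvPolynomial V S := FreeAlgebra.lift S MvPolynomial.X

theorem abHom_surjective : Function.Surjective (abHom S V) := by
  intro z
  induction z using MvPolynomial.induction_on with
  | C a => exact ⟨algebraMap _ _ a, by simp⟩
  | add p q hp hq =>
    obtain ⟨a, rfl⟩ := hp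
    obtain ⟨b, rfl⟩ := hq
    exact ⟨a + b, map_add _ _ _⟩
  | mul_X p v hp =>
    obtain ⟨a, rfl⟩ := hp
    exact ⟨a * FreeAlgebra.ι S v, by simp [abHom]⟩

theorem lift_eq_comp (φ : MvPolynomial V S →ₐ[S] Matrix n n R) (z : FreeAlgebra S V) :
    FreeAlgebra.lift S (fun v => φ (MvPolynomial.X v)) z = φ (abHom S V z) := by
  have : FreeAlgebra.lift S (fun v => φ (MvPolynomial.X v)) = φ.comp (abHom S V) :=
    FreeAlgebra.hom_ext (funext fun v => by simp [abHom])
  exact AlgHom.congr_fun this z

theorem apply_eq_zero_of_lift (X : V → Matrix n n R) (h : ∀ u v, X u * X v = X v * X u)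
    (Rl : Set (MvPolynomial V S))
    (hrel : ∀ z ∈ abHom S V ⁻¹' Rl, FreeAlgebra.lift S X z = 0) :
    ∀ z ∈ Rl, polyHom X h z = 0 := by
  intro z hz
  obtain ⟨a, rfl⟩ := abHom_surjective z
  rw [← lift_eq_comp]
  simp only [polyHom_X]
  exact hrel a hz

/-- The polynomial action commutes with an intertwiner of the variables. -/
theorem intertwine {n' : Type} [Fintype n'] [DecidableEq n']
    (φ : MvPolynomial V S →ₐ[S] Matrix n n R) (ψ : MvPolynomial V S →ₐ[S] Matrix n' n' R)
    (M : Matrix n n' R) (h : ∀ v, φ (MvPolynomial.X v) * M = M * ψ (MvPolynomial.X v))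
    (z : MvPolynomial V S) : φ z * M = M * ψ z := by
  induction z using MvPolynomial.induction_on with
  | C a =>
    simp only [MvPolynomial.algHom_C, Algebra.algebraMap_eq_smul_one]
    rw [Matrix.smul_mul, Matrix.mul_smul, Matrix.one_mul, Matrix.mul_one]
  | add p q hp hq => rw [map_add, map_add, Matrix.add_mul, Matrix.mul_add, hp, hq]
  | mul_X p v hp =>
    rw [map_mul, map_mul, Matrix.mul_assoc, h, ← Matrix.mul_assoc, hp, Matrix.mul_assoc]

end Poly

end FLTAgent.Lower.Lift
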