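import Mathlib
import Fermat.Agent.Lower.Lift.Places
import Fermat.Agent.Lower.Lift.Relations
import Fermat.Agent.Lower.Lift.Iface.TWPrimes

/-!
# Generators of the maximal ideal of a Hecke ring

`maximalIdeal_le_span`: for a trace-generated ring `T` with residual representation `ρbar`, the
maximal ideal is generated, up to a given ideal `K`, by the uniformiser, the test traces and the
coordinates at the places, provided the deformations to `k[ε]` killing `K` have a local type whose
deformations constant at the places are detected by the test traces (`Detects`). Otherwise there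
would be a surjection `T → k[ε]` killing all of them; its deformation is constant at the places
(`constantAt_of_gens`), so all traces would lie in `k`, against generation by traces.
-/

set_option autoImplicit false
set_option linter.style.haveILetI false
set_option linter.unusedSectionVars false

noncomputable section

namespace FLTAgent.Lower.Lift

open IsLocalRing (maximalIdeal ResidueField)
open FLTAgent.Lower

local notation "ℚ̄" => AlgebraicClosure ℚ
local notation "Γℚ" => (AlgebraicClosure ℚ ≃ₐ[ℚ] AlgebraicClosure ℚ)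

variable {O : Type} [CommRing O] [IsDomain O] [IsDiscreteValuationRing O]
  [Finite (ResidueField O)]
  {T : Type} [CommRing T] [IsLocalRing T] [Algebra O T] [IsLocalHom (algebraMap O T)]
  [Module.Finite O T]

local notation "k" => ResidueField O

/-- The coordinates of `ρ` at the place over `l`, in the basis `b`. -/
def coordsAt {p : ℕ} {L : Finset ℕ} (P : Places p L) (h : O) (ε : ℕ → ℤ) (ρ : GaloisRepAdic T)
    (b : Module.Basis (Fin 2) T ρ.V) (l : ℕ) : Coords T :=
  coordsOf (algebraMap O T h) (ε l : T) l (matHom ρ b (P.σ l)) (matHom ρ b (P.φ l))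

theorem coordsAt_w {p : ℕ} {L : Finset ℕ} (P : Places p L) (h : O) (ε : ℕ → ℤ)
    (ρ : GaloisRepAdic T) (b : Module.Basis (Fin 2) T ρ.V) (l : ℕ) :
    (coordsAt P h ε ρ b l).w = ρ.trace (P.φ l) - (ε l : T) * ((l : T) + 1) := by
  simp [coordsAt, coordsOf, trace_matHom]

/-- The trace reduces to the residual trace. -/
theorem residue_trace {ρ : GaloisRepAdic T} {ρbar : ResidualGaloisRep k}
    (he : ρ.residual.IsEquiv (ρbar.baseChangeAlong (ResidueField.map (algebraMap O T)))) (τ : Γℚ) :
    IsLocalRing.residue T (ρ.trace τ) =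
      ResidueField.map (algebraMap O T) (LinearMap.trace k ρbar.V (ρbar.ρ τ)) := by
  let c₀ := Module.finBasisOfFinrankEq k ρbar.V ρbar.finrank_eq
  obtain ⟨b', hb'⟩ := exists_basis_residual ρ ρbar c₀ _ he
  have h1 := congrArg Matrix.trace (hb' τ)
  rw [LinearMap.trace_eq_matrix_trace k c₀, ← trace_matHom ρ b']
  simp only [RingHom.mapMatrix_apply] at h1
  rw [show LinearMap.toMatrix c₀ c₀ (ρbar.ρ τ) = resMat ρbar c₀ τ from
    Matrix.ext fun i j => by rw [LinearMap.toMatrix_apply, resMat, Matrix.of_apply]]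
  simpa [Matrix.trace_fin_two] using h1

/-- The generators at a place lie in the maximal ideal. -/
theorem coordsAt_gens_mem {p : ℕ} {L : Finset ℕ} (P : Places p L) (h : O) (ε : ℕ → ℤ)
    {ρ : GaloisRepAdic T} {ρbar : ResidualGaloisRep k}
    (he : ρ.residual.IsEquiv (ρbar.baseChangeAlong (ResidueField.map (algebraMap O T))))
    (b : Module.Basis (Fin 2) T ρ.V) {l : ℕ} (hl : l ∈ L) (hunr : ρbar.IsUnramifiedAt l)
    (sc : Bool) (hsc : sc = true → IsScalarAt ρbar (P.A l))
    (htr : LinearMap.trace k ρbar.V (ρbar.ρ (P.φ l)) = (ε l : k) * ((l : k) + 1)) :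
    (coordsAt P h ε ρ b l).w ∈ maximalIdeal T ∧
      ∀ v ∈ (coordsAt P h ε ρ b l).gens sc, v ∈ maximalIdeal T := by
  have hw : (coordsAt P h ε ρ b l).w ∈ maximalIdeal T := by
    rw [coordsAt_w, ← IsLocalRing.residue_eq_zero_iff, map_sub, residue_trace he, htr]
    simp
  refine ⟨hw, fun v hv => ?_⟩
  have hσ := entries_sub_one_inertia he b hunr (P.liesOver l hl) (P.σ l) (P.mem l hl)
  cases sc
  · simp only [Coords.gens, List.mem_cons, List.not_mem_nil, or_false] at hv
    rcases hv with rfl | rfl | rfl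
    · exact hw
    · exact hσ 0 0
    · exact hσ 0 1
  · obtain ⟨c, hc⟩ := hsc rfl (P.φ l) (P.frob l hl).mem_decompositionSubgroup
    obtain ⟨a, ha⟩ := IsLocalRing.residue_surjective c
    have hφ := entries_sub_scalar he b hc (a := algebraMap O T a)
      (by rw [← ha, ResidueField.map_residue])
    simp only [Coords.gens, List.mem_cons, List.not_mem_nil, or_false, coordsAt, coordsOf] at hv
    rcases hv with rfl | rfl | rfl | rfl | rfl | rfl
    · exact hσ 0 0
    · exact hσ 0 1
    · exact hσ 1 0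
    · refine Ideal.mul_mem_left _ _ ?_
      simpa using sub_mem (hφ 0 0) (hφ 1 1)
    · simpa using hφ 0 1
    · simpa using hφ 1 0

theorem dualNumber_sq_eq_zero {z : DualNumber k} (hz : z ∈ maximalIdeal (DualNumber k) ^ 2) :
    z = 0 := by
  rw [pow_two] at hz
  refine Submodule.mul_induction_on hz (fun u hu w hw => ?_) fun u w hu hw => by
    rw [hu, hw, add_zero]
  rw [IsLocalRing.mem_maximalIdeal, mem_nonunits_iff, TrivSqZeroExt.isUnit_iff_isUnit_fst,
    isUnit_iff_ne_zero, not_not] at hu hw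
  exact TrivSqZeroExt.ext (by simp [hu]) (by simp [hu, hw])

/-- Vanishing generators make the deformation constant at the place. -/
theorem constantAt_of_gens {p : ℕ} (hp : p.Prime) (hp2 : Odd p) (hpO : (p : O) ∈ maximalIdeal O)
    {L : Finset ℕ} (P : Places p L) {h : O} (hh : 2 * h = 1) (ε : ℕ → ℤ)
    (hε : ∀ l, ε l * ε l = 1)
    (ρ : GaloisRepAdic T) {ρbar : ResidualGaloisRep k}
    (he : ρ.residual.IsEquiv (ρbar.baseChangeAlong (ResidueField.map (algebraMap O T))))
    (hcyc : ρ.DetIsCyclotomic p) (b : Module.Basis (Fin 2) T ρ.V) {l : ℕ} (hl : l ∈ L)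
    (hlq : l.Prime ∧ l ≠ p) (hunr : ρbar.IsUnramifiedAt l)
    (hunip : ρ.IsUnipotentOnInertiaAt l) (sc : Bool)
    (hcomp : sc = false → matHom ρ b (P.φ l) 0 0 = 0 ∧ matHom ρ b (P.φ l) 1 0 = 1)
    (f : T →+* DualNumber k) (hfl : IsLocalHom f)
    (hgens : ∀ v ∈ (coordsAt P h ε ρ b l).gens sc, f v = 0) :
    ConstantAt (ρ.baseChangeAlong f hfl) (P.A l) := by
  haveI : IsNoetherianRing T := IsNoetherianRing.of_finite O T
  haveI : Finite (DualNumber k) := inferInstanceAs (Finite (k × k))
  haveI : Finite (ResidueField (DualNumber k)) :=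
    Finite.of_surjective _ IsLocalRing.residue_surjective
  haveI : Finite (ResidueField T) := by
    haveI := hfl
    exact Finite.of_injective _ (ResidueField.map f).injective
  let b₁ := basisBaseChange f hfl ρ b
  refine ⟨b₁, fun τ hτ i j => ?_⟩
  let M : Γℚ →* Matrix (Fin 2) (Fin 2) (DualNumber k) :=
    f.mapMatrix.toMonoidHom.comp (matHom ρ b)
  have hM : ∀ τ, matHom (ρ.baseChangeAlong f hfl) b₁ τ = M τ := matHom_baseChange f hfl ρ b
  have h2 : (2 : k) ≠ 0 := isUnit_two_residue hp2 hpO
  have hres := entries_sub_one_inertia he b hunr (P.liesOver l hl)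
  have hnat : ∀ n : ℕ, TrivSqZeroExt.snd (n : DualNumber k) = 0 := TrivSqZeroExt.snd_natCast
  have hint : ∀ n : ℤ, TrivSqZeroExt.snd (n : DualNumber k) = 0 := TrivSqZeroExt.snd_intCast
  have hdetφ : (M (P.φ l)).det = (l : DualNumber k) := by
    show (f.mapMatrix (matHom ρ b (P.φ l))).det = _
    rw [← RingHom.map_det, det_matHom,
      det_frobenius hp hlq.1 hlq.2 (P.liesOver l hl) hcyc (P.frob l hl), map_natCast]
  have hrels := coordRels_place P b hp hl hlq hcyc hres (Or.inl hunip)
    (h := algebraMap O T h) (ε := (ε l : T))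
    (by rw [← map_ofNat (algebraMap O T) 2, ← map_mul, hh, map_one])
    (by rw [← Int.cast_mul, hε, Int.cast_one]) sc hcomp
  have htrσ : f ((matHom ρ b (P.σ l)) 1 1 - 1) = -f ((matHom ρ b (P.σ l)) 0 0 - 1) := by
    have h1 := trace_inertia_eq_two (T := T) (ρ := ρ) (Or.inl hunip) (P.liesOver l hl) (P.mem l hl)
    rw [← trace_matHom ρ b, Matrix.trace_fin_two] at h1
    rw [← map_neg]
    congr 1
    linear_combination h1
  -- the two generators are constant
  have hσ1 : M (P.σ l) = 1 := by
    have habc : f (matHom ρ b (P.σ l) 0 0 - 1) = 0 ∧ f (matHom ρ b (P.σ l) 0 1) = 0 ∧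
        f (matHom ρ b (P.σ l) 1 0) = 0 := by
      cases sc
      · have hb : f (coordsAt P h ε ρ b l).b = 0 := hgens _ (by simp [Coords.gens])
        have hc := hrels.skew rfl
        refine ⟨?_, ?_, ?_⟩
        · simpa [coordsAt, coordsOf] using hgens (coordsAt P h ε ρ b l).a (by simp [Coords.gens])
        · simpa [coordsAt, coordsOf] using hb
        · have : f (coordsAt P h ε ρ b l).c = 0 := by
            rw [show (coordsAt P h ε ρ b l).c = -(coordsAt P h ε ρ b l).b from hc, map_neg, hb,
              neg_zero]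
          simpa [coordsAt, coordsOf] using this
      · refine ⟨?_, ?_, ?_⟩
        · simpa [coordsAt, coordsOf] using hgens (coordsAt P h ε ρ b l).a (by simp [Coords.gens])
        · simpa [coordsAt, coordsOf] using hgens (coordsAt P h ε ρ b l).b (by simp [Coords.gens])
        · simpa [coordsAt, coordsOf] using hgens (coordsAt P h ε ρ b l).c (by simp [Coords.gens])
    obtain ⟨ha, hb, hc⟩ := habc
    rw [ha, neg_zero, map_sub, sub_eq_zero, map_one] at htrσ
    rw [map_sub, sub_eq_zero, map_one] at ha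
    show f.mapMatrix (matHom ρ b (P.σ l)) = 1
    refine Matrix.ext fun i j => ?_
    fin_cases i <;> fin_cases j <;> simp [ha, hb, hc, htrσ]
  have hφ : ∀ i j, TrivSqZeroExt.snd (M (P.φ l) i j) = 0 := by
    have hMe : ∀ i j, M (P.φ l) i j = f (matHom ρ b (P.φ l) i j) := fun i j => rfl
    cases sc
    · obtain ⟨h00, h10⟩ := hcomp rfl
      have hw : f (coordsAt P h ε ρ b l).w = 0 := hgens _ (by simp [Coords.gens])
      have h11 : M (P.φ l) 1 1 = (ε l : DualNumber k) * ((l : DualNumber k) + 1) := by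
        rw [coordsAt_w, ← trace_matHom ρ b, Matrix.trace_fin_two, h00, zero_add, map_sub,
          sub_eq_zero, map_mul, map_add, map_intCast, map_natCast, map_one] at hw
        exact hw
      have h01 : M (P.φ l) 0 1 = -(l : DualNumber k) := by
        rw [← hdetφ, Matrix.det_fin_two, hMe 0 0, hMe 1 0, h00, h10, map_zero, map_one]
        ring
      intro i j
      fin_cases i <;> fin_cases j
      · simp [hMe, h00]
      · simp [h01, hnat]
      · simp [hMe, h10]
      · simp [h11, TrivSqZeroExt.snd_mul, hnat, hint]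
    · have hA : f (matHom ρ b (P.φ l) 0 0) = f (matHom ρ b (P.φ l) 1 1) := by
        have h1 : f (coordsAt P h ε ρ b l).A = 0 := hgens _ (by simp [Coords.gens])
        simp only [coordsAt, coordsOf, map_mul, map_sub] at h1
        have h2' : f 2 * f (algebraMap O T h) = 1 := by
          rw [← map_mul, ← map_ofNat (algebraMap O T) 2, ← map_mul, hh, map_one, map_one]
        linear_combination (f 2) * h1 -
          (f (matHom ρ b (P.φ l) 0 0) - f (matHom ρ b (P.φ l) 1 1)) * h2'
      have h01 : M (P.φ l) 0 1 = 0 := by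
        simpa [coordsAt, coordsOf, hMe] using hgens (coordsAt P h ε ρ b l).B (by simp [Coords.gens])
      have h10 : M (P.φ l) 1 0 = 0 := by
        simpa [coordsAt, coordsOf, hMe] using hgens (coordsAt P h ε ρ b l).C (by simp [Coords.gens])
      have hd : TrivSqZeroExt.snd (M (P.φ l) 0 0) = 0 := by
        rw [Matrix.det_fin_two, h01, h10, mul_zero, sub_zero, hMe 1 1, ← hA, ← hMe] at hdetφ
        have hs := congrArg TrivSqZeroExt.snd hdetφ
        have hf := congrArg TrivSqZeroExt.fst hdetφ
        simp only [TrivSqZeroExt.snd_mul, smul_eq_mul, MulOpposite.smul_eq_mul_unop,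
          MulOpposite.unop_op, hnat, TrivSqZeroExt.fst_mul, TrivSqZeroExt.fst_natCast] at hs hf
        have hlk : (l : k) ≠ 0 := by
          have hu : IsUnit (l : O) := isUnit_natCast_of_ne hp hlq.1 hlq.2 hpO
          exact fun h0 => by simpa [h0] using hu.map (IsLocalRing.residue O)
        have hc : TrivSqZeroExt.fst (M (P.φ l) 0 0) ≠ 0 := fun hz => hlk (by rw [← hf, hz, mul_zero])
        have h7 : 2 * (TrivSqZeroExt.fst (M (P.φ l) 0 0) * TrivSqZeroExt.snd (M (P.φ l) 0 0)) = 0 := by
          linear_combination hs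
        exact (mul_eq_zero.1 ((mul_eq_zero.1 h7).resolve_left h2)).resolve_left hc
      intro i j
      fin_cases i <;> fin_cases j
      · exact hd
      · simp [h01]
      · simp [h10]
      · show TrivSqZeroExt.snd (M (P.φ l) 1 1) = 0
        rw [hMe, ← hA, ← hMe]
        exact hd
  -- propagate along the decomposition group
  let U : Γℚ →* (Matrix (Fin 2) (Fin 2) (DualNumber k))ˣ := MonoidHom.toHomUnits M
  let inlM : Matrix (Fin 2) (Fin 2) k →* Matrix (Fin 2) (Fin 2) (DualNumber k) :=
    (algebraMap k (DualNumber k)).mapMatrix.toMonoidHom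
  let Z := (Units.map inlM).range
  have hZ : ∀ u : (Matrix (Fin 2) (Fin 2) (DualNumber k))ˣ,
      (∀ i j, TrivSqZeroExt.snd ((u : Matrix (Fin 2) (Fin 2) (DualNumber k)) i j) = 0) → u ∈ Z := by
    intro u hu
    let fstM : Matrix (Fin 2) (Fin 2) (DualNumber k) →* Matrix (Fin 2) (Fin 2) k :=
      (TrivSqZeroExt.fstHom k k k).toRingHom.mapMatrix.toMonoidHom
    refine ⟨Units.map fstM u, Units.ext (Matrix.ext fun i j => ?_)⟩
    show algebraMap k (DualNumber k) (TrivSqZeroExt.fst _) = _
    rw [TrivSqZeroExt.algebraMap_eq_inl]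
    exact TrivSqZeroExt.ext (by simp) (by simp [hu i j])
  obtain ⟨-, -, hgen⟩ := P.tame l hl _ U
    (by
      obtain ⟨K, hK, hlev⟩ := exists_level (ρ.baseChangeAlong f hfl) b₁ 2
      refine ⟨K, hK, fun x hx => Units.ext (Matrix.ext fun i i' => ?_)⟩
      have h8 := congrFun (congrFun (hlev x hx) i) i'
      rw [RingHom.mapMatrix_apply, Matrix.map_apply, ← map_one (Ideal.Quotient.mk _).mapMatrix,
        RingHom.mapMatrix_apply, Matrix.map_apply, Ideal.Quotient.mk_eq_mk_iff_sub_mem, hM] at h8
      exact sub_eq_zero.1 (dualNumber_sq_eq_zero h8))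
    (fun x hx => by
      refine ⟨1, Units.ext ?_⟩
      have h9 : ∀ i i', (M x - 1) i i' ∈ maximalIdeal (DualNumber k) := fun i i' => by
        haveI := hfl
        have h10 := map_nonunit f _ (hres x hx i i')
        rw [show M x - 1 = f.mapMatrix (matHom ρ b x - 1) by rw [map_sub, map_one]; rfl]
        exact h10
      have hpD : (p : DualNumber k) ∈ maximalIdeal (DualNumber k) := by
        haveI := hfl
        simpa using map_nonunit f _ hcyc.1
      refine Matrix.ext fun i i' => ?_
      rw [Units.val_pow_eq_pow_val, Units.val_one]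
      exact sub_eq_zero.1 (dualNumber_sq_eq_zero (entries_pow_prime_pow _ hpD h9 1 i i')))
  have hle : Subgroup.closure {U (P.σ l), U (P.φ l)} ≤ Z := (Subgroup.closure_le _).2 (by
    rintro u (rfl | rfl)
    · refine hZ _ fun i i' => ?_
      show TrivSqZeroExt.snd (M (P.σ l) i i') = 0
      rw [hσ1, Matrix.one_apply]
      split <;> simp
    · exact hZ _ hφ)
  obtain ⟨w, hw⟩ := hle (hgen τ hτ)
  rw [hM, show M τ = inlM w from (congrArg Units.val hw).symm]
  simp [inlM, TrivSqZeroExt.algebraMap_eq_inl]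

/-- The residual representation of a base change to `k[ε]`. -/
theorem residual_isEquiv_dualNumber (ρ : GaloisRepAdic T) {ρbar : ResidualGaloisRep k}
    (he : ρ.residual.IsEquiv (ρbar.baseChangeAlong (ResidueField.map (algebraMap O T))))
    (f : T →+* DualNumber k) (hfl : IsLocalHom f)
    (hffst : ∀ t, ResidueField.map (algebraMap O T) (TrivSqZeroExt.fst (f t)) =
      IsLocalRing.residue T t) :
    (ρ.baseChangeAlong f hfl).residual.IsEquiv
      (ρbar.baseChangeAlong ((IsLocalRing.residue (DualNumber k)).comp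
        (algebraMap k (DualNumber k)))) := by
  let c₀ := Module.finBasisOfFinrankEq k ρbar.V ρbar.finrank_eq
  obtain ⟨b', hb'⟩ := exists_basis_residual ρ ρbar c₀ _ he
  let j₀ := (IsLocalRing.residue (DualNumber k)).comp (algebraMap k (DualNumber k))
  letI : Algebra k (ResidueField (DualNumber k)) := j₀.toAlgebra
  refine residual_isEquiv_of_matrix _ _
    ((basisBaseChange f hfl ρ b').baseChange (ResidueField (DualNumber k)))
    (c₀.baseChange (ResidueField (DualNumber k))) fun τ i j => ?_
  change ((basisBaseChange f hfl ρ b').baseChange (ResidueField (DualNumber k))).repr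
      ((((ρ.baseChangeAlong f hfl).ρ τ).baseChange (ResidueField (DualNumber k)))
        (((basisBaseChange f hfl ρ b').baseChange (ResidueField (DualNumber k))) j)) i =
    (c₀.baseChange (ResidueField (DualNumber k))).repr
      (((ρbar.ρ τ).baseChange (ResidueField (DualNumber k)))
        ((c₀.baseChange (ResidueField (DualNumber k))) j)) i
  rw [Module.Basis.baseChange_apply, Module.Basis.baseChange_apply, LinearMap.baseChange_tmul,
    LinearMap.baseChange_tmul, Module.Basis.baseChange_repr_tmul,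
    Module.Basis.baseChange_repr_tmul, Algebra.smul_def, Algebra.smul_def, mul_one, mul_one,
    ← matHom_apply, matHom_baseChange, RingHom.mapMatrix_apply, Matrix.map_apply]
  have h3 := congrFun (congrFun (hb' τ) i) j
  rw [RingHom.mapMatrix_apply, RingHom.mapMatrix_apply, Matrix.map_apply, Matrix.map_apply,
    ← hffst] at h3
  have h4 := (ResidueField.map (algebraMap O T)).injective h3
  change IsLocalRing.residue (DualNumber k) (f (matHom ρ b' τ i j)) =
    IsLocalRing.residue (DualNumber k) (algebraMap k (DualNumber k) (c₀.repr (ρbar.ρ τ (c₀ j)) i))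
  rw [show c₀.repr (ρbar.ρ τ (c₀ j)) i = resMat ρbar c₀ τ i j from rfl, ← h4]
  refine Ideal.Quotient.eq.2 ?_
  rw [IsLocalRing.mem_maximalIdeal, mem_nonunits_iff, TrivSqZeroExt.isUnit_iff_isUnit_fst]
  simp [TrivSqZeroExt.algebraMap_eq_inl]

/-- **Generators.** -/
theorem maximalIdeal_le_span {p : ℕ} (hp : p.Prime) (hp2 : Odd p)
    (hpO : (p : O) ∈ maximalIdeal O) {ϖ : O} (hϖ : Irreducible ϖ) {h : O} (hh : 2 * h = 1)
    {ρbar : ResidualGaloisRep k} {Smin Saux : Finset ℕ}
    {L : Finset ℕ} (P : Places p L) (hSL : Saux ⊆ L)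
    (hSaux : ∀ l ∈ Saux, l.Prime ∧ l ≠ p ∧ ρbar.IsUnramifiedAt l)
    (ε : ℕ → ℤ) (hε : ∀ l, ε l * ε l = 1)
    (htrbar : ∀ l ∈ Saux,
      LinearMap.trace k ρbar.V (ρbar.ρ (P.φ l)) = (ε l : k) * ((l : k) + 1))
    (sc : ℕ → Bool) (hsc : ∀ l ∈ Saux, sc l = true → IsScalarAt ρbar (P.A l))
    (hresT : Function.Surjective (IsLocalRing.residue T ∘ algebraMap O T))
    (ρ : GaloisRepAdic T)
    (he : ρ.residual.IsEquiv (ρbar.baseChangeAlong (ResidueField.map (algebraMap O T))))
    {r : ℕ} (Qv : Fin r → ℕ) (hcyc : ρ.DetIsCyclotomic p)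
    (hunr : ∀ q : ℕ, q.Prime → q ∉ ramSet p Smin Saux Qv → ρ.IsUnramifiedAt q)
    (hunip : ∀ q ∈ Smin ∪ Saux, ρ.IsUnipotentOnInertiaAt q)
    (hadj : Algebra.adjoin O (Set.range ρ.trace) = ⊤)
    (b : ℕ → Module.Basis (Fin 2) T ρ.V)
    (hcomp : ∀ l ∈ Saux, sc l = false →
      matHom ρ (b l) (P.φ l) 0 0 = 0 ∧ matHom ρ (b l) (P.φ l) 1 0 = 1)
    {locD : LocalType} {g : ℕ} (σ : Fin g → Γℚ)
    (hdetects : Detects locD p Smin Saux ρbar P.A Qv σ)
    (a : Fin g → O) (ha : ∀ j, ρ.trace (σ j) - algebraMap O T (a j) ∈ maximalIdeal T)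
    (K : Ideal T) (hK : K ≤ maximalIdeal T)
    (hloc : ∀ (f : T →+* DualNumber k) (hfl : IsLocalHom f), Function.Surjective f →
      (∀ a, f (algebraMap O T a) = TrivSqZeroExt.inl (IsLocalRing.residue O a)) →
      (∀ t ∈ K, f t = 0) → locD.cond (ρ.baseChangeAlong f hfl)) :
    maximalIdeal T ≤ Ideal.span (insert (algebraMap O T ϖ)
      ((Set.range fun j => ρ.trace (σ j) - algebraMap O T (a j)) ∪
        ⋃ l ∈ Saux, {v | v ∈ (coordsAt P h ε ρ (b l) l).gens (sc l)})) ⊔ K := by
  classical
  set J := Ideal.span (insert (algebraMap O T ϖ)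
    ((Set.range fun j => ρ.trace (σ j) - algebraMap O T (a j)) ∪
      ⋃ l ∈ Saux, {v | v ∈ (coordsAt P h ε ρ (b l) l).gens (sc l)})) ⊔ K with hJ
  have hsub : ∀ v, v ∈ insert (algebraMap O T ϖ)
      ((Set.range fun j => ρ.trace (σ j) - algebraMap O T (a j)) ∪
        ⋃ l ∈ Saux, {v | v ∈ (coordsAt P h ε ρ (b l) l).gens (sc l)}) → v ∈ J :=
    fun v hv => Ideal.mem_sup_left (Ideal.subset_span hv)
  have hJm : J ≤ maximalIdeal T := sup_le (Ideal.span_le.2 (by
    rintro t (rfl | ⟨j, rfl⟩ | ht)
    · exact map_nonunit (algebraMap O T) ϖ hϖ.not_isUnit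
    · exact ha j
    · obtain ⟨l, hl, hv⟩ := Set.mem_iUnion₂.1 ht
      exact (coordsAt_gens_mem P h ε he (b l) (hSL hl) (hSaux l hl).2.2 (sc l) (hsc l hl)
        (htrbar l hl)).2 t hv)) hK
  have hϖJ : ∀ c ∈ maximalIdeal O, algebraMap O T c ∈ J := fun c hc => by
    rw [hϖ.maximalIdeal_eq, Ideal.mem_span_singleton] at hc
    obtain ⟨w, rfl⟩ := hc
    rw [map_mul]
    exact Ideal.mul_mem_right _ _ (hsub _ (Set.mem_insert _ _))
  by_contra hne
  obtain ⟨f, hfs, hfJ, hfalg, hffst⟩ := exists_hom_dualNumber hresT J hJm hϖJ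
    (fun h => hne h.ge)
  haveI hfl : IsLocalHom f := IsLocalHom.of_surjective f hfs
  haveI : IsNoetherianRing T := IsNoetherianRing.of_finite O T
  haveI : Finite (DualNumber k) := inferInstanceAs (Finite (k × k))
  haveI : Finite (ResidueField (DualNumber k)) :=
    Finite.of_surjective _ IsLocalRing.residue_surjective
  let ρ' := ρ.baseChangeAlong f hfl
  have hloc' := hloc f hfl hfs hfalg fun t ht => hfJ t (Ideal.mem_sup_right ht)
  have hcond : Cond locD p Smin (ramSet p Smin Saux Qv) ρ' := by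
    refine ⟨detIsCyclotomic_baseChangeAlong f hfl hcyc, hloc', fun q hq hqS A hA τ hτ => ?_,
      fun q hq A hA τ hτ => ?_⟩
    · letI : Algebra T (DualNumber k) := f.toAlgebra
      change (ρ.ρ τ).baseChange (DualNumber k) = 1
      rw [hunr q hq hqS A hA τ hτ, LinearMap.baseChange_one]
    · letI : Algebra T (DualNumber k) := f.toAlgebra
      change LinearMap.charpoly ((ρ.ρ τ).baseChange (DualNumber k)) = _
      rw [LinearMap.charpoly_baseChange, hunip q (Finset.mem_union_left _ hq) A hA τ hτ]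
      simp
  have hall := hdetects ρ' (residual_isEquiv_dualNumber ρ he f hfl hffst) hcond
    (fun l hl => constantAt_of_gens hp hp2 hpO P hh ε hε ρ he hcyc (b l) (hSL hl)
      ⟨(hSaux l hl).1, (hSaux l hl).2.1⟩ (hSaux l hl).2.2 (hunip l (Finset.mem_union_right _ hl))
      (sc l) (hcomp l hl) f hfl fun v hv =>
        hfJ v (hsub v (Or.inr (Or.inr (Set.mem_iUnion₂.2 ⟨l, hl, hv⟩)))))
    fun j => by
      have h11 : f (ρ.trace (σ j) - algebraMap O T (a j)) = 0 :=
        hfJ _ (hsub _ (Or.inr (Or.inl ⟨j, rfl⟩)))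
      rw [map_sub, sub_eq_zero] at h11
      rw [trace_baseChangeAlong, h11, hfalg, TrivSqZeroExt.snd_inl]
  let Sub : Subalgebra O T :=
    { carrier := {t | TrivSqZeroExt.snd (f t) = 0}
      mul_mem' := fun {u w} hu hw => by
        simp only [Set.mem_ofPred_eq] at hu hw ⊢
        simp [TrivSqZeroExt.snd_mul, hu, hw]
      add_mem' := fun {u w} hu hw => by
        simp only [Set.mem_ofPred_eq] at hu hw ⊢
        simp [hu, hw]
      algebraMap_mem' := fun c => by simp [hfalg] }
  have htop : Algebra.adjoin O (Set.range ρ.trace) ≤ Sub := Algebra.adjoin_le (by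
    rintro _ ⟨τ, rfl⟩
    have := hall τ
    rwa [trace_baseChangeAlong] at this)
  obtain ⟨t, ht⟩ := hfs (TrivSqZeroExt.inr 1)
  have h12 : TrivSqZeroExt.snd (f t) = 0 := htop (hadj ▸ Algebra.mem_top)
  rw [ht, TrivSqZeroExt.snd_inr] at h12
  exact one_ne_zero h12

end FLTAgent.Lower.Lift
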