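import Mathlib
import Fermat.Agent.Lower.Algebra

/-!
# Supports of patched modules

For an action of `P` on a free `S`-module, a prime containing the kernel contains a horizontal one
(`exists_horizontal_prime`). With degeneracy maps `ι`, `π` between old, full and new modules,
`π ∘ ι` given by a matrix `e` over `P`, a prime containing the old kernel and `det e` contains the
new kernel (`ker_new_le`).
-/

set_option autoImplicit false
set_option linter.style.haveILetI false
set_option linter.unusedSectionVars false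

noncomputable section

namespace FLTAgent.Lower.Lift

open scoped Matrix
open FLTAgent.Lower

variable {S : Type*} [CommRing S] [IsDomain S] [IsNoetherianRing S]
  {P : Type*} [CommRing P] [Algebra S P]

/-- A prime containing the kernel of an action on a free module contains a horizontal one. -/
theorem exists_horizontal_prime {d : ℕ} (φ : P →ₐ[S] Matrix (Fin d) (Fin d) S) (ξ : Ideal P)
    [ξ.IsPrime] (hξ : RingHom.ker φ ≤ ξ) :
    ∃ P₀ : Ideal P, P₀.IsPrime ∧ RingHom.ker φ ≤ P₀ ∧ P₀ ≤ ξ ∧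
      P₀.comap (algebraMap S P) = ⊥ := by
  obtain ⟨P₀, hP₀, hle⟩ := Ideal.exists_minimalPrimes_le hξ
  haveI := hP₀.1.1
  refine ⟨P₀, hP₀.1.1, hP₀.1.2, hle, ?_⟩
  rw [eq_bot_iff]
  intro s hs
  by_contra hs0
  have hs0' : s ≠ 0 := fun h => hs0 (by simp [h])
  let π := Ideal.Quotient.mk (RingHom.ker φ)
  have hmin : P₀.map π ∈ (⊥ : Ideal (P ⧸ RingHom.ker φ)).minimalPrimes := by
    haveI : (P₀.map π).IsPrime := Ideal.map_isPrime_of_surjective Ideal.Quotient.mk_surjective
      (by rw [Ideal.mk_ker]; exact hP₀.1.2)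
    refine ⟨⟨inferInstance, bot_le⟩, fun q ⟨hq, _⟩ hqle => ?_⟩
    haveI := hq
    have h1 : q.comap π ≤ P₀ := by
      refine (Ideal.comap_mono hqle).trans ?_
      rw [Ideal.comap_map_of_surjective _ Ideal.Quotient.mk_surjective, ← RingHom.ker_eq_comap_bot,
        Ideal.mk_ker, sup_of_le_left hP₀.1.2]
    have h2 := hP₀.2 ⟨Ideal.IsPrime.comap _, fun x hx => by
      show π x ∈ q
      rw [Ideal.Quotient.eq_zero_iff_mem.2 hx]; exact zero_mem _⟩ h1
    refine (Ideal.map_mono h2).trans ?_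
    rw [Ideal.map_comap_of_surjective _ Ideal.Quotient.mk_surjective]
  refine Set.disjoint_left.1 (Ideal.disjoint_nonZeroDivisors_of_mem_minimalPrimes hmin)
    (Ideal.mem_map_of_mem π hs) ?_
  rw [SetLike.mem_coe, mem_nonZeroDivisors_iff_right]
  intro x hx
  obtain ⟨x, rfl⟩ := Ideal.Quotient.mk_surjective x
  rw [← map_mul, Ideal.Quotient.eq_zero_iff_mem, RingHom.mem_ker, map_mul, AlgHom.commutes,
    ← Algebra.commutes, ← Algebra.smul_def, smul_eq_zero] at hx
  rw [Ideal.Quotient.eq_zero_iff_mem, RingHom.mem_ker]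
  exact hx.resolve_left hs0'

/-- If `φ (α)` maps everything into `ξ` times the module, then `α ∈ ξ`. -/
theorem mem_of_range_le {d : ℕ} (φ : P →ₐ[S] Matrix (Fin d) (Fin d) S) (ξ : Ideal P) [ξ.IsPrime]
    (hker : RingHom.ker φ ≤ ξ) (α : P)
    (h : ∀ v : Fin d → S, φ α *ᵥ v ∈ Submodule.span S {w | ∃ x ∈ ξ, ∃ u, φ x *ᵥ u = w}) :
    α ∈ ξ := by
  let f : P →+* Module.End S (Fin d → S) :=
    (Matrix.toLinAlgEquiv' (R := S) (n := Fin d)).toRingEquiv.toRingHom.comp φ.toRingHom
  letI : Module P (Fin d → S) := Module.compHom _ f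
  have hsmul : ∀ (x : P) (v : Fin d → S), x • v = φ x *ᵥ v := fun x v => rfl
  haveI : IsScalarTower S P (Fin d → S) := ⟨fun s x v => by
    rw [hsmul, hsmul, map_smul, Matrix.smul_mulVec]⟩
  haveI : Module.Finite P (Fin d → S) := Module.Finite.of_restrictScalars_finite S P _
  let l : Module.End P (Fin d → S) := algebraMap P _ α
  have hrange : LinearMap.range l ≤ ξ • (⊤ : Submodule P (Fin d → S)) := by
    rintro _ ⟨v, rfl⟩
    refine Submodule.span_induction (p := fun w _ => w ∈ ξ • (⊤ : Submodule P (Fin d → S)))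
      ?_ (zero_mem _) (fun _ _ _ _ hx hy => add_mem hx hy) (fun s w _ hw => ?_)
      (show φ α *ᵥ v ∈ _ from h v)
    · rintro _ ⟨x, hx, u, rfl⟩
      rw [← hsmul]
      exact Submodule.smul_mem_smul hx Submodule.mem_top
    · rw [← algebraMap_smul P s w]
      exact Submodule.smul_mem _ _ hw
  obtain ⟨p, hp, -, hco, heval⟩ :=
    LinearMap.exists_monic_and_natDegree_eq_and_coeff_mem_pow_and_aeval_eq_zero P
      l ξ hrange
  have hk : Polynomial.aeval α p ∈ RingHom.ker φ := by
    rw [RingHom.mem_ker]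
    have h1 : ∀ v : Fin d → S, φ (Polynomial.aeval α p) *ᵥ v = 0 := fun v => by
      have h2 := LinearMap.congr_fun heval v
      rwa [show l = Algebra.ofId P _ α from rfl, Polynomial.aeval_algHom_apply,
        Algebra.ofId_apply, Module.algebraMap_end_apply, LinearMap.zero_apply, hsmul] at h2
    ext i j
    simpa [Matrix.mulVec_single] using congrFun (h1 (Pi.single j 1)) i
  have hpow : α ^ p.natDegree ∈ ξ := by
    have h3 := hker hk
    rw [Polynomial.aeval_eq_sum_range, Finset.sum_range_succ, hp.coeff_natDegree, one_smul] at h3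
    refine (Ideal.add_mem_iff_right _ (Ideal.sum_mem _ fun i hi => ?_)).1 h3
    rw [smul_eq_mul]
    refine Ideal.mul_mem_right _ _ (Ideal.pow_le_self ?_ (hco i))
    have := Finset.mem_range.1 hi
    have hdeg : p.natDegree ≤ d ∨ True := Or.inr trivial
    omega
  exact Ideal.IsPrime.mem_of_pow_mem ‹_› _ hpow

/-- Raising: a prime containing the old kernel and `det e` contains the new kernel. -/
theorem ker_new_le {dO dA dN m : ℕ} (φO : P →ₐ[S] Matrix (Fin dO) (Fin dO) S)
    (φA : P →ₐ[S] Matrix (Fin dA) (Fin dA) S) (φN : P →ₐ[S] Matrix (Fin dN) (Fin dN) S)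
    (ι : Matrix (Fin dA) (Fin dO × Fin m) S) (π : Matrix (Fin dO × Fin m) (Fin dA) S)
    (j : Matrix (Fin dA) (Fin dN) S)
    (sπ : Matrix (Fin dA) (Fin dO × Fin m) S) (hsπ : π * sπ = 1)
    (sι : Matrix (Fin dO × Fin m) (Fin dA) S) (hsι : sι * ι = 1)
    (hexact : ∀ x : Fin dA → S, π *ᵥ x = 0 → ∃ y, j *ᵥ y = x)
    (hι : ∀ t, φA t * ι =
      ι * (Matrix.blockDiagonal fun _ => φO t : Matrix (Fin dO × Fin m) (Fin dO × Fin m) S))
    (hπ : ∀ t, (Matrix.blockDiagonal fun _ => φO t : Matrix (Fin dO × Fin m) (Fin dO × Fin m) S) * π =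
      π * φA t)
    (hj : ∀ t, φA t * j = j * φN t)
    (e : Matrix (Fin m) (Fin m) P)
    (hπι : π * ι = Matrix.of fun a b => φO (e a.2 b.2) a.1 b.1)
    (hdet : (π * ι).det ≠ 0)
    (ξ : Ideal P) [ξ.IsPrime] (hξ : RingHom.ker φO ≤ ξ) (hu : e.det ∈ ξ) :
    RingHom.ker φN ≤ ξ := by
  intro a ha
  by_contra haξ
  rw [RingHom.mem_ker] at ha
  let B : Matrix (Fin dO × Fin m) (Fin dO × Fin m) S := Matrix.blockDiagonal fun _ => φO a
  have hkill : ∀ x : Fin dA → S, π *ᵥ x = 0 → φA a *ᵥ x = 0 := by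
    intro x hx
    obtain ⟨y, rfl⟩ := hexact x hx
    rw [Matrix.mulVec_mulVec, hj, ha, Matrix.mul_zero, Matrix.zero_mulVec]
  -- the image of `a` is in the image of `π ι`
  have hstep : ∀ v, ∃ z, B *ᵥ v = (π * ι) *ᵥ z := by
    intro v
    set δ := (π * ι).det
    set N := (π * ι).adjugate
    set y := φA a *ᵥ (sπ *ᵥ v)
    have hz : φA a *ᵥ (δ • (sπ *ᵥ v) - ι *ᵥ (N *ᵥ v)) = 0 := by
      refine hkill _ ?_
      rw [Matrix.mulVec_sub, Matrix.mulVec_smul, Matrix.mulVec_mulVec, hsπ, Matrix.one_mulVec,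
        Matrix.mulVec_mulVec, Matrix.mulVec_mulVec, Matrix.mul_adjugate, Matrix.smul_mulVec,
        Matrix.one_mulVec, sub_self]
    rw [Matrix.mulVec_sub, Matrix.mulVec_smul, sub_eq_zero] at hz
    change δ • y = _ at hz
    rw [Matrix.mulVec_mulVec _ (φA a) ι, hι] at hz
    have hyι : y = ι *ᵥ (sι *ᵥ y) := by
      refine smul_right_injective _ hdet (?_ : δ • y = δ • (ι *ᵥ (sι *ᵥ y)))
      rw [← Matrix.mulVec_smul ι, ← Matrix.mulVec_smul sι, hz]
      simp only [← Matrix.mulVec_mulVec]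
      simp only [Matrix.mulVec_mulVec _ sι ι, hsι, Matrix.one_mulVec]
    refine ⟨sι *ᵥ y, ?_⟩
    rw [← Matrix.mulVec_mulVec, ← hyι, Matrix.mulVec_mulVec _ π (φA a), ← hπ,
      ← Matrix.mulVec_mulVec, Matrix.mulVec_mulVec _ π sπ, hsπ, Matrix.one_mulVec]
  -- a row relation of `e` modulo `ξ`
  haveI : IsDomain (P ⧸ ξ) := Ideal.Quotient.isDomain ξ
  obtain ⟨c₀, hc₀, hc⟩ := Matrix.exists_vecMul_eq_zero_iff.2
    (show (e.map (Ideal.Quotient.mk ξ)).det = 0 by
      rw [← RingHom.mapMatrix_apply, ← RingHom.map_det]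
      exact Ideal.Quotient.eq_zero_iff_mem.2 hu)
  choose c hcc using fun i => Ideal.Quotient.mk_surjective (c₀ i)
  have hce : ∀ k, ∑ i, c i * e i k ∈ ξ := fun k => by
    rw [← Ideal.Quotient.eq_zero_iff_mem, map_sum]
    simpa [Matrix.vecMul, dotProduct, hcc] using congrFun hc k
  obtain ⟨i₀, hi₀⟩ : ∃ i, c i ∉ ξ := by
    by_contra hall
    simp only [not_exists, not_not] at hall
    exact hc₀ (funext fun i => by rw [← hcc i, Pi.zero_apply, Ideal.Quotient.eq_zero_iff_mem]; exact hall i)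
  refine (Ideal.IsPrime.mem_or_mem ‹_› (mem_of_range_le φO ξ hξ (c i₀ * a) fun v => ?_)).elim
    hi₀ haξ
  obtain ⟨z, hz⟩ := hstep fun x => if x.2 = i₀ then v x.1 else 0
  let zc : Fin m → Fin dO → S := fun k x => z (x, k)
  have hrow : ∀ i, φO a *ᵥ (if i = i₀ then v else 0) = ∑ k, φO (e i k) *ᵥ zc k := by
    intro i
    ext x
    have h := congrFun hz (x, i)
    simp only [Matrix.mulVec, dotProduct, Fintype.sum_prod_type, B, Matrix.blockDiagonal_apply,
      hπι, Matrix.of_apply] at h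
    simp only [Finset.sum_apply, Matrix.mulVec, dotProduct, zc]
    rw [Finset.sum_comm, ← h]
    refine Finset.sum_congr rfl fun y _ => ?_
    rw [Finset.sum_eq_single i (fun k _ hk => by simp [Ne.symm hk]) (by simp)]
    simp [ite_apply]
  have hsum : φO (c i₀ * a) *ᵥ v = ∑ k, φO (∑ i, c i * e i k) *ᵥ zc k := by
    calc φO (c i₀ * a) *ᵥ v = ∑ i, φO (c i) *ᵥ (φO a *ᵥ (if i = i₀ then v else 0)) := by
          rw [Finset.sum_eq_single i₀ (fun i _ hi => by simp [hi]) (by simp), if_pos rfl,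
            Matrix.mulVec_mulVec, map_mul]
      _ = _ := by
          simp only [hrow, Matrix.mulVec_sum, map_sum, map_mul, Matrix.sum_mulVec,
            Matrix.mulVec_mulVec]
          exact Finset.sum_comm
  rw [hsum]
  exact Submodule.sum_mem _ fun k _ => Submodule.subset_span ⟨_, hce k, _, rfl⟩

end FLTAgent.Lower.Lift
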