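import Mathlib
import Fermat.Agent.Lower.Lift.Dim
import Fermat.Agent.Lower.Lift.Support
import Fermat.Agent.Lower.Lift.Coords

/-!
# The algebraic heart of the hop

`exists_new_prime`: from a prime of the old patched module with prescribed signs at the places to
a prime of the new one, over the same prime of the parameters, with the signs at all the places.
Below the old prime lies a horizontal one, special at the old places; in that domain the count of
test traces and place weights leaves a minimal prime over `w` avoiding the uniformiser and the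
inertia ideals (`exists_minimalPrime_avoiding`), which lies in the support of the new module
(`ker_new_le`); a horizontal prime below it is special everywhere, by `mul_mem_of_not_le`.
-/

set_option autoImplicit false
set_option linter.style.haveILetI false
set_option linter.unusedSectionVars false

noncomputable section

namespace FLTAgent.Lower.Lift

open IsLocalRing (maximalIdeal)
open FLTAgent.Lower

variable {S : Type*} [CommRing S] [IsDomain S] [IsNoetherianRing S] [IsLocalRing S]
  {P : Type*} [CommRing P] [Algebra S P]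

/-- The numerical data of a place. -/
structure PlaceConsts (S : Type*) where
  sc : Bool
  l : ℕ
  ε : S

/-- The relations at a place modulo an ideal. -/
def RelsMod (I : Ideal P) (h : S) (c : PlaceConsts S) (x : Coords P) : Prop :=
  CoordRels c.sc c.l (Ideal.Quotient.mk I (algebraMap S P c.ε))
    (Ideal.Quotient.mk I (algebraMap S P h)) (x.map (Ideal.Quotient.mk I))

theorem RelsMod.mono {I J : Ideal P} {h : S} {c : PlaceConsts S} {x : Coords P}
    (H : RelsMod I h c x) (hIJ : I ≤ J) : RelsMod J h c x := by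
  have := CoordRels.map (Ideal.Quotient.factor hIJ) H
  simp only [RelsMod, Coords.map, Ideal.Quotient.factor_mk] at this ⊢
  exact this

/-- The ideal of the inertia part at a place. -/
def inertiaIdeal (x : Coords P) : Ideal P := Ideal.span {x.a, x.b, x.c}

/-- A nonzero inertia part forces `w (w + 2 ε (l + 1))` into a horizontal prime. -/
theorem mul_mem_of_not_le {I : Ideal P} [I.IsPrime] {h : S} {c : PlaceConsts S} {x : Coords P}
    (H : RelsMod I h c x) (hhor : I.comap (algebraMap S P) = ⊥)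
    (hl : (c.l : S) * ((c.l : S) - 1) ≠ 0) (hN : ¬ inertiaIdeal x ≤ I) :
    x.w * (x.w + algebraMap S P (2 * c.ε * ((c.l : S) + 1))) ∈ I := by
  obtain ⟨v, hv, hvI⟩ : ∃ v ∈ ({x.a, x.b, x.c} : Set P), v ∉ I := by
    by_contra hall
    simp only [not_exists, not_and, not_not] at hall
    exact hN (Ideal.span_le.2 hall)
  have h1 := H.special (Ideal.Quotient.mk I v) (by
    simp only [Set.mem_insert_iff, Set.mem_singleton_iff] at hv
    simp only [Coords.map, Set.mem_insert_iff, Set.mem_singleton_iff]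
    rcases hv with rfl | rfl | rfl <;> simp)
  have hd : (c.l : P) * ((c.l : P) - 1) ∉ I := fun hmem => hl (by
    have h2 : (c.l : S) * ((c.l : S) - 1) ∈ I.comap (algebraMap S P) := by
      rw [Ideal.mem_comap]
      simpa using hmem
    rwa [hhor, Ideal.mem_bot] at h2)
  have h4 : v * ((c.l : P) * ((c.l : P) - 1) *
      (x.w * (x.w + algebraMap S P (2 * c.ε * ((c.l : S) + 1))))) ∈ I := by
    rw [← Ideal.Quotient.eq_zero_iff_mem]
    simpa [Coords.map, map_mul, map_add, map_sub, map_natCast, map_ofNat, mul_assoc] using h1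
  exact (((Ideal.IsPrime.mem_or_mem ‹_› h4).resolve_left hvI |>
    (Ideal.IsPrime.mem_or_mem ‹_› ·)).resolve_left hd)

variable {r : ℕ}

set_option maxHeartbeats 1000000 in
/-- **The hop.** `K` indexes the places, `q` the raised one (`none`: `p` is raised), `σ` the
places where the old point is special. -/
theorem exists_new_prime (C : FullChain S r) (ϖ : S) (hϖ : Prime ϖ)
    (y : Fin r → S) (hgens : C.gens = insert ϖ (Set.range y))
    (𝔞 : Ideal S) [𝔞.IsPrime]
    {dO dA dN m : ℕ} (φO : P →ₐ[S] Matrix (Fin dO) (Fin dO) S)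
    (φA : P →ₐ[S] Matrix (Fin dA) (Fin dA) S) (φN : P →ₐ[S] Matrix (Fin dN) (Fin dN) S)
    (ι : Matrix (Fin dA) (Fin dO × Fin m) S) (π : Matrix (Fin dO × Fin m) (Fin dA) S)
    (j : Matrix (Fin dA) (Fin dN) S)
    (sπ : Matrix (Fin dA) (Fin dO × Fin m) S) (hsπ : π * sπ = 1)
    (sι : Matrix (Fin dO × Fin m) (Fin dA) S) (hsι : sι * ι = 1)
    (hexact : ∀ x : Fin dA → S, Matrix.mulVec π x = 0 → ∃ y, Matrix.mulVec j y = x)
    (hι : ∀ t, φA t * ι =
      ι * (Matrix.blockDiagonal fun _ => φO t : Matrix (Fin dO × Fin m) (Fin dO × Fin m) S))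
    (hπ : ∀ t, (Matrix.blockDiagonal fun _ => φO t : Matrix (Fin dO × Fin m) (Fin dO × Fin m) S)
      * π = π * φA t)
    (hj : ∀ t, φA t * j = j * φN t)
    (e : Matrix (Fin m) (Fin m) P)
    (hπι : π * ι = Matrix.of fun a b => φO (e a.2 b.2) a.1 b.1)
    (hdet : (π * ι).det ≠ 0)
    {K : ℕ} (pc : Fin K → PlaceConsts S) (x : Fin K → Coords P) (q : Option (Fin K))
    (hscal : ∀ k, (pc k).sc = true → ϖ ∣ ((pc k).l : S) - 1)
    (h : S) (hh : 2 * h = 1) (hε : ∀ k, (pc k).ε * (pc k).ε = 1)
    (hl : ∀ k, ((pc k).l : S) * (((pc k).l : S) - 1) ≠ 0)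
    (hconst : ∀ k, ∃ u : Sˣ, ∃ N : ℕ, 2 * (pc k).ε * (((pc k).l : S) + 1) = u * ϖ ^ N)
    (hconst' : ∀ k, 2 * (pc k).ε * (((pc k).l : S) + 1) ∉ 𝔞)
    {g : ℕ} (test : Fin g → P)
    (hcount : g + (if q.isSome then 0 else 1) + ∑ k, weight (pc k).sc ≤ r)
    (w : P) (hwe : e.det ∈ RingHom.ker φO ⊔ Ideal.span {w})
    (hwq : ∀ k₀ ∈ q, w = (x k₀).w)
    (hrelO : ∀ k, RelsMod (RingHom.ker φO) h (pc k) (x k))
    (hunr : ∀ k₀ ∈ q, inertiaIdeal (x k₀) ≤ RingHom.ker φO)
    (hrelN : ∀ k, RelsMod (RingHom.ker φN) h (pc k) (x k))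
    (hnewq : ∀ k₀ ∈ q,
      (x k₀).w * ((x k₀).w + algebraMap S P (2 * (pc k₀).ε * (((pc k₀).l : S) + 1))) ∈
        RingHom.ker φN)
    (hnil : ∀ v ∈ insert w (Set.range test ∪ ⋃ k, {v | v ∈ (x k).gens (pc k).sc}),
      ∃ N : ℕ, ∀ i i', φO (v ^ N) i i' ∈ maximalIdeal S)
    (hy : ∀ i, algebraMap S P (y i) ^ 2 ∈ Ideal.span (insert (algebraMap S P ϖ)
        (Set.range test ∪ ⋃ k, {v | v ∈ (x k).gens (pc k).sc})) ⊔
      (RingHom.ker φO ⊔ if q.isSome then ⊥ else RingHom.ker φN))
    (Q₀ : Ideal P) [Q₀.IsPrime] (hQ₀ : RingHom.ker φO ≤ Q₀)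
    (hQ₀a : Q₀.comap (algebraMap S P) = 𝔞)
    (hQ₀w : ∀ k, some k ≠ q → (x k).w ∈ Q₀ ∧ ¬ inertiaIdeal (x k) ≤ Q₀) :
    ∃ Q : Ideal P, Q.IsPrime ∧ RingHom.ker φN ≤ Q ∧ Q.comap (algebraMap S P) = 𝔞 ∧
      ∀ k, (x k).w ∈ Q := by
  classical
  obtain ⟨P₀, hP₀, hkP₀, hP₀le, hP₀S⟩ := exists_horizontal_prime φO Q₀ hQ₀
  haveI := hP₀
  -- special at the places of the old point
  have hP₀w : ∀ k, some k ≠ q → (x k).w ∈ P₀ := fun k hk => by
    have h1 := mul_mem_of_not_le ((hrelO k).mono hkP₀) hP₀S (hl k)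
      (fun hle => (hQ₀w k hk).2 (hle.trans hP₀le))
    refine (hP₀.mem_or_mem h1).resolve_right fun h2 => hconst' k ?_
    rw [← hQ₀a, Ideal.mem_comap]
    have := sub_mem (hP₀le h2) (hQ₀w k hk).1
    rwa [add_sub_cancel_left] at this
  -- the domain
  let D := P ⧸ P₀
  let mk : P →+* D := Ideal.Quotient.mk P₀
  haveI := moduleFinite_quot_ker φO
  haveI : Module.Finite S D := Module.Finite.of_surjective
    ((Ideal.Quotient.factorₐ S hkP₀).toLinearMap) (Ideal.Quotient.factor_surjective hkP₀)
  haveI : IsNoetherianRing D := IsNoetherianRing.of_finite S D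
  haveI : Algebra.IsIntegral S D := Algebra.IsIntegral.of_finite _ _
  have hinj : Function.Injective (algebraMap S D) := by
    rw [injective_iff_map_eq_zero]
    intro s hs
    rw [← Ideal.mem_bot (R := S), ← hP₀S, Ideal.mem_comap]
    exact Ideal.Quotient.eq_zero_iff_mem.1 hs
  have hmax : ∀ (Q : Ideal D), Q.IsPrime → Q.comap (algebraMap S D) = maximalIdeal S →
      ∀ v ∈ insert w (Set.range test ∪ ⋃ k, {v | v ∈ (x k).gens (pc k).sc}), mk v ∈ Q := by
    intro Q hQ hQm v hv
    obtain ⟨N, hN⟩ := hnil v hv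
    haveI := hQ
    refine hQ.mem_of_pow_mem N ?_
    rw [← map_pow]
    exact mem_of_entries φO (Q.comap mk) (fun a ha => by
      rw [Ideal.mem_comap, Ideal.Quotient.eq_zero_iff_mem.2 (hkP₀ ha)]; exact zero_mem _)
      (maximalIdeal S) (fun s hs => by
        rw [← hQm] at hs
        exact hs) hN
  have hget : ∀ k, ∀ v ∈ (x k).gens (pc k).sc, v ∈
      insert w (Set.range test ∪ ⋃ k, {v | v ∈ (x k).gens (pc k).sc}) := fun k v hv =>
    Or.inr (Or.inr (Set.mem_iUnion.2 ⟨k, hv⟩))
  -- bad ideals, cuts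
  let mode : Option (Fin K) → Fin K → Mode := fun bad k =>
    if some k = q then .deg else if some k = bad then .deg else .st
  let bidx := {b : Option (Fin K) // ∀ k, b = some k → some k ≠ q}
  let kN : Ideal D := (RingHom.ker φN).map mk
  let bad : bidx → Ideal D := fun b =>
    (match b.1 with
      | none => Ideal.span {mk (algebraMap S P ϖ)}
      | some k => (inertiaIdeal (x k)).map mk) ⊔ (if q.isSome then ⊥ else kN)
  let L : bidx → Finset D := fun b =>
    (((List.ofFn test) ++ ((List.finRange K).flatMap fun k => (x k).cut (pc k).sc (mode b.1 k)) ++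
      (if b.1 = none then [] else [algebraMap S P ϖ])).map mk).toFinset
  have hLcard : ∀ b, (L b).card < r := by
    rintro ⟨b, hb⟩
    refine (List.toFinset_card_le _).trans_lt ?_
    rw [List.length_map, List.length_append, List.length_append, List.length_ofFn,
      List.length_flatMap]
    have hlen : ∀ k, ((x k).cut (pc k).sc (mode b k)).length +
        ((if some k = q then 1 else 0) + (if some k = b then 1 else 0)) = weight (pc k).sc := by
      intro k
      obtain ⟨-, h2, h3⟩ := length_cut (x k) (pc k).sc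
      simp only [mode]
      split_ifs with ha hc
      · exact absurd ha (hb k hc.symm)
      · exact h3
      · exact h3
      · exact h2
    have hsum : ((List.finRange K).map fun k => ((x k).cut (pc k).sc (mode b k)).length).sum +
        ((∑ k : Fin K, if some k = q then 1 else 0) + ∑ k : Fin K, if some k = b then 1 else 0) =
        ∑ k, weight (pc k).sc := by
      rw [← List.ofFn_eq_map, List.sum_ofFn, ← Finset.sum_add_distrib, ← Finset.sum_add_distrib]
      exact Finset.sum_congr rfl fun k _ => hlen k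
    have hq1 : ∀ o : Option (Fin K),
        (∑ k : Fin K, if some k = o then 1 else 0) = if o.isSome then 1 else 0 := by
      rintro (_ | k) <;> simp
    rw [hq1, hq1] at hsum
    cases q <;> cases b <;> simp_all <;> omega
  have hgen0 : ∀ (b : bidx) (Q : Ideal D), Q.IsPrime →
      Ideal.span (L b : Set D) ⊔ (Ideal.span {mk w} ⊔ bad b) ≤ Q →
      mk (algebraMap S P ϖ) ∈ Q ∧
        ∀ k, ∀ v ∈ (x k).gens (pc k).sc, mk v ∈ Q := by
    rintro ⟨b, hb⟩ Q hQ hle
    haveI := hQ
    obtain ⟨hL, hwb⟩ := sup_le_iff.1 hle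
    obtain ⟨hw', hbad⟩ := sup_le_iff.1 hwb
    have hmem : ∀ v : P, v ∈ ((List.ofFn test) ++
        ((List.finRange K).flatMap fun k => (x k).cut (pc k).sc (mode b k)) ++
        (if b = none then [] else [algebraMap S P ϖ])) → mk v ∈ Q := fun v hv =>
      hL (Ideal.subset_span (Finset.mem_coe.2 (List.mem_toFinset.2 (List.mem_map_of_mem hv))))
    have hϖQ : mk (algebraMap S P ϖ) ∈ Q := by
      cases b with
      | none => exact hbad (Ideal.mem_sup_left (Ideal.subset_span rfl))
      | some k => exact hmem _ (by simp)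
    refine ⟨hϖQ, fun k => ?_⟩
    let f : P →+* D ⧸ Q := (Ideal.Quotient.mk Q).comp mk
    have hf : ∀ v, f v = 0 ↔ mk v ∈ Q := fun v => Ideal.Quotient.eq_zero_iff_mem
    have hrel : CoordRels (pc k).sc (pc k).l (f (algebraMap S P (pc k).ε))
        (f (algebraMap S P h)) ((x k).map f) := by
      have := CoordRels.map (Ideal.Quotient.lift (RingHom.ker φO) f fun a ha => by
        rw [hf, Ideal.Quotient.eq_zero_iff_mem.2 (hkP₀ ha)]; exact zero_mem _) (hrelO k)
      simp only [Coords.map, Ideal.Quotient.lift_mk] at this ⊢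
      exact this
    have hfix : ((x k).map f).fixed (mode b k) := by
      have hst : some k ≠ q → f (x k).w = 0 := fun hk => by
        rw [hf, Ideal.Quotient.eq_zero_iff_mem.2 (hP₀w k hk)]; exact zero_mem _
      have hNz : ∀ k, (inertiaIdeal (x k)).map mk ≤ Q →
          f (x k).a = 0 ∧ f (x k).b = 0 ∧ f (x k).c = 0 := fun k hle =>
        ⟨(hf _).2 (hle (Ideal.mem_map_of_mem _ (Ideal.subset_span (by simp)))),
          (hf _).2 (hle (Ideal.mem_map_of_mem _ (Ideal.subset_span (by simp)))),
          (hf _).2 (hle (Ideal.mem_map_of_mem _ (Ideal.subset_span (by simp))))⟩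
      simp only [mode]
      split_ifs with ha hc
      · obtain ⟨h1, h2, h3⟩ := hNz k ((Ideal.map_mono ((hunr k ha.symm).trans hkP₀)).trans
          (by rw [Ideal.map_quotient_self]; exact bot_le))
        exact ⟨h1, h2, h3, (hf _).2 (hwq k ha.symm ▸ hw' (Ideal.subset_span rfl))⟩
      · subst hc
        obtain ⟨h1, h2, h3⟩ := hNz k (le_sup_left.trans hbad)
        exact ⟨h1, h2, h3, hst ha⟩
      · exact hst ha
    have hl1 : (pc k).sc = true → ((pc k).l : D ⧸ Q) = 1 := fun hs => by
      obtain ⟨u, hu⟩ := hscal k hs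
      have h1 := congrArg f (congrArg (algebraMap S P) hu)
      rw [map_mul, map_mul, (hf _).2 hϖQ, zero_mul] at h1
      simpa [sub_eq_zero] using h1
    intro v hv
    rw [← hf]
    have hgm : ((x k).map f).gens (pc k).sc = ((x k).gens (pc k).sc).map f := by
      cases (pc k).sc <;> rfl
    have hcm : ((x k).map f).cut (pc k).sc (mode b k) =
        ((x k).cut (pc k).sc (mode b k)).map f := by
      cases (pc k).sc <;> cases mode b k <;> simp [Coords.cut, Coords.map]
    refine gens_eq_zero hrel ?_ ?_ hl1 hfix (fun v hv => ?_) (f v)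
      (by rw [hgm]; exact List.mem_map_of_mem hv)
    · rw [← map_ofNat f 2, ← map_mul, ← map_ofNat (algebraMap S P) 2, ← map_mul, hh, map_one,
        map_one]
    · rw [← map_mul, ← map_mul, hε, map_one, map_one]
    · rw [hcm] at hv
      obtain ⟨u, hu, rfl⟩ := List.mem_map.1 hv
      exact (hf u).2 (hmem u (by
        simp only [List.mem_append, List.mem_flatMap]
        exact Or.inl (Or.inr ⟨k, List.mem_finRange k, hu⟩)))
  obtain ⟨ξ, hξ, havoid⟩ := exists_minimalPrime_avoiding C hinj (mk w)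
    (fun Q hQ hQm => hmax Q hQ hQm w (Or.inl rfl)) bad L hLcard
    (fun b Q hQ hQm v hv => by
      obtain ⟨u, hu, rfl⟩ := List.mem_map.1 (List.mem_toFinset.1 hv)
      simp only [List.mem_append, List.mem_flatMap, List.mem_ofFn'] at hu
      rcases hu with (hu | ⟨k, -, hu⟩) | hu
      · exact hmax Q hQ hQm u (Or.inr (Or.inl hu))
      · have : ∃ v₁ ∈ (x k).gens (pc k).sc, ∃ v₂ ∈ (x k).gens (pc k).sc,
            u = v₁ ∨ u = v₁ - v₂ := by
          cases hs : (pc k).sc <;> cases hmd : mode b.1 k <;>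
            simp [Coords.cut, hs, hmd] at hu
          · exact ⟨u, by simp [Coords.gens, hu], u, by simp [Coords.gens, hu], Or.inl rfl⟩
          · exact ⟨u, by simp [Coords.gens, hu], u, by simp [Coords.gens, hu], Or.inl rfl⟩
          · exact ⟨u, by rcases hu with rfl | rfl | rfl <;> simp [Coords.gens], u,
              by rcases hu with rfl | rfl | rfl <;> simp [Coords.gens], Or.inl rfl⟩
          · rcases hu with rfl | rfl | rfl
            · exact ⟨(x k).b, by simp [Coords.gens], (x k).b, by simp [Coords.gens], Or.inl rfl⟩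
            · exact ⟨(x k).C, by simp [Coords.gens], (x k).C, by simp [Coords.gens], Or.inl rfl⟩
            · exact ⟨(x k).c, by simp [Coords.gens], (x k).B, by simp [Coords.gens], Or.inr rfl⟩
          · rcases hu with rfl | rfl
            · exact ⟨(x k).A, by simp [Coords.gens], (x k).A, by simp [Coords.gens], Or.inl rfl⟩
            · exact ⟨(x k).B, by simp [Coords.gens], (x k).C, by simp [Coords.gens], Or.inr rfl⟩
        obtain ⟨v₁, h₁, v₂, h₂, rfl | rfl⟩ := this
        · exact hmax Q hQ hQm _ (hget k _ h₁)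
        · rw [map_sub]
          exact sub_mem (hmax Q hQ hQm _ (hget k _ h₁)) (hmax Q hQ hQm _ (hget k _ h₂))
      · split at hu
        · simp at hu
        · rw [List.mem_singleton] at hu
          subst hu
          show algebraMap S D ϖ ∈ Q
          rw [← Ideal.mem_comap, hQm, IsLocalRing.mem_maximalIdeal]
          exact hϖ.not_isUnit)
    (fun b s hs => by
      rw [Ideal.radical_eq_sInf, Ideal.mem_sInf]
      rintro Q ⟨hle, hQ⟩
      haveI := hQ
      obtain ⟨hϖQ, hg⟩ := hgen0 b Q hQ hle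
      rw [hgens] at hs
      rcases hs with rfl | ⟨i, rfl⟩
      · exact hϖQ
      have hspan : Ideal.span (insert (algebraMap S P ϖ)
          (Set.range test ∪ ⋃ k, {v | v ∈ (x k).gens (pc k).sc})) ≤ Q.comap mk := by
        rw [Ideal.span_le]
        rintro v (rfl | ⟨t, rfl⟩ | hv)
        · exact hϖQ
        · refine sup_le_iff.1 hle |>.1 (Ideal.subset_span (Finset.mem_coe.2
            (List.mem_toFinset.2 (List.mem_map_of_mem ?_))))
          simp [List.mem_ofFn']
        · obtain ⟨k, hk⟩ := Set.mem_iUnion.1 hv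
          exact hg k v hk
      have hkO : RingHom.ker φO ≤ Q.comap mk := fun a ha => by
        rw [Ideal.mem_comap, Ideal.Quotient.eq_zero_iff_mem.2 (hkP₀ ha)]; exact zero_mem _
      refine hQ.mem_of_pow_mem 2 ?_
      show mk (algebraMap S P (y i)) ^ 2 ∈ Q
      rw [← map_pow]
      refine (sup_le hspan (sup_le hkO ?_)) (hy i)
      split_ifs with hq
      · exact bot_le
      · intro a ha
        exact (sup_le_iff.1 (sup_le_iff.1 hle).2).2
          (Ideal.mem_sup_right (by rw [if_neg hq]; exact Ideal.mem_map_of_mem _ ha)))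
  haveI := hξ.1.1
  let ξ' : Ideal P := ξ.comap mk
  haveI : ξ'.IsPrime := Ideal.IsPrime.comap _
  have hP₀ξ : P₀ ≤ ξ' := fun a ha => by
    show mk a ∈ ξ
    rw [Ideal.Quotient.eq_zero_iff_mem.2 ha]; exact zero_mem _
  have hwξ : w ∈ ξ' := hξ.1.2 (Ideal.subset_span rfl)
  have hkN : RingHom.ker φN ≤ ξ' :=
    ker_new_le φO φA φN ι π j sπ hsπ sι hsι hexact hι hπ hj e hπι hdet ξ' (hkP₀.trans hP₀ξ)
      (sup_le (hkP₀.trans hP₀ξ) ((Ideal.span_singleton_le_iff_mem _).2 hwξ) hwe)
  have havoid' : ∀ b : bidx, ¬ (match b.1 with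
      | none => Ideal.span {mk (algebraMap S P ϖ)}
      | some k => (inertiaIdeal (x k)).map mk) ≤ ξ := fun b hb => havoid b (sup_le hb (by
        split_ifs
        · exact bot_le
        · exact Ideal.map_le_iff_le_comap.2 hkN))
  have hϖξ : algebraMap S P ϖ ∉ ξ' := fun hmem =>
    havoid' ⟨none, fun k hk => by simp at hk⟩ ((Ideal.span_singleton_le_iff_mem _).2 hmem)
  have hNξ : ∀ k, some k ≠ q → ¬ inertiaIdeal (x k) ≤ ξ' := fun k hk hle =>
    havoid' ⟨some k, fun k' hk' => by cases Option.some.inj hk'; exact hk⟩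
      (Ideal.map_le_iff_le_comap.2 hle)
  obtain ⟨P', hP', hkP', hP'le, hP'S⟩ := exists_horizontal_prime φN ξ' hkN
  haveI := hP'
  have hw' : ∀ k, (x k).w ∈ P' := fun k => by
    have hkξ : (x k).w ∈ ξ' := by
      by_cases hk : some k = q
      · exact hwq k hk.symm ▸ hwξ
      · exact hP₀ξ (hP₀w k hk)
    have h1 : (x k).w * ((x k).w + algebraMap S P (2 * (pc k).ε * (((pc k).l : S) + 1))) ∈ P' := by
      by_cases hk : some k = q
      · exact hkP' (hnewq k hk.symm)
      · exact mul_mem_of_not_le ((hrelN k).mono hkP') hP'S (hl k)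
          (fun hle => hNξ k hk (hle.trans hP'le))
    refine (hP'.mem_or_mem h1).resolve_right fun h2 => hϖξ ?_
    have h3 := sub_mem (hP'le h2) hkξ
    rw [add_sub_cancel_left] at h3
    obtain ⟨u, N, hu⟩ := hconst k
    rw [hu, map_mul, map_pow] at h3
    exact (inferInstance : ξ'.IsPrime).mem_of_pow_mem N
      ((Ideal.unit_mul_mem_iff_mem _ (u.isUnit.map _)).1 h3)
  obtain ⟨Q, hle, hQ, hQa⟩ := exists_prime_over φN P' hkP' 𝔞 (by rw [hP'S]; exact bot_le)
  exact ⟨Q, hQ, hkP'.trans hle, hQa, fun k => hle (hw' k)⟩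

end FLTAgent.Lower.Lift
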