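import Mathlib
import Fermat.Agent.Lower.Limit

/-!
# Patching systems of matrices

A system (`Mats`) consists of commuting matrices on three free modules, intertwined by `ι`, `π`,
`j` and subject to prescribed relations (`MatsRels`). `exists_patched`: if for every `n` there is
a system over `O[[X₁, …, X_r]]` satisfying the relations modulo the `n`-th power of the maximal
ideal and lifting the base, then by compactness there is one satisfying them exactly.
`exists_split`: the splittings and exactness of the base lift to it.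
-/

set_option autoImplicit false
set_option linter.style.haveILetI false
set_option linter.unusedSectionVars false

noncomputable section

namespace FLTAgent.Lower.Lift

open IsLocalRing (maximalIdeal ResidueField)
open MvPowerSeries (constantCoeff)
open FLTAgent.Lower

/-- The matrices of a hop over `R`. -/
structure Mats (R V : Type) (dO dA dN m : ℕ) where
  XO : V → Matrix (Fin dO) (Fin dO) R
  XA : V → Matrix (Fin dA) (Fin dA) R
  XN : V → Matrix (Fin dN) (Fin dN) R
  ι : Matrix (Fin dA) (Fin dO × Fin m) R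
  π : Matrix (Fin dO × Fin m) (Fin dA) R
  j : Matrix (Fin dA) (Fin dN) R

variable {V : Type} {dO dA dN m : ℕ}

/-- The entrywise image. -/
def Mats.map {R R' : Type} (f : R → R') (D : Mats R V dO dA dN m) : Mats R' V dO dA dN m :=
  ⟨fun v => (D.XO v).map f, fun v => (D.XA v).map f, fun v => (D.XN v).map f,
    D.ι.map f, D.π.map f, D.j.map f⟩

/-- `X` in every diagonal block. -/
def blockRep {R : Type} [Zero R] {d : ℕ} (m : ℕ) (X : Matrix (Fin d) (Fin d) R) :
    Matrix (Fin d × Fin m) (Fin d × Fin m) R :=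
  Matrix.blockDiagonal fun _ => X

/-- The relations of a system. -/
structure MatsRels {S R : Type} [CommRing S] [CommRing R] [Algebra S R]
    (relO relN : Set (FreeAlgebra S V)) (e : Fin m → Fin m → V)
    (D : Mats R V dO dA dN m) : Prop where
  commO : ∀ u v, D.XO u * D.XO v = D.XO v * D.XO u
  commA : ∀ u v, D.XA u * D.XA v = D.XA v * D.XA u
  commN : ∀ u v, D.XN u * D.XN v = D.XN v * D.XN u
  ι_comm : ∀ v, D.XA v * D.ι = D.ι * blockRep m (D.XO v)
  π_comm : ∀ v, blockRep m (D.XO v) * D.π = D.π * D.XA v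
  j_comm : ∀ v, D.XA v * D.j = D.j * D.XN v
  π_j : D.π * D.j = 0
  π_ι : D.π * D.ι = Matrix.of fun a b => D.XO (e a.2 b.2) a.1 b.1
  relO : ∀ f ∈ relO, FreeAlgebra.lift S D.XO f = 0
  relN : ∀ f ∈ relN, FreeAlgebra.lift S D.XN f = 0

theorem lift_map {S R R' : Type} [CommRing S] [CommRing R] [Algebra S R] [CommRing R']
    [Algebra S R'] (f : R →ₐ[S] R') {d : ℕ} (X : V → Matrix (Fin d) (Fin d) R)
    (z : FreeAlgebra S V) :
    FreeAlgebra.lift S (fun v => (X v).map f) z = (FreeAlgebra.lift S X z).map f := by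
  have : f.mapMatrix.comp (FreeAlgebra.lift S X) = FreeAlgebra.lift S fun v => (X v).map f := by
    refine FreeAlgebra.hom_ext (funext fun v => ?_)
    simp
  exact (AlgHom.congr_fun this z).symm

theorem MatsRels.map {S R R' : Type} [CommRing S] [CommRing R] [Algebra S R] [CommRing R']
    [Algebra S R'] {relO relN : Set (FreeAlgebra S V)} {e : Fin m → Fin m → V}
    {D : Mats R V dO dA dN m} (h : MatsRels relO relN e D) (f : R →ₐ[S] R') :
    MatsRels relO relN e (D.map f) := by
  have hb : ∀ X : Matrix (Fin dO) (Fin dO) R, blockRep m (X.map f) = (blockRep m X).map f :=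
    fun X => by rw [blockRep, blockRep, Matrix.blockDiagonal_map _ f (map_zero f)]
  refine ⟨fun u v => ?_, fun u v => ?_, fun u v => ?_, fun v => ?_, fun v => ?_, fun v => ?_,
    ?_, ?_, fun z hz => ?_, fun z hz => ?_⟩ <;>
    simp only [Mats.map, hb, ← Matrix.map_mul]
  · rw [h.commO]
  · rw [h.commA]
  · rw [h.commN]
  · rw [h.ι_comm]
  · rw [h.π_comm]
  · rw [h.j_comm]
  · rw [h.π_j, Matrix.map_zero _ (map_zero f)]
  · rw [h.π_ι]; rfl
  · rw [lift_map, h.relO z hz, Matrix.map_zero _ (map_zero f)]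
  · rw [lift_map, h.relN z hz, Matrix.map_zero _ (map_zero f)]

variable {O : Type} [CommRing O] [IsDomain O] [IsDiscreteValuationRing O]
  [IsAdicComplete (maximalIdeal O) O] [Finite (ResidueField O)]

local notation "S[" r "]" => MvPowerSeries (Fin r) O
local notation "𝔐[" r "]" => IsLocalRing.maximalIdeal (MvPowerSeries (Fin r) O)

/-- The base of a hop: three actions of a finite module and the maps. -/
structure MatsBase (O : Type) [CommRing O] (dO dA dN m : ℕ) where
  T : Type
  [instAdd : AddCommGroup T]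
  [instModule : Module O T]
  [instFinite : Module.Finite O T]
  ΦO : T →ₗ[O] Matrix (Fin dO) (Fin dO) O
  ΦA : T →ₗ[O] Matrix (Fin dA) (Fin dA) O
  ΦN : T →ₗ[O] Matrix (Fin dN) (Fin dN) O
  ι : Matrix (Fin dA) (Fin dO × Fin m) O
  π : Matrix (Fin dO × Fin m) (Fin dA) O
  j : Matrix (Fin dA) (Fin dN) O

attribute [instance] MatsBase.instAdd MatsBase.instModule MatsBase.instFinite

/-- All entries congruent modulo `I`. -/
def Congr {R : Type} [CommRing R] (I : Ideal R) {α β : Type} (X Y : Matrix α β R) : Prop :=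
  ∀ i j, X i j - Y i j ∈ I

/-- Where the base value of each variable lies: a coset of a submodule. -/
structure BaseDom (B : MatsBase O dO dA dN m) (V : Type) where
  center : V → B.T
  dom : V → Submodule O B.T

/-- A system of depth `n` over the base. -/
def IsApprox {r : ℕ} (relO relN : Set (FreeAlgebra S[r] V)) (e : Fin m → Fin m → V)
    (B : MatsBase O dO dA dN m) (W : BaseDom B V) (n : ℕ) (D : Mats S[r] V dO dA dN m) : Prop :=
  MatsRels relO relN e (D.map (Ideal.Quotient.mkₐ S[r] (𝔐[r] ^ n))) ∧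
    Congr (maximalIdeal O ^ n) (D.ι.map constantCoeff) B.ι ∧
    Congr (maximalIdeal O ^ n) (D.π.map constantCoeff) B.π ∧
    Congr (maximalIdeal O ^ n) (D.j.map constantCoeff) B.j ∧
    ∀ v, ∃ s : B.T, s - W.center v ∈ W.dom v ∧
      Congr (maximalIdeal O ^ n) ((D.XO v).map constantCoeff) (B.ΦO s) ∧
      Congr (maximalIdeal O ^ n) ((D.XA v).map constantCoeff) (B.ΦA s) ∧
      Congr (maximalIdeal O ^ n) ((D.XN v).map constantCoeff) (B.ΦN s)

theorem eq_of_forall_map' {r : ℕ} {α β : Type} {A B : Matrix α β S[r]}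
    (h : ∀ n, A.map (Ideal.Quotient.mkₐ S[r] (𝔐[r] ^ n)) =
      B.map (Ideal.Quotient.mkₐ S[r] (𝔐[r] ^ n))) : A = B := by
  haveI := isHausdorff_mvPowerSeries (O := O) r
  ext1 i j
  rw [← sub_eq_zero]
  refine IsHausdorff.haus (I := 𝔐[r]) inferInstance _ fun n => ?_
  have := congrFun (congrFun (h n) i) j
  rw [Matrix.map_apply, Matrix.map_apply, Ideal.Quotient.mkₐ_eq_mk,
    Ideal.Quotient.mk_eq_mk_iff_sub_mem] at this
  simpa [SModEq.zero] using this

/-- **Patching.** -/
theorem exists_patched [Finite V] {r : ℕ} (relO relN : Set (FreeAlgebra S[r] V))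
    (e : Fin m → Fin m → V) (B : MatsBase O dO dA dN m) (W : BaseDom B V)
    (h : ∀ n, ∃ D : Mats S[r] V dO dA dN m, IsApprox relO relN e B W n D) :
    ∃ D : Mats S[r] V dO dA dN m, MatsRels relO relN e D ∧
      D.ι.map constantCoeff = B.ι ∧ D.π.map constantCoeff = B.π ∧ D.j.map constantCoeff = B.j ∧
      ∀ v, ∃ s : B.T, s - W.center v ∈ W.dom v ∧ (D.XO v).map constantCoeff = B.ΦO s ∧
        (D.XA v).map constantCoeff = B.ΦA s ∧ (D.XN v).map constantCoeff = B.ΦN s := by
  classical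
  haveI : IsPrecomplete 𝔐[r] S[r] := FLTAgent.Deform.isPrecomplete_mvPowerSeries
  -- all entries as one tuple
  let Idx : Type := ((V × Fin dO × Fin dO) ⊕ (V × Fin dA × Fin dA) ⊕ (V × Fin dN × Fin dN)) ⊕
    ((Fin dA × (Fin dO × Fin m)) ⊕ ((Fin dO × Fin m) × Fin dA) ⊕ (Fin dA × Fin dN))
  let mkD : (Idx → S[r]) → Mats S[r] V dO dA dN m := fun x =>
    ⟨fun v => Matrix.of fun i j => x (.inl (.inl (v, i, j))),
      fun v => Matrix.of fun i j => x (.inl (.inr (.inl (v, i, j)))),
      fun v => Matrix.of fun i j => x (.inl (.inr (.inr (v, i, j)))),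
      Matrix.of fun i j => x (.inr (.inl (i, j))), Matrix.of fun i j => x (.inr (.inr (.inl (i, j)))),
      Matrix.of fun i j => x (.inr (.inr (.inr (i, j))))⟩
  have hsurj : ∀ D, ∃ x, mkD x = D := fun D =>
    ⟨Sum.elim (Sum.elim (fun p => D.XO p.1 p.2.1 p.2.2) (Sum.elim (fun p => D.XA p.1 p.2.1 p.2.2)
      (fun p => D.XN p.1 p.2.1 p.2.2))) (Sum.elim (fun p => D.ι p.1 p.2)
      (Sum.elim (fun p => D.π p.1 p.2) (fun p => D.j p.1 p.2))), rfl⟩
  obtain ⟨x, hx⟩ : ∃ x : Idx → S[r], ∀ n, IsApprox relO relN e B W n (mkD x) := by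
    refine exists_forall_of_congruence 𝔐[r] (fun n => finite_quotient_pow r n)
      (fun n (x : Idx → S[r]) => IsApprox relO relN e B W n (mkD x)) ?_ ?_ (fun n => by
        obtain ⟨D, hD⟩ := h n
        obtain ⟨x, rfl⟩ := hsurj D
        exact ⟨x, hD⟩)
    · rintro n x ⟨h1, h2, h3, h4, h5⟩
      have hle : maximalIdeal O ^ (n + 1) ≤ maximalIdeal O ^ n := Ideal.pow_le_pow_right n.le_succ
      refine ⟨?_, fun i j => hle (h2 i j), fun i j => hle (h3 i j), fun i j => hle (h4 i j),
        fun v => ?_⟩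
      · exact h1.map (Ideal.Quotient.factorₐ S[r]
          (Ideal.pow_le_pow_right (I := 𝔐[r]) n.le_succ))
      · obtain ⟨s, s0, a, b, c⟩ := h5 v
        exact ⟨s, s0, fun i j => hle (a i j), fun i j => hle (b i j), fun i j => hle (c i j)⟩
    · intro n x x' hxx' hx
      have e1 : (mkD x').map (Ideal.Quotient.mkₐ S[r] (𝔐[r] ^ n)) =
          (mkD x).map (Ideal.Quotient.mkₐ S[r] (𝔐[r] ^ n)) := by
        have hk : ∀ k, Ideal.Quotient.mkₐ S[r] (𝔐[r] ^ n) (x' k) =
            Ideal.Quotient.mkₐ S[r] (𝔐[r] ^ n) (x k) := fun k =>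
          (Ideal.Quotient.mk_eq_mk_iff_sub_mem _ _).2 (by simpa using neg_mem (hxx' k))
        simp only [Mats.map, mkD, Mats.mk.injEq]
        refine ⟨?_, ?_, ?_, ?_, ?_, ?_⟩ <;>
          (funext; exact hk _)
      have hb : ∀ k (a : O), constantCoeff (x k) - a ∈ maximalIdeal O ^ n →
          constantCoeff (x' k) - a ∈ maximalIdeal O ^ n := fun k a ha => by
        have := sub_mem ha (constantCoeff_mem_pow (hxx' k))
        rwa [map_sub, sub_sub_sub_cancel_left] at this
      obtain ⟨h1, h2, h3, h4, h5⟩ := hx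
      refine ⟨by rw [e1]; exact h1, fun i j => hb _ _ (h2 i j), fun i j => hb _ _ (h3 i j),
        fun i j => hb _ _ (h4 i j), fun v => ?_⟩
      obtain ⟨s, s0, a, b, c⟩ := h5 v
      exact ⟨s, s0, fun i j => hb _ _ (a i j), fun i j => hb _ _ (b i j), fun i j => hb _ _ (c i j)⟩
  set D := mkD x
  have heqO : ∀ {α β : Type} (X : Matrix α β O) (Y : Matrix α β O),
      (∀ n, Congr (maximalIdeal O ^ n) X Y) → X = Y := fun X Y hXY => by
    ext i j
    rw [← sub_eq_zero]
    refine IsHausdorff.haus (I := maximalIdeal O) inferInstance _ fun n => ?_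
    simpa [SModEq.zero] using hXY n i j
  have hn := fun n => (hx n).1
  have hb : ∀ (n : ℕ) (X : Matrix (Fin dO) (Fin dO) S[r]),
      blockRep m (X.map (Ideal.Quotient.mkₐ S[r] (𝔐[r] ^ n))) =
        (blockRep m X).map (Ideal.Quotient.mkₐ S[r] (𝔐[r] ^ n)) :=
    fun n X => by rw [blockRep, blockRep, Matrix.blockDiagonal_map _ _ (map_zero _)]
  refine ⟨D, ⟨fun u v => eq_of_forall_map' fun n => ?_, fun u v => eq_of_forall_map' fun n => ?_,
    fun u v => eq_of_forall_map' fun n => ?_, fun v => eq_of_forall_map' fun n => ?_,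
    fun v => eq_of_forall_map' fun n => ?_, fun v => eq_of_forall_map' fun n => ?_,
    eq_of_forall_map' fun n => ?_, eq_of_forall_map' fun n => ?_,
    fun z hz => eq_of_forall_map' fun n => ?_, fun z hz => eq_of_forall_map' fun n => ?_⟩,
    heqO _ _ fun n => (hx n).2.1, heqO _ _ fun n => (hx n).2.2.1,
    heqO _ _ fun n => (hx n).2.2.2.1, fun v => ?_⟩
  · simpa only [Mats.map, Matrix.map_mul] using (hn n).commO u v
  · simpa only [Mats.map, Matrix.map_mul] using (hn n).commA u v
  · simpa only [Mats.map, Matrix.map_mul] using (hn n).commN u v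
  · simpa only [Mats.map, Matrix.map_mul, hb] using (hn n).ι_comm v
  · simpa only [Mats.map, Matrix.map_mul, hb] using (hn n).π_comm v
  · simpa only [Mats.map, Matrix.map_mul, hb] using (hn n).j_comm v
  · simpa only [Mats.map, Matrix.map_mul, Matrix.map_zero _ (map_zero _)] using (hn n).π_j
  · simpa only [Mats.map, Matrix.map_mul] using (hn n).π_ι.trans (by ext a b; rfl)
  · rw [← lift_map, Matrix.map_zero _ (map_zero _)]; exact (hn n).relO z hz
  · rw [← lift_map, Matrix.map_zero _ (map_zero _)]; exact (hn n).relN z hz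
  · let L : B.T →ₗ[O] Matrix (Fin dO) (Fin dO) O × Matrix (Fin dA) (Fin dA) O ×
        Matrix (Fin dN) (Fin dN) O := B.ΦO.prod (B.ΦA.prod B.ΦN)
    let M : Matrix (Fin dO) (Fin dO) O × Matrix (Fin dA) (Fin dA) O × Matrix (Fin dN) (Fin dN) O :=
      ((D.XO v).map constantCoeff, (D.XA v).map constantCoeff, (D.XN v).map constantCoeff)
    let L' := L.comp (W.dom v).subtype
    suffices hM : M - L (W.center v) ∈ LinearMap.range L' by
      obtain ⟨⟨t, ht⟩, hs⟩ := hM
      have hs' : L (W.center v + t) = M := by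
        rw [map_add, show L t = M - L (W.center v) from hs, add_sub_cancel]
      simp only [L, M, LinearMap.prod_apply, Prod.mk.injEq, Function.prod] at hs'
      exact ⟨W.center v + t, by rw [add_sub_cancel_left]; exact ht, hs'.1.symm, hs'.2.1.symm,
        hs'.2.2.symm⟩
    obtain ⟨ϖ, hϖ⟩ := IsDiscreteValuationRing.exists_irreducible O
    rw [← Submodule.Quotient.mk_eq_zero]
    refine IsHausdorff.haus (I := maximalIdeal O) inferInstance _ fun n => ?_
    rw [SModEq.zero]
    obtain ⟨s, hs0, a, b, c⟩ := (hx n).2.2.2.2 v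
    have hdiv : ∀ {α β : Type} [Fintype α] [Fintype β] (X Y : Matrix α β O),
        Congr (maximalIdeal O ^ n) X Y → ∃ Z, X - Y = ϖ ^ n • Z := fun X Y hXY => by
      have h1 : ∀ i j, ∃ z, X i j - Y i j = ϖ ^ n * z := fun i j => by
        have := hXY i j
        rw [hϖ.maximalIdeal_eq, Ideal.span_singleton_pow] at this
        exact Ideal.mem_span_singleton.1 this
      choose Z hZ using h1
      exact ⟨Matrix.of Z, Matrix.ext fun i j => hZ i j⟩
    obtain ⟨Z1, hZ1⟩ := hdiv _ _ a
    obtain ⟨Z2, hZ2⟩ := hdiv _ _ b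
    obtain ⟨Z3, hZ3⟩ := hdiv _ _ c
    have hML : M = L s + ϖ ^ n • (Z1, Z2, Z3) := by
      simp only [M, L, LinearMap.prod_apply, Function.prod, Prod.smul_mk, Prod.mk_add_mk,
        ← hZ1, ← hZ2, ← hZ3, add_sub_cancel]
    have hs1 : L s - L (W.center v) ∈ LinearMap.range L' :=
      ⟨⟨_, hs0⟩, (map_sub L s (W.center v))⟩
    rw [hML, show L s + ϖ ^ n • (Z1, Z2, Z3) - L (W.center v) =
        L s - L (W.center v) + ϖ ^ n • (Z1, Z2, Z3) by abel,
      Submodule.Quotient.mk_add, (Submodule.Quotient.mk_eq_zero _).2 hs1, zero_add,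
      Submodule.Quotient.mk_smul]
    refine Submodule.smul_mem_smul ?_ Submodule.mem_top
    rw [hϖ.maximalIdeal_eq]
    exact Ideal.pow_mem_pow (Ideal.mem_span_singleton_self ϖ) n

/-- Consequences of the base splitting. -/
theorem exists_split {r : ℕ} {ι : Matrix (Fin dA) (Fin dO × Fin m) S[r]}
    {π : Matrix (Fin dO × Fin m) (Fin dA) S[r]} {j : Matrix (Fin dA) (Fin dN) S[r]}
    (hπj : π * j = 0)
    (hπ : ∃ s : Matrix (Fin dA) (Fin dO × Fin m) O, π.map constantCoeff * s = 1)
    (hι : ∃ s : Matrix (Fin dO × Fin m) (Fin dA) O, s * ι.map constantCoeff = 1)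
    (hj : ∃ s : Matrix (Fin dN) (Fin dA) O, s * j.map constantCoeff = 1)
    (hexact : ∀ x : Fin dA → O, Matrix.mulVec (π.map constantCoeff) x = 0 →
      ∃ y, Matrix.mulVec (j.map constantCoeff) y = x) :
    (∃ s : Matrix (Fin dA) (Fin dO × Fin m) S[r], π * s = 1) ∧ (∃ s : Matrix (Fin dO × Fin m) (Fin dA) S[r], s * ι = 1) ∧
      ∀ x : Fin dA → S[r], Matrix.mulVec π x = 0 → ∃ y, Matrix.mulVec j y = x := by
  classical
  obtain ⟨s1, hs1⟩ := hπ
  obtain ⟨s2, hs2⟩ := hι
  obtain ⟨s3, hs3⟩ := hj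
  have hunit : ∀ {α : Type} [Fintype α] [DecidableEq α] (M : Matrix α α S[r]),
      M.map constantCoeff = 1 → IsUnit M := fun M hM => by
    rw [Matrix.isUnit_iff_isUnit_det, MvPowerSeries.isUnit_iff_constantCoeff, RingHom.map_det,
      RingHom.mapMatrix_apply, hM, Matrix.det_one]
    exact isUnit_one
  have hC : ∀ {α β : Type} (X : Matrix α β O),
      (X.map (MvPowerSeries.C (σ := Fin r) (R := O))).map constantCoeff = X := fun X => by
    ext i j; simp
  let c1 : Matrix (Fin dA) (Fin dO × Fin m) S[r] := s1.map MvPowerSeries.C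
  obtain ⟨u1, hu1⟩ := hunit (π * c1) (by rw [Matrix.map_mul (f := constantCoeff), hC, hs1])
  let sπ := c1 * Units.val u1⁻¹
  have hsπ : π * sπ = 1 := by
    rw [← Matrix.mul_assoc, ← hu1, Units.mul_inv]
  let c2 : Matrix (Fin dO × Fin m) (Fin dA) S[r] := s2.map MvPowerSeries.C
  obtain ⟨u2, hu2⟩ := hunit (c2 * ι : Matrix (Fin dO × Fin m) (Fin dO × Fin m) S[r])
    (by rw [Matrix.map_mul (f := constantCoeff), hC, hs2])
  refine ⟨⟨sπ, hsπ⟩, ⟨Units.val u2⁻¹ * c2, by
    rw [Matrix.mul_assoc, ← hu2, Units.inv_mul]⟩, ?_⟩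
  let sj : Matrix (Fin dN) (Fin dA) S[r] := s3.map MvPowerSeries.C
  let G : Matrix (Fin dA) (Fin dA) S[r] := sπ * π + j * (sj * (1 - sπ * π))
  have hπG : π * G = π := by
    rw [Matrix.mul_add, ← Matrix.mul_assoc, hsπ, Matrix.one_mul, ← Matrix.mul_assoc, hπj,
      Matrix.zero_mul, add_zero]
  have hG0 : G.map constantCoeff = 1 := by
    rw [← Matrix.toLin'.injective.eq_iff]
    refine LinearMap.ext fun x => ?_
    simp only [Matrix.toLin'_apply, Matrix.one_mulVec]
    set π0 := π.map constantCoeff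
    set σ0 := sπ.map constantCoeff
    have hπσ : π0 * σ0 = 1 := by
      rw [← Matrix.map_mul, hsπ, Matrix.map_one _ (map_zero _) (map_one _)]
    have hmap : G.map constantCoeff = σ0 * π0 +
        j.map constantCoeff * (s3 * (1 - σ0 * π0)) := by
      simp only [G, sj, Matrix.map_add _ (map_add _), Matrix.map_mul, hC,
        Matrix.map_sub _ (map_sub _), Matrix.map_one _ (map_zero _) (map_one _)]
      rfl
    obtain ⟨y, hy⟩ := hexact ((1 - σ0 * π0).mulVec x) (by
      rw [Matrix.mulVec_mulVec, Matrix.mul_sub, ← Matrix.mul_assoc, hπσ, Matrix.one_mul,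
        Matrix.mul_one, sub_self, Matrix.zero_mulVec])
    rw [hmap, Matrix.add_mulVec, ← Matrix.mulVec_mulVec x (j.map constantCoeff),
      ← Matrix.mulVec_mulVec x s3, ← hy, Matrix.mulVec_mulVec y s3, hs3, Matrix.one_mulVec, hy,
      Matrix.sub_mulVec, Matrix.one_mulVec, add_sub_cancel]
  obtain ⟨g, hg⟩ := hunit G hG0
  intro x hx
  have hπinv : π * (Units.val g⁻¹ : Matrix (Fin dA) (Fin dA) S[r]) = π := by
    conv_lhs => rw [← hπG, ← hg, Matrix.mul_assoc, Units.mul_inv, Matrix.mul_one]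
  set x' := (Units.val g⁻¹ : Matrix (Fin dA) (Fin dA) S[r]).mulVec x
  have hx' : π.mulVec x' = 0 := by rw [Matrix.mulVec_mulVec, hπinv, hx]
  refine ⟨sj.mulVec x', ?_⟩
  have h1 : x = G.mulVec x' := by
    rw [Matrix.mulVec_mulVec, ← hg, Units.mul_inv, Matrix.one_mulVec]
  rw [h1, Matrix.add_mulVec, ← Matrix.mulVec_mulVec x' sπ π, hx', Matrix.mulVec_zero, zero_add,
    ← Matrix.mulVec_mulVec x' j, ← Matrix.mulVec_mulVec x' sj, Matrix.sub_mulVec,
    Matrix.one_mulVec, ← Matrix.mulVec_mulVec x' sπ π, hx', Matrix.mulVec_zero, sub_zero]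

end FLTAgent.Lower.Lift
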