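import Mathlib
import Fermat.Agent.Lower.Lift.Gen
import Fermat.Agent.Lower.Lift.Patch
import Fermat.Agent.Lower.Lift.Relations
import Fermat.Agent.Lower.Lift.HopAlg

/-!
# The systems of matrices of a hop

`HopSetup` collects the fixed data of a hop (places, signs, bases, test elements); its variables
`HopVar` stand for coordinates, test traces, generation coefficients and the entries of `π ∘ ι`,
and `relOld`, `relNew` are the relations they satisfy on the old and on the new module.
`HopSetup.exists_approx`: a level of depth `n` gives such a system of matrices to depth `n`; the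
parameters `X i` are expressed in the generators by `maximalIdeal_le_span`.
-/

set_option autoImplicit false
set_option linter.style.haveILetI false
set_option linter.unusedSectionVars false

noncomputable section

namespace FLTAgent.Lower.Lift

open IsLocalRing (maximalIdeal ResidueField)
open MvPowerSeries (constantCoeff)
open FLTAgent.Lower
open scoped TensorProduct

local notation "ℚ̄" => AlgebraicClosure ℚ
local notation "Γℚ" => (AlgebraicClosure ℚ ≃ₐ[ℚ] AlgebraicClosure ℚ)

variable {O : Type} [CommRing O] [IsDomain O] [IsDiscreteValuationRing O]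
  [IsAdicComplete (maximalIdeal O) O] [Finite (ResidueField O)] [CharZero O]
  {p N q : ℕ} {ρbar : ResidualGaloisRep (ResidueField O)}

local notation "S[" r "]" => MvPowerSeries (Fin r) O

/-- The fixed data of a hop. -/
structure HopSetup {locOld locNew : LocalType} (H : Hop locOld locNew p N q ρbar) where
  hp : p.Prime
  hp2 : Odd p
  hpO : (p : O) ∈ maximalIdeal O
  ϖ : O
  hϖ : Irreducible ϖ
  h : O
  hh : 2 * h = 1
  Smin : Finset ℕ
  hres : Residual p Smin ρbar
  hSmin : Smin ⊆ unipPrimes p (N * q)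
  L : Finset ℕ
  P : Places p L
  hSL : unipPrimes p (N * q) \ Smin ⊆ L
  K : ℕ
  ls : Fin K → ℕ
  hls : Set.range ls = ↑(unipPrimes p (N * q) \ Smin)
  ε : ℕ → ℤ
  hε : ∀ l, ε l * ε l = 1
  htr : ∀ k, LinearMap.trace (ResidueField O) ρbar.V (ρbar.ρ (P.φ (ls k))) =
    (ε (ls k) : ResidueField O) * ((ls k : ResidueField O) + 1)
  sc : ℕ → Bool
  hsc : ∀ k, (sc (ls k) = true ↔ IsScalarAt ρbar (P.A (ls k)))
  b : ℕ → Module.Basis (Fin 2) H.all.T H.all.ρ.V
  hcomp : ∀ k, sc (ls k) = false → matHom H.all.ρ (b (ls k)) (P.φ (ls k)) 0 0 = 0 ∧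
    matHom H.all.ρ (b (ls k)) (P.φ (ls k)) 1 0 = 1
  qidx : Option (Fin K)
  hqidx : ∀ k₀ ∈ qidx, ls k₀ = q ∧ q ≠ p ∧ q ∉ levelPrimes p N
  /-- finitely many elements whose traces are recorded -/
  G : ℕ
  τ : Fin G → Γℚ

variable {locOld locNew : LocalType} {H : Hop locOld locNew p N q ρbar}

/-- The variables of the system of a hop. -/
inductive HopVar (K g r m G : ℕ) : Type
  | coord (k : Fin K) (i : Fin 7)
  | test (j : Fin g)
  | cUnif (i : Fin r)
  | cTest (i : Fin r) (j : Fin g)
  | cCoord (i : Fin r) (k : Fin K) (s : Fin 6)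
  | kerOld (i : Fin r)
  | kerNew (i : Fin r)
  | ent (a b : Fin m)
  | cof
  | tr (t : Fin G)
  deriving Fintype

namespace HopSetup

variable (c : HopSetup H) (g r : ℕ)

/-- The variables. -/
abbrev Var : Type := HopVar c.K g r H.m c.G

/-- The base of the system. -/
def base (_c : HopSetup H) : MatsBase O H.old.d H.all.d H.new.d H.m where
  T := H.all.T
  ΦO := (H.old.Φ.comp H.resOld).toLinearMap
  ΦA := H.all.Φ.toLinearMap
  ΦN := (H.new.Φ.comp H.resNew).toLinearMap
  ι := H.ι
  π := H.π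
  j := H.j

/-- The coordinates in the base. -/
def baseCoords (k : Fin c.K) : Coords H.all.T :=
  coordsAt c.P c.h c.ε H.all.ρ (c.b (c.ls k)) (c.ls k)

/-- The prescribed base cosets. -/
def dom : BaseDom c.base (c.Var g r) where
  center
    | .coord k i => (c.baseCoords k).get i
    | .tr t => H.all.ρ.trace (c.τ t)
    | _ => (0 : H.all.T)
  dom
    | .coord _ _ => ⊥
    | .tr _ => ⊥
    | .test _ => (maximalIdeal H.all.T).restrictScalars O
    | _ => ⊤

/-- The coordinates as polynomials. -/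
def xP (k : Fin c.K) : Coords (MvPolynomial (c.Var g r) S[r]) :=
  Coords.ofFun fun i => MvPolynomial.X (.coord k i)

/-- The constants at a place. -/
def pc (k : Fin c.K) : PlaceConsts S[r] := ⟨c.sc (c.ls k), c.ls k, (c.ε (c.ls k) : S[r])⟩

/-- `a_l ^ 2 - (l + 1) ^ 2` as a polynomial. -/
def specP (k : Fin c.K) : MvPolynomial (c.Var g r) S[r] :=
  (c.xP g r k).w * ((c.xP g r k).w +
    algebraMap S[r] _ (2 * (c.pc r k).ε * (((c.pc r k).l : S[r]) + 1)))

/-- The expression of the `i`-th auxiliary element in the generators. -/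
def genExpr (i : Fin r) : MvPolynomial (c.Var g r) S[r] :=
  MvPolynomial.X (.cUnif i) * algebraMap S[r] _ (MvPowerSeries.C c.ϖ) +
    (∑ j, MvPolynomial.X (.cTest i j) * MvPolynomial.X (.test j)) +
    (∑ k, ∑ s, MvPolynomial.X (.cCoord i k s) *
      (c.xP g r k).get (genIdx (c.sc (c.ls k)) s)) +
    MvPolynomial.X (.kerOld i) + MvPolynomial.X (.kerNew i)

/-- The relations at the places. -/
def relPlaces : Set (MvPolynomial (c.Var g r) S[r]) :=
  ⋃ k, {z | z ∈ relList (c.pc r k).sc (c.pc r k).l (algebraMap S[r] _ (c.pc r k).ε)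
    (algebraMap S[r] _ (MvPowerSeries.C c.h)) (c.xP g r k)}

/-- The relations on the old module. -/
def relOld : Set (MvPolynomial (c.Var g r) S[r]) :=
  c.relPlaces g r ∪ (Set.range fun i => MvPolynomial.X (HopVar.kerOld i)) ∪
    (Set.range fun i => algebraMap S[r] _ (MvPowerSeries.X i) ^ 2 -
      algebraMap S[r] _ (1 + MvPowerSeries.X i) * c.genExpr g r i) ∪
    {z | ∃ k₀ ∈ c.qidx, z = (c.xP g r k₀).a ∨ z = (c.xP g r k₀).b ∨ z = (c.xP g r k₀).c ∨
      (∃ i, z = MvPolynomial.X (HopVar.kerNew i)) ∨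
      z = (Matrix.of fun a b => MvPolynomial.X (HopVar.ent a b) :
          Matrix (Fin H.m) (Fin H.m) (MvPolynomial (c.Var g r) S[r])).det -
        MvPolynomial.X HopVar.cof * c.specP g r k₀}

/-- The relations on the new module. -/
def relNew : Set (MvPolynomial (c.Var g r) S[r]) :=
  c.relPlaces g r ∪ (Set.range fun i => MvPolynomial.X (HopVar.kerNew i)) ∪
    {z | ∃ k₀ ∈ c.qidx, z = c.specP g r k₀}

end HopSetup

/-- The kernel allowed in the generation of the maximal ideal at a level. -/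
def HopSetup.levelKer (c : HopSetup H) {n r : ℕ} {Qv : Fin r → ℕ} (L : HopLevel H n Qv) :
    Ideal L.all.T :=
  RingHom.ker L.resOld ⊔ if c.qidx.isSome then ⊥ else RingHom.ker L.resNew

/-- The two actions on a level, with coefficients extended. -/
def extAct {r d : ℕ} {T : Type} [CommRing T] [Algebra O T] {I : Ideal S[r]}
    (Ψ : T →ₐ[O] Matrix (Fin d) (Fin d) (S[r] ⧸ I)) :
    S[r] ⊗[O] T →ₐ[S[r]] Matrix (Fin d) (Fin d) (S[r] ⧸ I) :=
  Algebra.TensorProduct.lift (Algebra.ofId _ _) Ψ fun s _ => Algebra.commutes s _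

theorem extAct_one_tmul {r d : ℕ} {T : Type} [CommRing T] [Algebra O T] {I : Ideal S[r]}
    (Ψ : T →ₐ[O] Matrix (Fin d) (Fin d) (S[r] ⧸ I)) (t : T) : extAct Ψ (1 ⊗ₜ t) = Ψ t := by
  rw [extAct]
  erw [Algebra.TensorProduct.lift_tmul]
  rw [map_one, one_mul]

/-- An equivalence after base change matches the traces. -/
theorem trace_comp_of_isEquiv {T B : Type} [CommRing T] [IsLocalRing T] [CommRing B]
    [IsLocalRing B] [Algebra O T] [Algebra O B] (f : T →ₐ[O] B) (hf : IsLocalHom (f : T →+* B))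
    {ρ : GaloisRepAdic T} {ρ' : GaloisRepAdic B}
    (he : (ρ.baseChangeAlong (f : T →+* B) hf).IsEquiv ρ') (τ : Γℚ) :
    f (ρ.trace τ) = ρ'.trace τ := by
  rw [← FLTAgent.Deform.trace_eq_of_isEquiv he τ, trace_baseChangeAlong]
  rfl

/-- A map onto a trace-generated ring matching traces is surjective. -/
theorem surjective_of_trace {T B : Type} [CommRing T] [IsLocalRing T] [CommRing B]
    [IsLocalRing B] [Algebra O T] [Algebra O B] (f : T →ₐ[O] B) {ρ : GaloisRepAdic T}
    {ρ' : GaloisRepAdic B} (htr : ∀ τ : Γℚ, f (ρ.trace τ) = ρ'.trace τ)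
    (hadj : Algebra.adjoin O (Set.range ρ'.trace) = ⊤) : Function.Surjective f := by
  rw [← AlgHom.range_eq_top, eq_top_iff, ← hadj]
  refine Algebra.adjoin_le ?_
  rintro _ ⟨τ, rfl⟩
  exact ⟨ρ.trace τ, htr τ⟩

theorem entries_congr {r n : ℕ} {I : Ideal S[r]} (hI : I ≤ maximalIdeal S[r] ^ n) {f x : S[r]}
    {z : S[r] ⧸ I} (hf : Ideal.Quotient.mk I f = z)
    (hx : Ideal.Quotient.mk (maximalIdeal S[r] ^ n) x = Ideal.Quotient.factor hI z) :
    constantCoeff x - constantCoeff f ∈ maximalIdeal O ^ n := by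
  rw [← hf, Ideal.Quotient.factor_mk, Ideal.Quotient.mk_eq_mk_iff_sub_mem] at hx
  rw [← map_sub]
  exact constantCoeff_mem_pow hx

set_option maxHeartbeats 2000000 in
-- one long assembly of the relations at a level
/-- **Level to system.** -/
theorem HopSetup.exists_approx (c : HopSetup H) {n g r : ℕ} {Qv : Fin r → ℕ}
    (haux : IsAuxSet p (N * q) n ρbar Qv) (L : HopLevel H n Qv) {locD : LocalType}
    (σ : Fin g → Γℚ)
    (hdet : Detects locD p c.Smin (unipPrimes p (N * q) \ c.Smin) ρbar c.P.A Qv σ)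
    (hloc : ∀ (f : L.all.T →+* DualNumber (ResidueField O)) (hfl : IsLocalHom f),
      Function.Surjective f →
      (∀ a, f (algebraMap O L.all.T a) = TrivSqZeroExt.inl (IsLocalRing.residue O a)) →
      (∀ t ∈ c.levelKer L, f t = 0) → locD.cond (L.all.ρ.baseChangeAlong f hfl)) :
    ∃ D : Mats S[r] (c.Var g r) H.old.d H.all.d H.new.d H.m,
      IsApprox (abHom S[r] (c.Var g r) ⁻¹' c.relOld g r) (abHom S[r] (c.Var g r) ⁻¹' c.relNew g r)
        HopVar.ent c.base (c.dom g r) n D := by
  classical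
  haveI : IsNoetherianRing L.all.T := IsNoetherianRing.of_finite O L.all.T
  haveI : Finite (ResidueField L.all.T) :=
    Finite.of_surjective (ResidueField.map (algebraMap O L.all.T)) fun z => by
      obtain ⟨a, rfl⟩ := L.all.residue_surjective z
      exact ⟨IsLocalRing.residue O a, by simp [ResidueField.map_residue]⟩
  set Saux := unipPrimes p (N * q) \ c.Smin with hSaux
  have hmem : ∀ {l}, l ∈ Saux → l.Prime ∧ l ≠ p ∧ ρbar.IsUnramifiedAt l := fun {l} hl => by
    obtain ⟨h1, h2⟩ := Finset.mem_sdiff.1 hl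
    obtain ⟨h3, h4⟩ := Finset.mem_erase.1 h1
    exact ⟨Nat.prime_of_mem_primeFactors h4, h3,
      c.hres.unramified l (Nat.prime_of_mem_primeFactors h4) h2 h3⟩
  have hlsmem : ∀ k, c.ls k ∈ Saux := fun k =>
    Finset.mem_coe.1 (by rw [← c.hls]; exact ⟨k, rfl⟩)
  have hexls : ∀ {l}, l ∈ Saux → ∃ k, c.ls k = l := fun {l} hl => by
    have : l ∈ Set.range c.ls := by rw [c.hls]; exact hl
    exact this
  -- compatibility with the base
  have htrA := trace_comp_of_isEquiv L.all.π L.all.π_isLocalHom L.all.π_isEquiv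
  have htrO := trace_comp_of_isEquiv L.resOld L.resOld_isLocalHom L.resOld_isEquiv
  have htrN := trace_comp_of_isEquiv L.resNew L.resNew_isLocalHom L.resNew_isEquiv
  have hπO : ∀ t, L.old.π (L.resOld t) = H.resOld (L.all.π t) := by
    have : L.old.π.comp L.resOld = H.resOld.comp L.all.π :=
      AlgHom.ext_of_adjoin_eq_top L.all.adjoin_trace (by
        rintro _ ⟨τ, rfl⟩
        simp only [AlgHom.comp_apply, htrO, htrA,
          trace_comp_of_isEquiv L.old.π L.old.π_isLocalHom L.old.π_isEquiv,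
          trace_comp_of_isEquiv H.resOld H.resOld_isLocalHom H.resOld_isEquiv])
    exact AlgHom.congr_fun this
  have hπN : ∀ t, L.new.π (L.resNew t) = H.resNew (L.all.π t) := by
    have : L.new.π.comp L.resNew = H.resNew.comp L.all.π :=
      AlgHom.ext_of_adjoin_eq_top L.all.adjoin_trace (by
        rintro _ ⟨τ, rfl⟩
        simp only [AlgHom.comp_apply, htrN, htrA,
          trace_comp_of_isEquiv L.new.π L.new.π_isLocalHom L.new.π_isEquiv,
          trace_comp_of_isEquiv H.resNew H.resNew_isLocalHom H.resNew_isEquiv])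
    exact AlgHom.congr_fun this
  have hsA : Function.Surjective (L.all.π : L.all.T →+* H.all.T) :=
    surjective_of_trace L.all.π htrA H.all.adjoin_trace
  have hsO : Function.Surjective L.resOld := surjective_of_trace L.resOld htrO L.old.adjoin_trace
  -- bases at the places
  have hbex : ∀ l, ∃ b : Module.Basis (Fin 2) L.all.T L.all.ρ.V,
      (∀ τ, (L.all.π : L.all.T →+* H.all.T).mapMatrix (matHom L.all.ρ b τ) =
        matHom H.all.ρ (c.b l) τ) ∧
      (l ∈ Saux → c.sc l = false →
        matHom L.all.ρ b (c.P.φ l) 0 0 = 0 ∧ matHom L.all.ρ b (c.P.φ l) 1 0 = 1) := fun l => by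
    obtain ⟨b, hb⟩ := exists_lift_basis_mat _ L.all.π_isLocalHom hsA L.all.ρ H.all.ρ
      L.all.π_isEquiv (c.b l)
    by_cases hl : l ∈ Saux ∧ c.sc l = false
    · obtain ⟨k, rfl⟩ := hexls hl.1
      obtain ⟨h0, h1⟩ := c.hcomp k hl.2
      have e := hb (c.P.φ (c.ls k))
      obtain ⟨b', hb', hb''⟩ := exists_companion (L.all.π : L.all.T →+* H.all.T)
        L.all.π_isLocalHom L.all.ρ b (c.P.φ (c.ls k)) (by rw [← h0, ← e]; rfl)
        (by rw [← h1, ← e]; rfl)
      exact ⟨b', fun τ => (hb' τ).trans (hb τ), fun _ _ => hb''⟩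
    · exact ⟨b, hb, fun h1 h2 => absurd ⟨h1, h2⟩ hl⟩
  choose b hbπ hbcomp using hbex
  -- tests
  have haex : ∀ j, ∃ a : O, L.all.ρ.trace (σ j) - algebraMap O L.all.T a ∈ maximalIdeal L.all.T :=
    fun j => by
      obtain ⟨a, ha⟩ := L.all.residue_surjective (IsLocalRing.residue L.all.T (L.all.ρ.trace (σ j)))
      exact ⟨a, Ideal.Quotient.eq.1 ha.symm⟩
  choose a ha using haex
  have hK : c.levelKer L ≤ maximalIdeal L.all.T := sup_le
    (IsLocalRing.le_maximalIdeal (RingHom.ker_ne_top _)) (by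
      split_ifs
      · exact bot_le
      · exact IsLocalRing.le_maximalIdeal (RingHom.ker_ne_top _))
  obtain ⟨-, hQv⟩ := haux
  have hunip : ∀ l ∈ c.Smin ∪ Saux, L.all.ρ.IsUnipotentOnInertiaAt l := fun l hl => by
    refine L.all.cond.unipotent l ?_
    rcases Finset.mem_union.1 hl with hl | hl
    · exact c.hSmin hl
    · exact (Finset.mem_sdiff.1 hl).1
  have hspan := maximalIdeal_le_span c.hp c.hp2 c.hpO c.hϖ c.hh c.P c.hSL (fun l hl => hmem hl)
    c.ε c.hε (fun l hl => by obtain ⟨k, rfl⟩ := hexls hl; exact c.htr k) c.sc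
    (fun l hl => by obtain ⟨k, rfl⟩ := hexls hl; exact (c.hsc k).1)
    L.all.residue_surjective L.all.ρ L.all.residual_isEquiv Qv L.all.cond.det
    (fun l hl hlS => L.all.cond.unramified l hl fun hmem' => hlS (by
      simp only [Finset.mem_union, levelPrimes, Finset.mem_insert] at hmem'
      rw [ramSet, Finset.mem_insert]
      rcases hmem' with (rfl | h) | h
      · exact Or.inl rfl
      · by_cases hlp : l = p
        · exact Or.inl hlp
        · refine Or.inr (Finset.mem_union_left _ ?_)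
          by_cases hlS' : l ∈ c.Smin
          · exact Finset.mem_union_left _ hlS'
          · exact Finset.mem_union_right _
              (Finset.mem_sdiff.2 ⟨Finset.mem_erase.2 ⟨hlp, h⟩, hlS'⟩)
      · exact Or.inr (Finset.mem_union_right _ h)))
    hunip L.all.adjoin_trace b (fun l hl h => hbcomp l hl h) σ hdet a ha (c.levelKer L) hK hloc
  let x : ∀ k, Coords L.all.T := fun k =>
    coordsAt c.P c.h c.ε L.all.ρ (b (c.ls k)) (c.ls k)
  let gv : Unit ⊕ Fin g ⊕ Fin c.K × Fin 6 → L.all.T := Sum.elim (fun _ => algebraMap O L.all.T c.ϖ)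
    (Sum.elim (fun j => L.all.ρ.trace (σ j) - algebraMap O L.all.T (a j))
      (fun ks => (x ks.1).get (genIdx (c.sc (c.ls ks.1)) ks.2)))
  have hspan' : maximalIdeal L.all.T ≤ Ideal.span (Set.range gv) ⊔ c.levelKer L := by
    refine hspan.trans (sup_le_sup_right (Ideal.span_mono ?_) _)
    rintro t (rfl | ⟨j, rfl⟩ | ht)
    · exact ⟨.inl (), rfl⟩
    · exact ⟨.inr (.inl j), rfl⟩
    · obtain ⟨l, hl, hv⟩ := Set.mem_iUnion₂.1 ht
      obtain ⟨k, rfl⟩ := hexls hl
      obtain ⟨i, rfl⟩ := (mem_gens_iff _ _ _).1 hv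
      exact ⟨.inr (.inr (k, i)), rfl⟩
  -- the auxiliary inertia elements
  choose σi hσi hσieq using L.old.tw_rel
  have hdec : ∀ i, ∃ (β : Unit ⊕ Fin g ⊕ Fin c.K × Fin 6 → L.all.T) (kO kN : L.all.T),
      kO ∈ RingHom.ker L.resOld ∧ (c.qidx.isSome → kN = 0) ∧
      (c.qidx.isSome = false → kN ∈ RingHom.ker L.resNew) ∧
      L.all.ρ.trace (σi i) - 2 = ∑ v, β v * gv v + kO + kN := fun i => by
    have hm : L.all.ρ.trace (σi i) - 2 ∈ maximalIdeal L.all.T := by
      obtain ⟨A, hA, hτ⟩ := hσi i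
      have hunrQ : ρbar.IsUnramifiedAt (Qv i) := by
        obtain ⟨h1, h2⟩ := hQv i
        refine c.hres.unramified _ h1.prime (fun h => h2 ?_) fun h => h2 (Finset.mem_insert.2 (Or.inl h))
        exact Finset.mem_insert_of_mem (Finset.mem_erase.1 (c.hSmin h)).2
      rw [← IsLocalRing.residue_eq_zero_iff, map_sub, residue_trace L.all.residual_isEquiv,
        hunrQ A hA _ hτ, LinearMap.trace_one, ρbar.finrank_eq]
      simp [map_ofNat]
    obtain ⟨y, hy, k0, hk0, hsum⟩ := Submodule.mem_sup.1 (hspan' hm)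
    obtain ⟨β, rfl⟩ := (Submodule.mem_span_range_iff_exists_fun _).1 hy
    obtain ⟨kO, hkO, kN, hkN, rfl⟩ := Submodule.mem_sup.1 hk0
    refine ⟨β, kO, kN, hkO, fun h => ?_, fun h => ?_, ?_⟩
    · rwa [if_pos h, Submodule.mem_bot] at hkN
    · rwa [if_neg (by rw [h]; simp)] at hkN
    · rw [← hsum]
      simp only [smul_eq_mul, add_assoc]
  choose β kO kN hkO hkN0 hkN hdec using hdec
  choose el hel using fun a b => hsO (L.e a b)
  have hcof : ∃ cf : L.all.T, ∀ k₀ ∈ c.qidx, L.e.det = L.resOld cf *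
      (L.old.ρ.trace (c.P.φ q) ^ 2 - ((q : L.old.T) + 1) ^ 2) := by
    rcases c.qidx.eq_none_or_eq_some with hnone | ⟨k₀, hk₀⟩
    · exact ⟨0, fun k₀ hk => by simp [hnone] at hk⟩
    · obtain ⟨hkq, hqp, -⟩ := c.hqidx k₀ hk₀
      have hqL : q ∈ c.L := by
        have := c.hSL (hlsmem k₀)
        rwa [hkq] at this
      obtain ⟨cq, hcq⟩ := L.det_e hqp (c.P.A q) (c.P.φ q) (c.P.liesOver q hqL) (c.P.frob q hqL)
      obtain ⟨cf, rfl⟩ := hsO cq
      exact ⟨cf, fun _ _ => hcq.trans (mul_comm _ _)⟩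
  obtain ⟨cf, hcf⟩ := hcof
  let val : c.Var g r → L.all.T
    | .coord k i => (x k).get i
    | .test j => L.all.ρ.trace (σ j) - algebraMap O L.all.T (a j)
    | .cUnif i => β i (.inl ())
    | .cTest i j => β i (.inr (.inl j))
    | .cCoord i k s => β i (.inr (.inr (k, s)))
    | .kerOld i => kO i
    | .kerNew i => kN i
    | .ent a b => el a b
    | .cof => cf
    | .tr t => L.all.ρ.trace (c.τ t)
  -- modulo the power of the maximal ideal
  let m := maximalIdeal S[r]
  have hlev : levelIdeal p n r O ≤ m ^ n :=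
    (levelIdeal_le_pow c.hpO n r).trans (Ideal.pow_le_pow_right n.le_succ)
  let F : (S[r] ⧸ levelIdeal p n r O) →ₐ[S[r]] (S[r] ⧸ m ^ n) := Ideal.Quotient.factorₐ S[r] hlev
  let FM : ∀ d : ℕ, Matrix (Fin d) (Fin d) (S[r] ⧸ levelIdeal p n r O) →ₐ[O]
      Matrix (Fin d) (Fin d) (S[r] ⧸ m ^ n) := fun d => (F.restrictScalars O).mapMatrix
  let mk := Ideal.Quotient.mkₐ S[r] (m ^ n)
  let aO := extAct ((FM H.old.d).comp (L.old.Ψ.comp L.resOld))
  let aA := extAct ((FM H.all.d).comp L.all.Ψ)
  let aN := extAct ((FM H.new.d).comp (L.new.Ψ.comp L.resNew))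
  let η : L.all.T →+* S[r] ⊗[O] L.all.T := Algebra.TensorProduct.includeRight.toRingHom
  let θ : MvPolynomial (c.Var g r) S[r] →ₐ[S[r]] S[r] ⊗[O] L.all.T :=
    MvPolynomial.aeval fun v => η (val v)
  have hθX : ∀ v, θ (MvPolynomial.X v) = η (val v) := fun v => by simp [θ]
  have hθC : ∀ s : S[r], θ (algebraMap S[r] _ s) = algebraMap S[r] _ s := fun s => θ.commutes s
  have haO : ∀ t, aO (η t) = (L.old.Ψ (L.resOld t)).map F := fun t => extAct_one_tmul _ t
  have haA : ∀ t, aA (η t) = (L.all.Ψ t).map F := fun t => extAct_one_tmul _ t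
  have haN : ∀ t, aN (η t) = (L.new.Ψ (L.resNew t)).map F := fun t => extAct_one_tmul _ t
  have hηC : ∀ z : O, η (algebraMap O L.all.T z) = algebraMap S[r] _ (MvPowerSeries.C z) := fun z => by
    have h1 : η (algebraMap O L.all.T z) = algebraMap O (S[r] ⊗[O] L.all.T) z :=
      Algebra.TensorProduct.includeRight.commutes z
    rw [h1, IsScalarTower.algebraMap_apply O S[r] (S[r] ⊗[O] L.all.T)]
    rfl
  have hx : ∀ k, (c.xP g r k).map θ = (x k).map η := fun k => by
    simp only [HopSetup.xP, Coords.map_ofFun, Function.comp_def, hθX]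
    rfl
  have hget : ∀ k i, θ ((c.xP g r k).get i) = η ((x k).get i) := fun k i => by
    rw [HopSetup.xP, Coords.get_ofFun, hθX]
  have hrel : ∀ z ∈ c.relPlaces g r, θ z = 0 := by
    intro z hz
    obtain ⟨k, hk⟩ := Set.mem_iUnion.1 hz
    obtain ⟨hl, hlp, hunr⟩ := hmem (hlsmem k)
    have hR := coordRels_place c.P (b (c.ls k)) c.hp (c.hSL (hlsmem k)) ⟨hl, hlp⟩
      L.all.cond.det
      (entries_sub_one_inertia L.all.residual_isEquiv (b (c.ls k)) hunr
        (c.P.liesOver _ (c.hSL (hlsmem k))))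
      (Or.inl (hunip _ (Finset.mem_union_right _ (hlsmem k))))
      (h := algebraMap O L.all.T c.h) (ε := (c.ε (c.ls k) : L.all.T))
      (by rw [← map_ofNat (algebraMap O L.all.T) 2, ← map_mul, c.hh, map_one])
      (by rw [← Int.cast_mul, c.hε, Int.cast_one]) (c.sc (c.ls k)) (hbcomp _ (hlsmem k))
    have h1 := coordRels_iff.1 (CoordRels.map η hR) (θ z) ?_
    · exact h1
    · have h2 := List.mem_map_of_mem (f := θ) hk
      rw [show List.map θ = List.map θ.toRingHom from rfl, ← relList_map] at h2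
      change θ z ∈ relList _ _ (θ (algebraMap S[r] _ _)) (θ (algebraMap S[r] _ _))
        ((c.xP g r k).map θ) at h2
      rw [hx, hθC, hθC, ← hηC, HopSetup.pc] at h2
      dsimp only at h2
      rw [map_intCast (algebraMap S[r] (S[r] ⊗[O] L.all.T))] at h2
      rw [map_intCast η]
      exact h2
  have hspec : ∀ k, θ (c.specP g r k) = η (L.all.ρ.trace (c.P.φ (c.ls k)) ^ 2 -
      ((c.ls k : L.all.T) + 1) ^ 2) := fun k => by
    have hw : θ (c.xP g r k).w = η (L.all.ρ.trace (c.P.φ (c.ls k)) -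
        (c.ε (c.ls k) : L.all.T) * ((c.ls k : L.all.T) + 1)) := by
      rw [← coordsAt_w c.P c.h c.ε L.all.ρ (b (c.ls k))]
      exact congrArg Coords.w (hx k)
    have he : (c.ε (c.ls k) : L.all.T) * (c.ε (c.ls k) : L.all.T) = 1 := by
      rw [← Int.cast_mul, c.hε, Int.cast_one]
    rw [HopSetup.specP, map_mul, map_add, hθC, hw, HopSetup.pc]
    dsimp only
    have h2 : algebraMap S[r] (S[r] ⊗[O] L.all.T) (2 * (c.ε (c.ls k) : S[r]) * ((c.ls k : S[r]) + 1))
        = η (2 * (c.ε (c.ls k) : L.all.T) * ((c.ls k : L.all.T) + 1)) := by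
      simp only [map_mul, map_add, map_intCast, map_natCast, map_ofNat, map_one]
    rw [h2, ← map_add, ← map_mul]
    congr 1
    linear_combination (-((c.ls k : L.all.T) + 1) ^ 2) * he
  -- the matrices
  let XO := fun v => aO (η (val v))
  let XA := fun v => aA (η (val v))
  let XN := fun v => aN (η (val v))
  have hsurj := Ideal.Quotient.mk_surjective (I := m ^ n)
  let lft : (S[r] ⧸ m ^ n) → S[r] := Function.surjInv hsurj
  have hlft : ∀ z, mk (lft z) = z := Function.surjInv_eq hsurj
  let D : Mats S[r] (c.Var g r) H.old.d H.all.d H.new.d H.m :=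
    ⟨fun v => (XO v).map lft, fun v => (XA v).map lft, fun v => (XN v).map lft,
      (L.ι.map F).map lft, (L.π.map F).map lft, (L.j.map F).map lft⟩
  have hmap : ∀ {α β : Type} (M : Matrix α β (S[r] ⧸ m ^ n)), (M.map lft).map mk = M :=
    fun M => by ext i j; exact hlft _
  have hDmap : D.map mk = ⟨XO, XA, XN, L.ι.map F, L.π.map F, L.j.map F⟩ := by
    simp only [Mats.map, D, hmap]
  have hbd : ∀ {d : ℕ} (M : Matrix (Fin d) (Fin d) (S[r] ⧸ levelIdeal p n r O)),
      blockRep H.m (M.map F) =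
        (Matrix.blockDiagonal fun _ : Fin H.m => M).map F := fun M => by
    rw [blockRep, Matrix.blockDiagonal_map _ F (map_zero F)]
  have hcommA : ∀ {d : ℕ} (φ : S[r] ⊗[O] L.all.T →ₐ[S[r]] Matrix (Fin d) (Fin d) (S[r] ⧸ m ^ n))
      (u v : c.Var g r), φ (η (val u)) * φ (η (val v)) = φ (η (val v)) * φ (η (val u)) :=
    fun φ u v => (map_mul φ _ _).symm.trans ((congrArg φ (mul_comm _ _)).trans (map_mul φ _ _))
  have hliftO : ∀ z, FreeAlgebra.lift S[r] XO z = aO (θ (abHom S[r] (c.Var g r) z)) := fun z => by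
    rw [← AlgHom.comp_apply, ← lift_eq_comp]
    simp only [AlgHom.comp_apply, hθX]
    rfl
  have hliftN : ∀ z, FreeAlgebra.lift S[r] XN z = aN (θ (abHom S[r] (c.Var g r) z)) := fun z => by
    rw [← AlgHom.comp_apply, ← lift_eq_comp]
    simp only [AlgHom.comp_apply, hθX]
    rfl
  have hzero : ∀ {d : ℕ}, (0 : Matrix (Fin d) (Fin d) (S[r] ⧸ levelIdeal p n r O)).map F = 0 :=
    Matrix.map_zero _ (map_zero F)
  have hrO : ∀ z ∈ c.relOld g r, aO (θ z) = 0 := by
    rintro z (((hz | ⟨i, rfl⟩) | ⟨i, rfl⟩) | ⟨k₀, hk₀, hz⟩)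
    · rw [hrel z hz, map_zero]
    · rw [hθX, haO, RingHom.mem_ker.1 (hkO i), map_zero, hzero]
    · have hgen : θ (c.genExpr g r i) = η (L.all.ρ.trace (σi i) - 2) := by
        rw [hdec i]
        simp only [HopSetup.genExpr, map_add, map_sum, map_mul, hθX, hθC, hget, Fintype.sum_sum_type,
          Fintype.sum_prod_type, ← hηC, Finset.univ_unique, Finset.sum_singleton, add_assoc]
        rfl
      rw [map_sub, map_mul, map_pow, hθC, hθC, hgen, map_sub, map_mul, map_pow, AlgHom.commutes,
        AlgHom.commutes, haO, map_sub L.resOld, htrO, map_ofNat, sub_eq_zero]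
      have h0 := congrArg (fun M : Matrix (Fin H.old.d) (Fin H.old.d) (S[r] ⧸ levelIdeal p n r O) =>
        M.map F) (hσieq i)
      simp only [Matrix.map_mul, Matrix.scalar_apply, Matrix.diagonal_map (map_zero F)] at h0
      rw [← map_pow, Matrix.algebraMap_eq_diagonal, Matrix.algebraMap_eq_diagonal]
      refine (Eq.trans ?_ h0.symm).trans ?_
      · rfl
      · refine (Matrix.scalar_commute (F ((Ideal.Quotient.mk (levelIdeal p n r O))
          (1 + MvPowerSeries.X i))) (fun r' => Commute.all _ r') _).eq.symm.trans ?_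
        rfl
    · obtain ⟨hkq, hqp, hqN⟩ := c.hqidx k₀ hk₀
      obtain ⟨hl, hlp, hunr⟩ := hmem (hlsmem k₀)
      have hqQ : q ∉ levelPrimes p N ∪ Finset.univ.image Qv := by
        simp only [Finset.mem_union, Finset.mem_image, Finset.mem_univ, true_and, not_or, not_exists]
        refine ⟨hqN, fun i hi => (hQv i).2 ?_⟩
        rw [hi]
        exact Finset.mem_insert_of_mem (Finset.mem_erase.1 (Finset.mem_sdiff.1
          (show q ∈ Saux by have := hlsmem k₀; rwa [hkq] at this)).1).2
      have hqL : c.ls k₀ ∈ c.L := c.hSL (hlsmem k₀)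
      have hinert : ∀ i j, L.resOld (matHom L.all.ρ (b (c.ls k₀)) (c.P.σ (c.ls k₀)) i j) =
          (1 : Matrix (Fin 2) (Fin 2) L.old.T) i j := fun i j => by
        obtain ⟨bO, hbO⟩ := exists_basis_of_isEquiv _ L.resOld_isLocalHom L.all.ρ L.old.ρ
          L.resOld_isEquiv (b (c.ls k₀))
        have h1 := L.old.cond.unramified q (by rw [hkq] at hl; exact hl) hqQ (c.P.A (c.ls k₀))
          (by convert c.P.liesOver _ hqL using 1; exact hkq.symm) _ (c.P.mem _ hqL)
        have h2 := congrFun (congrFun (hbO (c.P.σ (c.ls k₀))) i) j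
        rw [matHom_eq_smul_one (c := 1) (by rw [h1, one_smul]), one_smul] at h2
        exact h2.symm
      rcases hz with rfl | rfl | rfl | ⟨i, rfl⟩ | rfl
      · rw [show θ (c.xP g r k₀).a = η (x k₀).a from congrArg Coords.a (hx k₀), haO]
        simp only [x, coordsAt, coordsOf, Matrix.sub_apply, map_sub, hinert, Matrix.one_apply_eq,
          map_one, sub_self, map_zero, hzero]
      · rw [show θ (c.xP g r k₀).b = η (x k₀).b from congrArg Coords.b (hx k₀), haO]
        simp [x, coordsAt, coordsOf, hinert, hzero]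
      · rw [show θ (c.xP g r k₀).c = η (x k₀).c from congrArg Coords.c (hx k₀), haO]
        simp [x, coordsAt, coordsOf, hinert, hzero]
      · rw [hθX, show val (.kerNew i) = 0 from hkN0 i (by rw [hk₀]; rfl), map_zero, map_zero]
      · have hdete : θ (Matrix.of fun a b => MvPolynomial.X (HopVar.ent a b) :
            Matrix (Fin H.m) (Fin H.m) (MvPolynomial (c.Var g r) S[r])).det =
            η (Matrix.of el).det := by
          rw [AlgHom.map_det, RingHom.map_det]
          congr 1
          ext a b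
          simp [hθX]
          rfl
        rw [map_sub, map_mul, hdete, hθX, hspec, ← map_mul, ← map_sub, haO]
        have : L.resOld ((Matrix.of el).det -
            val .cof * (L.all.ρ.trace (c.P.φ (c.ls k₀)) ^ 2 - ((c.ls k₀ : L.all.T) + 1) ^ 2)) = 0 := by
          rw [map_sub, map_mul, map_sub, map_pow, map_pow, htrO, map_add, map_natCast, map_one,
            hkq, AlgHom.map_det, sub_eq_zero]
          refine Eq.trans ?_ (hcf k₀ hk₀)
          congr 1
          ext a b
          exact hel a b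
        rw [this, map_zero, hzero]
  have hrN : ∀ z ∈ c.relNew g r, aN (θ z) = 0 := by
    rintro z ((hz | ⟨i, rfl⟩) | ⟨k₀, hk₀, rfl⟩)
    · rw [hrel z hz, map_zero]
    · rw [hθX, haN]
      change (L.new.Ψ (L.resNew (kN i))).map F = 0
      cases hq : c.qidx.isSome
      · rw [RingHom.mem_ker.1 (hkN i hq), map_zero, hzero]
      · rw [hkN0 i hq, map_zero, map_zero, hzero]
    · obtain ⟨hkq, hqp, -⟩ := c.hqidx k₀ hk₀
      have hqL : q ∈ c.L := by
        have := c.hSL (hlsmem k₀)
        rwa [hkq] at this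
      rw [hspec, haN, hkq, map_sub, map_pow, htrN, map_pow, map_add, map_natCast, map_one,
        L.special hqp (c.P.A q) (c.P.φ q) (c.P.liesOver q hqL) (c.P.frob q hqL), sub_self,
        map_zero, hzero]
  refine ⟨D, ?_, ?_, ?_, ?_, ?_⟩
  · show MatsRels _ _ _ (D.map mk)
    rw [hDmap]
    refine ⟨hcommA aO, hcommA aA, hcommA aN, fun v => ?_, fun v => ?_, fun v => ?_, ?_, ?_,
      fun z hz => ?_, fun z hz => ?_⟩
    · simp only [XA, XO, haO, haA, hbd]
      rw [← Matrix.map_mul, ← Matrix.map_mul, L.ι_comm]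
    · simp only [XA, XO, haO, haA, hbd]
      rw [← Matrix.map_mul, ← Matrix.map_mul, L.π_comm]
    · simp only [XA, XN, haA, haN]
      rw [← Matrix.map_mul, ← Matrix.map_mul, L.j_comm]
    · change L.π.map F * L.j.map F = 0
      rw [← Matrix.map_mul, L.π_j, Matrix.map_zero _ (map_zero F)]
    · change L.π.map F * L.ι.map F = _
      rw [← Matrix.map_mul, L.π_ι]
      ext u w
      simp only [Matrix.map_apply, Matrix.of_apply, XO, haO]
      rw [show L.resOld (val (.ent u.2 w.2)) = L.e u.2 w.2 from hel _ _]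
    · rw [hliftO]; exact hrO _ hz
    · rw [hliftN]; exact hrN _ hz
  · intro i j
    obtain ⟨f, hf⟩ := Ideal.Quotient.mk_surjective (L.ι i j)
    show constantCoeff (lft (F (L.ι i j))) - H.ι i j ∈ _
    rw [← L.ι_eq i j f hf]
    exact entries_congr hlev hf (hlft _)
  · intro i j
    obtain ⟨f, hf⟩ := Ideal.Quotient.mk_surjective (L.π i j)
    show constantCoeff (lft (F (L.π i j))) - H.π i j ∈ _
    rw [← L.π_eq i j f hf]
    exact entries_congr hlev hf (hlft _)
  · intro i j
    obtain ⟨f, hf⟩ := Ideal.Quotient.mk_surjective (L.j i j)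
    show constantCoeff (lft (F (L.j i j))) - H.j i j ∈ _
    rw [← L.j_eq i j f hf]
    exact entries_congr hlev hf (hlft _)
  · intro v
    refine ⟨(L.all.π (val v) : H.all.T), ?_, fun i j => ?_, fun i j => ?_, fun i j => ?_⟩
    · cases v
      case coord k i =>
        change L.all.π ((x k).get i) - (c.baseCoords k).get i ∈ (⊥ : Submodule O H.all.T)
        rw [Submodule.mem_bot, sub_eq_zero]
        have h1 : (x k).map L.all.π = c.baseCoords k := by
          have e1 := hbπ (c.ls k) (c.P.σ (c.ls k))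
          have e2 := hbπ (c.ls k) (c.P.φ (c.ls k))
          simp only [x, coordsAt, HopSetup.baseCoords, ← e1, ← e2]
          rw [show (⇑L.all.π : L.all.T → H.all.T) = ⇑(L.all.π : L.all.T →+* H.all.T) from rfl,
            ← coordsOf_map (L.all.π : L.all.T →+* H.all.T), map_intCast]
          congr 1
          exact L.all.π.commutes c.h
        rw [← h1]
        fin_cases i <;> rfl
      case tr t =>
        change L.all.π (L.all.ρ.trace (c.τ t)) - H.all.ρ.trace (c.τ t) ∈ (⊥ : Submodule O H.all.T)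
        rw [Submodule.mem_bot, htrA, sub_self]
      case test j =>
        change L.all.π (val (.test j)) - 0 ∈ maximalIdeal H.all.T
        rw [sub_zero]
        haveI := L.all.π_isLocalHom
        exact map_nonunit (L.all.π : L.all.T →+* H.all.T) _ (ha j)
      all_goals exact Submodule.mem_top
    · obtain ⟨f, hf⟩ := Ideal.Quotient.mk_surjective (L.old.Ψ (L.resOld (val v)) i j)
      show constantCoeff (lft (XO v i j)) - (H.old.Φ (H.resOld (L.all.π (val v)))) i j ∈ _
      rw [← hπO, ← L.old.base_eq _ i j f hf]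
      refine entries_congr hlev hf ((hlft _).trans ?_)
      simp only [XO, haO]
      rfl
    · obtain ⟨f, hf⟩ := Ideal.Quotient.mk_surjective (L.all.Ψ (val v) i j)
      show constantCoeff (lft (XA v i j)) - (H.all.Φ (L.all.π (val v))) i j ∈ _
      rw [← L.all.base_eq _ i j f hf]
      refine entries_congr hlev hf ((hlft _).trans ?_)
      rw [show XA v = (L.all.Ψ (val v)).map F from extAct_one_tmul _ _]
      rfl
    · obtain ⟨f, hf⟩ := Ideal.Quotient.mk_surjective (L.new.Ψ (L.resNew (val v)) i j)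
      show constantCoeff (lft (XN v i j)) - (H.new.Φ (H.resNew (L.all.π (val v)))) i j ∈ _
      rw [← hπN, ← L.new.base_eq _ i j f hf]
      refine entries_congr hlev hf ((hlft _).trans ?_)
      simp only [XN, haN]
      rfl

end FLTAgent.Lower.Lift
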