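import Fermat.Agent.Lower.Lift.Points
import Fermat.Agent.Lower.Lift.Final.Level
import Fermat.Agent.Lower.Lift.Iface.TWPrimes

/-!
# The last step of the lifting theorem

`exists_point_of_special`: at a level containing all the bad primes, a lift `ρ` of `ρbar` of the
type of the level, ramified and special with signs `ε` at the residually unramified primes of the
level, is a point of the Hecke ring `B` as soon as some point of `B` has these signs. Frames at
the places turn `ρ` into a `Final.Target`; the levels at Taylor-Wiles primes give approximations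
at every depth (`Final.exists_approx_level`), and `Final.exists_point_of_approx` patches them.
-/

set_option autoImplicit false
set_option linter.style.haveILetI false

noncomputable section

namespace FLTAgent.Lower.Lift

open IsLocalRing (ResidueField maximalIdeal)
open FLTAgent.Lower
open Final

variable {O : Type} [CommRing O] [IsDomain O] [IsDiscreteValuationRing O]
  [IsAdicComplete (maximalIdeal O) O] [Finite (ResidueField O)] [CharZero O]
  {p : ℕ} [Fact p.Prime]

/-- Every lift which is special with the signs of some point, and of the type of the level, is a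
point. -/
theorem exists_point_of_special (hp2 : p ≠ 2) (hp : (p : O) ∈ maximalIdeal O)
    {ρbar : ResidualGaloisRep (ResidueField O)} {Smin : Finset ℕ} (hres : Residual p Smin ρbar)
    {N : ℕ} [NeZero N] (hSmin : Smin ⊆ unipPrimes p N)
    {loc : LocalType} (hloc : loc = flatType p ∨ loc = ordType p)
    (B : HeckeMod loc p (levelPrimes p N) (unipPrimes p N) ρbar) (hB : IsModular N B)
    (hlev : ∀ (n r : ℕ) (Qv : Fin r → ℕ), IsAuxSet p N n ρbar Qv → Nonempty (HeckeLevel B n Qv))
    (P : Places p (unipPrimes p N \ Smin)) (ε : ℕ → ℤ) (hε : ∀ l, ε l = 1 ∨ ε l = -1)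
    (hpt : HasSignedPoint B P (unipPrimes p N \ Smin) ε)
    (ρ : GaloisRepAdic O) (hρres : ρ.residual.IsEquiv ρbar)
    (hρ : Cond loc p (unipPrimes p N) (levelPrimes p N) ρ)
    (hρε : ∀ l ∈ unipPrimes p N \ Smin, ρ.trace (P.φ l) = (ε l : O) * ((l : O) + 1))
    (hρram : ∀ l ∈ unipPrimes p N \ Smin, ¬ ρ.IsUnramifiedAt l) :
    ∃ f : B.T →ₐ[O] O, ∀ σ, f (B.ρ.trace σ) = ρ.trace σ := by
  classical
  have hpp : p.Prime := Fact.out
  have hodd : Odd p := hpp.odd_of_ne_two hp2
  have hmem : ∀ {l}, l ∈ unipPrimes p N \ Smin →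
      l.Prime ∧ l ≠ p ∧ l ∣ N ∧ ρbar.IsUnramifiedAt l := fun {l} hl => by
    obtain ⟨h1, h2⟩ := Finset.mem_sdiff.1 hl
    obtain ⟨h3, h4⟩ := Finset.mem_erase.1 h1
    exact ⟨Nat.prime_of_mem_primeFactors h4, h3, Nat.dvd_of_mem_primeFactors h4,
      hres.unramified l (Nat.prime_of_mem_primeFactors h4) h2 h3⟩
  have hεε : ∀ l, ε l * ε l = 1 := fun l => by rcases hε l with h | h <;> simp [h]
  let c₁ := Module.finBasisOfFinrankEq (ResidueField O) ρbar.V ρbar.finrank_eq
  obtain ⟨b₁, hb₁⟩ := exists_basis_residual_self ρ hρres c₁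
  have htrbar : ∀ l ∈ unipPrimes p N \ Smin,
      LinearMap.trace (ResidueField O) ρbar.V (ρbar.ρ (P.φ l)) =
        (ε l : ResidueField O) * ((l : ResidueField O) + 1) := fun l hl => by
    have h1 := congrArg Matrix.trace (hb₁ (P.φ l))
    rw [RingHom.mapMatrix_apply, ← AddMonoidHom.map_trace, trace_matHom, hρε l hl] at h1
    rw [LinearMap.trace_eq_matrix_trace (ResidueField O) c₁]
    simp only [map_mul, map_add, map_intCast, map_natCast, map_one] at h1
    refine Eq.trans ?_ h1.symm
    exact congrArg Matrix.trace (Matrix.ext fun i j => LinearMap.toMatrix_apply _ _ _ i j)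
  -- bases at the places
  have hbex : ∀ l, ∃ b : Module.Basis (Fin 2) O ρ.V, ∀ (hl : l ∈ unipPrimes p N \ Smin),
      (∀ τ ∈ (P.A l).inertiaSubgroupIn ℚ, ∀ i j,
        (matHom ρ b τ - 1) i j ∈ maximalIdeal O) ∧
      (¬ IsScalarAt ρbar (P.A l) →
        matHom ρ b (P.φ l) 0 0 = 0 ∧ matHom ρ b (P.φ l) 1 0 = 1) ∧
      (IsScalarAt ρbar (P.A l) →
        (l : O) - 1 ∈ maximalIdeal O ∧
          ∀ i j, (matHom ρ b (P.φ l) - (ε l : O) • 1) i j ∈ maximalIdeal O) := by
    intro l
    by_cases hl : l ∈ unipPrimes p N \ Smin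
    swap
    · exact ⟨b₁, fun h => absurd h hl⟩
    obtain ⟨hlp, hlne, -, hunr⟩ := hmem hl
    have hinert : ∀ (c : Module.Basis (Fin 2) (ResidueField O) ρbar.V)
        (b : Module.Basis (Fin 2) O ρ.V),
        (∀ τ, (IsLocalRing.residue O).mapMatrix (matHom ρ b τ) = resMat ρbar c τ) →
        ∀ τ ∈ (P.A l).inertiaSubgroupIn ℚ, ∀ i j,
          (matHom ρ b τ - 1) i j ∈ maximalIdeal O := fun c b hb τ hτ i j => by
      have h := hb τ
      rw [resMat_of_scalar c (c := 1) (by rw [hunr (P.A l) (P.liesOver l hl) τ hτ, one_smul]),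
        one_smul] at h
      rw [← IsLocalRing.residue_eq_zero_iff, Matrix.sub_apply, map_sub, sub_eq_zero,
        map_one_apply (IsLocalRing.residue O)]
      exact congrFun (congrFun h i) j
    by_cases hsc : IsScalarAt ρbar (P.A l)
    · obtain ⟨c, hc⟩ := hsc (P.φ l) (P.frob l hl).mem_decompositionSubgroup
      have h := hb₁ (P.φ l)
      rw [resMat_of_scalar c₁ hc] at h
      have hd := congrArg Matrix.det h
      rw [← RingHom.map_det, det_matHom,
        det_frobenius hpp hlp hlne (P.liesOver l hl) hρ.det (P.frob l hl), map_natCast,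
        Matrix.det_smul, Matrix.det_one, mul_one, Fintype.card_fin] at hd
      have ht := htrbar l hl
      rw [hc, map_smul, LinearMap.trace_one, ρbar.finrank_eq, smul_eq_mul, Nat.cast_ofNat] at ht
      have he : (ε l : ResidueField O) * (ε l : ResidueField O) = 1 := by
        rw [← Int.cast_mul, hεε, Int.cast_one]
      have hl1 : (l : ResidueField O) = 1 := by
        have h0 : ((l : ResidueField O) - 1) ^ 2 = 0 := by
          linear_combination (-((l : ResidueField O) + 1) ^ 2) * he -
            (c * 2 + (ε l : ResidueField O) * ((l : ResidueField O) + 1)) * ht - 4 * hd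
        exact sub_eq_zero.1 (eq_zero_of_pow_eq_zero h0)
      have hce : c = (ε l : ResidueField O) := by
        refine mul_right_cancel₀ (isUnit_two_residue hodd hp) ?_
        rw [ht, hl1]
        ring
      refine ⟨b₁, fun _ => ⟨hinert c₁ b₁ hb₁, fun hn => absurd hsc hn, fun _ => ⟨?_, fun i j => ?_⟩⟩⟩
      · rw [← IsLocalRing.residue_eq_zero_iff, map_sub, map_natCast, map_one, hl1, sub_self]
      · rw [← IsLocalRing.residue_eq_zero_iff, Matrix.sub_apply, map_sub, sub_eq_zero,
          Matrix.smul_apply, smul_eq_mul, map_mul, map_intCast,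
          map_one_apply (IsLocalRing.residue O), ← hce]
        exact congrFun (congrFun h i) j
    · obtain ⟨c, hc0, hc1⟩ := exists_companion_residual P hl hunr hsc
      obtain ⟨b, hb⟩ := exists_basis_residual_self ρ hρres c
      obtain ⟨b', hb', hcomp⟩ := exists_companion (IsLocalRing.residue O)
        (IsLocalHom.of_surjective _ IsLocalRing.residue_surjective) ρ b (P.φ l)
        ((congrFun (congrFun (hb (P.φ l)) 0) 0).trans hc0)
        ((congrFun (congrFun (hb (P.φ l)) 1) 0).trans hc1)
      exact ⟨b', fun _ => ⟨hinert c b' fun τ => (hb' τ).trans (hb τ), fun _ => hcomp,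
        fun h => absurd h hsc⟩⟩
  choose bρ hbρ using hbex
  -- the target
  let T : Target O ↥(unipPrimes p N \ Smin) :=
    { sc := fun k => decide (IsScalarAt ρbar (P.A k))
      l := fun k => k
      e := fun k => ε k
      W := fun k c => cond c (matHom ρ (bρ k) (P.φ k)) (matHom ρ (bρ k) (P.σ k) - 1)
      sq := fun k => hεε k
      unit := fun k => isUnit_natCast_of_ne hpp (hmem k.2).1 (hmem k.2).2.1 hp
      spec := fun k => by
        obtain ⟨hlp, hlne, -, -⟩ := hmem k.2
        have hU : ρ.IsUnipotentOnInertiaAt k := hρ.unipotent k (Finset.mem_sdiff.1 k.2).1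
        have hd : (matHom ρ (bρ k) (P.σ k)).det = 1 := by
          rw [det_matHom, det_inertia hpp hlp hlne (P.liesOver k k.2) hρ.det (P.mem k k.2)]
        have ht : (matHom ρ (bρ k) (P.σ k)).trace = 2 := by
          rw [trace_matHom,
            trace_inertia_eq_two (Or.inl hU) (P.liesOver k k.2) (P.mem k k.2)]
        exact ⟨trace_sub_one_eq_zero ht, sub_one_sq hd ht,
          tame_linear hd ht (tame_relation (P.tame k k.2) hρ.det.1 (hbρ k k.2).1),
          (trace_matHom ρ (bρ k) (P.φ k)).trans (hρε k k.2),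
          (det_matHom ρ (bρ k) (P.φ k)).trans
            (det_frobenius hpp hlp hlne (P.liesOver k k.2) hρ.det (P.frob k k.2))⟩
      ne := fun k h0 => hρram k k.2 fun A hA τ hτ => by
        have h1 : ∀ i j, (matHom ρ (bρ k) τ - 1) i j ∈ (⊥ : Ideal O) :=
          inertia_mem_of_mem P (bρ k) k.2 (hmem k.2).1 hp (hbρ k k.2).1 ⊥
            (fun i j => Ideal.mem_bot.2 (congrFun (congrFun h0 i) j)) hA hτ (bρ k)
        have h2 : matHom ρ (bρ k) τ = 1 :=
          Matrix.ext fun i j => sub_eq_zero.1 (Ideal.mem_bot.1 (h1 i j))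
        rw [eq_smul_one_of_matHom (c := 1) (h2.trans (one_smul O _).symm), one_smul]
      memN := fun k i j => (hbρ k k.2).1 _ (P.mem k k.2) i j
      memF := fun k h => ((hbρ k k.2).2.2 (of_decide_eq_true h)).2
      one := fun k h => ((hbρ k k.2).2.2 (of_decide_eq_true h)).1
      comp := fun k h => (hbρ k k.2).2.1 (of_decide_eq_false h) }
  -- the signed point
  obtain ⟨D, i1, i2, i3, i4, f, hf⟩ := hpt
  haveI : IsNoetherianRing B.T := IsNoetherianRing.of_finite O B.T
  haveI : Finite (ResidueField B.T) :=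
    FLTAgent.Deform.finite_residueField B.residue_surjective inferInstance
  let bB := Module.finBasisOfFinrankEq B.T B.ρ.V B.ρ.finrank_eq
  have hfE : ∀ k : ↥(unipPrimes p N \ Smin),
      ∃ i j, f ((matHom B.ρ bB (P.σ k) - 1) i j) ≠ 0 := by
    intro k
    obtain ⟨hlp, hlne, hlN, hunr⟩ := hmem k.2
    by_contra hall
    simp only [not_exists, not_not] at hall
    let fK : B.T →+* FractionRing D := (algebraMap D (FractionRing D)).comp f.toRingHom
    refine hB.not_special (FractionRing D) fK k hlp hlN hlne (fun A hA τ hτ b => ?_)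
      (P.A k) (P.φ k) (P.liesOver k k.2) (P.frob k k.2) ?_
    · have h1 : ∀ i j, (matHom B.ρ b τ - 1) i j ∈ RingHom.ker fK :=
        inertia_mem_of_mem P bB k.2 hlp B.cond.det.1
          (entries_sub_one_inertia B.residual_isEquiv bB hunr (P.liesOver k k.2))
          (RingHom.ker fK) (fun i j => by
            rw [RingHom.mem_ker]
            show algebraMap D (FractionRing D) (f _) = 0
            rw [hall, map_zero]) hA hτ b
      ext i j
      have h2 := h1 i j
      rw [RingHom.mem_ker, Matrix.sub_apply, map_sub, sub_eq_zero, map_one_apply fK] at h2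
      exact h2
    · show algebraMap D (FractionRing D) (f _) ^ 2 = _
      rw [hf k k.2, map_mul, map_add, map_intCast, map_natCast, map_one, mul_pow, sq, ← Int.cast_mul,
        hεε, Int.cast_one, one_mul]
  -- Taylor–Wiles primes
  haveI : CharP (ResidueField O) p := (CharP.charP_iff_prime_eq_zero hpp).2 (by
    rw [← map_natCast (IsLocalRing.residue O), IsLocalRing.residue_eq_zero_iff]
    exact hp)
  obtain ⟨r, gf, go, gb, hgf, hgo, -, hQ⟩ := exists_twPrimes_three hp2 Smin
    (unipPrimes p N \ Smin)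
    (fun l hl => ⟨(hmem hl).1, (hmem hl).2.1, (Finset.mem_sdiff.1 hl).2⟩) ρbar hres P.A P.liesOver
    (levelPrimes p N)
  obtain ⟨g, hg, hdet⟩ : ∃ g, g + ∑ l ∈ unipPrimes p N \ Smin, placeWeight ρbar (P.A l) ≤ r ∧
      ∀ n, ∃ Qv : Fin r → ℕ, IsAuxSet p N n ρbar Qv ∧ ∃ σ : Fin g → _,
        Detects loc p Smin (unipPrimes p N \ Smin) ρbar P.A Qv σ := by
    rcases hloc with rfl | rfl
    · exact ⟨gf, hgf, fun n => (hQ n).imp fun Qv h =>
        ⟨⟨h.1, fun i => ⟨(h.2.1 i).1, (h.2.1 i).2.1⟩⟩, h.2.2.1⟩⟩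
    · exact ⟨go, hgo, fun n => (hQ n).imp fun Qv h =>
        ⟨⟨h.1, fun i => ⟨(h.2.1 i).1, (h.2.1 i).2.1⟩⟩, h.2.2.2.1⟩⟩
  refine exists_point_of_approx (g := g) (r := r) T B.Φ B.Φ_injective B.ρ.trace B.adjoin_trace
    ρ.trace (fun k => B.ρ.trace (P.φ k)) (fun k i j => (matHom B.ρ bB (P.σ k) - 1) i j) f
    (fun k => hf k k.2) hfE (fun k => (hmem k.2).1.one_lt) ?_ fun n => ?_
  · refine le_of_eq_of_le (congrArg (g + ·) ?_) hg
    rw [← Finset.sum_coe_sort (unipPrimes p N \ Smin)]
    refine Finset.sum_congr rfl fun k _ => ?_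
    simp [Target.weight, placeWeight, T]
  · obtain ⟨Qv, haux, σt, hσ⟩ := hdet n
    obtain ⟨L⟩ := hlev n r Qv haux
    exact exists_approx_level hp2 hp hres hSmin hloc B P ε hεε ρ hρres hρ htrbar T (fun _ => rfl)
      (fun _ => rfl) (fun k h => of_decide_eq_true h) (fun k => bρ k) (fun k => ⟨rfl, rfl⟩) bB
      haux L σt hσ

end FLTAgent.Lower.Lift
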