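import Fermat.Agent.Lower.Lift.LevelCond
import Fermat.Agent.Lower.Levels.OrdLevel
import Fermat.Agent.Lower.Lift.HopP.NewOrd

/-!
# Strict ordinarity in the second case at `p`

When `p` divides the squarefree level `N` and `ρbar` has no system of level prime to `p`, the
representations of the lattices of level `N` (`ord_of_noSystem`) and of the auxiliary levels
(`ord_aux_of_noSystem`) are strictly ordinary at `p`: the degeneracy map to level prime to `p`
kills their classes (`corU_eq_zero_of_noSystem`), so `isStrictOrdinaryAt_of_corU` applies.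
-/

set_option autoImplicit false
set_option linter.unusedSectionVars false
set_option linter.style.haveILetI false

noncomputable section

open CongruenceSubgroup
open scoped MatrixGroups Matrix

namespace FLTAgent.Lower.Lift

open IsLocalRing (maximalIdeal ResidueField residue)
open FLTAgent.Lower FLTAgent.Lower.Levels

variable {O : Type} [CommRing O] [IsDomain O] [IsDiscreteValuationRing O]
  [IsAdicComplete (maximalIdeal O) O] [Finite (ResidueField O)] [CharZero O]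
  {p : ℕ} [Fact p.Prime] {ρbar : ResidualGaloisRep (ResidueField O)}
  {R : Type} [CommRing R] [Algebra O R] [Nontrivial R] [Module.Finite O R] [Module.Free O R]
  [IsLocalRing R] [IsNoetherianRing R] [IsAdicComplete (maximalIdeal R) R]
  {σ : R →+* ResidueField O} {S : Finset ℕ} {d : ℕ} [NeZero d] {N : ℕ} [NeZero N]

theorem isRaise_div {L : ℕ} (hN : Squarefree N) (hpN : p ∣ N) (hpL : ¬ p ∣ L) :
    HopTW.IsRaise (N / p * L) (N * L) p := by
  refine ⟨Fact.out, fun h => ?_, ?_⟩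
  · rcases (Fact.out : p.Prime).dvd_mul.mp h with h | h
    · exact (Fact.out : p.Prime).not_isUnit (hN p (Nat.mul_dvd_of_dvd_div hpN h))
    · exact hpL h
  · rw [mul_right_comm, Nat.div_mul_cancel hpN]

theorem isRaise_div' (hN : Squarefree N) (hpN : p ∣ N) : HopTW.IsRaise (N / p) N p :=
  ⟨Fact.out, fun h => (Fact.out : p.Prime).not_isUnit (hN p (Nat.mul_dvd_of_dvd_div hpN h)),
    Nat.div_mul_cancel hpN⟩

/-- At the level itself. -/
theorem ord_of_noSystem (hp : (p : O) ∈ maximalIdeal O) (h : ResHyp p S ρbar)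
    (hno : NoSystemPrimeTo p ρbar) (hN : Squarefree N) (hpN : p ∣ N)
    (hNS : ∀ l : ℕ, l.Prime → l ∣ N → l ∈ S) (hσ : Function.Surjective σ) {S' : Finset ℕ}
    (X : HeckeLattice p N S' ρbar R d)
    (hX : ∀ x, ∃ z ∈ h1Part (1 : (ZMod N)ˣ →* Rˣ) (awPr S) σ (fun l => frobTrace ρbar l.1) R,
      h1Triv N R R z = (X.emb x : Additive (Gamma0 N) →+ R))
    {f : ℤ_[p] →+* O} {ρ : GaloisRepAdic X.T} (hρ : X.IsRep f ρ) : ρ.IsStrictOrdinaryAt p := by
  have hr := isRaise_div' (p := p) hN hpN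
  haveI : NeZero (N / p) := ⟨fun h0 => hr.not_dvd (h0 ▸ dvd_zero p)⟩
  let Qv : Fin 0 → ℕ := Fin.elim0
  have hQ : AuxHyp p 0 S ρbar Qv := ⟨fun i => i.elim0, fun i => i.elim0, fun i => i.elim0⟩
  have hθ : StabEig ρbar (∏ i, Qv i) fun l : AwayPrimes S => frobTrace ρbar l.1 :=
    ⟨fun _ _ => rfl, fun l hl => absurd (Nat.dvd_one.mp (by simpa using hl)) l.1.2.ne_one⟩
  refine isStrictOrdinaryAt_of_corU h.ne_two hp h.absIrr h.det hr X hρ fun x => ?_
  obtain ⟨z, hz, hzx⟩ := hX x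
  exact ⟨z, hzx, corU_eq_zero_of_noSystem (N := N / p) h hno hQ hθ
    (hN.squarefree_of_dvd (Nat.div_dvd_of_dvd hpN)) hr.not_dvd
    (fun l hl hd => hNS l hl (hd.trans (Nat.div_dvd_of_dvd hpN))) (by simp) hr hσ hz⟩

/-- At an auxiliary level. -/
theorem ord_aux_of_noSystem (hp : (p : O) ∈ maximalIdeal O) (h : ResHyp p S ρbar)
    (hno : NoSystemPrimeTo p ρbar) (hN : Squarefree N) (hpN : p ∣ N)
    (hNS : ∀ l : ℕ, l.Prime → l ∣ N → l ∈ S) (hσ : Function.Surjective σ) {n r : ℕ}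
    {Qv : Fin r → ℕ} (hQ : AuxHyp p n S ρbar Qv) [NeZero (∏ i, Qv i)]
    [NeZero (N * (∏ i, Qv i) * ∏ i, Qv i)] {θ' : AwayPrimes S → ResidueField O}
    (hθ : StabEig ρbar (∏ i, Qv i) θ') {η : (ZMod (∏ i, Qv i))ˣ →* Rˣ}
    (hη : ∀ a, σ (η a : R) = 1) {S' : Finset ℕ}
    (X : HeckeLattice p (N * (∏ i, Qv i) * ∏ i, Qv i) S' ρbar R d)
    (hX : ∀ x, ∃ z ∈ h1Part (twistChar (dvd_mul_left (∏ i, Qv i) N) η) (awPr S) σ θ' R,
      h1Triv (N * (∏ i, Qv i) * ∏ i, Qv i) R R (twistMap (dvd_mul_left (∏ i, Qv i) N) η z) =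
        (X.emb x : Additive (Gamma0 (N * (∏ i, Qv i) * ∏ i, Qv i)) →+ R))
    {f : ℤ_[p] →+* O} {ρ : GaloisRepAdic X.T} (hρ : X.IsRep f ρ) : ρ.IsStrictOrdinaryAt p := by
  have hr := isRaise_div (p := p) (L := ∏ i, Qv i) hN hpN fun hd => by
    obtain ⟨i, hi⟩ := hQ.exists_eq Fact.out hd
    exact hQ.ne_p h.mem i hi
  haveI : NeZero (N * ∏ i, Qv i) := ⟨mul_ne_zero (NeZero.ne N) (NeZero.ne _)⟩
  haveI : NeZero (N / p) := ⟨fun h0 => hr.not_dvd (by rw [h0, zero_mul]; exact dvd_zero p)⟩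
  haveI : NeZero (N / p * ∏ i, Qv i) := ⟨mul_ne_zero (NeZero.ne (N / p)) (NeZero.ne _)⟩
  haveI : NeZero (N / p * (∏ i, Qv i) * ∏ i, Qv i) :=
    ⟨mul_ne_zero (NeZero.ne (N / p * ∏ i, Qv i)) (NeZero.ne _)⟩
  have hQ' : (∏ i, Qv i) ∣ N / p * ∏ i, Qv i := dvd_mul_left _ _
  refine isStrictOrdinaryAt_of_corU h.ne_two hp h.absIrr h.det (hr.mul_aux hQ') X hρ fun x => ?_
  obtain ⟨z, hz, hzx⟩ := hX x
  exact ⟨_, hzx, corU_twistMap_eq_zero_of_noSystem (N := N / p) h hno hQ hθ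
    (hN.squarefree_of_dvd (Nat.div_dvd_of_dvd hpN)) (isRaise_div' (p := p) hN hpN).not_dvd
    (fun l hl hd => hNS l hl (hd.trans (Nat.div_dvd_of_dvd hpN))) rfl hr hσ hQ' hη z hz⟩

end FLTAgent.Lower.Lift
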