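import Fermat.Agent.Lower.Lift.Places

/-!
# Signed points

`HasSignedPoint B P L' ε`: the Hecke ring `B` has a point of characteristic zero at which the
Frobenius traces at the chosen places over the primes of `L'` are `ε l * (l + 1)`. Such points
pass to any module containing `B` (`HasSignedPoint.of_contains`).
-/

set_option autoImplicit false

noncomputable section

namespace FLTAgent.Lower.Lift

open IsLocalRing (ResidueField maximalIdeal)
open FLTAgent.Lower

variable {O : Type} [CommRing O] [IsDomain O] [IsDiscreteValuationRing O]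
  [IsAdicComplete (maximalIdeal O) O] {p : ℕ} {ρbar : ResidualGaloisRep (ResidueField O)}

/-- A point of characteristic zero whose Frobenius traces at the primes of `L'` are the
`ε l * (l + 1)`. -/
def HasSignedPoint {loc : LocalType} {S U : Finset ℕ} (B : HeckeMod loc p S U ρbar)
    {L : Finset ℕ} (P : Places p L) (L' : Finset ℕ) (ε : ℕ → ℤ) : Prop :=
  ∃ (D : Type) (_ : CommRing D) (_ : IsDomain D) (_ : CharZero D) (_ : Algebra O D)
    (f : B.T →ₐ[O] D), ∀ l ∈ L', f (B.ρ.trace (P.φ l)) = (ε l : D) * ((l : D) + 1)

/-- A signed point passes to a module containing the given one. -/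
theorem HasSignedPoint.of_contains {loc loc' : LocalType} {S U S' U' : Finset ℕ}
    {B : HeckeMod loc p S U ρbar} {B' : HeckeMod loc' p S' U' ρbar} (hC : Contains B B')
    {L : Finset ℕ} {P : Places p L} {L' : Finset ℕ} {ε : ℕ → ℤ}
    (h : HasSignedPoint B' P L' ε) : HasSignedPoint B P L' ε := by
  obtain ⟨D, i1, i2, i3, i4, f', hf'⟩ := h
  obtain ⟨f, hf⟩ := hC D f'
  exact ⟨D, i1, i2, i3, i4, f, fun l hl => by rw [hf]; exact hf' l hl⟩

end FLTAgent.Lower.Lift
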