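import Mathlib
import Fermat.Agent.Lower.Lift.HopSystem
import Fermat.Agent.Lower.Lift.Points

/-!
# The hop

`HopSetup.exists_signed_point`: a point of the old module with the signs `ε` away from the raised
prime gives a point of the new module with the signs at all the places, given levels at auxiliary
primes of every depth with enough test traces. The systems of matrices of the levels are patched
over `O[[X₁, …, X_r]]` (`exists_patched`); the kernel of the old point is then moved to a prime of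
the new patched module by `exists_new_prime`, and specialised at the origin.
-/

set_option autoImplicit false
set_option linter.style.haveILetI false
set_option linter.unusedSectionVars false

noncomputable section

namespace FLTAgent.Lower.Lift

open IsLocalRing (maximalIdeal ResidueField)
open MvPowerSeries (constantCoeff)
open FLTAgent.Lower

local notation "ℚ̄" => AlgebraicClosure ℚ
local notation "Γℚ" => (AlgebraicClosure ℚ ≃ₐ[ℚ] AlgebraicClosure ℚ)

variable {O : Type} [CommRing O] [IsDomain O] [IsDiscreteValuationRing O]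
  [IsAdicComplete (maximalIdeal O) O] [Finite (ResidueField O)] [CharZero O]
  {p N q : ℕ} {ρbar : ResidualGaloisRep (ResidueField O)}

local notation "S[" r "]" => MvPowerSeries (Fin r) O

/-- At a residually scalar place with traces `± (l + 1)` one has `l ≡ 1`. -/
theorem natCast_sub_one_mem_of_scalar {Smin : Finset ℕ} (hres : Residual p Smin ρbar)
    (hp : p.Prime) {l : ℕ} (hl : l.Prime) (hlp : l ≠ p) {A : ValuationSubring ℚ̄}
    (hA : A.LiesOverPrime l) {φ : Γℚ} (hφ : A.IsFrobeniusAt φ l) (hsc : IsScalarAt ρbar A) {e : ℤ}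
    (he : e * e = 1) (htr : LinearMap.trace (ResidueField O) ρbar.V (ρbar.ρ φ) =
      (e : ResidueField O) * ((l : ResidueField O) + 1)) : (l : O) - 1 ∈ maximalIdeal O := by
  obtain ⟨c, hc⟩ := hsc φ hφ.mem_decompositionSubgroup
  have hd : LinearMap.det (ρbar.ρ φ) = (l : ResidueField O) :=
    det_frobenius (ρ := GaloisRepAdic.ofResidualGaloisRep ρbar) hp hl hlp hA hres.det hφ
  rw [hc, LinearMap.det_smul, ρbar.finrank_eq, map_one, mul_one] at hd
  rw [hc, map_smul, LinearMap.trace_one, ρbar.finrank_eq, smul_eq_mul] at htr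
  have he' : (e : ResidueField O) * (e : ResidueField O) = 1 := by
    rw [← Int.cast_mul, he, Int.cast_one]
  have h0 : ((l : ResidueField O) - 1) ^ 2 = 0 := by
    push_cast at htr
    linear_combination 4 * hd - ((l : ResidueField O) + 1) ^ 2 * he' -
      (c * 2 + (e : ResidueField O) * ((l : ResidueField O) + 1)) * htr
  rw [← IsLocalRing.residue_eq_zero_iff, map_sub, map_natCast, map_one]
  exact pow_eq_zero_iff two_ne_zero |>.1 h0

theorem exists_pow_mem_of_mem_maximalIdeal {T : Type} [CommRing T] [IsLocalRing T] {d : ℕ}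
    (Φ : T →+* Matrix (Fin d) (Fin d) O) {t : T} (ht : t ∈ maximalIdeal T) :
    ∃ n : ℕ, ∀ i j, (Φ (t ^ n)) i j ∈ maximalIdeal O := by
  obtain ⟨n, hn⟩ := pow_eq_zero_of_mem_maximalIdeal
    ((IsLocalRing.residue O).mapMatrix.comp Φ) ht
  refine ⟨n, fun i j => ?_⟩
  rw [← map_pow] at hn
  exact (IsLocalRing.residue_eq_zero_iff _).1 (congrFun (congrFun hn i) j)

/-- Intertwining with a block-diagonal action. -/
theorem intertwine_block {S : Type} [CommRing S] {V : Type} {a d m : ℕ}
    (φA : MvPolynomial V S →ₐ[S] Matrix (Fin a) (Fin a) S)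
    (φO : MvPolynomial V S →ₐ[S] Matrix (Fin d) (Fin d) S)
    (ι : Matrix (Fin a) (Fin d × Fin m) S) (π : Matrix (Fin d × Fin m) (Fin a) S)
    (hι : ∀ v, φA (MvPolynomial.X v) * ι = ι * blockRep m (φO (MvPolynomial.X v)))
    (hπ : ∀ v, blockRep m (φO (MvPolynomial.X v)) * π = π * φA (MvPolynomial.X v))
    (z : MvPolynomial V S) :
    φA z * ι = ι * blockRep m (φO z) ∧ blockRep m (φO z) * π = π * φA z := by
  have hb1 : ∀ M N : Matrix (Fin d) (Fin d) S, blockRep m (M * N) = blockRep m M * blockRep m N :=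
    fun M N => Matrix.blockDiagonal_mul _ _
  have hb0 : ∀ M N : Matrix (Fin d) (Fin d) S, blockRep m (M + N) = blockRep m M + blockRep m N :=
    fun M N => Matrix.blockDiagonal_add _ _
  induction z using MvPolynomial.induction_on with
  | C s =>
    have h1 : blockRep m (φO (MvPolynomial.C s)) = s • 1 := by
      rw [MvPolynomial.algHom_C, Algebra.algebraMap_eq_smul_one, blockRep,
        ← Matrix.blockDiagonal_one, ← Matrix.blockDiagonal_smul]
      rfl
    rw [h1, MvPolynomial.algHom_C, Algebra.algebraMap_eq_smul_one]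
    simp
  | add x y hx hy =>
    rw [map_add, map_add, hb0, Matrix.add_mul, Matrix.mul_add, Matrix.add_mul, Matrix.mul_add,
      hx.1, hx.2, hy.1, hy.2]
    exact ⟨rfl, rfl⟩
  | mul_X x v hx =>
    rw [map_mul, map_mul, hb1]
    constructor
    · rw [Matrix.mul_assoc, hι, ← Matrix.mul_assoc, hx.1, Matrix.mul_assoc]
    · rw [Matrix.mul_assoc, hπ, ← Matrix.mul_assoc, hx.2, Matrix.mul_assoc]

variable {locOld locNew : LocalType} {H : Hop locOld locNew p N q ρbar}

set_option maxHeartbeats 1000000 in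
-- one long assembly
/-- **The hop.** -/
theorem HopSetup.exists_signed_point [NeZero N] (c : HopSetup H) (hold : IsModular N H.old)
    (hinj : Function.Injective c.ls) (hnone : c.qidx = none → q = p)
    (hgen : Algebra.adjoin O (Set.range fun t => H.new.ρ.trace (c.τ t)) = ⊤)
    {g r : ℕ} {locD : LocalType}
    (hcount : g + (if c.qidx.isSome then 0 else 1) + ∑ k, weight (c.sc (c.ls k)) ≤ r)
    (hlev : ∀ n, ∃ (Qv : Fin r → ℕ) (σ : Fin g → Γℚ),
      IsAuxSet p (N * q) n ρbar Qv ∧
      Detects locD p c.Smin (unipPrimes p (N * q) \ c.Smin) ρbar c.P.A Qv σ ∧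
      ∃ L : HopLevel H n Qv, ∀ (f : L.all.T →+* DualNumber (ResidueField O)) (hfl : IsLocalHom f),
        Function.Surjective f →
        (∀ a, f (algebraMap O L.all.T a) = TrivSqZeroExt.inl (IsLocalRing.residue O a)) →
        (∀ t ∈ c.levelKer L, f t = 0) → locD.cond (L.all.ρ.baseChangeAlong f hfl))
    (hpt : HasSignedPoint H.old c.P ((unipPrimes p (N * q) \ c.Smin).erase q) c.ε) :
    HasSignedPoint H.new c.P (unipPrimes p (N * q) \ c.Smin) c.ε := by
  classical
  set Saux := unipPrimes p (N * q) \ c.Smin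
  have hlsmem : ∀ k, c.ls k ∈ Saux := fun k =>
    Finset.mem_coe.1 (by rw [← c.hls]; exact ⟨k, rfl⟩)
  have hmem : ∀ k, (c.ls k).Prime ∧ c.ls k ≠ p ∧ ρbar.IsUnramifiedAt (c.ls k) := fun k => by
    obtain ⟨h1, h2⟩ := Finset.mem_sdiff.1 (hlsmem k)
    obtain ⟨h3, h4⟩ := Finset.mem_erase.1 h1
    exact ⟨Nat.prime_of_mem_primeFactors h4, h3,
      c.hres.unramified _ (Nat.prime_of_mem_primeFactors h4) h2 h3⟩
  let V := c.Var g r
  let P := MvPolynomial V S[r]
  obtain ⟨D, hD, hι0, hπ0, hj0, hbase⟩ := exists_patched (abHom S[r] V ⁻¹' c.relOld g r)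
    (abHom S[r] V ⁻¹' c.relNew g r) HopVar.ent c.base (c.dom g r) (fun n => by
      obtain ⟨Qv, σ, haux, hdet, L, hloc⟩ := hlev n
      exact c.exists_approx haux L σ hdet hloc)
  choose s hs hsO hsA hsN using hbase
  obtain ⟨s', hs'⟩ : ∃ s' : V → H.all.T, s' = s := ⟨s, rfl⟩
  subst hs'
  rename' s' => s
  let φO := polyHom (S := S[r]) D.XO hD.commO
  let φA := polyHom (S := S[r]) D.XA hD.commA
  let φN := polyHom (S := S[r]) D.XN hD.commN
  let cc : S[r] →+* O := constantCoeff
  -- evaluation in the base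
  let evO : P →+* H.old.T := MvPolynomial.eval₂Hom ((algebraMap O H.old.T).comp cc)
    fun v => H.resOld (s v)
  let evN : P →+* H.new.T := MvPolynomial.eval₂Hom ((algebraMap O H.new.T).comp cc)
    fun v => H.resNew (s v)
  have hevC : ∀ a : S[r], evO (algebraMap S[r] P a) = algebraMap O H.old.T (cc a) ∧
      evN (algebraMap S[r] P a) = algebraMap O H.new.T (cc a) := fun a =>
    ⟨MvPolynomial.eval₂Hom_C _ _ a, MvPolynomial.eval₂Hom_C _ _ a⟩
  have hevX : ∀ v, evO (MvPolynomial.X v) = H.resOld (s v) ∧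
      evN (MvPolynomial.X v) = H.resNew (s v) := fun v =>
    ⟨MvPolynomial.eval₂Hom_X' _ _ v, MvPolynomial.eval₂Hom_X' _ _ v⟩
  have hcompat : ∀ z : P, H.old.Φ (evO z) = (φO z).map cc ∧ H.new.Φ (evN z) = (φN z).map cc := by
    intro z
    have e1 : H.old.Φ.toRingHom.comp evO = cc.mapMatrix.comp φO.toRingHom := by
      refine MvPolynomial.ringHom_ext (fun a => ?_) fun v => ?_
      · show H.old.Φ (evO (algebraMap S[r] P a)) = (φO (algebraMap S[r] P a)).map cc
        rw [(hevC a).1, AlgHom.commutes, AlgHom.commutes, Matrix.algebraMap_eq_diagonal,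
          Matrix.algebraMap_eq_diagonal, Matrix.diagonal_map (map_zero cc)]
        rfl
      · show H.old.Φ (evO (MvPolynomial.X v)) = (φO (MvPolynomial.X v)).map cc
        rw [(hevX v).1, polyHom_X, hsO v]
        rfl
    have e2 : H.new.Φ.toRingHom.comp evN = cc.mapMatrix.comp φN.toRingHom := by
      refine MvPolynomial.ringHom_ext (fun a => ?_) fun v => ?_
      · show H.new.Φ (evN (algebraMap S[r] P a)) = (φN (algebraMap S[r] P a)).map cc
        rw [(hevC a).2, AlgHom.commutes, AlgHom.commutes, Matrix.algebraMap_eq_diagonal,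
          Matrix.algebraMap_eq_diagonal, Matrix.diagonal_map (map_zero cc)]
        rfl
      · show H.new.Φ (evN (MvPolynomial.X v)) = (φN (MvPolynomial.X v)).map cc
        rw [(hevX v).2, polyHom_X, hsN v]
        rfl
    exact ⟨RingHom.congr_fun e1 z, RingHom.congr_fun e2 z⟩
  have hevO0 : ∀ z, φO z = 0 → evO z = 0 := fun z hz => H.old.Φ_injective (by
    rw [(hcompat z).1, hz, map_zero, Matrix.map_zero _ (map_zero cc)])
  have hrelO := apply_eq_zero_of_lift D.XO hD.commO (c.relOld g r) hD.relO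
  have hrelN := apply_eq_zero_of_lift D.XN hD.commN (c.relNew g r) hD.relN
  -- coordinates in the base
  have hxO : ∀ k, (c.xP g r k).map evO = (c.baseCoords k).map H.resOld ∧
      (c.xP g r k).map evN = (c.baseCoords k).map H.resNew := fun k => by
    have h1 : ∀ i, s (.coord k i) = (c.baseCoords k).get i := fun i => by
      have h2 := hs (.coord k i)
      exact sub_eq_zero.1 ((Submodule.mem_bot O).1 h2)
    simp only [HopSetup.xP, Coords.map_ofFun, Function.comp_def, hevX, h1]
    exact ⟨rfl, rfl⟩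
  have hbO : ∀ k, ∃ bO : Module.Basis (Fin 2) H.old.T H.old.ρ.V, ∀ τ,
      matHom H.old.ρ bO τ = (H.resOld : H.all.T →+* H.old.T).mapMatrix
        (matHom H.all.ρ (c.b (c.ls k)) τ) := fun k =>
    exists_basis_of_isEquiv _ H.resOld_isLocalHom H.all.ρ H.old.ρ H.resOld_isEquiv _
  choose bO hbO using hbO
  have hxO' : ∀ k, (c.xP g r k).map evO =
      coordsAt c.P c.h c.ε H.old.ρ (bO k) (c.ls k) := fun k => by
    rw [(hxO k).1]
    simp only [HopSetup.baseCoords, coordsAt, hbO k]
    rw [show (⇑H.resOld : H.all.T → H.old.T) = ⇑(H.resOld : H.all.T →+* H.old.T) from rfl,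
      ← coordsOf_map (H.resOld : H.all.T →+* H.old.T), map_intCast]
    congr 1
    exact H.resOld.commutes c.h
  have hgensO : ∀ k, evO (c.xP g r k).w ∈ maximalIdeal H.old.T ∧
      ∀ v ∈ (c.xP g r k).gens (c.sc (c.ls k)), evO v ∈ maximalIdeal H.old.T := fun k => by
    obtain ⟨h1, h2⟩ := coordsAt_gens_mem c.P c.h c.ε H.old.residual_isEquiv (bO k)
      (c.hSL (hlsmem k)) (hmem k).2.2 (c.sc (c.ls k)) (c.hsc k).1 (c.htr k)
    rw [← hxO'] at h1 h2
    refine ⟨h1, fun v hv => ?_⟩
    obtain ⟨i, rfl⟩ := (mem_gens_iff _ _ _).1 hv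
    refine h2 _ ((mem_gens_iff _ _ _).2 ⟨i, ?_⟩)
    have hget : ∀ (x : Coords P) (i : Fin 7), (x.map evO).get i = evO (x.get i) := by
      intro x i; fin_cases i <;> rfl
    exact hget _ _
  let e : Matrix (Fin H.m) (Fin H.m) P := Matrix.of fun a b => MvPolynomial.X (HopVar.ent a b)
  have hevdet : evO e.det = H.e.det := by
    rw [RingHom.map_det]
    congr 1
    refine Matrix.ext fun a b => H.old.Φ_injective ?_
    show H.old.Φ (evO (MvPolynomial.X (HopVar.ent a b))) = H.old.Φ (H.e a b)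
    rw [(hcompat _).1, polyHom_X]
    refine Matrix.ext fun i i' => ?_
    have h1 : (D.π.map cc * D.ι.map cc) (i, a) (i', b) = (H.π * H.ι) (i, a) (i', b) := by
      rw [show D.π.map cc = H.π from hπ0, show D.ι.map cc = H.ι from hι0]
    rw [← Matrix.map_mul, hD.π_ι, H.π_ι] at h1
    exact h1
  -- the splittings
  obtain ⟨⟨sπ, hsπ⟩, ⟨sι, hsι⟩, hexact⟩ := exists_split (ι := D.ι) (π := D.π) (j := D.j) hD.π_j
    (by rw [hπ0]; exact H.π_surjective) (by rw [hι0]; exact H.ι_split)
    (by rw [hj0]; exact H.j_split) (by rw [hπ0, hj0]; exact H.exact)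
  have hdet : (D.π * D.ι).det ≠ 0 := fun h0 => H.π_ι_ne_zero (by
    have := congrArg cc h0
    rw [map_zero, RingHom.map_det, RingHom.mapMatrix_apply, Matrix.map_mul (f := cc)] at this
    rw [← this]
    congr 2
    · exact hπ0.symm
    · exact hι0.symm)
  -- the old point
  obtain ⟨Dm, i1, i2, i3, i4, f, hf⟩ := hpt
  have hinjD : Function.Injective (algebraMap O Dm) := by
    rw [RingHom.injective_iff_ker_eq_bot]
    by_contra hne
    obtain ⟨n, hn⟩ := IsDiscreteValuationRing.ideal_eq_span_pow_irreducible hne c.hϖ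
    have hp0 : algebraMap O Dm (p : O) ≠ 0 := by
      rw [map_natCast]; exact Nat.cast_ne_zero.2 c.hp.ne_zero
    have hprime : (RingHom.ker (algebraMap O Dm)).IsPrime := RingHom.ker_isPrime _
    have hϖker : c.ϖ ∈ RingHom.ker (algebraMap O Dm) := by
      refine hprime.mem_of_pow_mem n ?_
      rw [hn]
      exact Ideal.mem_span_singleton_self _
    have hp1 := c.hpO
    rw [c.hϖ.maximalIdeal_eq, Ideal.mem_span_singleton] at hp1
    obtain ⟨w, hw⟩ := hp1
    exact hp0 (RingHom.mem_ker.1 (hw ▸ Ideal.mul_mem_right w _ hϖker))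
  obtain ⟨C, hC⟩ := exists_fullChain c.hϖ r
  haveI : IsDomain S[r] := NoZeroDivisors.to_isDomain _
  let 𝔞 : Ideal S[r] := RingHom.ker cc
  haveI : 𝔞.IsPrime := RingHom.ker_isPrime cc
  let fP : P →+* Dm := (f : H.old.T →+* Dm).comp evO
  let Q₀ : Ideal P := RingHom.ker fP
  haveI : Q₀.IsPrime := RingHom.ker_isPrime fP
  have hmemQ₀ : ∀ z, evO z = 0 → z ∈ Q₀ := fun z hz => by
    show f (evO z) = 0
    rw [hz, map_zero]
  have hQ₀a : Q₀.comap (algebraMap S[r] P) = 𝔞 := by
    ext a
    show f (evO (algebraMap S[r] P a)) = 0 ↔ cc a = 0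
    rw [(hevC a).1, AlgHom.commutes, map_eq_zero_iff _ hinjD]
  have hQ₀w : ∀ k, some k ≠ c.qidx → (c.xP g r k).w ∈ Q₀ ∧ ¬ inertiaIdeal (c.xP g r k) ≤ Q₀ := by
    intro k hk
    obtain ⟨hl, hlp, hunr⟩ := hmem k
    have hlq : c.ls k ≠ q := fun heq => by
      rcases c.qidx.eq_none_or_eq_some with hn | ⟨k₀, hk₀⟩
      · exact hlp (heq.trans (hnone hn))
      · exact hk (by rw [hk₀, hinj (heq.trans (c.hqidx k₀ hk₀).1.symm)])
    have hfl := hf (c.ls k) (Finset.mem_erase.2 ⟨hlq, hlsmem k⟩)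
    have hw : evO (c.xP g r k).w =
        H.old.ρ.trace (c.P.φ (c.ls k)) - (c.ε (c.ls k) : H.old.T) * ((c.ls k : H.old.T) + 1) :=
      (congrArg Coords.w (hxO' k)).trans (coordsAt_w _ _ _ _ _ _)
    refine ⟨?_, fun hle => ?_⟩
    · show f (evO (c.xP g r k).w) = 0
      rw [hw, map_sub, hfl, map_mul, map_add, map_intCast, map_natCast, map_one, sub_self]
    · haveI : IsNoetherianRing H.old.T := IsNoetherianRing.of_finite O H.old.T
      haveI : Finite (ResidueField H.old.T) :=
        Finite.of_surjective (ResidueField.map (algebraMap O H.old.T)) fun z => by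
          obtain ⟨a, rfl⟩ := H.old.residue_surjective z
          exact ⟨IsLocalRing.residue O a, by simp [ResidueField.map_residue]⟩
      have hJ : ∀ v ∈ ({(c.xP g r k).a, (c.xP g r k).b, (c.xP g r k).c} : Set P),
          f (evO v) = 0 := fun v hv => hle (Ideal.subset_span hv)
      have ha := hJ _ (Or.inl rfl)
      have hb := hJ _ (Or.inr (Or.inl rfl))
      have hc := hJ _ (Or.inr (Or.inr rfl))
      rw [show evO (c.xP g r k).a = _ from congrArg Coords.a (hxO' k)] at ha
      rw [show evO (c.xP g r k).b = _ from congrArg Coords.b (hxO' k)] at hb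
      rw [show evO (c.xP g r k).c = _ from congrArg Coords.c (hxO' k)] at hc
      simp only [coordsAt, coordsOf] at ha hb hc
      obtain ⟨hNm, hlN⟩ : c.ls k ∈ unipPrimes p (N * q) ∧ c.ls k ∣ N := by
        have h1 := (Finset.mem_sdiff.1 (hlsmem k)).1
        refine ⟨h1, ?_⟩
        have h2 := Nat.dvd_of_mem_primeFactors (Finset.mem_erase.1 h1).2
        rcases hl.dvd_mul.1 h2 with h3 | h3
        · exact h3
        · have hqp : q.Prime := by
            rcases c.qidx.eq_none_or_eq_some with hn | ⟨k₀, hk₀⟩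
            · rw [hnone hn]; exact c.hp
            · exact (c.hqidx k₀ hk₀).1 ▸ (hmem k₀).1
          exact absurd ((Nat.prime_dvd_prime_iff_eq hl hqp).1 h3) hlq
      have hlu : c.ls k ∈ unipPrimes p N :=
        Finset.mem_erase.2 ⟨hlp, Nat.mem_primeFactors.2 ⟨hl, hlN, NeZero.ne N⟩⟩
      have htr2 := trace_inertia_eq_two (Or.inl (H.old.cond.unipotent _ hlu))
        (c.P.liesOver _ (c.hSL (hlsmem k))) (c.P.mem _ (c.hSL (hlsmem k)))
      have hall : ∀ i j, (matHom H.old.ρ (bO k) (c.P.σ (c.ls k)) - 1) i j ∈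
          RingHom.ker (f : H.old.T →+* Dm) := by
        have hd : f ((matHom H.old.ρ (bO k) (c.P.σ (c.ls k)) - 1) 1 1) = 0 := by
          have h1 : (matHom H.old.ρ (bO k) (c.P.σ (c.ls k)) - 1) 1 1 =
              -((matHom H.old.ρ (bO k) (c.P.σ (c.ls k)) - 1) 0 0) := by
            rw [← trace_matHom _ (bO k), Matrix.trace_fin_two] at htr2
            simp only [Matrix.sub_apply, Matrix.one_apply_eq]
            linear_combination htr2
          rw [h1, map_neg, ha, neg_zero]
        intro i j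
        fin_cases i <;> fin_cases j
        exacts [ha, hb, hc, hd]
      have hinert := fun (A : ValuationSubring ℚ̄) (hA : A.LiesOverPrime (c.ls k)) τ hτ b' =>
        inertia_mem_of_mem c.P (bO k) (c.hSL (hlsmem k)) hl H.old.cond.det.1
          (entries_sub_one_inertia H.old.residual_isEquiv (bO k) hunr
            (c.P.liesOver _ (c.hSL (hlsmem k)))) _ hall hA (τ := τ) hτ b'
      refine hold.not_special (FractionRing Dm)
        ((algebraMap Dm (FractionRing Dm)).comp (f : H.old.T →+* Dm)) (c.ls k) hl hlN hlp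
        (fun A hA τ hτ b' => ?_) (c.P.A (c.ls k)) (c.P.φ (c.ls k))
        (c.P.liesOver _ (c.hSL (hlsmem k))) (c.P.frob _ (c.hSL (hlsmem k))) ?_
      · ext i j
        have h5 : f ((matHom H.old.ρ b' τ - 1) i j) = 0 := hinert A hA τ hτ b' i j
        rw [Matrix.sub_apply, map_sub, sub_eq_zero] at h5
        rw [Matrix.map_apply, RingHom.comp_apply]
        change algebraMap Dm (FractionRing Dm) (f _) = _
        rw [h5, Matrix.one_apply, Matrix.one_apply]
        split <;> simp
      · change algebraMap Dm (FractionRing Dm) (f _) ^ 2 = _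
        rw [hfl, mul_comm, ← map_pow, mul_pow, sq ((c.ε (c.ls k) : Dm)), ← Int.cast_mul, c.hε]
        simp
  -- the consumer
  let w : P := match c.qidx with
    | none => e.det
    | some k₀ => (c.xP g r k₀).w
  have hwnone : c.qidx = none → w = e.det := fun h => by simp only [w, h]
  have hwsome : ∀ k₀ ∈ c.qidx, w = (c.xP g r k₀).w := fun k₀ h => by
    simp only [w, show c.qidx = some k₀ from h]
  have hwO : evO w ∈ maximalIdeal H.old.T := by
    rcases c.qidx.eq_none_or_eq_some with h | ⟨k₀, h⟩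
    · rw [hwnone h, hevdet]; exact H.det_e_mem
    · rw [hwsome k₀ h]; exact (hgensO k₀).1
  have hmS : ∀ a : S[r], cc a ∈ maximalIdeal O → a ∈ maximalIdeal S[r] := fun a ha hu =>
    ha (MvPowerSeries.isUnit_iff_constantCoeff.1 hu)
  have hint := intertwine_block φA φO D.ι D.π
    (fun v => by simpa [φA, φO, polyHom_X] using hD.ι_comm v)
    (fun v => by simpa [φA, φO, polyHom_X] using hD.π_comm v)
  have hintj : ∀ z, φA z * D.j = D.j * φN z := fun z =>
    intertwine φA φN D.j (fun v => by simpa [φA, φN, polyHom_X] using hD.j_comm v) z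
  have hπι : D.π * D.ι = Matrix.of fun a b => φO (e a.2 b.2) a.1 b.1 := by
    rw [hD.π_ι]
    ext a b
    simp [φO, e, polyHom_X]
  have hscal : ∀ k, (c.pc r k).sc = true → MvPowerSeries.C c.ϖ ∣ ((c.pc r k).l : S[r]) - 1 := by
    intro k hk
    obtain ⟨hl, hlp, hunr⟩ := hmem k
    have h1 := natCast_sub_one_mem_of_scalar c.hres c.hp hl hlp
      (c.P.liesOver _ (c.hSL (hlsmem k))) (c.P.frob _ (c.hSL (hlsmem k))) ((c.hsc k).1 hk) (c.hε _)
      (c.htr k)
    rw [c.hϖ.maximalIdeal_eq, Ideal.mem_span_singleton] at h1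
    simpa [HopSetup.pc] using map_dvd (MvPowerSeries.C (σ := Fin r) (R := O)) h1
  have hnat : ∀ k, (2 * (c.ε (c.ls k) : O) * ((c.ls k : O) + 1)) ≠ 0 := fun k => by
    have h1 : (c.ε (c.ls k) : O) ≠ 0 := fun h0 => by
      have h2 := congrArg (fun z : ℤ => (z : O)) (c.hε (c.ls k))
      simp [h0] at h2
    exact mul_ne_zero (mul_ne_zero two_ne_zero h1) (Nat.cast_add_one_ne_zero _)
  have hcc : ∀ k, cc (2 * (c.pc r k).ε * (((c.pc r k).l : S[r]) + 1)) =
      2 * (c.ε (c.ls k) : O) * ((c.ls k : O) + 1) := fun k => by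
    simp [cc, HopSetup.pc, map_ofNat]
  have hlone : ∀ k, ((c.pc r k).l : S[r]) * (((c.pc r k).l : S[r]) - 1) ≠ 0 := fun k h0 => by
    have h1 : (c.ls k : O) * ((c.ls k : O) - 1) = 0 := by
      simpa [cc, HopSetup.pc] using congrArg cc h0
    rcases mul_eq_zero.1 h1 with h2 | h2
    · exact (hmem k).1.ne_zero (Nat.cast_eq_zero.1 h2)
    · exact (hmem k).1.ne_one (Nat.cast_eq_one.1 (sub_eq_zero.1 h2))
  have hrels : ∀ (d : ℕ) (φ : P →ₐ[S[r]] Matrix (Fin d) (Fin d) S[r]),
      (∀ z ∈ c.relPlaces g r, φ z = 0) →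
      ∀ k, RelsMod (RingHom.ker φ) (MvPowerSeries.C c.h) (c.pc r k) (c.xP g r k) := by
    intro d φ hφ k
    refine coordRels_iff.2 fun z hz => ?_
    rw [relList_map] at hz
    obtain ⟨u, hu, rfl⟩ := List.mem_map.1 hz
    exact Ideal.Quotient.eq_zero_iff_mem.2 (hφ u (Set.mem_iUnion.2 ⟨k, hu⟩))
  have hnil : ∀ v ∈ insert w (Set.range (fun j : Fin g => (MvPolynomial.X (HopVar.test j) : P)) ∪
      ⋃ k, {v | v ∈ (c.xP g r k).gens (c.pc r k).sc}),
      ∃ n : ℕ, ∀ i i', φO (v ^ n) i i' ∈ maximalIdeal S[r] := by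
    intro v hv
    have hvm : evO v ∈ maximalIdeal H.old.T := by
      rcases hv with rfl | ⟨j, rfl⟩ | hv
      · exact hwO
      · rw [(hevX _).1]
        have h1 : s (HopVar.test j) ∈ maximalIdeal H.all.T := by
          have h2 := hs (HopVar.test j)
          change s (HopVar.test j) - (0 : H.all.T) ∈ maximalIdeal H.all.T at h2
          rwa [sub_zero] at h2
        haveI := H.resOld_isLocalHom
        exact map_nonunit (H.resOld : H.all.T →+* H.old.T) _ h1
      · obtain ⟨k, hk⟩ := Set.mem_iUnion.1 hv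
        exact (hgensO k).2 v hk
    obtain ⟨n, hn⟩ := exists_pow_mem_of_mem_maximalIdeal H.old.Φ.toRingHom hvm
    refine ⟨n, fun i i' => hmS _ ?_⟩
    have h1 := congrFun (congrFun ((hcompat (v ^ n)).1) i) i'
    rw [map_pow evO] at h1
    rw [Matrix.map_apply] at h1
    rw [← h1]
    exact hn i i'
  have hy : ∀ i, algebraMap S[r] P (MvPowerSeries.X i) ^ 2 ∈
      Ideal.span (insert (algebraMap S[r] P (MvPowerSeries.C c.ϖ))
        (Set.range (fun j : Fin g => (MvPolynomial.X (HopVar.test j) : P)) ∪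
          ⋃ k, {v | v ∈ (c.xP g r k).gens (c.pc r k).sc})) ⊔
      (RingHom.ker φO ⊔ if c.qidx.isSome then ⊥ else RingHom.ker φN) := by
    intro i
    set Sp := Ideal.span (insert (algebraMap S[r] P (MvPowerSeries.C c.ϖ))
        (Set.range (fun j : Fin g => (MvPolynomial.X (HopVar.test j) : P)) ∪
          ⋃ k, {v | v ∈ (c.xP g r k).gens (c.pc r k).sc}))
    have hz : algebraMap S[r] P (MvPowerSeries.X i) ^ 2 -
        algebraMap S[r] P (1 + MvPowerSeries.X i) * c.genExpr g r i ∈ RingHom.ker φO :=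
      RingHom.mem_ker.2 (hrelO _ (Or.inl (Or.inr ⟨i, rfl⟩)))
    have hgen' : c.genExpr g r i ∈
        Sp ⊔ (RingHom.ker φO ⊔ if c.qidx.isSome then ⊥ else RingHom.ker φN) := by
      refine add_mem (add_mem (Ideal.mem_sup_left (add_mem (add_mem ?_ ?_) ?_)) ?_) ?_
      · exact Ideal.mul_mem_left _ _ (Ideal.subset_span (Or.inl rfl))
      · exact Ideal.sum_mem _ fun j _ =>
          Ideal.mul_mem_left _ _ (Ideal.subset_span (Or.inr (Or.inl ⟨j, rfl⟩)))
      · refine Ideal.sum_mem _ fun k _ => Ideal.sum_mem _ fun t _ =>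
          Ideal.mul_mem_left _ _ (Ideal.subset_span (Or.inr (Or.inr (Set.mem_iUnion.2 ⟨k, ?_⟩))))
        exact (mem_gens_iff _ _ _).2 ⟨t, rfl⟩
      · exact Ideal.mem_sup_right (Ideal.mem_sup_left
          (RingHom.mem_ker.2 (hrelO _ (Or.inl (Or.inl (Or.inr ⟨i, rfl⟩))))))
      · refine Ideal.mem_sup_right ?_
        rcases c.qidx.eq_none_or_eq_some with hn | ⟨k₀, hk₀⟩
        · refine Ideal.mem_sup_right ?_
          rw [if_neg (by rw [hn]; exact Bool.false_ne_true)]
          exact RingHom.mem_ker.2 (hrelN _ (Or.inl (Or.inr ⟨i, rfl⟩)))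
        · exact Ideal.mem_sup_left (RingHom.mem_ker.2
            (hrelO _ (Or.inr ⟨k₀, hk₀, Or.inr (Or.inr (Or.inr (Or.inl ⟨i, rfl⟩)))⟩)))
    have h2 := add_mem
      (Ideal.mem_sup_right (S := Sp) (Ideal.mem_sup_left
        (T := if c.qidx.isSome then ⊥ else RingHom.ker φN) hz))
      (Ideal.mul_mem_left _ (algebraMap S[r] P (1 + MvPowerSeries.X i)) hgen')
    rwa [sub_add_cancel] at h2
  have hhS : (2 : S[r]) * MvPowerSeries.C c.h = 1 := by
    rw [← map_ofNat (MvPowerSeries.C (σ := Fin r) (R := O)) 2, ← map_mul, c.hh, map_one]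
  have hεS : ∀ k, (c.pc r k).ε * (c.pc r k).ε = 1 := fun k => by
    simp only [HopSetup.pc]
    rw [← Int.cast_mul, c.hε, Int.cast_one]
  have hconst : ∀ k, ∃ u : S[r]ˣ, ∃ n : ℕ,
      2 * (c.pc r k).ε * (((c.pc r k).l : S[r]) + 1) = (u : S[r]) * MvPowerSeries.C c.ϖ ^ n := fun k => by
    obtain ⟨n, u, hu⟩ := IsDiscreteValuationRing.eq_unit_mul_pow_irreducible (hnat k) c.hϖ
    refine ⟨Units.map (MvPowerSeries.C (σ := Fin r) (R := O)).toMonoidHom u, n, ?_⟩
    have h1 := congrArg (MvPowerSeries.C (σ := Fin r) (R := O)) hu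
    simp only [map_mul, map_add, map_intCast, map_natCast, map_one, map_ofNat, map_pow] at h1
    exact h1
  have hwe : e.det ∈ RingHom.ker φO ⊔ Ideal.span {w} := by
    rcases c.qidx.eq_none_or_eq_some with hn | ⟨k₀, hk₀⟩
    · rw [hwnone hn]
      exact Ideal.mem_sup_right (Ideal.mem_span_singleton_self _)
    · rw [hwsome k₀ hk₀]
      have h1 := hrelO _ (Or.inr ⟨k₀, hk₀, Or.inr (Or.inr (Or.inr (Or.inr rfl)))⟩)
      have h2 := add_mem
        (Ideal.mem_sup_left (T := Ideal.span {(c.xP g r k₀).w}) (RingHom.mem_ker.2 h1))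
        (Ideal.mem_sup_right (S := RingHom.ker φO) (Ideal.mul_mem_left _
          (MvPolynomial.X HopVar.cof) (Ideal.mul_mem_right
            ((c.xP g r k₀).w + algebraMap S[r] P
              (2 * (c.pc r k₀).ε * (((c.pc r k₀).l : S[r]) + 1))) _
            (Ideal.mem_span_singleton_self (c.xP g r k₀).w))))
      rwa [HopSetup.specP, sub_add_cancel] at h2
  obtain ⟨Q, hQ, hkQ, hQa, hQw⟩ := exists_new_prime C (MvPowerSeries.C c.ϖ) (prime_C c.hϖ r)
    MvPowerSeries.X hC 𝔞 φO φA φN D.ι D.π D.j sπ hsπ sι hsι hexact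
    (fun t => (hint t).1) (fun t => (hint t).2) hintj e hπι hdet (c.pc r) (c.xP g r) c.qidx hscal
    (MvPowerSeries.C c.h) hhS hεS hlone hconst
    (fun k h0 => hnat k (by rw [← hcc]; exact h0))
    (fun j : Fin g => MvPolynomial.X (HopVar.test j)) hcount w hwe hwsome
    (hrels _ φO fun z hz => hrelO z (Or.inl (Or.inl (Or.inl hz))))
    (fun k₀ hk₀ => Ideal.span_le.2 (by
      simp only [Set.insert_subset_iff, Set.singleton_subset_iff, SetLike.mem_coe,
        RingHom.mem_ker]
      exact ⟨hrelO _ (Or.inr ⟨k₀, hk₀, Or.inl rfl⟩),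
        hrelO _ (Or.inr ⟨k₀, hk₀, Or.inr (Or.inl rfl)⟩),
        hrelO _ (Or.inr ⟨k₀, hk₀, Or.inr (Or.inr (Or.inl rfl))⟩)⟩))
    (hrels _ φN fun z hz => hrelN z (Or.inl (Or.inl hz)))
    (fun k₀ hk₀ => RingHom.mem_ker.2 (hrelN _ (Or.inr ⟨k₀, hk₀, rfl⟩)))
    hnil hy Q₀ (fun z hz => hmemQ₀ z (hevO0 z hz)) hQ₀a hQ₀w
  -- the new point
  have hsurjN : Function.Surjective evN := by
    let R : Subalgebra O H.new.T :=
      { evN.range.toSubsemiring with
        algebraMap_mem' := fun a => ⟨algebraMap S[r] P (MvPowerSeries.C a),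
          by rw [(hevC _).2]; simp [cc]⟩ }
    have htop : Algebra.adjoin O (Set.range fun t => H.new.ρ.trace (c.τ t)) ≤ R :=
      Algebra.adjoin_le (by
        rintro _ ⟨t, rfl⟩
        refine ⟨MvPolynomial.X (HopVar.tr t), ?_⟩
        rw [(hevX _).2]
        have h2 := hs (HopVar.tr t)
        change s (HopVar.tr t) - H.all.ρ.trace (c.τ t) ∈ (⊥ : Submodule O H.all.T) at h2
        rw [Submodule.mem_bot, sub_eq_zero] at h2
        rw [h2, trace_comp_of_isEquiv H.resNew H.resNew_isLocalHom H.resNew_isEquiv])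
    intro z
    exact htop (hgen ▸ Algebra.mem_top)
  have hker : RingHom.ker evN ≤ Q := by
    intro z hz
    refine mem_of_range_le φN Q hkQ z fun v => ?_
    have h1 : ∀ i i', φN z i i' ∈ 𝔞 := fun i i' => by
      have h2 := congrFun (congrFun (hcompat z).2 i) i'
      rw [RingHom.mem_ker.1 hz, map_zero] at h2
      exact h2.symm
    rw [show (φN z).mulVec v = ∑ i, ((φN z).mulVec v i) • Pi.single i 1 from funext fun x => by
      simp [Finset.sum_apply, Pi.single_apply]]
    refine Submodule.sum_mem _ fun i _ => Submodule.subset_span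
      ⟨algebraMap S[r] P ((φN z).mulVec v i), ?_, Pi.single i 1, ?_⟩
    · rw [← Ideal.mem_comap, hQa]
      simp only [Matrix.mulVec, dotProduct]
      exact Ideal.sum_mem _ fun i' _ => Ideal.mul_mem_right _ _ (h1 i i')
    · rw [AlgHom.commutes, Algebra.algebraMap_eq_smul_one, Matrix.smul_mulVec, Matrix.one_mulVec]
  haveI := hQ
  let 𝔮 : Ideal H.new.T := Q.map evN
  haveI : 𝔮.IsPrime := Ideal.map_isPrime_of_surjective hsurjN hker
  have hcm : ∀ z, evN z ∈ 𝔮 → z ∈ Q := fun z hz => by
    have h1 : z ∈ (Q.map evN).comap evN := hz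
    rwa [Ideal.comap_map_of_surjective _ hsurjN, ← RingHom.ker_eq_comap_bot, sup_of_le_left hker]
      at h1
  have hinj' : Function.Injective (algebraMap O (H.new.T ⧸ 𝔮)) := by
    rw [injective_iff_map_eq_zero]
    intro a ha
    have h1 : evN (algebraMap S[r] P (MvPowerSeries.C a)) ∈ 𝔮 := by
      rw [← Ideal.Quotient.eq_zero_iff_mem, (hevC _).2]
      simpa [cc] using ha
    have h2 : algebraMap S[r] P (MvPowerSeries.C a) ∈ Q := hcm _ h1
    rw [← Ideal.mem_comap, hQa] at h2
    simpa [𝔞, cc] using h2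
  refine ⟨H.new.T ⧸ 𝔮, inferInstance, inferInstance, charZero_of_injective_ringHom hinj',
    inferInstance, Ideal.Quotient.mkₐ O 𝔮, fun l hl => ?_⟩
  obtain ⟨k, rfl⟩ : ∃ k, c.ls k = l := by
    have : l ∈ Set.range c.ls := by rw [c.hls]; exact hl
    exact this
  have hwN : evN (c.xP g r k).w =
      H.new.ρ.trace (c.P.φ (c.ls k)) - (c.ε (c.ls k) : H.new.T) * ((c.ls k : H.new.T) + 1) := by
    rw [show evN (c.xP g r k).w = H.resNew (c.baseCoords k).w from
      congrArg Coords.w (hxO k).2, HopSetup.baseCoords, coordsAt_w, map_sub,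
      trace_comp_of_isEquiv H.resNew H.resNew_isLocalHom H.resNew_isEquiv, map_mul, map_add,
      map_intCast, map_natCast, map_one]
  have h3 : evN (c.xP g r k).w ∈ 𝔮 := Ideal.mem_map_of_mem _ (hQw k)
  rw [hwN, ← Ideal.Quotient.eq_zero_iff_mem, map_sub, sub_eq_zero] at h3
  rw [Ideal.Quotient.mkₐ_eq_mk, h3]
  simp

end FLTAgent.Lower.Lift
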