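import Fermat.Agent.Lower.Levels.Construct
import Fermat.Agent.Lower.Levels.Galois
import Fermat.Agent.Lower.Lift.Defs

/-!
# Deformation conditions of the representations of lattices

The representation of a Hecke lattice at level `M` satisfies `Cond loc p U S` once it has the
local type at `p` and the primes of `U` divide `M` exactly once (`cond_of_isRep`);
`cond_of_levelCase` applies this in the two cases at `p`: flatness follows from `p ∤ M`, strict
ordinarity is taken as a hypothesis.
-/

set_option autoImplicit false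
set_option linter.unusedSectionVars false
set_option linter.style.haveILetI false

noncomputable section

namespace FLTAgent.Lower.Lift

open IsLocalRing (maximalIdeal ResidueField)
open FLTAgent.Lower FLTAgent.Lower.Levels

variable {O : Type} [CommRing O] [IsDomain O] [IsDiscreteValuationRing O]
  [IsAdicComplete (maximalIdeal O) O] [Finite (ResidueField O)] [CharZero O]
  {p : ℕ} [Fact p.Prime] {ρbar : ResidualGaloisRep (ResidueField O)}

theorem prime_of_mem_unipPrimes {N l : ℕ} (hl : l ∈ unipPrimes p N) :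
    l.Prime ∧ l ≠ p ∧ l ∣ N :=
  ⟨Nat.prime_of_mem_primeFactors (Finset.mem_erase.mp hl).2, (Finset.mem_erase.mp hl).1,
    Nat.dvd_of_mem_primeFactors (Finset.mem_erase.mp hl).2⟩

/-- Multiplying by a number prime to `l` keeps `l` exactly once. -/
theorem not_sq_dvd_mul {l N Q : ℕ} (hl : l.Prime) (hN : Squarefree N) (hlQ : ¬ l ∣ Q) :
    ¬ l ^ 2 ∣ N * Q := fun h =>
  hl.not_isUnit (hN l (sq l ▸ ((hl.coprime_iff_not_dvd.mpr hlQ).pow_left 2).dvd_of_dvd_mul_right h))

variable {M : ℕ} [NeZero M] {S : Finset ℕ} {R : Type} [CommRing R] [Algebra O R] [Nontrivial R]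
  [Module.Finite O R] [Module.Free O R] {d : ℕ} [NeZero d]
  {X : HeckeLattice p M S ρbar R d} {f : ℤ_[p] →+* O} {ρ : GaloisRepAdic X.T}

/-- A local condition gives the deformation condition. -/
theorem cond_of_isRep (h : X.IsRep f ρ) (habs : ρbar.IsAbsolutelyIrreducible) {loc : LocalType}
    (hloc : loc.cond ρ) {U : Finset ℕ} (hU : ∀ l ∈ U, l.Prime ∧ l ≠ p ∧ l ∣ M ∧ ¬ l ^ 2 ∣ M) :
    Cond loc p U S ρ := by
  haveI : Module.Free O (Matrix (Fin d) (Fin d) R) :=
    inferInstanceAs (Module.Free O (Fin d → Fin d → R))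
  exact cond_of_attached h.attached (h.residual_absIrr habs) hloc hU fun l hl hlS =>
    ⟨fun he => hlS (he ▸ X.p_mem), fun hd => hlS (X.level_mem l hl hd)⟩

/-- The deformation condition in the cases at `p`, given strict ordinarity in the second. -/
theorem cond_of_levelCase (hp : (p : O) ∈ maximalIdeal O) (hp2 : p ≠ 2) (h : X.IsRep f ρ)
    (habs : ρbar.IsAbsolutelyIrreducible) {N : ℕ} {loc : LocalType}
    (hlc : LevelCase p N ρbar loc) (hpM : ¬ p ∣ N → ¬ p ∣ M)
    (hU : ∀ l : ℕ, l.Prime → l ∣ N → l ≠ p → l ∣ M ∧ ¬ l ^ 2 ∣ M)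
    (hord : p ∣ N → NoSystemPrimeTo p ρbar → ρ.IsStrictOrdinaryAt p) :
    Cond loc p (unipPrimes p N) S ρ := by
  haveI : Module.Finite O (Matrix (Fin d) (Fin d) R) :=
    inferInstanceAs (Module.Finite O (Fin d → Fin d → R))
  haveI : Module.Free O (Matrix (Fin d) (Fin d) R) :=
    inferInstanceAs (Module.Free O (Fin d → Fin d → R))
  haveI : Module.Free O X.T := free_imgRing X.act
  have hU' : ∀ l ∈ unipPrimes p N, l.Prime ∧ l ≠ p ∧ l ∣ M ∧ ¬ l ^ 2 ∣ M := fun l hl => by
    obtain ⟨h1, h2, h3⟩ := prime_of_mem_unipPrimes hl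
    exact ⟨h1, h2, hU l h1 h3 h2⟩
  cases hlc with
  | flat hpN =>
    exact cond_flat_of_attached hp hp2 (hpM hpN) h.attached (h.residual_absIrr habs) hU' fun l hl hlS =>
      ⟨fun he => hlS (he ▸ X.p_mem), fun hd => hlS (X.level_mem l hl hd)⟩
  | ord hpN hno => exact cond_of_isRep h habs (hord hpN hno) hU'

end FLTAgent.Lower.Lift
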