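import Fermat.Agent.Lower.Lift.Systems
import Fermat.Agent.Lower.Levels.GalH

/-!
# Residual modularity passes to multiples of the level

For `N ∣ M` the Hecke operators of level `M` prime to a set containing the primes of `M` preserve
the old classes in the period lattice, so there is a ring map between the Hecke algebras
(`exists_heckeAlgebra_dvd`); composing a residual system of level `N` with it gives
`isResiduallyModularOfLevel_of_dvd_up`.
-/

set_option autoImplicit false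
set_option linter.style.haveILetI false
set_option linter.unusedSectionVars false

noncomputable section

namespace FLTAgent.Lower.Lift

open FLTAgent.ResidualSetup (IsModRep)
open CuspForm (heckeAlgebra heckeAlgebra_mono)

local notation "ℚ̄" => AlgebraicClosure ℚ
local notation "Γℚ" => (AlgebraicClosure ℚ ≃ₐ[ℚ] AlgebraicClosure ℚ)

/-- The action of the Hecke operators prime to `S` on the period lattice. -/
def awayEnd (N : ℕ) [NeZero N] (S : Set ℕ) :
    ↥(heckeAlgebra N 2 S) →+* Module.End ℤ (Period.H N ℤ ℤ) :=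
  (HeckeH.heckeEnd N ℤ ℤ).comp
    (Subalgebra.inclusion (heckeAlgebra_mono (Set.empty_subset S))).toRingHom

theorem awayEnd_T {N : ℕ} [NeZero N] {S : Set ℕ} {l : ℕ} (hl : l.Prime) (hlN : ¬ l ∣ N)
    (hlS : l ∉ S) : awayEnd N S (heckeAlgebra.T hl hlN hlS) = HeckeH.heckeH N hl ℤ ℤ :=
  HeckeH.heckeEnd_T N hl hlN (Set.notMem_empty l) ℤ ℤ

theorem awayEnd_injective (N : ℕ) [NeZero N] (S : Set ℕ) : Function.Injective (awayEnd N S) :=
  (HeckeH.heckeEnd_injective N).comp (Subalgebra.inclusion_injective _)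

/-- Each operator of the multiple of the level preserves old classes. -/
theorem exists_awayEnd_old {N M : ℕ} [NeZero N] [NeZero M] (h : N * 1 ∣ M) (S : Finset ℕ)
    (hS : ∀ l : ℕ, l.Prime → l ∣ M → l ∈ S) (t : ↥(heckeAlgebra M 2 (↑S : Set ℕ))) :
    ∃ u : ↥(heckeAlgebra N 2 (↑S : Set ℕ)), ∀ φ,
      Degen.degH ℤ ℤ 1 h (awayEnd N _ u φ) = awayEnd M _ t (Degen.degH ℤ ℤ 1 h φ) := by
  have hNM : N ∣ M := by simpa using h
  obtain ⟨t, ht⟩ := t
  induction ht using Algebra.adjoin_induction with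
  | mem x hx =>
    rcases hx with ⟨l, hl, hlM, hlS, rfl⟩ | ⟨q, hqM, hq, hqS, rfl⟩
    · refine ⟨heckeAlgebra.T hl (fun hd => hlM (hd.trans hNM)) hlS, fun φ => ?_⟩
      rw [awayEnd_T hl (fun hd => hlM (hd.trans hNM)) hlS]
      erw [awayEnd_T hl hlM hlS]
      exact Degen.heckeH_degH hl 1 h (fun hd => hlM (hd.trans hNM)) hlM φ
    · exact absurd (Finset.mem_coe.2 (hS q hq hqM)) hqS
  | algebraMap r =>
    refine ⟨r, fun φ => ?_⟩
    generalize ht : (⟨algebraMap ℤ (Module.End ℂ (CuspForm (CongruenceSubgroup.Gamma0 M) 2)) r,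
      Subalgebra.algebraMap_mem _ r⟩ : ↥(heckeAlgebra M 2 (↑S : Set ℕ))) = t
    have e : t = (r : ↥(heckeAlgebra M 2 (↑S : Set ℕ))) :=
      ht.symm.trans (Subtype.ext (by simp))
    rw [e, map_intCast (awayEnd M _), map_intCast (awayEnd N _), Module.End.intCast_apply,
      Module.End.intCast_apply, map_zsmul]
  | add x y hx hy ihx ihy =>
    obtain ⟨a, ha⟩ := ihx
    obtain ⟨b, hb⟩ := ihy
    refine ⟨a + b, fun φ => ?_⟩
    rw [show (⟨x + y, add_mem hx hy⟩ : ↥(heckeAlgebra M 2 (↑S : Set ℕ))) = ⟨x, hx⟩ + ⟨y, hy⟩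
      from rfl, (awayEnd M _).map_add, (awayEnd N _).map_add, LinearMap.add_apply,
      LinearMap.add_apply, map_add]
    exact congrArg₂ (· + ·) (ha φ) (hb φ)
  | mul x y hx hy ihx ihy =>
    obtain ⟨a, ha⟩ := ihx
    obtain ⟨b, hb⟩ := ihy
    refine ⟨a * b, fun φ => ?_⟩
    rw [show (⟨x * y, mul_mem hx hy⟩ : ↥(heckeAlgebra M 2 (↑S : Set ℕ))) = ⟨x, hx⟩ * ⟨y, hy⟩
      from rfl, (awayEnd M _).map_mul, (awayEnd N _).map_mul, Module.End.mul_apply,
      Module.End.mul_apply]
    exact (ha _).trans (congrArg (fun z => awayEnd M _ ⟨x, hx⟩ z) (hb φ))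

set_option maxHeartbeats 1000000 in
/-- The Hecke algebra of a multiple of the level maps to that of the level. -/
theorem exists_heckeAlgebra_dvd {N M : ℕ} [NeZero N] [NeZero M] (h : N ∣ M) (S : Finset ℕ)
    (hS : ∀ l : ℕ, l.Prime → l ∣ M → l ∈ S) :
    ∃ r : ↥(heckeAlgebra M 2 (↑S : Set ℕ)) →+* ↥(heckeAlgebra N 2 (↑S : Set ℕ)),
      ∀ (l : ℕ) (hl : l.Prime) (hlM : ¬ l ∣ M) (hlN : ¬ l ∣ N) (hlS : l ∉ (↑S : Set ℕ)),
        r (heckeAlgebra.T hl hlM hlS) = heckeAlgebra.T hl hlN hlS := by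
  have h1 : N * 1 ∣ M := by rwa [mul_one]
  choose g hg using exists_awayEnd_old h1 S hS
  have huniq : ∀ t u, (∀ φ, Degen.degH ℤ ℤ 1 h1 (awayEnd N _ u φ) =
      awayEnd M _ t (Degen.degH ℤ ℤ 1 h1 φ)) → g t = u := fun t u hu =>
    awayEnd_injective N _ (LinearMap.ext fun φ =>
      Levels.degH_injective 1 h1 ((hg t φ).trans (hu φ).symm))
  refine ⟨
    { toFun := g
      map_one' := huniq 1 1 fun φ => ?_
      map_mul' := fun s t => huniq (s * t) (g s * g t) fun φ => ?_
      map_zero' := huniq 0 0 fun φ => ?_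
      map_add' := fun s t => huniq (s + t) (g s + g t) fun φ => ?_ },
    fun l hl hlM hlN hlS => huniq _ _ fun φ => ?_⟩
  · rw [(awayEnd M _).map_one, (awayEnd N _).map_one, Module.End.one_apply, Module.End.one_apply]
  · rw [(awayEnd M _).map_mul, (awayEnd N _).map_mul, Module.End.mul_apply, Module.End.mul_apply]
    exact (hg s _).trans (congrArg (fun z => awayEnd M _ s z) (hg t φ))
  · rw [(awayEnd M _).map_zero, (awayEnd N _).map_zero, LinearMap.zero_apply, LinearMap.zero_apply,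
      map_zero]
  · rw [(awayEnd M _).map_add, (awayEnd N _).map_add, LinearMap.add_apply, LinearMap.add_apply,
      map_add]
    exact congrArg₂ (· + ·) (hg s φ) (hg t φ)
  · rw [awayEnd_T hl hlN hlS, awayEnd_T hl hlM hlS]
    exact Degen.heckeH_degH hl 1 h1 hlN hlM φ

/-- Residual modularity of a level gives residual modularity of its multiples. -/
theorem isResiduallyModularOfLevel_of_dvd_up {p : ℕ} [Fact p.Prime] (hp2 : p ≠ 2)
    {W : WeierstrassCurve ℤ} (hΔ : W.Δ ≠ 0) (hirr : W.ModRepIsIrreducible p) {N M : ℕ}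
    [NeZero N] [NeZero M] (h : N ∣ M) (hmod : W.IsResiduallyModularOfLevel p N) :
    W.IsResiduallyModularOfLevel p M := by
  obtain ⟨ρbar, hmr⟩ := ResidualSetup.exists_isModRep (W := W) hΔ (RingHom.id (ZMod p))
  obtain ⟨θ, hθ⟩ := hasSystem_of_isResiduallyModularOfLevel hΔ hp2 hirr hmr hmod
  obtain ⟨r, hr⟩ := exists_heckeAlgebra_dvd h (levelPrimes p M) fun l hl hd =>
    Finset.mem_insert_of_mem (Nat.mem_primeFactors.2 ⟨hl, hd, NeZero.ne M⟩)
  have hsub : (↑(levelPrimes p N) : Set ℕ) ⊆ ↑(levelPrimes p M) :=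
    Finset.coe_subset.2 (Finset.insert_subset_insert _ (Nat.primeFactors_mono h (NeZero.ne M)))
  refine isResiduallyModularOfLevel_of_system hΔ hp2 hirr hmr (levelPrimes p M) (RingHom.id _)
    ((θ.comp (Subalgebra.inclusion (heckeAlgebra_mono hsub)).toRingHom).comp r)
    fun l hl hlM hlS A φ hA hφ => ?_
  have hlN : ¬ l ∣ N := fun hd => hlM (hd.trans h)
  rw [RingHom.comp_apply, hr l hl hlM hlN hlS, RingHom.id_apply]
  exact hθ l hl hlN (fun hm => hlS (hsub hm)) A φ hA hφ

end FLTAgent.Lower.Lift
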