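import Fermat.Agent.Lower.Lift.Defs
import Fermat.Agent.Lower.Lift.Iface.Mazur
import Fermat.Agent.Lower.Lift.Systems
import Fermat.Agent.Lower.Assembly

/-!
# The minimal level

`exists_minimal_level`: a residually modular semistable curve (`p` odd, irreducible) is residually
modular of a squarefree level whose primes are the residually ramified ones, and `p` only if no
system of level prime to `p` exists. One prime is removed at a time (`exists_removable`): by
Mazur's principle if some removable prime is not scalar, and by lifting to auxiliary levels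
(`exists_system_div`) if all of them are congruent to `1` mod `p` with scalar decomposition group.
-/

set_option autoImplicit false
set_option linter.style.haveILetI false
set_option linter.unusedSectionVars false

noncomputable section

namespace FLTAgent.Lower.Lift

open IsLocalRing (ResidueField maximalIdeal)
open FLTAgent.MazurP (TorsSpace modRep)
open FLTAgent.ResidualSetup (IsModRep)
open FLTAgent.Lower
open scoped WeierstrassCurve.Affine

local notation "ℚ̄" => AlgebraicClosure ℚ
local notation "Γℚ" => (AlgebraicClosure ℚ ≃ₐ[ℚ] AlgebraicClosure ℚ)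

/-- Scalars on the `p`-torsion are scalars on the mod `p` representation. -/
theorem exists_eq_smul_one_of_torsion {W : WeierstrassCurve ℤ} (hΔ : W.Δ ≠ 0) {p : ℕ}
    [Fact p.Prime] {k : Type} [Field k] {i : ZMod p →+* k} {ρbar : ResidualGaloisRep k}
    (hmr : IsModRep W p i ρbar) {σ : Γℚ} {c : ℤ}
    (h : ∀ x : TorsSpace W p, σ • x = c • x) : ρbar.ρ σ = (c : k) • 1 := by
  haveI := MazurP.moduleFinite_torsSpace (p := p) hΔ
  let b := Module.finBasisOfFinrankEq _ _ (MazurP.finrank_torsSpace (p := p) hΔ)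
  obtain ⟨B, hB⟩ := hmr b
  have h1 : modRep W p σ = (c : ZMod p) • 1 := by
    refine LinearMap.ext fun x => Subtype.ext ?_
    rw [LinearMap.smul_apply, Module.End.one_apply, Int.cast_smul_eq_zsmul]
    exact congrArg Subtype.val (h x)
  refine (LinearMap.toMatrix B B).injective ?_
  rw [hB, h1, map_smul, map_smul, LinearMap.toMatrix_one, LinearMap.toMatrix_one]
  ext a b
  rw [Matrix.map_apply, Matrix.smul_apply, Matrix.smul_apply, Matrix.one_apply, Matrix.one_apply]
  split <;> simp

variable {p : ℕ} [Fact p.Prime] {W : WeierstrassCurve ℤ}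
  {O : Type} [CommRing O] [IsDomain O] [IsDiscreteValuationRing O]
  [IsAdicComplete (maximalIdeal O) O] [Finite (ResidueField O)] [CharZero O]

/-- One step: a prime outside the ramified ones and `p` can be removed. -/
theorem exists_removable (hp2 : p ≠ 2) (hΔ : W.Δ ≠ 0) (hW : W.IsSemistableModel)
    (hirr : W.ModRepIsIrreducible p) (hpO : (p : O) ∈ maximalIdeal O)
    {N : ℕ} [NeZero N] (hN : Squarefree N)
    (hroot : ∀ l ∈ N.primeFactors, p ∣ l - 1 →
      ∃ c : O, IsPrimitiveRoot c (p ^ padicValNat p (l - 1)))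
    {ρbar : ResidualGaloisRep (ResidueField O)} {i : ZMod p →+* ResidueField O}
    (hmr : IsModRep W p i ρbar) (hR : Residual p (minPrimes W p) ρbar)
    (hnosys : p ∣ N → NoSystemPrimeTo p ρbar)
    (hres : W.IsResiduallyModularOfLevel p N)
    (hne : ¬ N.primeFactors ⊆ insert p (minPrimes W p)) :
    ∃ l ∈ N.primeFactors, l ∉ insert p (minPrimes W p) ∧
      W.IsResiduallyModularOfLevel p (N / l) := by
  classical
  let Saux := N.primeFactors \ insert p (minPrimes W p)
  have hmem : ∀ l ∈ Saux, l.Prime ∧ l ∣ N ∧ l ≠ p ∧ l ∉ minPrimes W p := fun l hl => by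
    obtain ⟨h1, h2⟩ := Finset.mem_sdiff.1 hl
    exact ⟨Nat.prime_of_mem_primeFactors h1, Nat.dvd_of_mem_primeFactors h1,
      fun h => h2 (h ▸ Finset.mem_insert_self _ _), fun h => h2 (Finset.mem_insert_of_mem h)⟩
  let Scal : ℕ → Prop := fun l => p ∣ l - 1 ∧ ∀ A : ValuationSubring ℚ̄, A.LiesOverPrime l →
    ∀ σ ∈ A.decompositionSubgroup ℚ, ∃ c : ℤ,
      ∀ x : Submodule.torsionBy ℤ ((W.map (Int.castRingHom ℚ))⁄ℚ̄).Point p, σ • x = c • x
  by_cases hall : ∀ l ∈ Saux, Scal l
  · -- all of them are scalar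
    have hmin := minPrimes_subset_primeFactors hΔ hp2 hirr hmr hR hres
    have hgood : GoodResidual p (minPrimes W p) Saux ρbar :=
      { absIrr := hR.absIrr
        det := hR.det
        split := hR.split
        big := hR.big
        min_prime := hR.min_prime
        ramified := hR.ramified
        unipotent := hR.unipotent
        unramified := hR.unramified
        aux_prime := fun l hl => ⟨(hmem l hl).1, (hmem l hl).2.2.1, (hmem l hl).2.2.2⟩
        one_mod := fun l hl => (hall l hl).1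
        scalar := fun l hl A hA τ hτ => by
          obtain ⟨c, hc⟩ := (hall l hl).2 A hA τ hτ
          exact ⟨c, exists_eq_smul_one_of_torsion hΔ hmr hc⟩ }
    have hprimes : minPrimes W p ∪ Saux = N.primeFactors.erase p := by
      ext l
      simp only [Saux, Finset.mem_union, Finset.mem_sdiff, Finset.mem_insert, Finset.mem_erase,
        not_or]
      constructor
      · rintro (h | ⟨h, h', -⟩)
        · exact ⟨(hR.min_prime l h).2, hmin h⟩
        · exact ⟨h', h⟩
      · rintro ⟨h', h⟩
        by_cases hl : l ∈ minPrimes W p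
        · exact Or.inl hl
        · exact Or.inr ⟨h, h', hl⟩
    obtain ⟨q, hqN, hq⟩ := Finset.not_subset.1 hne
    have hqS : q ∈ Saux := Finset.mem_sdiff.2 ⟨hqN, hq⟩
    obtain ⟨loc, hloc⟩ : ∃ loc, LevelCase p N ρbar loc := by
      by_cases hpN : p ∣ N
      · exact ⟨_, LevelCase.ord hpN (hnosys hpN)⟩
      · exact ⟨_, LevelCase.flat hpN⟩
    haveI : NeZero (N / q) := ⟨(Nat.div_pos (Nat.le_of_mem_primeFactors hqN)
      (Nat.pos_of_mem_primeFactors hqN)).ne'⟩
    obtain ⟨k', _, j, θ, hθ⟩ := exists_system_div hp2 hpO hN hprimes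
      (fun l hl => hroot l (Finset.mem_sdiff.1 hl).1 (hall l hl).1) hgood hloc
      (hasSystem_of_isResiduallyModularOfLevel hΔ hp2 hirr hmr hres) hqS
    exact ⟨q, hqN, hq, isResiduallyModularOfLevel_of_system hΔ hp2 hirr hmr _ j θ hθ⟩
  · -- Mazur's principle
    push Not at hall
    obtain ⟨l, hl, hns⟩ := hall
    obtain ⟨hlp, hlN, hne', hlmin⟩ := hmem l hl
    refine ⟨l, (Finset.mem_sdiff.1 hl).1, (Finset.mem_sdiff.1 hl).2,
      isResiduallyModularOfLevel_div_of_not_scalar hp2 W hΔ hW hirr hN hlp hne' hlN ?_ hres hns⟩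
    by_cases hbad : (l : ℤ) ∣ W.Δ
    · by_contra hv
      refine hlmin (Finset.mem_filter.2 ⟨Finset.mem_erase.2 ⟨hne', ?_⟩, hv⟩)
      exact Nat.mem_primeFactors.2 ⟨hlp, Int.natCast_dvd.1 hbad, Int.natAbs_ne_zero.2 hΔ⟩
    · rw [padicValInt.eq_zero_of_not_dvd hbad]
      exact dvd_zero p

/-- The lowered level, from the residual hypotheses alone. -/
theorem exists_minimal_level_of_residual (hp2 : p ≠ 2) (hΔ : W.Δ ≠ 0) (hW : W.IsSemistableModel)
    (hirr : W.ModRepIsIrreducible p) {M : ℕ} [NeZero M] (hM : Squarefree M)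
    (hMmin : p ∣ M → ∀ M' : ℕ, 0 < M' → Squarefree M' → ¬ p ∣ M' →
      ¬ W.IsResiduallyModularOfLevel p M')
    (hres : W.IsResiduallyModularOfLevel p M) (hpO : (p : O) ∈ maximalIdeal O)
    (hroot : ∀ l ∈ M.primeFactors, p ∣ l - 1 →
      ∃ c : O, IsPrimitiveRoot c (p ^ padicValNat p (l - 1)))
    {ρbar : ResidualGaloisRep (ResidueField O)} {i : ZMod p →+* ResidueField O}
    (hmr : IsModRep W p i ρbar) (hR : Residual p (minPrimes W p) ρbar) :
    ∃ (N : ℕ) (_ : NeZero N), N ∣ M ∧ minPrimes W p ⊆ N.primeFactors ∧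
      N.primeFactors ⊆ insert p (minPrimes W p) ∧ W.IsResiduallyModularOfLevel p N ∧
      HasSystem p N ρbar ∧ (p ∣ N → NoSystemPrimeTo p ρbar) := by
  have hnosys : p ∣ M → NoSystemPrimeTo p ρbar := fun hp M' _ hsf hpM' hsys =>
    hMmin hp M' (Nat.pos_of_ne_zero (NeZero.ne M')) hsf hpM'
      (isResiduallyModularOfLevel_of_hasSystem hΔ hp2 hirr hmr hsys)
  suffices ∀ N, N ∣ M → W.IsResiduallyModularOfLevel p N →
      ∃ N', N' ∣ N ∧ N'.primeFactors ⊆ insert p (minPrimes W p) ∧
        W.IsResiduallyModularOfLevel p N' by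
    obtain ⟨N, hN, hsub, hmod⟩ := this M dvd_rfl hres
    haveI : NeZero N := ⟨fun h => NeZero.ne M (zero_dvd_iff.1 (h ▸ hN))⟩
    exact ⟨N, inferInstance, hN, minPrimes_subset_primeFactors hΔ hp2 hirr hmr hR hmod, hsub,
      hmod, hasSystem_of_isResiduallyModularOfLevel hΔ hp2 hirr hmr hmod,
      fun h => hnosys (h.trans hN)⟩
  intro N
  induction N using Nat.strong_induction_on with
  | _ N IH =>
    intro hNM hmod
    by_cases hsub : N.primeFactors ⊆ insert p (minPrimes W p)
    · exact ⟨N, dvd_rfl, hsub, hmod⟩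
    haveI : NeZero N := ⟨fun h => NeZero.ne M (zero_dvd_iff.1 (h ▸ hNM))⟩
    obtain ⟨l, hl, -, hmod'⟩ := exists_removable hp2 hΔ hW hirr hpO (hM.squarefree_of_dvd hNM)
      (fun l hl => hroot l (Nat.primeFactors_mono hNM (NeZero.ne M) hl)) hmr hR
      (fun h => hnosys (h.trans hNM)) hmod hsub
    have hlN := Nat.dvd_of_mem_primeFactors hl
    obtain ⟨N', h1, h2⟩ := IH (N / l)
      (Nat.div_lt_self (Nat.pos_of_ne_zero (NeZero.ne N)) (Nat.prime_of_mem_primeFactors hl).one_lt)
      ((Nat.div_dvd_of_dvd hlN).trans hNM) hmod'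
    exact ⟨N', h1.trans (Nat.div_dvd_of_dvd hlN), h2⟩

/-- The residual trace of a representation with the traces of the curve. -/
theorem trace_residual_eq {ρbar : ResidualGaloisRep (ResidueField O)} {ρ : GaloisRepAdic O}
    (he : ρ.residual.IsEquiv ρbar) (σ : Γℚ) :
    LinearMap.trace (ResidueField O) ρbar.V (ρbar.ρ σ) = IsLocalRing.residue O (ρ.trace σ) := by
  obtain ⟨e⟩ := he
  have h : ρbar.ρ σ = e.toLinearEquiv.conj (ρ.residual.ρ σ) := LinearMap.ext fun x => by
    rw [LinearEquiv.conj_apply_apply, e.map_apply, LinearEquiv.apply_symm_apply]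
  rw [h, LinearMap.trace_conj']
  exact LinearMap.trace_baseChange _ _

/-- The minimal level: the residually ramified primes, and `p` exactly when no system of level
prime to `p` exists. -/
theorem exists_minimal_level {p : ℕ} [Fact p.Prime] (hp2 : p ≠ 2) (W : WeierstrassCurve ℤ)
    (hΔ : W.Δ ≠ 0) (hW : W.IsSemistableModel) (hirr : W.ModRepIsIrreducible p)
    {M : ℕ} [NeZero M] (hM : Squarefree M) (hMp : W.IsGoodPrimeFor p → ¬ p ∣ M)
    (hMmin : p ∣ M → ∀ M' : ℕ, 0 < M' → Squarefree M' → ¬ p ∣ M' →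
      ¬ W.IsResiduallyModularOfLevel p M')
    (hres : W.IsResiduallyModularOfLevel p M)
    {O : Type} [CommRing O] [IsDomain O] [IsDiscreteValuationRing O]
    [IsAdicComplete (maximalIdeal O) O] [Finite (ResidueField O)] [CharZero O]
    (hpO : (p : O) ∈ maximalIdeal O)
    (hroot : ∀ l ∈ M.primeFactors, p ∣ l - 1 →
      ∃ c : O, IsPrimitiveRoot c (p ^ padicValNat p (l - 1)))
    (ρbar : ResidualGaloisRep (ResidueField O)) (ρ : GaloisRepAdic O)
    (hρ : CurveRep W p ρbar ρ) :
    ∃ (N : ℕ) (_ : NeZero N), Squarefree N ∧ minPrimes W p ⊆ N.primeFactors ∧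
      N.primeFactors ⊆ insert p (minPrimes W p) ∧ HasSystem p N ρbar ∧
      (p ∣ N → (p : ℤ) ∣ W.Δ ∧ NoSystemPrimeTo p ρbar) := by
  haveI : CharP (ResidueField O) p := (CharP.charP_iff_prime_eq_zero Fact.out).2 (by
    rw [← map_natCast (IsLocalRing.residue O), IsLocalRing.residue_eq_zero_iff]
    exact hpO)
  have hmr : IsModRep W p (ZMod.castHom (dvd_refl p) (ResidueField O)) ρbar :=
    isModRep_of_frobenius hΔ hp2 hirr _ hρ.residual.det ∅ fun l hl _ hgood hlp A φ hA hφ => by
      rw [trace_residual_eq hρ.residual_isEquiv, hρ.trace_frob l hl hgood hlp A φ hA hφ, map_intCast]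
  obtain ⟨N, hN, hNM, hmin, hsub, -, hsys, hno⟩ :=
    exists_minimal_level_of_residual hp2 hΔ hW hirr hM hMmin hres hpO hroot hmr hρ.residual
  exact ⟨N, hN, hM.squarefree_of_dvd hNM, hmin, hsub, hsys,
    fun h => ⟨not_not.1 fun hg => hMp hg (h.trans hNM), hno h⟩⟩

end FLTAgent.Lower.Lift
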