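import Fermat.Agent.Lower.Lift.Raise
import Fermat.Agent.Lower.Lift.FinalPoint
import Fermat.Agent.Lower.Lift.Lowering
import Fermat.Agent.Lower.Lift.Coeff
import Fermat.Agent.Lower.Lift.Iface.Curve
import Fermat.Agent.Mod2.TwoExit

/-!
# Modularity lifting at `3` and `5`

`modular_of_residual`: a semistable curve whose mod `p` representation (`p = 3, 5`) is irreducible
and residually modular of squarefree level is modular of some cube-free level. The level is
lowered to the residually ramified primes (`exists_minimal_level`); the other bad primes are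
raised one at a time, keeping a point with the signs of the curve (`exists_raise_all`, the signs
from `exists_sign`), and `p` last when the curve is multiplicative there; finally the curve itself
is found among the points (`modular_of_signedPoint`).
-/

set_option autoImplicit false
set_option linter.style.haveILetI false
set_option linter.unusedSectionVars false

noncomputable section

namespace FLTAgent.Lower.Lift

open IsLocalRing (maximalIdeal ResidueField)
open FLTAgent.Lower
open WeierstrassCurve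

local notation "ℚ̄" => AlgebraicClosure ℚ
local notation "Γℚ" => (AlgebraicClosure ℚ ≃ₐ[ℚ] AlgebraicClosure ℚ)

/-- A nonzero nilpotent `N` with `F N = l N F` and `det F = l` forces `tr F = ± (l + 1)`. -/
theorem trace_eq_of_twist {R : Type} [CommRing R] [IsDomain R] {l : R} (hl : l ≠ 0)
    {a b c x y z w : R} (hsq : a * a + b * c = 0) (hne : ¬ (a = 0 ∧ b = 0 ∧ c = 0))
    (h00 : x * a + y * c = l * (a * x + b * z)) (h01 : x * b - y * a = l * (a * y + b * w))
    (h10 : z * a + w * c = l * (c * x - a * z)) (h11 : z * b - w * a = l * (c * y - a * w))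
    (hdet : x * w - y * z = l) :
    ∃ e : ℤ, e * e = 1 ∧ x + w = (e : R) * (l + 1) := by
  by_cases hb : b = 0
  · subst hb
    have ha : a = 0 := mul_self_eq_zero.1 (by simpa using hsq)
    subst ha
    have hc : c ≠ 0 := fun h => hne ⟨rfl, rfl, h⟩
    have hy : y = 0 := by
      have : y * c = 0 := by linear_combination h00
      exact (mul_eq_zero.1 this).resolve_right hc
    have hw : w = l * x := mul_right_cancel₀ hc (by linear_combination h10)
    subst hy hw
    have h1 : x * x = 1 := mul_left_cancel₀ hl (by linear_combination hdet)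
    rcases mul_self_eq_one_iff.1 h1 with rfl | rfl
    · exact ⟨1, rfl, by push_cast; ring⟩
    · exact ⟨-1, rfl, by push_cast; ring⟩
  · set s := a * y + b * w with hs
    have h1 : s * s = b * b := mul_left_cancel₀ hl (by
      simp only [hs] at h01 ⊢
      linear_combination b * b * hdet + (-(b * w)) * h01 + b * y * h11 + (l * y * y) * hsq)
    rcases mul_self_eq_mul_self_iff.1 h1 with h | h
    · refine ⟨1, rfl, mul_right_cancel₀ hb ?_⟩
      simp only [hs] at h01 h
      push_cast
      linear_combination h01 + (l + 1) * h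
    · refine ⟨-1, rfl, mul_right_cancel₀ hb ?_⟩
      simp only [hs] at h01 h
      push_cast
      linear_combination h01 + (l + 1) * h

/-- A residual representation is its own base change along the identity. -/
theorem isEquiv_baseChangeAlong_id {k : Type} [Field k] (ρbar : ResidualGaloisRep k) (f : k →+* k)
    (hf : f = RingHom.id k) : ρbar.IsEquiv (ρbar.baseChangeAlong f) := by
  subst hf
  exact ⟨{ toLinearEquiv := (TensorProduct.lid k ρbar.V).symm
           map_apply := fun σ x => rfl }⟩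

variable {O : Type} [CommRing O] [IsDomain O] [IsDiscreteValuationRing O]
  [IsAdicComplete (maximalIdeal O) O] [Finite (ResidueField O)] [CharZero O] {p : ℕ}

/-- The sign of a ramified unipotent lift at a place. -/
theorem exists_sign {ρbar : ResidualGaloisRep (ResidueField O)} {ρ : GaloisRepAdic O}
    (hp : p.Prime) (hres : ρ.residual.IsEquiv ρbar) (hdet : ρ.DetIsCyclotomic p) {L : Finset ℕ}
    (P : Places p L) {l : ℕ} (hl : l ∈ L) (hlp : l.Prime) (hlne : l ≠ p)
    (hunr : ρbar.IsUnramifiedAt l) (hunip : ρ.IsUnipotentOnInertiaAt l)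
    (hram : ¬ ρ.IsUnramifiedAt l) :
    ∃ e : ℤ, e * e = 1 ∧ ρ.trace (P.φ l) = (e : O) * ((l : O) + 1) := by
  have he : ρ.residual.IsEquiv (ρbar.baseChangeAlong (ResidueField.map (algebraMap O O))) := by
    obtain ⟨e₁⟩ := hres
    obtain ⟨e₂⟩ := isEquiv_baseChangeAlong_id ρbar (ResidueField.map (algebraMap O O))
      (RingHom.ext fun z => by
        obtain ⟨a, rfl⟩ := IsLocalRing.residue_surjective z
        rfl)
    exact ⟨e₁.trans e₂⟩
  let b := Module.finBasisOfFinrankEq O ρ.V ρ.finrank_eq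
  have hent := entries_sub_one_inertia he b hunr (P.liesOver l hl)
  have hrel := tame_relation (P.tame l hl) hdet.1 hent
  have hne : ¬ ∀ i j, (matHom ρ b (P.σ l) - 1) i j = 0 := fun h0 => hram fun A hA τ hτ => by
    have h1 := inertia_mem_of_mem P b hl hlp hdet.1 hent ⊥
      (fun i j => (Submodule.mem_bot O).2 (h0 i j)) hA hτ b
    refine (LinearMap.toMatrix b b).injective ?_
    rw [LinearMap.toMatrix_one]
    exact sub_eq_zero.1 (Matrix.ext fun i j => (Submodule.mem_bot O).1 (h1 i j))
  have htS : (matHom ρ b (P.σ l)).trace = 2 := by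
    rw [trace_matHom]
    exact trace_inertia_eq_two (Or.inl hunip) (P.liesOver l hl) (P.mem l hl)
  have hdS : (matHom ρ b (P.σ l)).det = 1 := by
    rw [det_matHom]
    exact det_inertia hp hlp hlne (P.liesOver l hl) hdet (P.mem l hl)
  have hdF : (matHom ρ b (P.φ l)).det = (l : O) := by
    rw [det_matHom]
    exact det_frobenius hp hlp hlne (P.liesOver l hl) hdet (P.frob l hl)
  rw [← trace_matHom ρ b]
  generalize matHom ρ b (P.σ l) = S at hrel hne htS hdS
  generalize matHom ρ b (P.φ l) = F at hrel hdF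
  rw [Matrix.trace_fin_two] at htS ⊢
  rw [Matrix.det_fin_two] at hdS hdF
  have hN : (S - 1) * (S - 1) = 0 := by
    ext i j
    fin_cases i <;> fin_cases j <;>
      simp only [Matrix.mul_apply, Fin.sum_univ_two, Matrix.sub_apply, Matrix.zero_apply,
        Fin.zero_eta, Fin.mk_one, Fin.isValue, Matrix.one_apply_eq, Matrix.one_apply_ne,
        ne_eq, zero_ne_one, one_ne_zero, not_false_eq_true, sub_zero]
    · linear_combination (S 0 0) * htS - hdS
    · linear_combination (S 0 1) * htS
    · linear_combination (S 1 0) * htS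
    · linear_combination (S 1 1) * htS - hdS
  have hpow : ∀ n : ℕ, S ^ n = 1 + (n : O) • (S - 1) := fun n => by
    induction n with
    | zero => simp
    | succ n ih =>
      have h2 : S * (S - 1) = S - 1 := by
        have h3 : S * (S - 1) - (S - 1) = 0 := by rw [← hN]; noncomm_ring
        exact sub_eq_zero.1 h3
      rw [pow_succ', ih, mul_add, mul_one, mul_smul_comm, h2, Nat.cast_succ, add_smul, one_smul]
      abel
  rw [hpow] at hrel
  have hN' : F * (S - 1) = (l : O) • ((S - 1) * F) := by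
    rw [add_mul, one_mul, smul_mul_assoc] at hrel
    rw [mul_sub, mul_one, hrel, add_sub_cancel_left]
  refine trace_eq_of_twist (Nat.cast_ne_zero.2 hlp.ne_zero) (a := S 0 0 - 1) (b := S 0 1)
    (c := S 1 0) (y := F 0 1) (z := F 1 0) ?_ ?_ ?_ ?_ ?_ ?_ hdF
  · linear_combination (S 0 0) * htS - hdS
  · rintro ⟨h1, h2, h3⟩
    refine hne fun i j => ?_
    fin_cases i <;> fin_cases j <;> simp [h2, h3]
    · exact h1
    · linear_combination htS - h1
  all_goals
    have e00 := congrFun (congrFun hN' 0) 0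
    have e01 := congrFun (congrFun hN' 0) 1
    have e10 := congrFun (congrFun hN' 1) 0
    have e11 := congrFun (congrFun hN' 1) 1
    simp [Matrix.mul_apply, Fin.sum_univ_two] at e00 e01 e10 e11
  · linear_combination e00
  · linear_combination e01 - (F 0 1) * htS
  · linear_combination e10 + (l : O) * (F 1 0) * htS
  · linear_combination e11 - (F 1 1) * htS + (l : O) * (F 1 1) * htS

variable {ρbar : ResidualGaloisRep (ResidueField O)}

/-- A Hecke ring has a point of characteristic zero. -/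
theorem hasSignedPoint_empty {loc : LocalType} {S U : Finset ℕ} (B : HeckeMod loc p S U ρbar)
    {L : Finset ℕ} (P : Places p L) (ε : ℕ → ℤ) : HasSignedPoint B P ∅ ε := by
  have hd : Nonempty (Fin B.d) := by
    refine not_isEmpty_iff.1 fun h => ?_
    exact one_ne_zero (B.Φ_injective (Matrix.ext fun i => isEmptyElim i) : (1 : B.T) = 0)
  obtain ⟨i⟩ := hd
  have hinj : Function.Injective (algebraMap O B.T) := fun a c h => by
    have h1 := congrArg (fun M : Matrix (Fin B.d) (Fin B.d) O => M i i) (congrArg B.Φ h)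
    simpa [AlgHom.commutes, Matrix.algebraMap_matrix_apply] using h1
  haveI : Algebra.IsIntegral O B.T := Algebra.IsIntegral.of_finite O B.T
  obtain ⟨Q, -, hQ, hcomap⟩ := Ideal.exists_ideal_over_prime_of_isIntegral (⊥ : Ideal O)
    (⊥ : Ideal B.T) (by rw [Ideal.comap_bot_of_injective _ hinj])
  haveI := hQ
  have hinj' : Function.Injective (algebraMap O (B.T ⧸ Q)) :=
    (injective_iff_map_eq_zero _).2 fun a ha => by
      rw [← Ideal.mem_bot, ← hcomap, Ideal.mem_comap, ← Ideal.Quotient.eq_zero_iff_mem]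
      exact ha
  haveI : CharZero (B.T ⧸ Q) := charZero_of_injective_ringHom hinj'
  exact ⟨B.T ⧸ Q, inferInstance, inferInstance, inferInstance, inferInstance,
    Ideal.Quotient.mkₐ O Q, fun l hl => absurd hl (Finset.notMem_empty l)⟩

/-- Raising all the primes of a set. -/
theorem RaiseData.exists_raise_all (d : RaiseData ρbar p) {loc : LocalType} {N₀ : ℕ} [NeZero N₀]
    (hN : Squarefree N₀) (hSmin : d.Smin ⊆ N₀.primeFactors)
    (hsub : N₀.primeFactors ⊆ insert p d.Smin) (hloc : LevelCase p N₀ ρbar loc)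
    (hsys : HasSystem p N₀ ρbar) (L' : Finset ℕ) (hL' : L' ⊆ d.L) :
    ∃ (N : ℕ) (_ : NeZero N), Squarefree N ∧ N.primeFactors = N₀.primeFactors ∪ L' ∧
      LevelCase p N ρbar loc ∧ HasSystem p N ρbar ∧
      ∃ B : HeckeMod loc p (levelPrimes p N) (unipPrimes p N) ρbar,
        IsModular N B ∧ HasSignedPoint B d.P (unipPrimes p N \ d.Smin) d.ε := by
  haveI : Fact p.Prime := ⟨d.hp⟩
  classical
  induction L' using Finset.induction with
  | empty =>
    obtain ⟨B, hB, -, -⟩ := exists_heckeMod d.hp2 d.hpO d.hres hN hSmin hloc hsys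
    refine ⟨N₀, inferInstance, hN, (Finset.union_empty _).symm, hloc, hsys, B, hB, ?_⟩
    have h0 : unipPrimes p N₀ \ d.Smin = ∅ := Finset.sdiff_eq_empty_iff_subset.2 fun l hl => by
      obtain ⟨h1, h2⟩ := Finset.mem_erase.1 hl
      exact (Finset.mem_insert.1 (hsub h2)).resolve_left h1
    rw [h0]
    exact hasSignedPoint_empty B d.P d.ε
  | insert q L' hq ih =>
    obtain ⟨hqL, hL⟩ := Finset.insert_subset_iff.1 hL'
    obtain ⟨N, hN0, hNsf, hpf, hl, hs, B, hB, hpt⟩ := ih hL
    obtain ⟨hqpr, hqp, hqS⟩ := d.hL q hqL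
    have hqN : ¬ q ∣ N := fun h => by
      have h1 : q ∈ N₀.primeFactors ∪ L' := hpf ▸ Nat.mem_primeFactors.2 ⟨hqpr, h, NeZero.ne N⟩
      rcases Finset.mem_union.1 h1 with h1 | h1
      · exact ((Finset.mem_insert.1 (hsub h1)).resolve_left hqp |> hqS)
      · exact hq h1
    haveI : NeZero (N * q) := ⟨mul_ne_zero (NeZero.ne N) hqpr.ne_zero⟩
    have hNL : unipPrimes p N \ d.Smin ⊆ d.L := fun l hl => by
      obtain ⟨h1, h2⟩ := Finset.mem_sdiff.1 hl
      obtain ⟨h1, h3⟩ := Finset.mem_erase.1 h1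
      rcases Finset.mem_union.1 (hpf ▸ h3) with h3 | h3
      · exact absurd ((Finset.mem_insert.1 (hsub h3)).resolve_left h1) h2
      · exact hL h3
    obtain ⟨B', hB', hpt', hs', hl'⟩ := d.exists_raise hNsf
      (hSmin.trans (hpf ▸ Finset.subset_union_left)) hNL hl hs hB hpt hqL hqN
    refine ⟨N * q, inferInstance, (Nat.squarefree_mul (Nat.coprime_comm.1
      (hqpr.coprime_iff_not_dvd.2 hqN))).2 ⟨hNsf, hqpr.squarefree⟩, ?_, hl', hs', B', hB', hpt'⟩
    rw [Nat.primeFactors_mul (NeZero.ne N) hqpr.ne_zero, hpf, hqpr.primeFactors,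
      Finset.union_assoc, Finset.union_comm L', ← Finset.insert_eq]

variable [Fact p.Prime]

/-- At the level of the curve, the signed point makes it modular. -/
theorem modular_of_signedPoint (hp2 : p ≠ 2) (hp : (p : O) ∈ maximalIdeal O)
    {W : WeierstrassCurve ℤ} (hΔ : W.Δ ≠ 0) (hW : W.IsSemistableModel) {ρ : GaloisRepAdic O}
    (hρ : CurveRep W p ρbar ρ) {N : ℕ} [NeZero N] (hN : Squarefree N)
    (hU : unipPrimes p N = badPrimes W p)
    {loc : LocalType} (hloc : loc = flatType p ∨ loc = ordType p) (hρp : loc.cond ρ)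
    {B : HeckeMod loc p (levelPrimes p N) (unipPrimes p N) ρbar} (hB : IsModular N B)
    (hlev : ∀ (n r : ℕ) (Qv : Fin r → ℕ), IsAuxSet p N n ρbar Qv → Nonempty (HeckeLevel B n Qv))
    {L : Finset ℕ} (hL : unipPrimes p N \ minPrimes W p = L) (P : Places p L) (ε : ℕ → ℤ)
    (hε : ∀ l, ε l * ε l = 1) (hpt : HasSignedPoint B P (unipPrimes p N \ minPrimes W p) ε)
    (hρε : ∀ l ∈ L, ρ.trace (P.φ l) = (ε l : O) * ((l : O) + 1)) :
    ∃ M : ℕ, (∀ q : ℕ, q.Prime → ¬ q ^ 3 ∣ M) ∧ W.IsModularModelOfLevel M := by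
  subst hL
  have hS : levelPrimes p N = insert p (badPrimes W p) := by
    rw [← hU, levelPrimes, unipPrimes]
    ext l
    by_cases h : l = p <;> simp [h]
  have hmin : minPrimes W p ⊆ unipPrimes p N := hU ▸ Finset.filter_subset _ _
  obtain ⟨f, hf⟩ := exists_point_of_special hp2 hp hρ.residual hmin hloc B hB hlev P ε
    (fun l => Int.eq_one_or_neg_one_of_mul_eq_one (hε l)) hpt ρ hρ.residual_isEquiv
    { det := hρ.det
      local_p := hρp
      unramified := fun q hq hqS => hρ.unramified q hq (hS ▸ hqS)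
      unipotent := fun q hq => hρ.unipotent q (hU ▸ hq) }
    hρε (fun l hl => hρ.ramified l (hU ▸ (Finset.mem_sdiff.1 hl).1))
  obtain ⟨χ, hχ⟩ := hB.system_of_point (FractionRing O)
    ((algebraMap O (FractionRing O)).comp (f : B.T →+* O))
  refine Mod2.modular_of_hom hW hΔ (fun q => Main.not_cube_dvd_of_squarefree hN) (levelPrimes p N)
    (fun q hq h => Finset.mem_insert_of_mem (Nat.mem_primeFactors.2 ⟨hq, h, NeZero.ne N⟩)) χ
    fun l hl hlN hlS => ?_
  obtain ⟨A, hA, φ, hφ⟩ := GalCommon.exists_place_frobenius hl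
  rw [hχ l hl hlN hlS A φ hA hφ]
  have h1 : l ∉ insert p (badPrimes W p) := hS ▸ fun h => hlS (Finset.mem_coe.2 h)
  simp only [Finset.mem_insert, badPrimes, Finset.mem_erase, Nat.mem_primeFactors, not_or] at h1
  have hgood : W.IsGoodPrimeFor l := fun h =>
    h1.2 ⟨h1.1, hl, Int.natCast_dvd.1 h, Int.natAbs_ne_zero.2 hΔ⟩
  show algebraMap O (FractionRing O) (f (B.ρ.trace φ)) = _
  rw [hf, hρ.trace_frob l hl hgood h1.1 A φ hA hφ, map_intCast]

/-- Residual strict ordinarity. -/
theorem strictOrdinary_residual {ρ : GaloisRepAdic O} (he : ρ.residual.IsEquiv ρbar)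
    (h : ρ.IsStrictOrdinaryAt p) :
    (GaloisRepAdic.ofResidualGaloisRep ρbar).IsStrictOrdinaryAt p := by
  obtain ⟨e⟩ := he
  exact TW.isStrictOrdinaryAt_of_isEquiv
    ⟨{ toLinearEquiv := e.toLinearEquiv, map_apply := e.map_apply }⟩
    (isStrictOrdinaryAt_baseChangeAlong p (IsLocalRing.residue O)
      (IsLocalHom.of_surjective _ IsLocalRing.residue_surjective) ρ h)

/-- **Modularity lifting at `3` and `5`.** -/
theorem modular_of_residual (hp : p = 3 ∨ p = 5) (W : WeierstrassCurve ℤ) (hΔ : W.Δ ≠ 0)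
    (hW : W.IsSemistableModel) (hirr : W.ModRepIsIrreducible p) (M : ℕ) (hM : Squarefree M)
    (hMp : W.IsGoodPrimeFor p → ¬ p ∣ M) (hres : W.IsResiduallyModularOfLevel p M) :
    ∃ N : ℕ, (∀ q : ℕ, q.Prime → ¬ q ^ 3 ∣ N) ∧ W.IsModularModelOfLevel N := by
  classical
  have hp2 : p ≠ 2 := by rcases hp with rfl | rfl <;> decide
  have hpp : p.Prime := Fact.out
  -- a level prime to `p` if possible
  obtain ⟨M₀, hM₀, hMp₀, hres₀, hMmin⟩ : ∃ M₀ : ℕ, Squarefree M₀ ∧
      (W.IsGoodPrimeFor p → ¬ p ∣ M₀) ∧ W.IsResiduallyModularOfLevel p M₀ ∧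
      (p ∣ M₀ → ∀ M' : ℕ, 0 < M' → Squarefree M' → ¬ p ∣ M' →
        ¬ W.IsResiduallyModularOfLevel p M') := by
    by_cases h : ∃ M' : ℕ, 0 < M' ∧ Squarefree M' ∧ ¬ p ∣ M' ∧
        W.IsResiduallyModularOfLevel p M'
    · obtain ⟨M', -, h1, h2, h3⟩ := h
      exact ⟨M', h1, fun _ => h2, h3, fun h => absurd h h2⟩
    · exact ⟨M, hM, hMp, hres, fun _ M' h0 h1 h2 h3 => h ⟨M', h0, h1, h2, h3⟩⟩
  haveI : NeZero M₀ := ⟨hM₀.ne_zero⟩
  obtain ⟨O, _, _, _, _, _, _, hpO, hroot, hsplit⟩ := exists_coeffRing p M₀.primeFactors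
  obtain ⟨ρbar, ρ, hρ⟩ := exists_curveRep p hp W hΔ hW hirr hpO hsplit
  obtain ⟨N₀, _, hN₀, hmin, hsub, hsys, hord⟩ := exists_minimal_level hp2 W hΔ hW hirr hM₀ hMp₀
    hMmin hres₀ hpO (fun l hl _ => hroot l hl) ρbar ρ hρ
  -- the primes to raise, places, signs
  let L := badPrimes W p \ minPrimes W p
  have hbad : ∀ l ∈ L, l.Prime ∧ l ≠ p ∧ l ∉ minPrimes W p := fun l hl => by
    obtain ⟨h1, h2⟩ := Finset.mem_sdiff.1 hl
    obtain ⟨h1, h3⟩ := Finset.mem_erase.1 h1
    exact ⟨Nat.prime_of_mem_primeFactors h3, h1, h2⟩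
  obtain ⟨P⟩ := nonempty_places hpp fun l hl => ⟨(hbad l hl).1, (hbad l hl).2.1⟩
  have hsign : ∀ l, ∃ e : ℤ, e * e = 1 ∧
      (l ∈ L → ρ.trace (P.φ l) = (e : O) * ((l : O) + 1)) := fun l => by
    by_cases hl : l ∈ L
    · obtain ⟨h1, h2, h3⟩ := hbad l hl
      obtain ⟨e, he1, he2⟩ := exists_sign hpp hρ.residual_isEquiv hρ.det P hl h1 h2
        (hρ.residual.unramified l h1 h3 h2) (hρ.unipotent l (Finset.mem_sdiff.1 hl).1)
        (hρ.ramified l (Finset.mem_sdiff.1 hl).1)
      exact ⟨e, he1, fun _ => he2⟩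
    · exact ⟨1, rfl, fun h => absurd h hl⟩
  choose ε hε hερ using hsign
  let d : RaiseData ρbar p :=
    { hp := hpp, hp2 := hp2, hpO := hpO, Smin := minPrimes W p, hres := hρ.residual, L := L
      hL := hbad, P := P, ε := ε, hε := hε
      htr := fun l hl => by
        rw [trace_residual_eq hρ.residual_isEquiv, hερ l hl, map_mul, map_add, map_one,
          map_intCast, map_natCast] }
  have hbadU : ∀ N : ℕ, N.primeFactors = N₀.primeFactors ∪ L →
      unipPrimes p N = badPrimes W p := fun N hpf => by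
    rw [unipPrimes, hpf]
    ext l
    constructor
    · intro h
      obtain ⟨h1, h2⟩ := Finset.mem_erase.1 h
      rcases Finset.mem_union.1 h2 with h2 | h2
      · exact (Finset.mem_filter.1 ((Finset.mem_insert.1 (hsub h2)).resolve_left h1)).1
      · exact (Finset.mem_sdiff.1 h2).1
    · intro h
      refine Finset.mem_erase.2 ⟨(Finset.mem_erase.1 h).1, ?_⟩
      by_cases h' : l ∈ minPrimes W p
      · exact Finset.mem_union_left _ (hmin h')
      · exact Finset.mem_union_right _ (Finset.mem_sdiff.2 ⟨h, h'⟩)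
  -- the finish, at a level with all the bad primes
  have finish : ∀ (N : ℕ) [NeZero N], Squarefree N → unipPrimes p N = badPrimes W p →
      ∀ loc : LocalType, LevelCase p N ρbar loc → HasSystem p N ρbar → loc.cond ρ →
      ∀ B : HeckeMod loc p (levelPrimes p N) (unipPrimes p N) ρbar, IsModular N B →
      HasSignedPoint B P (unipPrimes p N \ minPrimes W p) ε →
      ∃ M : ℕ, (∀ q : ℕ, q.Prime → ¬ q ^ 3 ∣ M) ∧ W.IsModularModelOfLevel M := by
    intro N _ hN hU loc hl hs hc B hB hpt
    obtain ⟨B', hB', hcont, hlev⟩ := exists_heckeMod hp2 hpO hρ.residual hN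
      (fun l hl => (Finset.mem_erase.1 (hU.symm ▸ (Finset.mem_filter.1 hl).1 :
        l ∈ unipPrimes p N)).2) hl hs
    refine modular_of_signedPoint hp2 hpO hΔ hW hρ hN hU ?_ hc hB' hlev
      (by rw [hU]) P ε hε (HasSignedPoint.of_contains (hcont _ B hB) hpt) hερ
    cases hl
    · exact Or.inl rfl
    · exact Or.inr rfl
  by_cases hpN : p ∣ N₀
  · obtain ⟨hpΔ, hno⟩ := hord hpN
    obtain ⟨N, _, hN, hpf, hl, hs, B, hB, hpt⟩ := d.exists_raise_all hN₀ hmin hsub
      (LevelCase.ord hpN hno) hsys L subset_rfl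
    exact finish N hN (hbadU N hpf) _ hl hs (hρ.ord hpΔ) B hB hpt
  obtain ⟨N, _, hN, hpf, hl, hs, B, hB, hpt⟩ := d.exists_raise_all hN₀ hmin hsub
    (LevelCase.flat hpN) hsys L subset_rfl
  by_cases hpΔ : (p : ℤ) ∣ W.Δ
  · have hpN' : ¬ p ∣ N := fun h => by
      have h1 : p ∈ N.primeFactors := Nat.mem_primeFactors.2 ⟨hpp, h, NeZero.ne N⟩
      rw [hpf, Finset.mem_union] at h1
      rcases h1 with h1 | h1
      · exact hpN (Nat.dvd_of_mem_primeFactors h1)
      · exact (hbad p h1).2.1 rfl
    haveI : NeZero (N * p) := ⟨mul_ne_zero (NeZero.ne N) hpp.ne_zero⟩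
    have hU := hbadU N hpf
    obtain ⟨B', hB', hpt', hlev⟩ := d.exists_raise_p hN
      (fun l hl => hpf ▸ Finset.mem_union_left _ (hmin hl))
      (by rw [hU]) hpN' hs
      (strictOrdinary_residual hρ.residual_isEquiv (hρ.ord hpΔ)) hB hpt
    have hU' : unipPrimes p (N * p) = badPrimes W p := by
      rw [← hU, unipPrimes, unipPrimes, Nat.primeFactors_mul (NeZero.ne N) hpp.ne_zero,
        hpp.primeFactors, Finset.union_singleton, Finset.erase_insert_eq_erase]
    exact modular_of_signedPoint hp2 hpO hΔ hW hρ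
      ((Nat.squarefree_mul (Nat.coprime_comm.1 (hpp.coprime_iff_not_dvd.2 hpN'))).2
        ⟨hN, hpp.squarefree⟩) hU' (Or.inr rfl) (hρ.ord hpΔ) hB' hlev (by rw [hU']) P ε hε hpt' hερ
  · exact finish N hN (hbadU N hpf) _ hl hs (hρ.flat hpΔ) B hB hpt

end FLTAgent.Lower.Lift
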