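import Mathlib
import Fermat.Agent.Lower.Lift.Hop
import Fermat.Agent.Lower.Lift.Iface.Modules
import Fermat.Agent.TW.Transport

/-!
# Raising one prime of bad reduction

`RaiseData` holds what all the hops share: the residual hypotheses, the primes to raise with their
places, and the signs of the curve. `RaiseData.exists_raise` raises a prime `q ≠ p`,
`RaiseData.exists_raise_p` raises `p` from the flat case to the strictly ordinary one; both take
the degeneracy data and the Taylor-Wiles primes, feed them to `HopSetup.exists_signed_point`, and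
keep a signed point and hence a system (`hasSystem_of_signedPoint`).
-/

set_option autoImplicit false
set_option linter.style.haveILetI false
set_option linter.unusedSectionVars false

noncomputable section

namespace FLTAgent.Lower.Lift

open IsLocalRing (maximalIdeal ResidueField)
open FLTAgent.Lower

local notation "ℚ̄" => AlgebraicClosure ℚ
local notation "Γℚ" => (AlgebraicClosure ℚ ≃ₐ[ℚ] AlgebraicClosure ℚ)

/-- A local type invariant under equivalence. -/
def IsEquivStable (loc : LocalType) : Prop :=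
  ∀ {A : Type} [CommRing A] [IsLocalRing A] (ρ ρ' : GaloisRepAdic A),
    ρ.IsEquiv ρ' → loc.cond ρ → loc.cond ρ'

theorem isEquivStable_flatType (p : ℕ) : IsEquivStable (flatType p) :=
  fun _ _ h h₁ => FLTAgent.TW.isFlatAt_of_isEquiv h h₁

theorem isEquivStable_ordType (p : ℕ) : IsEquivStable (ordType p) :=
  fun _ _ h h₁ => FLTAgent.TW.isStrictOrdinaryAt_of_isEquiv h h₁

theorem isEquivStable_of_levelCase {k : Type} [Field k] {p N : ℕ} {ρbar : ResidualGaloisRep k}
    {loc : LocalType} (h : LevelCase p N ρbar loc) : IsEquivStable loc := by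
  cases h
  · exact isEquivStable_flatType p
  · exact isEquivStable_ordType p

/-- Equal matrices give equivalent representations. -/
theorem isEquiv_of_matHom {A : Type} [CommRing A] [IsLocalRing A] (ρ₁ ρ₂ : GaloisRepAdic A)
    (b₁ : Module.Basis (Fin 2) A ρ₁.V) (b₂ : Module.Basis (Fin 2) A ρ₂.V)
    (h : ∀ τ, matHom ρ₁ b₁ τ = matHom ρ₂ b₂ τ) : ρ₁.IsEquiv ρ₂ := by
  refine ⟨⟨b₁.equiv b₂ (Equiv.refl _), fun τ x => ?_⟩⟩
  suffices h1 : (b₁.equiv b₂ (Equiv.refl _)).toLinearMap ∘ₗ ρ₁.ρ τ =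
      ρ₂.ρ τ ∘ₗ (b₁.equiv b₂ (Equiv.refl _)).toLinearMap from LinearMap.congr_fun h1 x
  refine b₁.ext fun j => ?_
  simp only [LinearMap.comp_apply, LinearEquiv.coe_coe, Module.Basis.equiv_apply,
    Equiv.refl_apply]
  rw [← b₁.sum_repr (ρ₁.ρ τ (b₁ j)), map_sum, ← b₂.sum_repr (ρ₂.ρ τ (b₂ j))]
  refine Finset.sum_congr rfl fun i _ => ?_
  rw [map_smul, Module.Basis.equiv_apply, Equiv.refl_apply, ← matHom_apply, ← matHom_apply, h]

/-- A base change factoring through an equivalent representation. -/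
theorem cond_of_factor {A B C : Type} [CommRing A] [IsLocalRing A] [CommRing B] [IsLocalRing B]
    [CommRing C] [IsLocalRing C] [Finite (ResidueField C)] {loc : LocalType}
    (hst : IsEquivStable loc) (g : A →+* B) (hg : IsLocalHom g) (hgs : Function.Surjective g)
    (ρ : GaloisRepAdic A) (ρ' : GaloisRepAdic B) (he : (ρ.baseChangeAlong g hg).IsEquiv ρ')
    (hc : loc.cond ρ') (f : A →+* C) (hf : IsLocalHom f) (hfs : Function.Surjective f)
    (hker : ∀ a, g a = 0 → f a = 0) : loc.cond (ρ.baseChangeAlong f hf) := by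
  let f' : B →+* C :=
    (Ideal.Quotient.lift (RingHom.ker g) f fun a (ha : a ∈ RingHom.ker g) => hker a ha).comp
      (RingHom.quotientKerEquivOfSurjective hgs).symm.toRingHom
  have hff : ∀ a, f' (g a) = f a := fun a => by
    have h1 : (RingHom.quotientKerEquivOfSurjective hgs).symm (g a) = Ideal.Quotient.mk _ a :=
      (RingHom.quotientKerEquivOfSurjective hgs).injective (by
        rw [RingEquiv.apply_symm_apply]; rfl)
    simp only [f', RingHom.comp_apply, RingEquiv.toRingHom_eq_coe, RingEquiv.coe_toRingHom, h1,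
      Ideal.Quotient.lift_mk]
  have hfs' : Function.Surjective f' := fun x => by
    obtain ⟨a, rfl⟩ := hfs x
    exact ⟨g a, hff a⟩
  have hf' : IsLocalHom f' := IsLocalHom.of_surjective f' hfs'
  let b := Module.finBasisOfFinrankEq A ρ.V ρ.finrank_eq
  obtain ⟨b', hb'⟩ := exists_basis_of_isEquiv g hg ρ ρ' he b
  refine hst _ _ (isEquiv_of_matHom _ _ (basisBaseChange f' hf' ρ' b') (basisBaseChange f hf ρ b)
    fun τ => ?_) (loc.baseChange f' hf' ρ' hfs' hc)
  rw [matHom_baseChange, matHom_baseChange, hb']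
  ext i j
  simp [hff]

variable {O : Type} [CommRing O] [IsDomain O] [IsDiscreteValuationRing O]
  [IsAdicComplete (maximalIdeal O) O] [Finite (ResidueField O)] [CharZero O]
  {p : ℕ} {ρbar : ResidualGaloisRep (ResidueField O)}

/-- A point at a modular Hecke ring gives a system at its level. -/
theorem hasSystem_of_signedPoint {loc : LocalType} {S U : Finset ℕ} {N : ℕ} [NeZero N]
    {B : HeckeMod loc p S U ρbar} (hB : IsModular N B) {L : Finset ℕ} {P : Places p L}
    {L' : Finset ℕ} {ε : ℕ → ℤ} (hpt : HasSignedPoint B P L' ε) : HasSystem p N ρbar := by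
  obtain ⟨D, _, _, _, _, f₀, -⟩ := hpt
  let f : B.T →+* FractionRing D := (algebraMap D (FractionRing D)).comp (f₀ : B.T →+* D)
  obtain ⟨χ, hχ⟩ := hB.system_of_point (FractionRing D) f
  let η : ResidueField O →+* ResidueField B.T := ResidueField.map (algebraMap O B.T)
  let e : ResidueField O ≃+* ResidueField B.T := RingEquiv.ofBijective η
    ⟨η.injective, fun z => by
      obtain ⟨a, rfl⟩ := B.residue_surjective z
      exact ⟨IsLocalRing.residue O a, by simp [η, ResidueField.map_residue]⟩⟩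
  let g : B.T →+* ResidueField O := e.symm.toRingHom.comp (IsLocalRing.residue B.T)
  have hker : ∀ t ∈ RingHom.ker f, g t = 0 := fun t ht => by
    have h1 : IsLocalRing.residue B.T t = 0 :=
      (IsLocalRing.residue_eq_zero_iff t).2 (IsLocalRing.le_maximalIdeal (RingHom.ker_ne_top f) ht)
    show e.symm (IsLocalRing.residue B.T t) = 0
    rw [h1, map_zero]
  have hmem : ∀ t, χ t ∈ f.range := by
    rintro ⟨t, ht⟩
    induction ht using Algebra.adjoin_induction with
    | mem x hx =>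
      rcases hx with ⟨l, hl, hlN, hlS, rfl⟩ | ⟨q, hqN, hq, hqS, rfl⟩
      · obtain ⟨A, hA, τ, hτ⟩ := GalCommon.exists_place_frobenius hl
        exact ⟨_, (hχ l hl hlN hlS A τ hA hτ).symm⟩
      · exact absurd (Finset.mem_coe.2 (Finset.mem_insert_of_mem
          (Nat.mem_primeFactors.2 ⟨hq, hqN, NeZero.ne N⟩))) hqS
    | algebraMap r =>
      rw [show (⟨_, Subalgebra.algebraMap_mem _ r⟩ :
          CuspForm.heckeAlgebra N 2 (↑(levelPrimes p N) : Set ℕ)) = ((r : ℤ) : _) from
        Subtype.ext (by simp [eq_intCast]), map_intCast]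
      exact intCast_mem _ r
    | add x y hx hy ihx ihy =>
      rw [show (⟨x + y, add_mem hx hy⟩ : CuspForm.heckeAlgebra N 2 (↑(levelPrimes p N) : Set ℕ)) =
        ⟨x, hx⟩ + ⟨y, hy⟩ from rfl, map_add]
      exact add_mem ihx ihy
    | mul x y hx hy ihx ihy =>
      rw [show (⟨x * y, mul_mem hx hy⟩ : CuspForm.heckeAlgebra N 2 (↑(levelPrimes p N) : Set ℕ)) =
        ⟨x, hx⟩ * ⟨y, hy⟩ from rfl, map_mul]
      exact mul_mem ihx ihy
  let lift' : f.range →+* ResidueField O :=
    (Ideal.Quotient.lift (RingHom.ker f) g hker).comp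
      (RingHom.quotientKerEquivRange f).symm.toRingHom
  refine ⟨lift'.comp (χ.codRestrict f.range hmem), fun l hl hlN hlS A φ hA hφ => ?_⟩
  have h1 : χ.codRestrict f.range hmem (CuspForm.heckeAlgebra.T hl hlN hlS) =
      RingHom.quotientKerEquivRange f (Ideal.Quotient.mk _ (B.ρ.trace φ)) :=
    Subtype.ext (hχ l hl hlN hlS A φ hA hφ)
  show lift' (χ.codRestrict f.range hmem _) = _
  rw [h1]
  show (Ideal.Quotient.lift _ g hker) ((RingHom.quotientKerEquivRange f).symm
    (RingHom.quotientKerEquivRange f _)) = _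
  rw [RingEquiv.symm_apply_apply, Ideal.Quotient.lift_mk]
  show e.symm (IsLocalRing.residue B.T (B.ρ.trace φ)) = _
  rw [RingEquiv.symm_apply_eq, residue_trace B.residual_isEquiv]
  rfl

/-- The residual trace of any Frobenius at an unramified prime. -/
theorem trace_sq_of_place {L : Finset ℕ} (P : Places p L) {l : ℕ} (hl : l ∈ L) (hlp : l.Prime)
    (hunr : ρbar.IsUnramifiedAt l) {e : ℤ} (he : e * e = 1)
    (htr : LinearMap.trace (ResidueField O) ρbar.V (ρbar.ρ (P.φ l)) =
      (e : ResidueField O) * ((l : ResidueField O) + 1))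
    (A : ValuationSubring ℚ̄) (φ : Γℚ) (hA : A.LiesOverPrime l) (hφ : A.IsFrobeniusAt φ l) :
    LinearMap.trace (ResidueField O) ρbar.V (ρbar.ρ φ) ^ 2 = ((l : ResidueField O) + 1) ^ 2 := by
  obtain ⟨g, hg⟩ := GalCommon.map_frobenius_isConj ρbar.ρ hlp (P.liesOver l hl) hA
    (fun i hi => hunr A hA i hi) (P.frob l hl) hφ
  rw [hg, map_mul ρbar.ρ, map_mul ρbar.ρ, LinearMap.trace_mul_comm, ← mul_assoc, ← map_mul ρbar.ρ,
    inv_mul_cancel, map_one, one_mul, htr, mul_pow, sq ((e : ResidueField O)), ← Int.cast_mul, he, Int.cast_one,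
    one_mul]

/-- The data shared by all the hops. -/
structure RaiseData (ρbar : ResidualGaloisRep (ResidueField O)) (p : ℕ) where
  hp : p.Prime
  hp2 : p ≠ 2
  hpO : (p : O) ∈ maximalIdeal O
  Smin : Finset ℕ
  hres : Residual p Smin ρbar
  L : Finset ℕ
  hL : ∀ l ∈ L, l.Prime ∧ l ≠ p ∧ l ∉ Smin
  P : Places p L
  ε : ℕ → ℤ
  hε : ∀ l, ε l * ε l = 1
  htr : ∀ l ∈ L, LinearMap.trace (ResidueField O) ρbar.V (ρbar.ρ (P.φ l)) =
    (ε l : ResidueField O) * ((l : ResidueField O) + 1)

theorem RaiseData.exists_half (d : RaiseData ρbar p) : ∃ h : O, 2 * h = 1 := by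
  have h2 : IsUnit ((2 : ℕ) : O) :=
    isUnit_natCast_of_ne (T := O) d.hp Nat.prime_two d.hp2.symm d.hpO
  obtain ⟨h, hh⟩ := h2.exists_right_inv
  exact ⟨h, by simpa using hh⟩

/-- A basis in which a nonscalar place is in companion form. -/
theorem RaiseData.exists_basis (d : RaiseData ρbar p) {loc : LocalType} {S U : Finset ℕ}
    (B : HeckeMod loc p S U ρbar) (l : ℕ) :
    ∃ b : Module.Basis (Fin 2) B.T B.ρ.V, l ∈ d.L → ¬ IsScalarAt ρbar (d.P.A l) →
      matHom B.ρ b (d.P.φ l) 0 0 = 0 ∧ matHom B.ρ b (d.P.φ l) 1 0 = 1 := by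
  classical
  by_cases hl : l ∈ d.L ∧ ¬ IsScalarAt ρbar (d.P.A l)
  · obtain ⟨hl, hns⟩ := hl
    obtain ⟨cb, h0, h1⟩ := exists_companion_residual d.P hl
      (d.hres.unramified l (d.hL l hl).1 (d.hL l hl).2.2 (d.hL l hl).2.1) hns
    obtain ⟨b', hb'⟩ := exists_basis_residual B.ρ ρbar cb _ B.residual_isEquiv
    have e := hb' (d.P.φ l)
    obtain ⟨b'', -, hb''⟩ := exists_companion (IsLocalRing.residue B.T)
      (IsLocalHom.of_surjective _ IsLocalRing.residue_surjective) B.ρ b' (d.P.φ l)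
      (by
        have := congrFun (congrFun e 0) 0
        simp only [RingHom.mapMatrix_apply, Matrix.map_apply] at this
        rw [this, h0, map_zero])
      (by
        have := congrFun (congrFun e 1) 0
        simp only [RingHom.mapMatrix_apply, Matrix.map_apply] at this
        rw [this, h1, map_one])
    exact ⟨b'', fun _ _ => hb''⟩
  · exact ⟨Module.finBasisOfFinrankEq B.T B.ρ.V B.ρ.finrank_eq,
      fun h1 h2 => absurd ⟨h1, h2⟩ hl⟩

/-- Finitely many traces generate. -/
theorem exists_trace_gens {loc : LocalType} {S U : Finset ℕ} (B : HeckeMod loc p S U ρbar) :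
    ∃ (G : ℕ) (τ : Fin G → Γℚ), Algebra.adjoin O (Set.range fun t => B.ρ.trace (τ t)) = ⊤ := by
  classical
  obtain ⟨_, ⟨s, rfl⟩, hmax⟩ := set_has_maximal_iff_noetherian.2
    (isNoetherian_of_isNoetherianRing_of_finite O B.T)
    (Set.range fun s : Finset Γℚ => Subalgebra.toSubmodule (Algebra.adjoin O (B.ρ.trace '' ↑s)))
    ⟨_, ∅, rfl⟩
  refine ⟨s.card, fun t => ((Finset.equivFin s).symm t : Γℚ),
    eq_top_iff.2 (B.adjoin_trace.ge.trans (Algebra.adjoin_le ?_))⟩
  rintro _ ⟨τ, rfl⟩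
  have hle : Algebra.adjoin O (B.ρ.trace '' ↑s) ≤ Algebra.adjoin O (B.ρ.trace '' ↑(insert τ s)) :=
    Algebra.adjoin_mono (Set.image_mono (Finset.coe_subset.2 (Finset.subset_insert τ s)))
  have heq := eq_of_le_of_not_lt
    (show Subalgebra.toSubmodule _ ≤ Subalgebra.toSubmodule _ from hle) (hmax _ ⟨_, rfl⟩)
  have hτ : B.ρ.trace τ ∈ Algebra.adjoin O (B.ρ.trace '' ↑(insert τ s)) :=
    Algebra.subset_adjoin ⟨τ, Finset.mem_coe.2 (Finset.mem_insert_self τ s), rfl⟩
  rw [← Subalgebra.mem_toSubmodule, ← heq] at hτ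
  refine Algebra.adjoin_mono ?_ hτ
  rintro _ ⟨x, hx, rfl⟩
  exact ⟨Finset.equivFin s ⟨x, hx⟩, by simp⟩

open scoped Classical in
/-- The setup of a hop from the shared data. -/
def RaiseData.setup (d : RaiseData ρbar p) {locOld locNew : LocalType} {N q : ℕ}
    (H : Hop locOld locNew p N q ρbar) (hSmin : d.Smin ⊆ unipPrimes p (N * q))
    (hSL : unipPrimes p (N * q) \ d.Smin ⊆ d.L)
    (hq : q ≠ p → q ∈ unipPrimes p (N * q) \ d.Smin ∧ q ∉ levelPrimes p N) : HopSetup H where
  hp := d.hp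
  hp2 := d.hp.odd_of_ne_two d.hp2
  hpO := d.hpO
  ϖ := Classical.choose (IsDiscreteValuationRing.exists_irreducible O)
  hϖ := Classical.choose_spec (IsDiscreteValuationRing.exists_irreducible O)
  h := Classical.choose d.exists_half
  hh := Classical.choose_spec d.exists_half
  Smin := d.Smin
  hres := d.hres
  hSmin := hSmin
  L := d.L
  P := d.P
  hSL := hSL
  K := (unipPrimes p (N * q) \ d.Smin).card
  ls := fun k => ((unipPrimes p (N * q) \ d.Smin).orderIsoOfFin rfl k : ℕ)
  hls := by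
    ext l
    exact ⟨fun ⟨k, hk⟩ => hk ▸ ((unipPrimes p (N * q) \ d.Smin).orderIsoOfFin rfl k).2,
      fun hl => ⟨((unipPrimes p (N * q) \ d.Smin).orderIsoOfFin rfl).symm ⟨l, hl⟩, by simp⟩⟩
  ε := d.ε
  hε := d.hε
  htr := fun k => d.htr _ (hSL ((unipPrimes p (N * q) \ d.Smin).orderIsoOfFin rfl k).2)
  sc := fun l => decide (IsScalarAt ρbar (d.P.A l))
  hsc := fun k => decide_eq_true_iff
  b := fun l => Classical.choose (d.exists_basis H.all l)
  hcomp := fun k hk => Classical.choose_spec (d.exists_basis H.all _)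
    (hSL ((unipPrimes p (N * q) \ d.Smin).orderIsoOfFin rfl k).2) (of_decide_eq_false hk)
  qidx := if hqp : q = p then none else
    some (((unipPrimes p (N * q) \ d.Smin).orderIsoOfFin rfl).symm ⟨q, (hq hqp).1⟩)
  hqidx := fun k₀ hk₀ => by
    split at hk₀
    · simp at hk₀
    · rename_i hqp
      rw [Option.mem_def, Option.some.injEq] at hk₀
      subst hk₀
      exact ⟨by simp, hqp, (hq hqp).2⟩
  G := Classical.choose (exists_trace_gens H.new)
  τ := Classical.choose (Classical.choose_spec (exists_trace_gens H.new))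

open scoped Classical in
/-- The properties of `RaiseData.setup` used by the hop. -/
theorem RaiseData.setup_facts (d : RaiseData ρbar p) {locOld locNew : LocalType} {N q : ℕ}
    (H : Hop locOld locNew p N q ρbar) (hSmin : d.Smin ⊆ unipPrimes p (N * q))
    (hSL : unipPrimes p (N * q) \ d.Smin ⊆ d.L)
    (hq : q ≠ p → q ∈ unipPrimes p (N * q) \ d.Smin ∧ q ∉ levelPrimes p N) :
    Function.Injective (d.setup H hSmin hSL hq).ls ∧
      ((d.setup H hSmin hSL hq).qidx = none ↔ q = p) ∧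
      (∑ k, weight ((d.setup H hSmin hSL hq).sc ((d.setup H hSmin hSL hq).ls k)) =
        ∑ l ∈ unipPrimes p (N * q) \ d.Smin, placeWeight ρbar (d.P.A l)) ∧
      Algebra.adjoin O (Set.range fun t => H.new.ρ.trace ((d.setup H hSmin hSL hq).τ t)) = ⊤ := by
  refine ⟨fun k k' h => OrderIso.injective _ (Subtype.ext h), ?_, ?_,
    Classical.choose_spec (Classical.choose_spec (exists_trace_gens H.new))⟩
  · simp only [RaiseData.setup]
    split <;> simp_all
  · refine Eq.trans ?_ (Finset.sum_coe_sort _ fun l => placeWeight ρbar (d.P.A l))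
    refine Fintype.sum_equiv ((unipPrimes p (N * q) \ d.Smin).orderIsoOfFin rfl).toEquiv _ _
      fun k => ?_
    simp only [placeWeight, RaiseData.setup]
    by_cases hs : IsScalarAt ρbar
      (d.P.A (((unipPrimes p (N * q) \ d.Smin).orderIsoOfFin rfl k : ℕ)))
    · rw [decide_eq_true hs]; exact (if_pos hs).symm
    · rw [decide_eq_false hs]; exact (if_neg hs).symm

/-- **Raising a prime `q ≠ p`.** -/
theorem RaiseData.exists_raise (d : RaiseData ρbar p) {N : ℕ} [NeZero N] (hN : Squarefree N)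
    (hSmin : d.Smin ⊆ N.primeFactors) (hNL : unipPrimes p N \ d.Smin ⊆ d.L)
    {loc : LocalType} (hloc : LevelCase p N ρbar loc) (hsys : HasSystem p N ρbar)
    {B : HeckeMod loc p (levelPrimes p N) (unipPrimes p N) ρbar} (hB : IsModular N B)
    (hpt : HasSignedPoint B d.P (unipPrimes p N \ d.Smin) d.ε)
    {q : ℕ} [NeZero (N * q)] (hqL : q ∈ d.L) (hqN : ¬ q ∣ N) :
    ∃ B' : HeckeMod loc p (levelPrimes p (N * q)) (unipPrimes p (N * q)) ρbar,
      IsModular (N * q) B' ∧
      HasSignedPoint B' d.P (unipPrimes p (N * q) \ d.Smin) d.ε ∧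
      HasSystem p (N * q) ρbar ∧ LevelCase p (N * q) ρbar loc := by
  classical
  haveI : Fact p.Prime := ⟨d.hp⟩
  haveI : CharP (ResidueField O) p := (CharP.charP_iff_prime_eq_zero d.hp).2 (by
    rw [← map_natCast (IsLocalRing.residue O), IsLocalRing.residue_eq_zero_iff]
    exact d.hpO)
  obtain ⟨hq, hqp, hqS⟩ := d.hL q hqL
  have hpf : (N * q).primeFactors = insert q N.primeFactors := by
    rw [Nat.primeFactors_mul (NeZero.ne N) hq.ne_zero, hq.primeFactors, Finset.union_singleton]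
  have hqN' : q ∉ levelPrimes p N := fun h => by
    rcases Finset.mem_insert.1 h with h | h
    · exact hqp h
    · exact hqN (Nat.dvd_of_mem_primeFactors h)
  have hU : unipPrimes p (N * q) = insert q (unipPrimes p N) := by
    rw [unipPrimes, hpf, Finset.erase_insert_of_ne hqp]
    rfl
  have hSmin' : d.Smin ⊆ unipPrimes p (N * q) := fun l hl => by
    rw [hU]
    exact Finset.mem_insert_of_mem (Finset.mem_erase.2 ⟨(d.hres.min_prime l hl).2, hSmin hl⟩)
  have hSL : unipPrimes p (N * q) \ d.Smin ⊆ d.L := fun l hl => by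
    obtain ⟨h1, h2⟩ := Finset.mem_sdiff.1 hl
    rw [hU] at h1
    rcases Finset.mem_insert.1 h1 with rfl | h1
    · exact hqL
    · exact hNL (Finset.mem_sdiff.2 ⟨h1, h2⟩)
  obtain ⟨H, hold, hnew, hcont, hlev⟩ := exists_hop d.hp2 d.hpO d.hres hN hSmin hloc hsys hq hqN hqp
    (fun A φ hA hφ => trace_sq_of_place d.P hqL hq
      (d.hres.unramified q hq hqS hqp) (d.hε q) (d.htr q hqL) A φ hA hφ)
  have hq' : q ≠ p → q ∈ unipPrimes p (N * q) \ d.Smin ∧ q ∉ levelPrimes p N := fun _ =>
    ⟨Finset.mem_sdiff.2 ⟨hU ▸ Finset.mem_insert_self _ _, hqS⟩, hqN'⟩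
  obtain ⟨hinj, hnone, hsum, hgen⟩ := d.setup_facts H hSmin' hSL hq'
  set c := d.setup H hSmin' hSL hq' with hc
  obtain ⟨r, gf, go, gb, hgf, hgo, -, htw⟩ := exists_twPrimes_three d.hp2 d.Smin
    (unipPrimes p (N * q) \ d.Smin) (fun l hl => d.hL l (hSL hl)) ρbar d.hres d.P.A
    (fun l hl => d.P.liesOver l (hSL hl)) (levelPrimes p (N * q))
  obtain ⟨g, hcount, hsel⟩ : ∃ g, g + ∑ l ∈ unipPrimes p (N * q) \ d.Smin,
      placeWeight ρbar (d.P.A l) ≤ r ∧ ∀ n, ∃ (Qv : Fin r → ℕ) (σ : Fin g → Γℚ),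
        IsAuxSet p (N * q) n ρbar Qv ∧
        Detects loc p d.Smin (unipPrimes p (N * q) \ d.Smin) ρbar d.P.A Qv σ := by
    rcases hloc with h | ⟨h, h'⟩
    · refine ⟨gf, hgf, fun n => ?_⟩
      obtain ⟨Qv, hinj, hQ, ⟨σ, hσ⟩, -, -⟩ := htw n
      exact ⟨Qv, σ, ⟨hinj, fun i => ⟨(hQ i).1, (hQ i).2.1⟩⟩, hσ⟩
    · refine ⟨go, hgo, fun n => ?_⟩
      obtain ⟨Qv, hinj, hQ, -, ⟨σ, hσ⟩, -⟩ := htw n
      exact ⟨Qv, σ, ⟨hinj, fun i => ⟨(hQ i).1, (hQ i).2.1⟩⟩, hσ⟩
  have hsome : c.qidx.isSome := by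
    rcases c.qidx.eq_none_or_eq_some with h | ⟨k₀, h⟩
    · exact absurd (hnone.1 h) hqp
    · rw [h]; rfl
  have hpt' := c.exists_signed_point hold hinj (fun h => hnone.1 h) hgen
    (g := g) (r := r) (locD := loc) ?_ (fun n => ?_) ?_
  rotate_left
  · simp only [hsome, if_true, add_zero]
    rw [hsum]
    exact hcount
  · obtain ⟨Qv, σ, haux, hdet⟩ := hsel n
    obtain ⟨Lv⟩ := hlev n r Qv haux
    refine ⟨Qv, σ, haux, hdet, Lv, fun f hfl hfs _ hker => ?_⟩
    haveI : Finite (ResidueField (DualNumber (ResidueField O))) :=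
      haveI : Finite (DualNumber (ResidueField O)) :=
        inferInstanceAs (Finite (ResidueField O × ResidueField O))
      Finite.of_surjective _ IsLocalRing.residue_surjective
    exact cond_of_factor (isEquivStable_of_levelCase hloc) (Lv.resOld : Lv.all.T →+* Lv.old.T)
      Lv.resOld_isLocalHom (surjective_of_trace Lv.resOld
        (trace_comp_of_isEquiv Lv.resOld Lv.resOld_isLocalHom Lv.resOld_isEquiv)
        Lv.old.adjoin_trace) Lv.all.ρ Lv.old.ρ Lv.resOld_isEquiv Lv.old.cond.local_p f hfl hfs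
      fun a ha => hker a (Ideal.mem_sup_left ha)
  · have he : (unipPrimes p (N * q) \ d.Smin).erase q = unipPrimes p N \ d.Smin := by
      rw [hU, Finset.insert_sdiff_of_notMem _ hqS, Finset.erase_insert]
      exact fun h => hqN' (Finset.mem_insert_of_mem
        (Finset.mem_erase.1 (Finset.mem_sdiff.1 h).1).2)
    show HasSignedPoint H.old d.P ((unipPrimes p (N * q) \ d.Smin).erase q) d.ε
    rw [he]
    exact HasSignedPoint.of_contains (hcont _ B hB) hpt
  refine ⟨H.new, hnew, hpt', hasSystem_of_signedPoint hnew hpt', ?_⟩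
  have hdvd : p ∣ N * q ↔ p ∣ N := ⟨fun h => ((Nat.Prime.dvd_mul d.hp).1 h).resolve_right
    fun h => hqp ((Nat.prime_dvd_prime_iff_eq d.hp hq).1 h).symm, fun h => h.mul_right q⟩
  rcases hloc with h | ⟨h, h'⟩
  · exact .flat (fun h' => h (hdvd.1 h'))
  · exact .ord (hdvd.2 h) h'

/-- **Raising `p`.** -/
theorem RaiseData.exists_raise_p (d : RaiseData ρbar p) {N : ℕ} [NeZero N] [NeZero (N * p)]
    (hN : Squarefree N) (hSmin : d.Smin ⊆ N.primeFactors)
    (hNL : unipPrimes p N \ d.Smin ⊆ d.L) (hpN : ¬ p ∣ N) (hsys : HasSystem p N ρbar)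
    (hord : (GaloisRepAdic.ofResidualGaloisRep ρbar).IsStrictOrdinaryAt p)
    {B : HeckeMod (flatType p) p (levelPrimes p N) (unipPrimes p N) ρbar} (hB : IsModular N B)
    (hpt : HasSignedPoint B d.P (unipPrimes p N \ d.Smin) d.ε) :
    ∃ B' : HeckeMod (ordType p) p (levelPrimes p (N * p)) (unipPrimes p (N * p)) ρbar,
      IsModular (N * p) B' ∧
      HasSignedPoint B' d.P (unipPrimes p (N * p) \ d.Smin) d.ε ∧
      ∀ (n r : ℕ) (Qv : Fin r → ℕ), IsAuxSet p (N * p) n ρbar Qv →
        Nonempty (HeckeLevel B' n Qv) := by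
  classical
  haveI : Fact p.Prime := ⟨d.hp⟩
  haveI : CharP (ResidueField O) p := (CharP.charP_iff_prime_eq_zero d.hp).2 (by
    rw [← map_natCast (IsLocalRing.residue O), IsLocalRing.residue_eq_zero_iff]
    exact d.hpO)
  have hpf : (N * p).primeFactors = insert p N.primeFactors := by
    rw [Nat.primeFactors_mul (NeZero.ne N) d.hp.ne_zero, d.hp.primeFactors, Finset.union_singleton]
  have hU : unipPrimes p (N * p) = unipPrimes p N := by
    rw [unipPrimes, hpf, Finset.erase_insert_eq_erase]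
    rfl
  have hSmin' : d.Smin ⊆ unipPrimes p (N * p) := fun l hl => by
    rw [hU]; exact Finset.mem_erase.2 ⟨(d.hres.min_prime l hl).2, hSmin hl⟩
  have hSL : unipPrimes p (N * p) \ d.Smin ⊆ d.L := by rw [hU]; exact hNL
  obtain ⟨H, hold, hnew, hcont, hlev⟩ := exists_hop_p d.hp2 d.hpO d.hres hN hSmin hpN hsys hord
  obtain ⟨hinj, hnone, hsum, hgen⟩ := d.setup_facts H hSmin' hSL fun h => absurd rfl h
  set c := d.setup H hSmin' hSL (fun h => absurd rfl h) with hc
  obtain ⟨r, gf, go, gb, -, -, hgb, htw⟩ := exists_twPrimes_three d.hp2 d.Smin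
    (unipPrimes p (N * p) \ d.Smin) (fun l hl => d.hL l (hSL hl)) ρbar d.hres d.P.A
    (fun l hl => d.P.liesOver l (hSL hl)) (levelPrimes p (N * p))
  have hq0 : c.qidx = none := hnone.2 rfl
  have hpt' := c.exists_signed_point hold hinj (fun _ => rfl) hgen
    (g := gb) (r := r) (locD := flatOrdType p) ?_ (fun n => ?_) ?_
  rotate_left
  · simp only [hq0, Option.isSome_none, Bool.false_eq_true, if_false]
    rw [hsum]
    exact hgb
  · obtain ⟨Qv, hinjQ, hQ, -, -, σ, hσ⟩ := htw n
    have haux : IsAuxSet p (N * p) n ρbar Qv := ⟨hinjQ, fun i => ⟨(hQ i).1, (hQ i).2.1⟩⟩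
    obtain ⟨Lv⟩ := hlev n r Qv haux
    refine ⟨Qv, σ, haux, hσ, Lv, fun f hfl hfs _ hker => ?_⟩
    haveI : Finite (ResidueField (DualNumber (ResidueField O))) :=
      haveI : Finite (DualNumber (ResidueField O)) :=
        inferInstanceAs (Finite (ResidueField O × ResidueField O))
      Finite.of_surjective _ IsLocalRing.residue_surjective
    refine ⟨cond_of_factor (isEquivStable_flatType p) (Lv.resOld : Lv.all.T →+* Lv.old.T)
        Lv.resOld_isLocalHom (surjective_of_trace Lv.resOld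
          (trace_comp_of_isEquiv Lv.resOld Lv.resOld_isLocalHom Lv.resOld_isEquiv)
          Lv.old.adjoin_trace) Lv.all.ρ Lv.old.ρ Lv.resOld_isEquiv Lv.old.cond.local_p f hfl hfs
        fun a ha => hker a (Ideal.mem_sup_left ha),
      cond_of_factor (isEquivStable_ordType p) (Lv.resNew : Lv.all.T →+* Lv.new.T)
        Lv.resNew_isLocalHom (surjective_of_trace Lv.resNew
          (trace_comp_of_isEquiv Lv.resNew Lv.resNew_isLocalHom Lv.resNew_isEquiv)
          Lv.new.adjoin_trace) Lv.all.ρ Lv.new.ρ Lv.resNew_isEquiv Lv.new.cond.local_p f hfl hfs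
        fun a ha => hker a (Ideal.mem_sup_right ?_)⟩
    simp only [hq0, Option.isSome_none, Bool.false_eq_true, if_false]
    exact ha
  · show HasSignedPoint H.old d.P ((unipPrimes p (N * p) \ d.Smin).erase p) d.ε
    rw [hU, Finset.erase_eq_of_notMem
      (s := unipPrimes p N \ d.Smin) fun h => (Finset.mem_erase.1 (Finset.mem_sdiff.1 h).1).1 rfl]
    exact HasSignedPoint.of_contains (hcont _ B hB) hpt
  refine ⟨H.new, hnew, hpt', fun n r Qv haux => ?_⟩
  obtain ⟨Lv⟩ := hlev n r Qv haux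
  exact ⟨Lv.new⟩

end FLTAgent.Lower.Lift
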