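import Fermat.Agent.Lower.Lift.Lowering
import Fermat.Agent.Lower.Lift.Residual
import Fermat.Agent.Lower.Lift.Coeff
import Fermat.Agent.Lower.Lift.LevelUp

/-!
# Removing a residually unramified prime `q ≠ p` from a squarefree level

`isResiduallyModularOfLevel_div_of_unramified`: residual modularity of squarefree level `M` gives
it at level `M / q`. Lower to the minimal level (`exists_minimal_level_of_residual`), which
divides `M / q` as `q` is not residually ramified, then go up
(`isResiduallyModularOfLevel_of_dvd_up`).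
-/

set_option autoImplicit false
set_option linter.style.haveILetI false

noncomputable section

namespace FLTAgent.Lower.Lift

open IsLocalRing (ResidueField maximalIdeal)
open FLTAgent.MazurP (TorsSpace)

local notation "ℚ̄" => AlgebraicClosure ℚ
local notation "Γℚ" => (AlgebraicClosure ℚ ≃ₐ[ℚ] AlgebraicClosure ℚ)

/-- A prime `q ≠ p` at which the mod `p` representation is unramified leaves the level. -/
theorem isResiduallyModularOfLevel_div_of_unramified {p : ℕ} [Fact p.Prime] (hp2 : p ≠ 2)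
    {W : WeierstrassCurve ℤ} (hΔ : W.Δ ≠ 0) (hW : W.IsSemistableModel)
    (hirr : W.ModRepIsIrreducible p) {M q : ℕ} [NeZero M] (hM : Squarefree M) (hq : q.Prime)
    (hqp : q ≠ p) (hqM : q ∣ M)
    (hunr : ∀ A : ValuationSubring ℚ̄, A.LiesOverPrime q → ∀ σ ∈ A.inertiaSubgroupIn ℚ,
      ∀ x : TorsSpace W p, σ • x = x)
    (hres : W.IsResiduallyModularOfLevel p M) :
    W.IsResiduallyModularOfLevel p (M / q) := by
  -- the starting level: prime to `p` whenever possible
  obtain ⟨M₀, _, hM₀, hmodM₀, hmin₀, hp₀⟩ : ∃ (M₀ : ℕ) (_ : NeZero M₀), Squarefree M₀ ∧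
      W.IsResiduallyModularOfLevel p M₀ ∧
      (p ∣ M₀ → ∀ M' : ℕ, 0 < M' → Squarefree M' → ¬ p ∣ M' →
        ¬ W.IsResiduallyModularOfLevel p M') ∧
      (M₀ = M ∨ ¬ p ∣ M₀) := by
    by_cases h : ∃ M' : ℕ, 0 < M' ∧ Squarefree M' ∧ ¬ p ∣ M' ∧
        W.IsResiduallyModularOfLevel p M'
    · obtain ⟨M', h0, hsf, hpM', hmod'⟩ := h
      exact ⟨M', ⟨h0.ne'⟩, hsf, hmod', fun hd => absurd hd hpM', Or.inr hpM'⟩
    · exact ⟨M, inferInstance, hM, hres,
        fun _ M' h0 hsf hpM' hm => h ⟨M', h0, hsf, hpM', hm⟩, Or.inl rfl⟩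
  obtain ⟨O, _, _, _, _, _, _, hpO, hroot, hsplit⟩ := exists_coeffRing p M₀.primeFactors
  haveI : CharP (ResidueField O) p := (CharP.charP_iff_prime_eq_zero Fact.out).2 (by
    rw [← map_natCast (IsLocalRing.residue O), IsLocalRing.residue_eq_zero_iff]
    exact hpO)
  let i := ZMod.castHom (dvd_refl p) (ResidueField O)
  obtain ⟨ρbar, hmr⟩ := ResidualSetup.exists_isModRep (W := W) hΔ i
  have hR := residual_of_isModRep hΔ hW hp2 hirr (fun a b => hsplit a b i) hmr
  obtain ⟨N, _, hNM₀, -, hsub, hmodN, -, -⟩ := exists_minimal_level_of_residual hp2 hΔ hW hirr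
    hM₀ hmin₀ hmodM₀ hpO (fun l hl _ => hroot l hl) hmr hR
  have hqmin : q ∉ minPrimes W p := fun hmem =>
    hR.ramified q hmem fun A hA σ hσ => (hmr.eq_one_iff hΔ σ).2 (hunr A hA σ hσ)
  haveI : NeZero (M / q) := ⟨(Nat.div_pos (Nat.le_of_dvd (Nat.pos_of_ne_zero (NeZero.ne M)) hqM)
    hq.pos).ne'⟩
  refine isResiduallyModularOfLevel_of_dvd_up hp2 hΔ hirr (N := N) ?_ hmodN
  -- the minimal level divides `M / q`
  rw [← Nat.prod_primeFactors_of_squarefree (hM₀.squarefree_of_dvd hNM₀),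
    Nat.prod_primeFactors_dvd_iff (NeZero.ne _)]
  intro l hl
  have hlN := Nat.dvd_of_mem_primeFactors hl
  have hlp' := Nat.prime_of_mem_primeFactors hl
  have hlM : l ∣ M := by
    rcases Finset.mem_insert.1 (hsub hl) with rfl | h
    · rcases hp₀ with rfl | hp
      · exact hlN.trans hNM₀
      · exact absurd (hlN.trans hNM₀) hp
    · exact Nat.dvd_of_mem_primeFactors (minPrimes_subset_primeFactors hΔ hp2 hirr hmr hR hres h)
  have hlq : l ≠ q := fun h => by
    subst h
    exact hqmin ((Finset.mem_insert.1 (hsub hl)).resolve_left hqp)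
  refine Nat.mem_primeFactors.2 ⟨hlp', ?_, NeZero.ne _⟩
  rw [← Nat.div_mul_cancel hqM] at hlM
  exact (hlp'.dvd_mul.1 hlM).resolve_right fun h =>
    hlq ((Nat.prime_dvd_prime_iff_eq hlp' hq).1 h)

end FLTAgent.Lower.Lift
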